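import Mathlib
import Fermat.Agent.EXT.ConeFunction

/-!
# Balancing a positive vector by a unit
-/

set_option autoImplicit false
set_option linter.unusedSectionVars false
set_option maxSynthPendingDepth 3

open Module NumberField NumberField.InfinitePlace NumberField.Units
  NumberField.Units.dirichletUnitTheorem

namespace Fermat.Agent.LT.H.Eis

open scoped Classical

variable (K : Type*) [Field K] [NumberField K]

theorem exists_unit_balance : ∃ c : ℝ, 0 < c ∧ c ≤ 1 ∧ ∀ β : InfinitePlace K → ℝ, (∀ w, 0 < β w) →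
    ∃ u : (𝓞 K)ˣ, ∀ w : InfinitePlace K,
      c * (∏ w, β w ^ mult w) ^ ((finrank ℚ K : ℝ)⁻¹) ≤ w (u : K) * β w := by
  set b := (basisUnitLattice K).ofZLatticeBasis ℝ (unitLattice K) with hb
  set B : ℝ := ∑ i, ‖b i‖ with hB
  have hB0 : 0 ≤ B := Finset.sum_nonneg fun i _ => norm_nonneg _
  set B' : ℝ := (Fintype.card (InfinitePlace K) : ℝ) * B with hB'
  have hcard : (1 : ℝ) ≤ (Fintype.card (InfinitePlace K) : ℝ) := by
    exact_mod_cast Fintype.card_pos
  have hBB' : B ≤ B' := le_mul_of_one_le_left hB0 hcard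
  have hB'0 : 0 ≤ B' := hB0.trans hBB'
  refine ⟨Real.exp (-B'), Real.exp_pos _, Real.exp_le_one_iff.mpr (by linarith), ?_⟩
  intro β hβ
  have hn : (finrank ℚ K : ℝ) ≠ 0 := Nat.cast_ne_zero.mpr finrank_pos.ne'
  set P : ℝ := ∏ w, β w ^ mult w with hP
  have hP0 : 0 < P := Finset.prod_pos fun w _ => pow_pos (hβ w) _
  have hlogP : Real.log P = ∑ w, (mult w : ℝ) * Real.log (β w) := by
    rw [hP, Real.log_prod (fun w _ => (pow_pos (hβ w) _).ne')]
    exact Finset.sum_congr rfl fun w _ => Real.log_pow _ _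
  set κ : ℝ := Real.log P * (finrank ℚ K : ℝ)⁻¹ with hκ
  let vec : logSpace K := fun w => (mult w.1 : ℝ) * (Real.log (β w.1) - κ)
  -- find the unit
  obtain ⟨u, hu⟩ : ∃ u : (𝓞 K)ˣ, ‖vec + logEmbedding K (Additive.ofMul u)‖ ≤ B := by
    have h1 : ‖ZSpan.fract b vec‖ ≤ B := ZSpan.norm_fract_le b vec
    have h2 : ((ZSpan.floor b vec : Submodule.span ℤ (Set.range b)) : logSpace K) ∈
        unitLattice K := by
      have h3 : Submodule.span ℤ (Set.range b) = unitLattice K :=
        (basisUnitLattice K).ofZLatticeBasis_span ℝ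
      rw [← h3]
      exact (ZSpan.floor b vec).2
    have h4 : -((ZSpan.floor b vec : Submodule.span ℤ (Set.range b)) : logSpace K) ∈
        unitLattice K := Submodule.neg_mem _ h2
    obtain ⟨u, -, hu⟩ := h4
    refine ⟨Additive.toMul u, ?_⟩
    have h5 : logEmbedding K (Additive.ofMul (Additive.toMul u)) =
      -((ZSpan.floor b vec : Submodule.span ℤ (Set.range b)) : logSpace K) := hu
    rw [h5, ← sub_eq_add_neg]
    exact h1
  refine ⟨u, ?_⟩
  have hupos : ∀ w : InfinitePlace K, 0 < w (u : K) := fun w => pos_at_place u w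
  set a : InfinitePlace K → ℝ := fun w => Real.log (w (u : K)) + Real.log (β w) - κ with ha
  have hma : ∀ w, w ≠ w₀ → |(mult w : ℝ) * a w| ≤ B := by
    intro w hw
    have h1 := (norm_le_pi_norm (vec + logEmbedding K (Additive.ofMul u)) ⟨w, hw⟩).trans hu
    rw [Pi.add_apply, logEmbedding_component, Real.norm_eq_abs] at h1
    refine le_trans (le_of_eq ?_) h1
    congr 1
    simp only [ha, vec]
    ring
  have hmult : ∀ w : InfinitePlace K, (1 : ℝ) ≤ mult w := fun w => by
    exact_mod_cast (one_le_mult (w := w))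
  have hle : ∀ w, |a w| ≤ |(mult w : ℝ) * a w| := by
    intro w
    rw [abs_mul, abs_of_nonneg (show (0 : ℝ) ≤ (mult w : ℝ) from Nat.cast_nonneg _)]
    exact le_mul_of_one_le_left (abs_nonneg _) (hmult w)
  have hsum : ∑ w, (mult w : ℝ) * a w = 0 := by
    have h1 := sum_mult_mul_log u
    have h2 : ∑ w : InfinitePlace K, (mult w : ℝ) = (finrank ℚ K : ℝ) := by
      rw [← Nat.cast_sum, sum_mult_eq]
    simp only [ha, mul_add, mul_sub, Finset.sum_add_distrib, Finset.sum_sub_distrib]
    rw [h1, ← hlogP, ← Finset.sum_mul, h2, hκ]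
    field_simp
    ring
  have haB : ∀ w, |a w| ≤ B' := by
    intro w
    by_cases hw : w = w₀
    · subst hw
      refine (hle _).trans ?_
      have h2 : (mult (w₀ : InfinitePlace K) : ℝ) * a w₀ =
          - ∑ w ∈ Finset.univ.erase w₀, (mult w : ℝ) * a w := by
        rw [← Finset.add_sum_erase _ _ (Finset.mem_univ w₀)] at hsum
        linarith
      rw [h2, abs_neg]
      calc |∑ w ∈ Finset.univ.erase w₀, (mult w : ℝ) * a w|
          ≤ ∑ w ∈ Finset.univ.erase w₀, |(mult w : ℝ) * a w| := Finset.abs_sum_le_sum_abs _ _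
        _ ≤ ∑ w ∈ Finset.univ.erase w₀, B :=
            Finset.sum_le_sum fun w hw => hma w (Finset.ne_of_mem_erase hw)
        _ ≤ ∑ w : InfinitePlace K, B :=
            Finset.sum_le_sum_of_subset_of_nonneg (Finset.erase_subset _ _) fun _ _ _ => hB0
        _ = B' := by simp [hB']
    · exact ((hle w).trans (hma w hw)).trans hBB'
  intro w
  have h1 := (abs_le.mp (haB w)).1
  rw [← Real.log_le_log_iff (mul_pos (Real.exp_pos _) (Real.rpow_pos_of_pos hP0 _))
    (mul_pos (hupos w) (hβ w)), Real.log_mul (Real.exp_pos _).ne' (Real.rpow_pos_of_pos hP0 _).ne',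
    Real.log_exp, Real.log_rpow hP0, Real.log_mul (hupos w).ne' (hβ w).ne']
  simp only [ha, hκ] at h1
  linarith

end Fermat.Agent.LT.H.Eis
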