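import Fermat.Agent.LT.H.Bessel

/-!
# Uniqueness of the archimedean Whittaker function
-/

set_option autoImplicit false

open MeasureTheory Set Filter Topology Real

noncomputable section

namespace Fermat.Agent.LT.H.Bessel

/-- lower bound: `exp (- x cosh 1) ≤ K₀ x` -/
theorem exp_le_K0 {x : ℝ} (hx : 0 < x) : exp (-(x * cosh 1)) ≤ K0 x := by
  have hi := integrable 0 hx
  simp only [pow_zero, one_mul] at hi
  have h1 : ∫ u in Ioc (0 : ℝ) 1, exp (-(x * cosh 1)) ≤ ∫ u in Ioc (0 : ℝ) 1, exp (-(x * cosh u)) := by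
    refine setIntegral_mono_on ?_ (hi.mono_set fun u hu => hu.1) measurableSet_Ioc fun u hu => ?_
    · exact integrableOn_const (by simp)
    · apply exp_le_exp.mpr
      have : cosh u ≤ cosh 1 := by
        rw [cosh_le_cosh, abs_of_pos hu.1, abs_one]; exact hu.2
      nlinarith
  have h2 : ∫ u in Ioc (0 : ℝ) 1, exp (-(x * cosh u)) ≤ K0 x := by
    refine setIntegral_mono_set hi (Eventually.of_forall fun u => (exp_pos _).le) ?_
    exact Eventually.of_forall fun u hu => hu.1
  have h3 : ∫ u in Ioc (0 : ℝ) 1, exp (-(x * cosh 1)) = exp (-(x * cosh 1)) := by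
    rw [setIntegral_const]
    simp
  linarith

/-- A function with vanishing derivative on `(0, ∞)` is constant there. -/
theorem const_of_deriv {E : Type*} [NormedAddCommGroup E] [NormedSpace ℝ E] {f : ℝ → E}
    (h : ∀ t, 0 < t → HasDerivAt f 0 t) {s t : ℝ} (hs : 0 < s) (ht : 0 < t) : f s = f t := by
  have := Convex.norm_image_sub_le_of_norm_hasDerivWithin_le (f := f) (f' := fun _ => 0) (C := 0)
    (s := Ioi (0 : ℝ)) (fun x hx => (h x hx).hasDerivWithinAt) (fun x _ => by simp)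
    (convex_Ioi 0) ht hs
  rw [zero_mul] at this
  have h2 := norm_le_zero_iff.mp this
  exact sub_eq_zero.mp h2

/-- **Uniqueness**, real version. -/
theorem eq_const_mul_Wh {c : ℝ} (hc : 0 < c) {W W' W'' : ℝ → ℝ}
    (h1 : ∀ t, 0 < t → HasDerivAt W (W' t) t) (h2 : ∀ t, 0 < t → HasDerivAt W' (W'' t) t)
    (ode : ∀ t, 0 < t → t ^ 2 * W'' t - t * W' t + (1 - c ^ 2 * t ^ 2) * W t = 0)
    {B : ℝ} (hB : ∀ t, 1 ≤ t → |W t| ≤ B) : ∃ a : ℝ, ∀ t, 0 < t → W t = a * Wh c t := by
  -- the Wronskian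
  set w : ℝ → ℝ := fun t => W' t * Wh c t - W t * Wh' c t with hw
  have hwd : ∀ t, 0 < t → HasDerivAt (fun t => w t / t) 0 t := by
    intro t ht
    have a1 := ((h2 t ht).fun_mul (hasDerivAt_Wh hc ht)).fun_sub ((h1 t ht).fun_mul (hasDerivAt_Wh' hc ht))
    have a2 := a1.fun_div (hasDerivAt_id' t) ht.ne'
    refine a2.congr_deriv ?_
    have o1 := ode t ht
    have o2 := Wh_ode hc ht
    rw [div_eq_zero_iff]
    left
    have ht0 : t ≠ 0 := ht.ne'
    apply mul_left_cancel₀ ht0
    rw [mul_zero]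
    linear_combination (Wh c t) * o1 - (W t) * o2
  obtain ⟨κ, hκ⟩ : ∃ κ, ∀ t, 0 < t → w t = κ * t := by
    refine ⟨w 1 / 1, fun t ht => ?_⟩
    have h3 : w t / t = w 1 / 1 := const_of_deriv hwd ht one_pos
    rw [← h3]
    field_simp
  -- the quotient
  set R : ℝ → ℝ := fun t => W t / Wh c t with hR
  have hRd : ∀ t, 0 < t → HasDerivAt R (κ * t / (Wh c t) ^ 2) t := by
    intro t ht
    have a1 := (h1 t ht).fun_div (hasDerivAt_Wh hc ht) (Wh_pos hc ht).ne'
    refine a1.congr_deriv ?_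
    rw [← hκ t ht]
  -- bounds for `Wh`
  set D : ℝ := exp c * K0 c with hD
  have hDpos : 0 < D := mul_pos (exp_pos _) (K0_pos hc)
  have hup : ∀ t, 1 ≤ t → Wh c t ≤ t * (D * exp (-(c * t))) := by
    intro t ht
    rw [Wh]
    refine mul_le_mul_of_nonneg_left ?_ (by linarith)
    rw [K0_eq_Mo]
    refine (Mo_le 0 hc (by nlinarith : c ≤ c * t)).trans ?_
    rw [hD, K0_eq_Mo, ← sub_nonneg]
    have : exp (-(c * t - c)) = exp c * exp (-(c * t)) := by rw [← exp_add]; congr 1; ring
    rw [this]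
    ring_nf
    exact le_rfl
  have hlow : ∀ t, 1 ≤ t → exp (-(c * t * cosh 1)) ≤ Wh c t := by
    intro t ht
    rw [Wh]
    have h3 := exp_le_K0 (mul_pos hc (by linarith : (0:ℝ) < t))
    have h4 := K0_pos (mul_pos hc (by linarith : (0:ℝ) < t))
    nlinarith
  have hcosh : cosh 1 < 1.6 := by
    rw [cosh_eq]
    have e1 := exp_one_lt_d9
    have e2 : exp (-1) ≤ 0.4 := by
      rw [exp_neg]
      have := exp_one_gt_d9
      rw [inv_le_comm₀ (exp_pos _) (by norm_num)]
      norm_num at this ⊢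
      linarith
    norm_num at e1 e2 ⊢
    linarith
  -- `κ = 0`
  have hκ0 : κ = 0 := by
    have key : ∀ t, 2 ≤ t → |κ| ≤ (2 * |B| * D ^ 2 * exp (2 * c)) * (t * exp (-(2 / 5 * c) * t)) := by
      intro t ht
      have ht0 : 0 < t := by linarith
      obtain ⟨ξ, hξ, hξ'⟩ := exists_hasDerivAt_eq_slope R (fun t => κ * t / (Wh c t) ^ 2)
        (show t - 1 < t by linarith)
        (fun s hs => (hRd s (by linarith [hs.1])).continuousAt.continuousWithinAt)
        (fun s hs => hRd s (by linarith [hs.1]))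
      have hξ1 : 1 ≤ ξ := by linarith [hξ.1]
      have hξt : ξ ≤ t := hξ.2.le
      have hξl : t - 1 ≤ ξ := hξ.1.le
      have hRb : ∀ s, 1 ≤ s → s ≤ t → |R s| ≤ |B| * exp (8 / 5 * (c * t)) := by
        intro s hs hst
        have hs0 : 0 < s := by linarith
        rw [hR]
        simp only
        rw [abs_div, abs_of_pos (Wh_pos hc hs0), div_le_iff₀ (Wh_pos hc hs0)]
        have b1 : |W s| ≤ |B| := (hB s hs).trans (le_abs_self B)
        have b2 : 1 ≤ exp (8 / 5 * (c * t)) * Wh c s := by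
          refine le_trans ?_ (mul_le_mul_of_nonneg_left (hlow s hs) (exp_pos _).le)
          rw [← exp_add]
          apply one_le_exp
          have q1 : c * s * cosh 1 ≤ c * t * cosh 1 := by
            have := cosh_pos (1:ℝ)
            have : c * s ≤ c * t := by nlinarith
            nlinarith
          have q2 : c * t * cosh 1 ≤ c * t * 1.6 := by
            have : 0 < c * t := by positivity
            nlinarith
          norm_num at q2
          linarith
        have := abs_nonneg B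
        nlinarith
      have e1 : |κ * ξ / (Wh c ξ) ^ 2| ≤ 2 * |B| * exp (8 / 5 * (c * t)) := by
        rw [hξ', show t - (t - 1) = 1 by ring, div_one]
        have r1 := hRb t (by linarith) le_rfl
        have r2 := hRb (t - 1) (by linarith) (by linarith)
        calc |R t - R (t - 1)| ≤ |R t| + |R (t - 1)| := abs_sub _ _
          _ ≤ 2 * |B| * exp (8 / 5 * (c * t)) := by linarith
      have hWξ := Wh_pos hc (by linarith : (0:ℝ) < ξ)
      rw [abs_div, abs_mul, abs_of_pos (by linarith : (0:ℝ) < ξ), abs_of_pos (pow_pos hWξ 2),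
        div_le_iff₀ (pow_pos hWξ 2)] at e1
      have e2 : (Wh c ξ) ^ 2 ≤ (ξ * (D * exp (-(c * ξ)))) ^ 2 :=
        pow_le_pow_left₀ hWξ.le (hup ξ hξ1) 2
      have e3 : |κ| * ξ ≤ 2 * |B| * exp (8 / 5 * (c * t)) * (ξ * (D * exp (-(c * ξ)))) ^ 2 :=
        e1.trans (mul_le_mul_of_nonneg_left e2 (by positivity))
      have e4 : |κ| ≤ 2 * |B| * exp (8 / 5 * (c * t)) * (ξ * (D * exp (-(c * ξ))) ^ 2) := by
        have hξ0 : 0 < ξ := by linarith
        apply le_of_mul_le_mul_right _ hξ0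
        calc |κ| * ξ ≤ 2 * |B| * exp (8 / 5 * (c * t)) * (ξ * (D * exp (-(c * ξ)))) ^ 2 := e3
          _ = 2 * |B| * exp (8 / 5 * (c * t)) * (ξ * (D * exp (-(c * ξ))) ^ 2) * ξ := by ring
      have e5 : exp (-(c * ξ)) ^ 2 ≤ exp (-(2 * c * (t - 1))) := by
        rw [← exp_nat_mul]
        apply exp_le_exp.mpr
        push_cast
        nlinarith
      calc |κ| ≤ 2 * |B| * exp (8 / 5 * (c * t)) * (ξ * (D * exp (-(c * ξ))) ^ 2) := e4
        _ = 2 * |B| * D ^ 2 * exp (8 / 5 * (c * t)) * (ξ * exp (-(c * ξ)) ^ 2) := by ring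
        _ ≤ 2 * |B| * D ^ 2 * exp (8 / 5 * (c * t)) * (t * exp (-(2 * c * (t - 1)))) := by
            refine mul_le_mul_of_nonneg_left ?_ (by positivity)
            exact mul_le_mul hξt e5 (by positivity) ht0.le
        _ = (2 * |B| * D ^ 2 * exp (2 * c)) * (t * exp (-(2 / 5 * c) * t)) := by
            have : exp (8 / 5 * (c * t)) * exp (-(2 * c * (t - 1))) = exp (2 * c) * exp (-(2 / 5 * c) * t) := by
              rw [← exp_add, ← exp_add]; congr 1; ring
            linear_combination (2 * |B| * D ^ 2 * t) * this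
    have hlim : Tendsto (fun t : ℝ => (2 * |B| * D ^ 2 * exp (2 * c)) * (t * exp (-(2 / 5 * c) * t)))
        atTop (𝓝 0) := by
      have h3 : Tendsto (fun t : ℝ => t * exp (-(2 / 5 * c) * t)) atTop (𝓝 0) := by
        have := tendsto_pow_mul_exp_neg_atTop_nhds_zero 1
        have h4 := this.comp (tendsto_id.const_mul_atTop (show (0:ℝ) < 2 / 5 * c by positivity))
        have h5 := h4.const_mul ((2 / 5 * c)⁻¹)
        rw [mul_zero] at h5
        refine h5.congr fun t => ?_
        simp only [Function.comp, id, pow_one]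
        rw [neg_mul]
        field_simp
      simpa using h3.const_mul _
    have h0 : |κ| ≤ 0 := ge_of_tendsto hlim (by
      filter_upwards [eventually_ge_atTop (2 : ℝ)] with t ht using key t ht)
    exact abs_nonpos_iff.mp h0
  refine ⟨R 1, fun t ht => ?_⟩
  have hR0 : ∀ t, 0 < t → HasDerivAt R 0 t := by
    intro t ht
    have := hRd t ht
    rwa [hκ0, zero_mul, zero_div] at this
  rw [const_of_deriv hR0 one_pos ht, hR]
  simp only
  rw [div_mul_cancel₀ _ (Wh_pos hc ht).ne']

/-- `W` solves the Whittaker equation with parameter `c` and is bounded at infinity. -/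
structure IsWh (c : ℝ) (W : ℝ → ℂ) : Prop where
  ode : ∃ W' W'' : ℝ → ℂ, (∀ t, 0 < t → HasDerivAt W (W' t) t) ∧
    (∀ t, 0 < t → HasDerivAt W' (W'' t) t) ∧
    ∀ t : ℝ, 0 < t → (t : ℂ) ^ 2 * W'' t - (t : ℂ) * W' t + (1 - (c : ℂ) ^ 2 * (t : ℂ) ^ 2) * W t = 0
  bdd : ∃ B : ℝ, ∀ t, 1 ≤ t → ‖W t‖ ≤ B

/-- **Uniqueness**, complex version. -/
theorem IsWh.eq {c : ℝ} (hc : 0 < c) {W : ℝ → ℂ} (hW : IsWh c W) :
    ∃ a : ℂ, ∀ t, 0 < t → W t = a * Wh c t := by
  obtain ⟨⟨W', W'', h1, h2, ode⟩, B, hB⟩ := hW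
  obtain ⟨a, ha⟩ := eq_const_mul_Wh hc (W := fun t => (W t).re) (W' := fun t => (W' t).re)
    (W'' := fun t => (W'' t).re)
    (fun t ht => (Complex.reCLM.hasFDerivAt.comp_hasDerivAt t (h1 t ht)))
    (fun t ht => (Complex.reCLM.hasFDerivAt.comp_hasDerivAt t (h2 t ht)))
    (fun t ht => by
      have := congrArg Complex.re (ode t ht)
      have e1 : ((t : ℂ) ^ 2 * W'' t - t * W' t + (1 - (c : ℂ) ^ 2 * (t : ℂ) ^ 2) * W t).re =
          t ^ 2 * (W'' t).re - t * (W' t).re + (1 - c ^ 2 * t ^ 2) * (W t).re := by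
        have r1 : (t : ℂ) ^ 2 = ((t ^ 2 : ℝ) : ℂ) := by push_cast; ring
        have r2 : (1 - (c : ℂ) ^ 2 * (t : ℂ) ^ 2) = ((1 - c ^ 2 * t ^ 2 : ℝ) : ℂ) := by push_cast; ring
        rw [r2, r1, Complex.add_re, Complex.sub_re, Complex.re_ofReal_mul, Complex.re_ofReal_mul,
          Complex.re_ofReal_mul]
      rw [e1] at this
      simpa using this)
    (B := B) (fun t ht => (Complex.abs_re_le_norm _).trans (hB t ht))
  obtain ⟨b, hb⟩ := eq_const_mul_Wh hc (W := fun t => (W t).im) (W' := fun t => (W' t).im)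
    (W'' := fun t => (W'' t).im)
    (fun t ht => (Complex.imCLM.hasFDerivAt.comp_hasDerivAt t (h1 t ht)))
    (fun t ht => (Complex.imCLM.hasFDerivAt.comp_hasDerivAt t (h2 t ht)))
    (fun t ht => by
      have := congrArg Complex.im (ode t ht)
      have e1 : ((t : ℂ) ^ 2 * W'' t - t * W' t + (1 - (c : ℂ) ^ 2 * (t : ℂ) ^ 2) * W t).im =
          t ^ 2 * (W'' t).im - t * (W' t).im + (1 - c ^ 2 * t ^ 2) * (W t).im := by
        have r1 : (t : ℂ) ^ 2 = ((t ^ 2 : ℝ) : ℂ) := by push_cast; ring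
        have r2 : (1 - (c : ℂ) ^ 2 * (t : ℂ) ^ 2) = ((1 - c ^ 2 * t ^ 2 : ℝ) : ℂ) := by push_cast; ring
        rw [r2, r1, Complex.add_im, Complex.sub_im, Complex.im_ofReal_mul, Complex.im_ofReal_mul,
          Complex.im_ofReal_mul]
      rw [e1] at this
      simpa using this)
    (B := B) (fun t ht => (Complex.abs_im_le_norm _).trans (hB t ht))
  refine ⟨⟨a, b⟩, fun t ht => ?_⟩
  apply Complex.ext
  · rw [Complex.re_mul_ofReal]; exact ha t ht
  · rw [Complex.im_mul_ofReal]; exact hb t ht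

/-- **Uniqueness**, several variables. -/
theorem eq_prod_Wh {ι : Type*} [Fintype ι] [DecidableEq ι] {c : ι → ℝ} (hc : ∀ i, 0 < c i)
    {F : (ι → ℝ) → ℂ}
    (hF : ∀ (i : ι) (t : ι → ℝ), (∀ j, 0 < t j) → IsWh (c i) fun x => F (Function.update t i x)) :
    ∃ a : ℂ, ∀ t : ι → ℝ, (∀ j, 0 < t j) → F t = a * ∏ i, (Wh (c i) (t i) : ℂ) := by
  have hne : ∀ i, ∀ x : ℝ, 0 < x → (Wh (c i) x : ℂ) ≠ 0 := fun i x hx =>
    Complex.ofReal_ne_zero.mpr (Wh_pos (hc i) hx).ne'
  have key : ∀ s : Finset ι, ∀ t : ι → ℝ, (∀ j, 0 < t j) →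
      F t = F (fun j => if j ∈ s then 1 else t j) *
        ∏ i ∈ s, ((Wh (c i) (t i) : ℂ) / Wh (c i) 1) := by
    intro s
    induction s using Finset.induction_on with
    | empty => intro t _; simp
    | insert i s his ih =>
      intro t ht
      rw [ih t ht, Finset.prod_insert his]
      -- change the variable `i`
      set t' : ι → ℝ := fun j => if j ∈ s then 1 else t j with ht'
      have ht'pos : ∀ j, 0 < t' j := fun j => by
        rw [ht']; dsimp only; split_ifs
        · exact one_pos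
        · exact ht j
      obtain ⟨a, ha⟩ := (hF i t' ht'pos).eq (hc i)
      have e1 : Function.update t' i (t i) = t' := by
        funext j
        by_cases hj : j = i
        · subst hj; simp [ht', his]
        · simp [hj]
      have e2 : Function.update t' i 1 = fun j => if j ∈ insert i s then 1 else t j := by
        funext j
        by_cases hj : j = i
        · subst hj; simp
        · simp [ht', hj]
      have h1 := ha (t i) (ht i)
      have h2 := ha 1 one_pos
      rw [e1] at h1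
      rw [e2] at h2
      rw [h1, h2]
      have := hne i 1 one_pos
      field_simp
  refine ⟨F (fun _ => 1) * ∏ i, ((Wh (c i) 1 : ℂ))⁻¹, fun t ht => ?_⟩
  rw [key Finset.univ t ht, Finset.prod_div_distrib]
  simp only [Finset.mem_univ, if_true]
  rw [Finset.prod_inv_distrib]
  ring

end Fermat.Agent.LT.H.Bessel
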