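import Fermat.Agent.LT.H.Coef
import Fermat.Agent.LT.H.Whittaker
import Fermat.Agent.LT.B.CuspEig
import Fermat.Agent.LT.B.CuspKer

/-!
# Fourier coefficients of archimedean joint eigenfunctions are Whittaker functions

* `isWh_of_kopH`: one variable;
* `cW_eq_Wh`: the first Fourier coefficient of a bounded continuous automorphic function which is
  an eigenfunction of all `RX i g` with eigenvalue `hat g 0` is a multiple of
  `∏ i, Wh (4π) (e ^ x i)`;
* `cW_zero_eq_zero`: vanishing of the zeroth coefficient for functions with vanishing constant term.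
-/

set_option autoImplicit false

open NumberField IsDedekindDomain Matrix MeasureTheory Module Set
open scoped ComplexConjugate ENNReal Real Topology ContDiff

namespace Fermat.Agent.LT.H

open Fermat.LT Fermat.Agent.LT.I Fermat.Agent.LT.CArch Fermat.Agent.LT.H.Bessel

/-! ### one variable -/

/-- The phase. -/
noncomputable def phW (c : ℝ) (w : ℂ) : ℂ := Complex.exp ((c * w.re : ℝ) * Complex.I)

theorem phW_zero (c : ℝ) : phW c 0 = 1 := by simp [phW]

/-- product function -/
noncomputable def prW (c : ℝ) (W : ℝ → ℂ) (q : ℂ × ℝ) : ℂ := phW c q.1 * W q.2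

theorem hasDerivAt_phW (c : ℝ) (z v : ℂ) :
    HasDerivAt (fun s : ℝ => phW c (z + s • v)) (((c * v.re : ℝ) * Complex.I) * phW c z) 0 := by
  have h1 : HasDerivAt (fun s : ℝ => ((c * (z + s • v).re : ℝ) : ℂ) * Complex.I)
      (((c * v.re : ℝ) : ℂ) * Complex.I) 0 := by
    have h2 : HasDerivAt (fun s : ℝ => c * (z + s • v).re) (c * v.re) 0 := by
      have h3 : (fun s : ℝ => c * (z + s • v).re) = fun s => c * z.re + s * (c * v.re) := by
        funext s
        simp only [Complex.add_re, Complex.real_smul, Complex.re_ofReal_mul]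
        ring
      rw [h3]
      simpa using ((hasDerivAt_id (0:ℝ)).mul_const (c * v.re)).const_add (c * z.re)
    exact h2.ofReal_comp.mul_const _
  have h4 := h1.cexp
  unfold phW
  simp only [zero_smul, add_zero] at h4
  rw [mul_comm]
  exact h4

theorem pd_prW_horizontal (c : ℝ) (W : ℝ → ℂ) (v : ℂ) (q : ℂ × ℝ) :
    pd (v, 0) (prW c W) q = ((c * v.re : ℝ) * Complex.I) * prW c W q := by
  have h : HasLineDerivAt ℝ (prW c W) (((c * v.re : ℝ) * Complex.I) * prW c W q) q (v, 0) := by
    unfold HasLineDerivAt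
    have h1 := (hasDerivAt_phW c q.1 v).mul_const (W q.2)
    have h2 : (fun t : ℝ => prW c W (q + t • (v, (0:ℝ)))) = fun t => phW c (q.1 + t • v) * W q.2 := by
      funext t
      simp [prW]
    rw [h2]
    have h3 : ((c * v.re : ℝ) * Complex.I) * prW c W q =
        ((c * v.re : ℝ) * Complex.I) * phW c q.1 * W q.2 := by
      unfold prW; ring
    rw [h3]
    exact h1
  exact h.lineDeriv

theorem pd_prW_vertical (c : ℝ) {W : ℝ → ℂ} {q : ℂ × ℝ} (hW : DifferentiableAt ℝ W q.2) :
    pd CArch.e3 (prW c W) q = prW c (deriv W) q := by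
  have h : HasLineDerivAt ℝ (prW c W) (prW c (deriv W) q) q CArch.e3 := by
    unfold HasLineDerivAt
    have h2 : (fun t : ℝ => prW c W (q + t • CArch.e3)) = fun t => phW c q.1 * W (q.2 + t) := by
      funext t
      simp [prW, CArch.e3]
    rw [h2]
    have h3 : HasDerivAt (fun t : ℝ => W (q.2 + t)) (deriv W q.2) 0 := by
      have h4 : HasDerivAt W (deriv W q.2) (q.2 + 0) := by rw [add_zero]; exact hW.hasDerivAt
      exact h4.comp_const_add q.2 0
    exact h3.const_mul _
  exact h.lineDeriv

theorem lap_prW (c : ℝ) {W : ℝ → ℂ} (h1 : ∀ t, 0 < t → DifferentiableAt ℝ W t)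
    (h2 : ∀ t, 0 < t → DifferentiableAt ℝ (deriv W) t) {q : ℂ × ℝ} (hq : q ∈ hs) :
    lap (prW c W) q = phW c q.1 * ((q.2 : ℂ) ^ 2 * deriv (deriv W) q.2 - q.2 * deriv W q.2
      - (c : ℂ) ^ 2 * (q.2 : ℂ) ^ 2 * W q.2) := by
  have hq' : 0 < q.2 := hq
  have e3a : pd CArch.e3 (prW c W) q = prW c (deriv W) q := pd_prW_vertical c (h1 _ hq')
  have e3b : pd CArch.e3 (pd CArch.e3 (prW c W)) q = prW c (deriv (deriv W)) q := by
    rw [pd_congr (φ := pd CArch.e3 (prW c W)) (ψ := prW c (deriv W))
      (fun x hx => pd_prW_vertical c (h1 _ hx)) hq]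
    exact pd_prW_vertical c (h2 _ hq')
  have e1a : pd CArch.e1 (prW c W) = prW c (fun t => ((c : ℂ) * Complex.I) * W t) := by
    funext x
    have := pd_prW_horizontal c W 1 x
    rw [show CArch.e1 = ((1:ℂ), (0:ℝ)) from rfl, this]
    simp only [prW, Complex.one_re, mul_one]; ring
  have e1b : pd CArch.e1 (pd CArch.e1 (prW c W)) q = -(c : ℂ) ^ 2 * prW c W q := by
    rw [e1a, show CArch.e1 = ((1:ℂ), (0:ℝ)) from rfl, pd_prW_horizontal]
    simp only [prW, Complex.one_re, mul_one]
    linear_combination (c : ℂ) ^ 2 * phW c q.1 * W q.2 * Complex.I_sq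
  have e2a : pd CArch.e2 (prW c W) = prW c (fun _ => 0) := by
    funext x
    have := pd_prW_horizontal c W Complex.I x
    rw [show CArch.e2 = (Complex.I, (0:ℝ)) from rfl, this]
    simp [prW]
  have e2b : pd CArch.e2 (pd CArch.e2 (prW c W)) q = 0 := by
    rw [e2a, show CArch.e2 = (Complex.I, (0:ℝ)) from rfl, pd_prW_horizontal]
    simp [prW]
  unfold lap
  rw [e3a, e3b, e1b, e2b]
  simp only [prW, Complex.real_smul]
  push_cast
  ring

theorem isWh_of_kopH {c : ℝ} {ψ : H3 → ℂ} (hc : Continuous ψ) (hb : ∃ C : ℝ, ∀ P, ‖ψ P‖ ≤ C)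
    (h : ∀ g, IsTest g → ∀ P, kopH g ψ P = hat g 0 * ψ P)
    (hph : ∀ w P, ψ (B.shift w P) = phW c w * ψ P) {W : ℝ → ℂ}
    (hW : ∀ t (ht : 0 < t), W t = ψ (H3.mk 0 t ht)) : IsWh c W where
  bdd := by
    obtain ⟨C, hC⟩ := hb
    exact ⟨C, fun t ht => by rw [hW t (by linarith)]; exact hC _⟩
  ode := by
    by_cases h0 : ψ = 0
    · have hW0 : ∀ t, 0 < t → W t = 0 := fun t ht => by rw [hW t ht, h0]; rfl
      refine ⟨fun _ => 0, fun _ => 0, fun t ht => ?_, fun t _ => hasDerivAt_const _ _,
        fun t ht => by rw [hW0 t ht]; ring⟩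
      have : W =ᶠ[𝓝 t] fun _ => 0 := by
        filter_upwards [lt_mem_nhds ht] with x hx using hW0 x hx
      exact (hasDerivAt_const t (0:ℂ)).congr_of_eventuallyEq this
    · obtain ⟨hsm, s, hl, hχ⟩ := exists_eigenH hc (χ := fun g => hat g 0) h h0
      have hs0 : s ^ 2 = 0 := by
        by_contra hne
        obtain ⟨g, hg, hg'⟩ := separates_sq (s := s) (t := 0) (by
          rwa [zero_pow two_ne_zero])
        exact hg' (hχ g hg).symm
      -- the extension is a product
      have hext : EqOn (ext0 ψ) (prW c W) hs := by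
        intro q hq
        have hq' : 0 < q.2 := hq
        rw [ext0_of_mem ψ hq]
        unfold prW
        rw [hW q.2 hq', ← hph]
        congr 1
        refine H3.ext ?_ rfl
        show q.1 = 0 + q.1
        rw [zero_add]
      have hWc : ContDiffOn ℝ ∞ W (Ioi 0) := by
        have h1 : ContDiff ℝ ∞ fun t : ℝ => ((0 : ℂ), t) := contDiff_const.prodMk contDiff_id
        have h2 : ContDiffOn ℝ ∞ (fun t : ℝ => ext0 ψ ((0 : ℂ), t)) (Ioi 0) :=
          ContDiffOn.comp (t := hs) (g := ext0 ψ) hsm h1.contDiffOn fun t ht => ht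
        refine h2.congr fun t ht => ?_
        have h3 : ((0 : ℂ), t) ∈ hs := ht
        rw [hext h3]
        simp [prW, phW_zero]
      have hd1 : ∀ t, 0 < t → DifferentiableAt ℝ W t := fun t ht =>
        (hWc.differentiableOn (by simp) t ht).differentiableAt (Ioi_mem_nhds ht)
      have hWd : ContDiffOn ℝ ∞ (deriv W) (Ioi 0) :=
        hWc.deriv_of_isOpen isOpen_Ioi (by simp)
      have hd2 : ∀ t, 0 < t → DifferentiableAt ℝ (deriv W) t := fun t ht =>
        (hWd.differentiableOn (by simp) t ht).differentiableAt (Ioi_mem_nhds ht)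
      refine ⟨deriv W, deriv (deriv W), fun t ht => (hd1 t ht).hasDerivAt,
        fun t ht => (hd2 t ht).hasDerivAt, fun t ht => ?_⟩
      have h3 : ((0 : ℂ), t) ∈ hs := ht
      have h4 := hl (H3.mk 0 t ht)
      have h5 : lapH ψ (H3.mk 0 t ht) = lap (ext0 ψ) ((0:ℂ), t) := rfl
      rw [h5, lap_congr hext h3, lap_prW c hd1 hd2 h3, hs0, ← hW t ht] at h4
      simp only [phW_zero, one_mul] at h4
      linear_combination h4

/-! ### Fourier coefficients as functions on `H3 ^ I` -/

variable {F : Type} [Field F] [NumberField F]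

theorem fcoef_add_left {A : Arch F} {L : AddSubgroup F} {s : Set (A.I → ℂ)} {ν : F}
    (hs : IsBox volume (latOf A L) s) (hν : ν ∈ dualOf A L) {f : (A.I → ℂ) → ℂ}
    (hf : ∀ g ∈ latOf A L, ∀ u, f (g + u) = f u) (v : A.I → ℂ) :
    fcoef A s ν (fun u => f (v + u)) = eC A ν v * fcoef A s ν f := by
  have hs' := hs.translate A v
  have h1 : fcoef A s ν (fun u => f (v + u)) =
      fcoef A ((fun u => v + u) ⁻¹' s) ν (fun u => f (v + u)) := by
    refine fcoef_eq hs hs' hν fun g hg u => ?_
    rw [add_left_comm, hf g hg]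
  have h2 := (measurePreserving_add_left (volume : Measure (A.I → ℂ)) v).setIntegral_preimage_emb
    (measurableEmbedding_addLeft v) (fun u => eC A (-ν) u * f u) s
  have h3 : ∀ u, eC A (-ν) u * f (v + u) = eC A ν v * (eC A (-ν) (v + u) * f (v + u)) := by
    intro u
    have h4 : eC A ν v * eC A (-ν) v = 1 := by
      unfold eC
      rw [← Complex.exp_add, map_neg, neg_mul, trC_neg]
      have : (2 * π * Complex.I * ((trC A (embI A ν * v) : ℝ) : ℂ) +
        2 * π * Complex.I * ((-trC A (embI A ν * v) : ℝ) : ℂ)) = 0 := by push_cast; ring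
      rw [this, Complex.exp_zero]
    rw [eC_add]
    linear_combination (-(eC A (-ν) u * f (v + u))) * h4
  rw [h1, fcoef, fcoef, measure_preimage_add, mul_smul_comm, ← h2, ← integral_const_mul]
  congr 1
  exact integral_congr_ae (Filter.Eventually.of_forall fun u => h3 u)

variable {D : Datum F}

/-- The Fourier coefficient as a function of a point of `H3 ^ I`. -/
noncomputable def Psi (s : Set (D.I → ℂ)) (ν : F) (φ : X D → ℂ) (y : Y D.toLevel)
    (P : D.I → H3) : ℂ :=
  fcoef D.toArch s ν fun u => φ (trX u (P, y))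

theorem trX_mk (u : D.I → ℂ) (P : D.I → H3) (y : Y D.toLevel) :
    trX u ((P, y) : X D) = (fun i => B.shift (u i) (P i), y) := rfl

theorem Psi_pt (s : Set (D.I → ℂ)) (ν : F) (φ : X D → ℂ) (y : Y D.toLevel) (x : D.I → ℝ) :
    Psi s ν φ y (fun i => H3.mk 0 (Real.exp (x i)) (Real.exp_pos _)) =
      fcoef D.toArch s ν (fun z => φ (pt z x y)) := by
  unfold Psi
  congr 1
  funext u
  congr 1
  refine Prod.ext (funext fun i => H3.ext ?_ rfl) rfl
  show 0 + u i = u i
  rw [zero_add]

variable {φ : X D → ℂ} {s : Set (D.I → ℂ)} {ν : F} {y : Y D.toLevel}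

theorem continuous_trX_fin (y : Y D.toLevel) :
    Continuous fun p : (D.I → ℂ) × (D.I → H3) => (trX p.1 ((p.2, y) : X D) : X D) := by
  have h : Continuous fun p : (D.I → ℂ) × (D.I → H3) => (((p.1, ((p.2, y) : X D))) :
      (D.I → ℂ) × X D) :=
    continuous_fst.prodMk (continuous_snd.prodMk continuous_const)
  exact B.continuous_trX.comp h

theorem norm_Psi_le (hs0 : volume s ≠ 0) (hs1 : volume s ≠ ⊤) {C : ℝ} (hC : ∀ x, ‖φ x‖ ≤ C)
    (P : D.I → H3) : ‖Psi s ν φ y P‖ ≤ C := by
  unfold Psi fcoef
  have h1 : ‖∫ u in s, eC D.toArch (-ν) u * φ (trX u (P, y))‖ ≤ C * (volume s).toReal := by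
    have := norm_setIntegral_le_of_norm_le_const (μ := (volume : Measure (D.I → ℂ))) (s := s)
      (f := fun u => eC D.toArch (-ν) u * φ (trX u (P, y))) (C := C) (lt_top_iff_ne_top.mpr hs1)
      (fun u _ => by rw [norm_mul, norm_eC, one_mul]; exact hC _)
    exact this
  have h2 : 0 < (volume s).toReal := ENNReal.toReal_pos hs0 hs1
  rw [norm_smul, norm_inv, Real.norm_eq_abs, abs_of_pos h2, inv_mul_le_iff₀ h2, mul_comm]
  exact h1

theorem continuous_Psi (hs1 : volume s ≠ ⊤) (hc : Continuous φ)
    (hb : ∃ C : ℝ, ∀ x, ‖φ x‖ ≤ C) : Continuous (Psi s ν φ y) := by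
  obtain ⟨C, hC⟩ := hb
  have hfin : IsFiniteMeasure (volume.restrict s : Measure (D.I → ℂ)) :=
    ⟨by rw [Measure.restrict_apply_univ]; exact lt_top_iff_ne_top.mpr hs1⟩
  have hP : ∀ P : D.I → H3, Continuous
      (fun u : D.I → ℂ => eC D.toArch (-ν) u * φ (trX u ((P, y) : X D))) := fun P =>
    (continuous_eC D.toArch (-ν)).mul (hc.comp ((continuous_trX_fin y).comp
      (continuous_id.prodMk continuous_const)))
  have hu : ∀ u : D.I → ℂ, Continuous
      (fun P : D.I → H3 => eC D.toArch (-ν) u * φ (trX u ((P, y) : X D))) := fun u =>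
    continuous_const.mul (hc.comp ((continuous_trX_fin y).comp
      (continuous_const.prodMk continuous_id)))
  have key : Continuous fun P : D.I → H3 =>
      ∫ u in s, eC D.toArch (-ν) u * φ (trX u ((P, y) : X D)) := by
    refine continuous_of_dominated (bound := fun _ => C) (fun P => (hP P).aestronglyMeasurable)
      (fun P => ?_) (integrable_const _) (Filter.Eventually.of_forall fun u => hu u)
    refine Filter.Eventually.of_forall fun u => ?_
    rw [norm_mul, norm_eC, one_mul]
    exact hC _
  exact (continuous_const (y := ((volume s).toReal⁻¹ : ℝ))).smul key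

theorem continuous_update_H3 (P : D.I → H3) (i : D.I) :
    Continuous fun R : H3 => Function.update P i R :=
  continuous_const.update i continuous_id

/-- translation invariance of the archimedean operators -/
theorem kopH_shift (g : ℝ → ℂ) (f : H3 → ℂ) (w : ℂ) (P : H3) :
    kopH g (fun R => f (B.shift w R)) P = kopH g f (B.shift w P) := by
  unfold kopH
  have hm : MeasurableEmbedding (B.shift w) := by
    have hcont : ∀ w, Continuous (B.shift w) := fun w =>
      H3.continuous_iff.mpr ⟨H3.continuous_z.add continuous_const, H3.continuous_t⟩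
    let e : H3 ≃ₜ H3 :=
      { toFun := B.shift w
        invFun := B.shift (-w)
        left_inv := fun P => by rw [B.shift_shift, neg_add_cancel, B.shift_zero]
        right_inv := fun P => by rw [B.shift_shift, add_neg_cancel, B.shift_zero]
        continuous_toFun := hcont w
        continuous_invFun := hcont (-w) }
    exact e.measurableEmbedding
  rw [← (B.measurePreserving_shift w).integral_comp hm
    (fun R => kfun g (H3.ch (B.shift w P) R) * f R)]
  have hch : ∀ R, H3.ch (B.shift w P) (B.shift w R) = H3.ch P R := by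
    intro R
    unfold H3.ch
    simp
  simp only [hch]

theorem kopH_Psi (hs1 : volume s ≠ ⊤) (hc : Continuous φ)
    (hb : ∃ C : ℝ, ∀ x, ‖φ x‖ ≤ C) {i : D.I} {g : ℝ → ℂ} (hg : IsTest g) {a : ℂ}
    (h0 : ∀ x, B.RX i g φ x = a * φ x) (P : D.I → H3) (R : H3) :
    kopH g (fun R => Psi s ν φ y (Function.update P i R)) R =
      a * Psi s ν φ y (Function.update P i R) := by
  classical
  obtain ⟨C, hC⟩ := hb
  have hfin : IsFiniteMeasure (volume.restrict s : Measure (D.I → ℂ)) :=
    ⟨by rw [Measure.restrict_apply_univ]; exact lt_top_iff_ne_top.mpr hs1⟩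
  -- the inner operator
  have hin : ∀ u : D.I → ℂ, kopH g (fun R => φ (trX u (Function.update P i R, y))) R =
      a * φ (trX u (Function.update P i R, y)) := by
    intro u
    have e1 : ∀ R, trX u ((Function.update P i R, y) : X D) =
        B.updI (trX u ((P, y) : X D)) i (B.shift (u i) R) := by
      intro R
      refine Prod.ext (funext fun j => ?_) rfl
      show B.shift (u j) (Function.update P i R j) =
        Function.update (fun k => B.shift (u k) (P k)) i (B.shift (u i) R) j
      by_cases hj : j = i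
      · subst hj
        rw [Function.update_self, Function.update_self]
      · rw [Function.update_of_ne hj, Function.update_of_ne hj]
    simp only [e1]
    rw [kopH_shift g (fun R => φ (B.updI (trX u ((P, y) : X D)) i R)), ← B.RX_updI, h0]
  have hi1 : Integrable fun R' : H3 => kfun g (H3.ch R R') := by
    have := integrable_kopH hg (φ := fun _ => 1) continuous_const R
    simpa using this
  have hcont : Continuous fun p : H3 × (D.I → ℂ) =>
      φ (trX p.2 ((Function.update P i p.1, y) : X D)) := by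
    have h1 : Continuous fun p : H3 × (D.I → ℂ) => (p.2, Function.update P i p.1) :=
      continuous_snd.prodMk ((continuous_update_H3 P i).comp continuous_fst)
    exact hc.comp ((continuous_trX_fin y).comp h1)
  have hbig : Integrable (Function.uncurry fun (R' : H3) (u : D.I → ℂ) =>
      kfun g (H3.ch R R') * (eC D.toArch (-ν) u * φ (trX u (Function.update P i R', y))))
      ((volume : Measure H3).prod (volume.restrict s)) := by
    have h1 : Integrable (fun p : H3 × (D.I → ℂ) => kfun g (H3.ch R p.1) * (1 : ℂ))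
        ((volume : Measure H3).prod (volume.restrict s)) := hi1.mul_prod (integrable_const _)
    have h2 : Continuous fun p : H3 × (D.I → ℂ) =>
        eC D.toArch (-ν) p.2 * φ (trX p.2 (Function.update P i p.1, y)) :=
      ((continuous_eC _ _).comp continuous_snd).mul hcont
    have h3 := h1.mul_bdd (c := C) (g := fun p : H3 × (D.I → ℂ) =>
        eC D.toArch (-ν) p.2 * φ (trX p.2 (Function.update P i p.1, y)))
        h2.aestronglyMeasurable (Filter.Eventually.of_forall fun p => by
          rw [norm_mul, norm_eC, one_mul]; exact hC _)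
    refine h3.congr (Filter.Eventually.of_forall fun p => ?_)
    simp only [mul_one]
    rfl
  unfold Psi fcoef
  unfold kopH
  have e2 : ∀ R' : H3, kfun g (H3.ch R R') * ((volume s).toReal⁻¹ •
      ∫ u in s, eC D.toArch (-ν) u * φ (trX u (Function.update P i R', y))) =
      (volume s).toReal⁻¹ • ∫ u in s, kfun g (H3.ch R R') *
        (eC D.toArch (-ν) u * φ (trX u (Function.update P i R', y))) := by
    intro R'
    rw [integral_const_mul, mul_smul_comm]
  simp only [e2]
  rw [integral_smul, integral_integral_swap hbig, mul_smul_comm, ← integral_const_mul]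
  congr 1
  refine integral_congr_ae (Filter.Eventually.of_forall fun u => ?_)
  simp only
  have h4 := hin u
  unfold kopH at h4
  rw [← mul_assoc, mul_comm a, mul_assoc, ← h4, ← integral_const_mul]
  refine integral_congr_ae (Filter.Eventually.of_forall fun R' => ?_)
  simp only
  ring

theorem trX_pt (u z : D.I → ℂ) (x : D.I → ℝ) (y : Y D.toLevel) :
    trX u (pt z x y : X D) = pt (z + u) x y := rfl

theorem periodic_trX (hinv : ∀ (g : G2 F) x, φ (g • x) = φ x) (p : X D) :
    ∀ g ∈ latOf D.toArch (bY p.2), ∀ u, φ (trX (g + u) p) = φ (trX u p) := by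
  intro g hg u
  obtain ⟨z, x, y, rfl⟩ := exists_pt p
  rw [trX_pt, trX_pt, add_left_comm]
  exact periodic_pt hinv x y g hg _

theorem Psi_shift (hs : IsBox volume (latOf D.toArch (bY y)) s)
    (hν : ν ∈ dualOf D.toArch (bY y)) (hinv : ∀ (g : G2 F) x, φ (g • x) = φ x)
    (v : D.I → ℂ) (P : D.I → H3) :
    Psi s ν φ y (fun j => B.shift (v j) (P j)) = eC D.toArch ν v * Psi s ν φ y P := by
  unfold Psi
  rw [← fcoef_add_left hs hν (f := fun u => φ (trX u ((P, y) : X D)))
    (periodic_trX hinv ((P, y) : X D)) v]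
  congr 1
  funext u
  rw [add_comm v u, ← B.trX_trX]
  rfl

theorem eC_one_single (i : D.I) (w : ℂ) :
    eC D.toArch 1 (Pi.single i w) = phW (4 * π) w := by
  classical
  have h : trC D.toArch (embI D.toArch 1 * Pi.single i w) = 2 * w.re := by
    rw [map_one, one_mul, trC, Finset.sum_eq_single i]
    · rw [Pi.single_eq_same]
    · intro j _ hj
      rw [Pi.single_eq_of_ne hj]; simp
    · intro h; exact absurd (Finset.mem_univ i) h
  unfold eC phW
  rw [h]
  congr 1
  push_cast
  ring

/-- **The first Fourier coefficient is a product of Whittaker functions.** -/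
theorem cW_eq_Wh {D : Datum F} {φ : X D → ℂ} (hc : Continuous φ)
    (hinv : ∀ (g : G2 F) x, φ (g • x) = φ x) (hb : ∃ C : ℝ, ∀ x, ‖φ x‖ ≤ C)
    (h0 : ∀ (i : D.I) (g : ℝ → ℂ), IsTest g → ∀ x, B.RX i g φ x = hat g 0 * φ x)
    (y : Y D.toLevel) :
    ∃ a : ℂ, ∀ x : D.I → ℝ, cW φ 1 x y = a * ∏ i, (Wh (4 * π) (Real.exp (x i)) : ℂ) := by
  classical
  by_cases h1 : (1 : F) ∈ dualOf D.toArch (bY y)
  swap
  · exact ⟨0, fun x => by rw [cW, if_neg h1, zero_mul]⟩
  have hs := isBox_bx D.toArch (isLat_bY y)
  set s := bx D.toArch (bY y) with hsdef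
  have hψc := continuous_Psi (s := s) (ν := 1) (y := y) hs.fin hc hb
  obtain ⟨C, hC⟩ := id hb
  have hπ : 0 < 4 * π := by positivity
  obtain ⟨a, ha⟩ := eq_prod_Wh (c := fun _ : D.I => 4 * π) (fun _ => hπ)
    (F := fun t => Psi s 1 φ y (fun i => H3.mk 0 (Real.exp (Real.log (t i))) (Real.exp_pos _))) (by
      intro i t ht
      set P : D.I → H3 := fun j => H3.mk 0 (Real.exp (Real.log (t j))) (Real.exp_pos _) with hP
      refine isWh_of_kopH (ψ := fun R => Psi s 1 φ y (Function.update P i R))
        (hψc.comp (continuous_update_H3 P i)) ⟨C, fun R => norm_Psi_le hs.pos hs.fin hC _⟩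
        (fun g hg R => kopH_Psi hs.fin hc hb hg (fun x => h0 i g hg x) P R) ?_ ?_
      · intro w R
        have h2 : Function.update P i (B.shift w R) =
            fun j => B.shift ((Pi.single i w : D.I → ℂ) j) (Function.update P i R j) := by
          funext j
          by_cases hj : j = i
          · subst hj
            rw [Function.update_self, Function.update_self, Pi.single_eq_same]
          · rw [Function.update_of_ne hj, Function.update_of_ne hj, Pi.single_eq_of_ne hj,
              B.shift_zero]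
        rw [h2, Psi_shift hs h1 hinv, eC_one_single]
      · intro x hx
        congr 1
        funext j
        by_cases hj : j = i
        · subst hj
          have e : Function.update P j (H3.mk 0 x hx) j = H3.mk 0 x hx := Function.update_self ..
          rw [e]
          refine H3.ext rfl ?_
          show Real.exp (Real.log (Function.update t j x j)) = x
          rw [Function.update_self, Real.exp_log hx]
        · have e : Function.update P i (H3.mk 0 x hx) j = P j := Function.update_of_ne hj _ _
          rw [e]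
          refine H3.ext rfl ?_
          show Real.exp (Real.log (Function.update t i x j)) = Real.exp (Real.log (t j))
          rw [Function.update_of_ne hj])
  refine ⟨a, fun x => ?_⟩
  have h3 := ha (fun i => Real.exp (x i)) (fun i => Real.exp_pos _)
  simp only [Real.log_exp] at h3
  rw [Psi_pt] at h3
  rw [cW, if_pos h1, ← hsdef, h3]

theorem zero_mem_dualOf (A : Arch F) (L : AddSubgroup F) : (0 : F) ∈ dualOf A L := by
  intro b _
  refine ⟨0, ?_⟩
  rw [zero_mul, map_zero]
  simp [trC]

/-- **The zeroth Fourier coefficient vanishes for functions with vanishing constant term.** -/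
theorem cW_zero_eq_zero {D : Datum F} {φ : X D → ℂ} (hm : B.MeanZero φ)
    (hinv : ∀ (g : G2 F) x, φ (g • x) = φ x) (x : D.I → ℝ) (y : Y D.toLevel) :
    cW φ 0 x y = 0 := by
  obtain ⟨m, β, b, hb, hmem⟩ := exists_latBasis D.toArch (isLat_bY y)
  have hβ : ∀ i, β i ∈ bY y := fun i => (hmem _).mpr ⟨Pi.single i 1, by
    classical
    rw [Finset.sum_eq_single i]
    · simp
    · intro j _ hj; simp [hj]
    · intro h; exact absurd (Finset.mem_univ i) h⟩
  have hlat : ∀ v, v ∈ latOf D.toArch (bY y) ↔ ∃ k : Fin m → ℤ, v = ∑ i, (k i : ℝ) • b i := by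
    intro v
    rw [mem_latOf]
    have key : ∀ k : Fin m → ℤ, embI D.toArch (∑ i, (k i : F) * β i) = ∑ i, (k i : ℝ) • b i := by
      intro k
      rw [map_sum]
      refine Finset.sum_congr rfl fun i _ => ?_
      rw [map_mul, map_intCast, hb]
      funext j
      simp
    constructor
    · rintro ⟨x, hx, rfl⟩
      obtain ⟨k, rfl⟩ := (hmem x).mp hx
      exact ⟨k, key k⟩
    · rintro ⟨k, rfl⟩
      exact ⟨_, (hmem _).mpr ⟨k, rfl⟩, key k⟩
  have hs : IsBox volume (latOf D.toArch (bY y)) (lbox b) := isBox_lbox b hlat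
  rw [cW_eq_of_box hinv x (zero_mem_dualOf _ _) hs, fcoef, integral_lbox, smul_smul,
    inv_mul_cancel₀ (ENNReal.toReal_pos hs.pos hs.fin).ne', one_smul]
  have h1 := hm (pt 0 x y) m b (fun l => ⟨β l, hβ l, (hb l).symm⟩)
  unfold B.boxMean at h1
  rw [← h1]
  have hbox : (box (0 : Fin m → ℤ)) = Set.univ.pi fun i => Ioc ((0 : Fin m → ℝ) i) ((1 : Fin m → ℝ) i) := by
    ext u
    simp [box, Set.mem_pi]
  have hae : (box (0 : Fin m → ℤ)) =ᵐ[volume] Icc (0 : Fin m → ℝ) 1 := by
    rw [hbox]
    exact Measure.univ_pi_Ioc_ae_eq_Icc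
  rw [setIntegral_congr_set hae]
  refine integral_congr_ae (Filter.Eventually.of_forall fun u => ?_)
  simp only
  rw [neg_zero, eC_zero, one_mul, trX_pt, zero_add]
  have h2 : b.equivFunL.symm u = ∑ i, u i • b i := b.equivFun_symm_apply u
  rw [h2, zero_add]

end Fermat.Agent.LT.H
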