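import Fermat.Agent.LT.Defs

/-!
# LT, piece H: principal level, Hecke characters of odd finite order, classes of lines, and the
Eisenstein series

* `princ n hn` : the level structure `H_w = F^* · congGL w (n w)`.
* `HChar F n G` : a finite idele class character with values in the finite abelian group `G`,
  of conductor dividing `∏ w^(n w)`, without completions.
* `cl κ w v g : WithZero G` : the local class of the line spanned by `v` with respect to `g`
  (zero if the line is not in the cell).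
* `cls κ v y : WithZero G` : the global class.
* `Eis κ ζ s x` : the Eisenstein series `∑_{ξ ∈ ℙ¹(F), cls ξ y = ζ} ht ξ x ^ s`.
-/

open NumberField IsDedekindDomain Matrix MeasureTheory
open scoped ENNReal LinearAlgebra.Projectivization Pointwise

namespace Fermat.Agent.LT.H

open Fermat.LT

variable {F : Type} [Field F] [NumberField F]

theorem congGL_le_intGL (w : Pl F) (n : ℕ) : congGL w n ≤ intGL w := fun _ h => h.1

/-- the principal level structure -/
def princ (n : Pl F → ℕ) (hn : {w | n w ≠ 0}.Finite) : Level F where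
  H w := scal F ⊔ congGL w (n w)
  scal_le _ := le_sup_left
  le_std w := sup_le (scal_le_stdH w) ((congGL_le_intGL w _).trans (intGL_le_stdH w))
  n := n
  cong_le _ := le_sup_right
  n_fin := hn

theorem mem_princ_H {n : Pl F → ℕ} {hn : {w | n w ≠ 0}.Finite} {w : Pl F} {h : G2 F} :
    h ∈ (princ n hn).H w ↔ ∃ c : Fˣ, ∃ k ∈ congGL w (n w), h = sc c * k := by
  change h ∈ scal F ⊔ congGL w (n w) ↔ _
  have hN : (scal F).Normal := by unfold scal; infer_instance
  have hmem : h ∈ scal F ⊔ congGL w (n w) ↔ h ∈ (scal F : Set (G2 F)) * (congGL w (n w) : Set (G2 F)) := by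
    rw [← Subgroup.normal_mul]; rfl
  rw [hmem, Set.mem_mul]
  constructor
  · rintro ⟨s, hs, k, hk, rfl⟩
    obtain ⟨c, hc⟩ := (mem_scal_iff s).mp hs
    exact ⟨c, k, hk, by rw [show s = sc c from Units.ext hc]⟩
  · rintro ⟨c, k, hk, rfl⟩
    exact ⟨sc c, sc_mem c, k, hk, rfl⟩

/-- determinant as a unit -/
abbrev detU (g : G2 F) : Fˣ := Matrix.GeneralLinearGroup.det g

omit [NumberField F] in
theorem detU_val (g : G2 F) : ((detU g : Fˣ) : F) = g.1.det := rfl

omit [NumberField F] in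
theorem detU_sc (c : Fˣ) : detU (sc c) = c ^ 2 := by
  apply Units.ext
  rw [detU_val, sc_val, Matrix.det_smul, Matrix.det_one]
  simp

/-- A finite idele class character with values in `G` and conductor dividing `∏ w^(n w)`:
no completions, only its local components restricted to `Fˣ` (which is dense in `F_wˣ`). -/
structure HChar (F : Type) [Field F] [NumberField F] (n : Pl F → ℕ) (G : Type) [CommGroup G] where
  /-- local components -/
  loc : Pl F → Fˣ →* G
  triv : ∀ (w : Pl F) (a : Fˣ), av w (a : F) = 1 → av w ((a : F) - 1) ≤ (qv w)⁻¹ ^ n w →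
    loc w a = 1
  prod : ∀ a : Fˣ, ∏ᶠ w, loc w a = 1

/-- the trivial character -/
def HChar.one (n : Pl F → ℕ) (G : Type) [CommGroup G] : HChar F n G where
  loc _ := 1
  triv _ _ _ _ := rfl
  prod _ := by simp

section local_

variable {n : Pl F → ℕ} {G : Type} [CommGroup G]

/-- The line spanned by `v` is in the cell of `g` at `w`. -/
def InCell (n : Pl F → ℕ) (w : Pl F) (v : Fin 2 → F) (g : G2 F) (α : Fˣ) : Prop :=
  ∃ k ∈ congGL w (n w), (g⁻¹).1 *ᵥ v = (α : F) • (k.1 *ᵥ e1)

omit [NumberField F] in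
theorem mulVec_e1 (g : Matrix (Fin 2) (Fin 2) F) : g *ᵥ e1 = ![g 0 0, g 1 0] := by
  ext i; fin_cases i <;> simp [e1, Matrix.mulVec, dotProduct, Fin.sum_univ_two]

theorem nv_e1 (w : Pl F) : nv w (e1 : Fin 2 → F) = 1 := by simp [nv, e1]

theorem congGL_entry {w : Pl F} {n : ℕ} {k : G2 F} (hk : k ∈ congGL w n) :
    av w (k 0 0 - 1) ≤ (qv w)⁻¹ ^ n ∧ av w (k 1 0) ≤ (qv w)⁻¹ ^ n := by
  have h0 := av_le_nm w (k.1 - 1) 0 0
  have h1 := av_le_nm w (k.1 - 1) 1 0
  simp only [Matrix.sub_apply, Matrix.one_apply_eq] at h0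
  rw [Matrix.sub_apply, Matrix.one_apply_ne (by decide), sub_zero] at h1
  exact ⟨h0.trans hk.2, h1.trans hk.2⟩

/-- Uniqueness of the scalar up to `1 + w^n`. -/
theorem InCell.unique {w : Pl F} {v : Fin 2 → F} {g : G2 F} {α β : Fˣ}
    (hα : InCell n w v g α) (hβ : InCell n w v g β) (κ : HChar F n G) :
    κ.loc w α = κ.loc w β := by
  obtain ⟨k, hk, h1⟩ := hα
  obtain ⟨l, hl, h2⟩ := hβ
  have h3 : (l.1) *ᵥ e1 = ((β⁻¹ * α : Fˣ) : F) • (k.1 *ᵥ e1) := by
    have : (α : F) • (k.1 *ᵥ e1) = (β : F) • (l.1 *ᵥ e1) := by rw [← h1, h2]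
    rw [Units.val_mul, mul_smul, this, smul_smul, Units.inv_mul, one_smul]
  -- `m = k⁻¹ l ∈ congGL`, `m e1 = γ e1`
  set m := k⁻¹ * l with hm
  have hmm : m ∈ congGL w (n w) := mul_mem (inv_mem hk) hl
  have h4 : m.1 *ᵥ e1 = ((β⁻¹ * α : Fˣ) : F) • e1 := by
    rw [hm, Units.val_mul, ← Matrix.mulVec_mulVec, h3, Matrix.mulVec_smul, Matrix.mulVec_mulVec,
      ← Units.val_mul, inv_mul_cancel, Units.val_one, one_mulVec]
  have h5 : m 0 0 = ((β⁻¹ * α : Fˣ) : F) := by
    have := congrFun h4 0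
    rw [mulVec_e1] at this
    simpa [e1] using this
  have h6 : av w ((β⁻¹ * α : Fˣ) : F) = 1 := by
    have := nv_mulVec_of_mem w (intGL_le_stdH w hmm.1) (e1 : Fin 2 → F)
    rw [h4, nv_smul, nv_e1, mul_one, mul_one] at this
    rw [this]
    have h7 := hmm.1.1
    have h8 := hmm.1.2
    have h9 := nm_inv_of_mem w (intGL_le_stdH w hmm.1)
    rw [h9] at h8
    have hp := nm_pos w m
    apply le_antisymm h7
    rw [inv_le_one₀ hp] at h8
    exact h8
  have h7 : κ.loc w (β⁻¹ * α) = 1 := by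
    apply κ.triv w _ h6
    rw [← h5]; exact (congGL_entry hmm).1
  rw [map_mul, map_inv, inv_mul_eq_one] at h7
  exact h7.symm

open Classical in
/-- The local class of the line spanned by `v` with respect to `g`
(zero if it is not in the cell). -/
noncomputable def cl (κ : HChar F n G) (w : Pl F) (v : Fin 2 → F) (g : G2 F) : WithZero G :=
  if h : ∃ α : Fˣ, InCell n w v g α then
    (((κ.loc w (detU g))⁻¹ * ((κ.loc w h.choose)⁻¹) ^ 2 : G) : WithZero G)
  else 0

theorem cl_of_inCell (κ : HChar F n G) {w : Pl F} {v : Fin 2 → F} {g : G2 F} {α : Fˣ}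
    (h : InCell n w v g α) :
    cl κ w v g = (((κ.loc w (detU g))⁻¹ * ((κ.loc w α)⁻¹) ^ 2 : G) : WithZero G) := by
  have hex : ∃ α : Fˣ, InCell n w v g α := ⟨α, h⟩
  rw [cl, dif_pos hex, hex.choose_spec.unique h κ]

theorem cl_eq_zero_iff (κ : HChar F n G) {w : Pl F} {v : Fin 2 → F} {g : G2 F} :
    cl κ w v g = 0 ↔ ¬ ∃ α : Fˣ, InCell n w v g α := by
  constructor
  · rintro h ⟨α, hα⟩
    rw [cl_of_inCell κ hα] at h
    exact WithZero.coe_ne_zero h
  · intro h; rw [cl, dif_neg h]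

theorem InCell.smul_smul {w : Pl F} {v : Fin 2 → F} {g : G2 F} {α : Fˣ}
    (h : InCell n w v g α) (γ : G2 F) : InCell n w (γ.1 *ᵥ v) (γ * g) α := by
  obtain ⟨k, hk, h1⟩ := h
  refine ⟨k, hk, ?_⟩
  rw [← h1, _root_.mul_inv_rev, Units.val_mul, Matrix.mulVec_mulVec, mul_assoc, ← Units.val_mul γ⁻¹,
    inv_mul_cancel, Units.val_one, mul_one]

theorem InCell.smul {w : Pl F} {v : Fin 2 → F} {g : G2 F} {α : Fˣ}
    (h : InCell n w v g α) (c : Fˣ) : InCell n w ((c : F) • v) g (c * α) := by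
  obtain ⟨k, hk, h1⟩ := h
  exact ⟨k, hk, by rw [Matrix.mulVec_smul, h1, _root_.smul_smul, Units.val_mul]⟩

theorem InCell.mul_sc {w : Pl F} {v : Fin 2 → F} {g : G2 F} {α : Fˣ}
    (h : InCell n w v g α) (c : Fˣ) : InCell n w v (g * sc c) (c⁻¹ * α) := by
  obtain ⟨k, hk, h1⟩ := h
  refine ⟨k, hk, ?_⟩
  rw [_root_.mul_inv_rev, sc_inv, sc_mul_val, Matrix.smul_mulVec, h1, _root_.smul_smul, Units.val_mul]

theorem InCell.mul_cong {w : Pl F} {v : Fin 2 → F} {g : G2 F} {α : Fˣ}
    (h : InCell n w v g α) {l : G2 F} (hl : l ∈ congGL w (n w)) : InCell n w v (g * l) α := by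
  obtain ⟨k, hk, h1⟩ := h
  refine ⟨l⁻¹ * k, mul_mem (inv_mem hl) hk, ?_⟩
  rw [_root_.mul_inv_rev, Units.val_mul, ← Matrix.mulVec_mulVec, h1, Matrix.mulVec_smul,
    Units.val_mul, ← Matrix.mulVec_mulVec]

theorem loc_detU_cong (κ : HChar F n G) {w : Pl F} {l : G2 F} (hl : l ∈ congGL w (n w)) :
    κ.loc w (detU l) = 1 := by
  have hd : av w (detU l : F) = 1 := by
    rw [detU_val, av_det_of_mem w (intGL_le_stdH w hl.1)]
    have h8 := hl.1.2
    rw [nm_inv_of_mem w (intGL_le_stdH w hl.1), inv_le_one₀ (nm_pos w l)] at h8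
    rw [le_antisymm hl.1.1 h8, one_pow]
  apply κ.triv w _ hd
  rw [detU_val, Matrix.det_fin_two]
  have e : ∀ i j, av w (l.1 i j - (1 : Matrix (Fin 2) (Fin 2) F) i j) ≤ (qv w)⁻¹ ^ n w := by
    intro i j
    exact (av_le_nm w (l.1 - 1) i j).trans hl.2
  have e00 := e 0 0
  have e11 := e 1 1
  have e01 := e 0 1
  rw [Matrix.one_apply_eq] at e00 e11
  rw [Matrix.one_apply_ne (by decide), sub_zero] at e01
  have i11 : av w (l.1 1 1) ≤ 1 := (av_le_nm w l.1 1 1).trans hl.1.1
  have i10 : av w (l.1 1 0) ≤ 1 := (av_le_nm w l.1 1 0).trans hl.1.1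
  have hr : l.1 0 0 * l.1 1 1 - l.1 0 1 * l.1 1 0 - 1 =
      ((l.1 0 0 - 1) * l.1 1 1 + (l.1 1 1 - 1)) + (-(l.1 0 1 * l.1 1 0)) := by ring
  rw [hr]
  have hq : 0 ≤ (qv w)⁻¹ ^ n w := by have := qv_pos w; positivity
  refine (av_add_le w _ _).trans (max_le ((av_add_le w _ _).trans (max_le ?_ e11)) ?_)
  · rw [map_mul]
    exact (mul_le_mul e00 i11 ((av w).nonneg _) hq).trans (by rw [mul_one])
  · rw [(av w).map_neg, map_mul]
    exact (mul_le_mul e01 i10 ((av w).nonneg _) hq).trans (by rw [mul_one])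

theorem cl_mul (κ : HChar F n G) {hn : {w | n w ≠ 0}.Finite} (w : Pl F) (v : Fin 2 → F) (g : G2 F)
    {h : G2 F} (hh : h ∈ (princ n hn).H w) : cl κ w v (g * h) = cl κ w v g := by
  have key : ∀ (g : G2 F) {h : G2 F}, h ∈ (princ n hn).H w → ∀ α, InCell n w v g α →
      cl κ w v (g * h) = cl κ w v g := by
    intro g h hh α hα
    obtain ⟨c, k, hk, rfl⟩ := mem_princ_H.mp hh
    have h1 := (hα.mul_sc c).mul_cong hk
    rw [mul_assoc] at h1
    rw [cl_of_inCell κ hα, cl_of_inCell κ h1]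
    congr 1
    have hd : κ.loc w (detU (g * (sc c * k))) = κ.loc w (detU g) * κ.loc w c ^ 2 := by
      rw [detU, map_mul, map_mul, map_mul, map_mul]
      rw [show κ.loc w (Matrix.GeneralLinearGroup.det k) = 1 from loc_detU_cong κ hk, mul_one]
      rw [show Matrix.GeneralLinearGroup.det (sc c) = c ^ 2 from detU_sc c, map_pow]
    rw [hd, map_mul, map_inv]
    generalize κ.loc w (detU g) = x
    generalize κ.loc w c = y
    generalize κ.loc w α = z
    rw [mul_inv, mul_inv, inv_inv, mul_pow, mul_assoc, ← mul_assoc _ (y ^ 2), inv_mul_cancel, one_mul]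
  by_cases hex : ∃ α, InCell n w v g α
  · obtain ⟨α, hα⟩ := hex
    exact key g hh α hα
  · by_cases hex' : ∃ α, InCell n w v (g * h) α
    · obtain ⟨α, hα⟩ := hex'
      have := key (g * h) (inv_mem hh) α hα
      rw [mul_inv_cancel_right] at this
      exact this.symm
    · rw [(cl_eq_zero_iff κ).mpr hex, (cl_eq_zero_iff κ).mpr hex']

theorem cl_smul_smul (κ : HChar F n G) (w : Pl F) (v : Fin 2 → F) (γ g : G2 F) :
    cl κ w (γ.1 *ᵥ v) (γ * g) = (((κ.loc w (detU γ))⁻¹ : G) : WithZero G) * cl κ w v g := by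
  by_cases hex : ∃ α, InCell n w v g α
  · obtain ⟨α, hα⟩ := hex
    rw [cl_of_inCell κ hα, cl_of_inCell κ (hα.smul_smul γ), ← WithZero.coe_mul]
    congr 1
    rw [detU, map_mul, map_mul, mul_inv, mul_assoc]
  · have hex' : ¬ ∃ α, InCell n w (γ.1 *ᵥ v) (γ * g) α := by
      rintro ⟨α, hα⟩
      apply hex
      refine ⟨α, ?_⟩
      have := hα.smul_smul γ⁻¹
      rwa [Matrix.mulVec_mulVec, ← Units.val_mul, inv_mul_cancel, Units.val_one, one_mulVec,
        inv_mul_cancel_left] at this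
    rw [(cl_eq_zero_iff κ).mpr hex, (cl_eq_zero_iff κ).mpr hex', mul_zero]

theorem cl_smul (κ : HChar F n G) (w : Pl F) (c : Fˣ) (v : Fin 2 → F) (g : G2 F) :
    cl κ w ((c : F) • v) g = ((((κ.loc w c)⁻¹) ^ 2 : G) : WithZero G) * cl κ w v g := by
  by_cases hex : ∃ α, InCell n w v g α
  · obtain ⟨α, hα⟩ := hex
    rw [cl_of_inCell κ hα, cl_of_inCell κ (hα.smul c), ← WithZero.coe_mul]
    congr 1
    rw [map_mul, mul_inv, mul_pow, mul_left_comm]
  · have hex' : ¬ ∃ α, InCell n w ((c : F) • v) g α := by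
      rintro ⟨α, hα⟩
      apply hex
      refine ⟨c⁻¹ * α, ?_⟩
      have := hα.smul c⁻¹
      rwa [_root_.smul_smul, Units.inv_mul, one_smul] at this
    rw [(cl_eq_zero_iff κ).mpr hex, (cl_eq_zero_iff κ).mpr hex', mul_zero]

/-- the local class as a function on the local factor -/
noncomputable def clY (κ : HChar F n G) {hn : {w | n w ≠ 0}.Finite} (w : Pl F) (v : Fin 2 → F) :
    Yl (princ n hn) w → WithZero G :=
  Quotient.lift (cl κ w v) (by
    intro a b hab
    have h : a⁻¹ * b ∈ (princ n hn).H w := QuotientGroup.leftRel_apply.mp hab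
    have := cl_mul κ w v a h
    rw [mul_inv_cancel_left] at this
    exact this.symm)

theorem clY_mk (κ : HChar F n G) {hn : {w | n w ≠ 0}.Finite} (w : Pl F) (v : Fin 2 → F) (g : G2 F) :
    clY κ w v (g : Yl (princ n hn) w) = cl κ w v g := rfl

/-- the local class for the vector `e1` -/
theorem cl_e1_borel (κ : HChar F n G) (w : Pl F) (b : F) (a : Fˣ) :
    cl κ w e1 (un b * dg a) = ((κ.loc w a : G) : WithZero G) := by
  have h : InCell n w e1 (un b * dg a) a⁻¹ := by
    refine ⟨1, one_mem _, ?_⟩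
    rw [Units.val_one, one_mulVec]
    have h1 : (un b * dg a).1 *ᵥ (((a⁻¹ : Fˣ) : F) • (e1 : Fin 2 → F)) = e1 := by
      rw [Matrix.mulVec_smul, mulVec_e1]
      ext i
      fin_cases i <;>
      simp [un, dg, Matrix.GeneralLinearGroup.mkOfDetNeZero, e1, Matrix.mul_apply, Fin.sum_univ_two]
    conv_lhs => rw [← h1]
    rw [Matrix.mulVec_mulVec, ← Units.val_mul, inv_mul_cancel, Units.val_one, one_mulVec]
  rw [cl_of_inCell κ h]
  congr 1
  have hd : detU (un b * dg a) = a := by
    apply Units.ext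
    rw [detU_val]
    simp [un, dg, Matrix.GeneralLinearGroup.mkOfDetNeZero]
  rw [hd, map_inv, inv_inv, sq, inv_mul_cancel_left]

end local_

section global

variable {n : Pl F → ℕ} {hn : {w | n w ≠ 0}.Finite} {G : Type} [CommGroup G]

theorem av_finite_vec {v : Fin 2 → F} (hv : v ≠ 0) : {w : Pl F | nv w v ≠ 1}.Finite := by
  by_cases h0 : v 0 = 0
  · have h1 : v 1 ≠ 0 := by
      intro h1; apply hv; ext i; fin_cases i <;> simp [h0, h1]
    refine (av_finite h1).subset fun w hw => ?_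
    simp only [Set.mem_ofPred_eq, nv, h0, map_zero] at hw ⊢
    rwa [max_eq_right ((av w).nonneg _)] at hw
  · by_cases h1 : v 1 = 0
    · refine (av_finite h0).subset fun w hw => ?_
      simp only [Set.mem_ofPred_eq, nv, h1, map_zero] at hw ⊢
      rwa [max_eq_left ((av w).nonneg _)] at hw
    · refine ((av_finite h0).union (av_finite h1)).subset fun w hw => ?_
      by_contra hc
      simp only [Set.mem_union, Set.mem_ofPred_eq, not_or, not_not] at hc
      apply hw
      simp [nv, hc.1, hc.2]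

/-- For a primitive vector at an unramified place every line is in the cell. -/
theorem inCell_of_nv_eq {w : Pl F} (hw : n w = 0) {v : Fin 2 → F} {g : G2 F} {α : Fˣ}
    (h : nv w ((g⁻¹).1 *ᵥ v) = av w α) : InCell n w v g α := by
  set u : Fin 2 → F := (((α⁻¹ : Fˣ) : F)) • ((g⁻¹).1 *ᵥ v) with hu
  have hu1 : nv w u = 1 := by
    rw [hu, nv_smul, h, ← map_mul, Units.inv_mul, map_one]
  have hgv : (g⁻¹).1 *ᵥ v = (α : F) • u := by rw [hu, _root_.smul_smul, Units.mul_inv, one_smul]
  have h0 := av_le_nv w u 0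
  have h1 := av_le_nv w u 1
  rw [hu1] at h0 h1
  -- complete `u` to a matrix in `GL₂(O_w)`
  have hmax : av w (u 0) = 1 ∨ av w (u 1) = 1 := by
    rcases max_choice (av w (u 0)) (av w (u 1)) with h' | h'
    · left; rw [← h']; exact hu1
    · right; rw [← h']; exact hu1
  have key : ∃ k : G2 F, k ∈ congGL w (n w) ∧ k.1 *ᵥ e1 = u := by
    rw [hw, congGL_zero]
    have mem_of : ∀ (M : Matrix (Fin 2) (Fin 2) F) (hd : M.det ≠ 0), (∀ i j, av w (M i j) ≤ 1) →
        av w M.det = 1 → Matrix.GeneralLinearGroup.mkOfDetNeZero M hd ∈ intGL w := by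
      intro M hd hM hdet
      refine ⟨(nm_le_iff w _ _).mpr hM, ?_⟩
      have : ((Matrix.GeneralLinearGroup.mkOfDetNeZero M hd)⁻¹).1 = (M.det)⁻¹ • M.adjugate := by
        rw [Matrix.GeneralLinearGroup.coe_inv]
        change M⁻¹ = _
        rw [Matrix.inv_def, Ring.inverse_eq_inv']
      rw [this, nm_smul, nm_adjugate, map_inv₀, hdet, inv_one, one_mul]
      exact (nm_le_iff w _ _).mpr hM
    rcases hmax with h' | h'
    · have hd : (!![u 0, 0; u 1, 1] : Matrix (Fin 2) (Fin 2) F).det ≠ 0 := by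
        rw [Matrix.det_fin_two_of]
        intro hz
        simp only [mul_one, zero_mul, sub_zero] at hz
        rw [hz, map_zero] at h'
        exact zero_ne_one h'
      refine ⟨Matrix.GeneralLinearGroup.mkOfDetNeZero _ hd, mem_of _ hd ?_ ?_, ?_⟩
      · intro i j
        fin_cases i <;> fin_cases j <;> simp [h0, h1]
      · rw [Matrix.det_fin_two_of]; simpa using h'
      · rw [mulVec_e1]
        ext i; fin_cases i <;> simp [Matrix.GeneralLinearGroup.mkOfDetNeZero]
    · have hd : (!![u 0, 1; u 1, 0] : Matrix (Fin 2) (Fin 2) F).det ≠ 0 := by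
        rw [Matrix.det_fin_two_of]
        intro hz
        simp only [mul_zero, one_mul, zero_sub, neg_eq_zero] at hz
        rw [hz, map_zero] at h'
        exact zero_ne_one h'
      refine ⟨Matrix.GeneralLinearGroup.mkOfDetNeZero _ hd, mem_of _ hd ?_ ?_, ?_⟩
      · intro i j
        fin_cases i <;> fin_cases j <;> simp [h0, h1]
      · rw [Matrix.det_fin_two_of]; simpa using h'
      · rw [mulVec_e1]
        ext i; fin_cases i <;> simp [Matrix.GeneralLinearGroup.mkOfDetNeZero]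
  obtain ⟨k, hk, hk2⟩ := key
  exact ⟨k, hk, by rw [hgv, hk2]⟩

theorem clY_finite (κ : HChar F n G) {v : Fin 2 → F} (hv : v ≠ 0) (y : Y (princ n hn)) :
    {w | clY κ w v (y w) ≠ 1}.Finite := by
  refine (((av_finite_vec hv).union y.fin).union hn).subset fun w hw => ?_
  by_contra hc
  simp only [Set.mem_union, Set.mem_ofPred_eq, not_or, not_not] at hc
  apply hw
  rw [hc.1.2, clY_mk]
  have h : InCell n w v (1 : G2 F) 1 := inCell_of_nv_eq hc.2 (by simp [hc.1.1])
  rw [cl_of_inCell κ h]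
  simp

theorem clY_mulSupport (κ : HChar F n G) {v : Fin 2 → F} (hv : v ≠ 0) (y : Y (princ n hn)) :
    (Function.mulSupport fun w => clY κ w v (y w)).Finite := clY_finite κ hv y

/-- The global class of the line spanned by `v` with respect to `y`
(zero if the line is not in the cell). -/
noncomputable def cls (κ : HChar F n G) (v : Fin 2 → F) (y : Y (princ n hn)) : WithZero G :=
  ∏ᶠ w, clY κ w v (y w)

theorem clY_smul_smul (κ : HChar F n G) (w : Pl F) (v : Fin 2 → F) (γ : G2 F)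
    (y : Yl (princ n hn) w) :
    clY κ w (γ.1 *ᵥ v) (γ • y) = (((κ.loc w (detU γ))⁻¹ : G) : WithZero G) * clY κ w v y := by
  obtain ⟨g, rfl⟩ := QuotientGroup.mk_surjective y
  exact cl_smul_smul κ w v γ g

theorem clY_smul (κ : HChar F n G) (w : Pl F) (c : Fˣ) (v : Fin 2 → F)
    (y : Yl (princ n hn) w) :
    clY κ w ((c : F) • v) y = ((((κ.loc w c)⁻¹) ^ 2 : G) : WithZero G) * clY κ w v y := by
  obtain ⟨g, rfl⟩ := QuotientGroup.mk_surjective y
  exact cl_smul κ w c v g

theorem loc_finite (κ : HChar F n G) (hn : {w | n w ≠ 0}.Finite) (a : Fˣ) :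
    {w | κ.loc w a ≠ 1}.Finite := by
  refine ((av_finite a.ne_zero).union hn).subset fun w hw => ?_
  by_contra hc
  simp only [Set.mem_union, Set.mem_ofPred_eq, not_or, not_not] at hc
  apply hw
  apply κ.triv w a hc.1
  rw [hc.2, pow_zero, sub_eq_add_neg]
  refine (av_add_le w _ _).trans (max_le hc.1.le ?_)
  rw [(av w).map_neg, map_one]

theorem finprod_loc_coe (κ : HChar F n G) (hn : {w | n w ≠ 0}.Finite) (a : Fˣ) (m : ℤ) :
    ∏ᶠ w, (((κ.loc w a) ^ m : G) : WithZero G) = 1 := by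
  have h := map_finprod (WithZero.coeMonoidHom : G →* WithZero G)
    (f := fun w => (κ.loc w a) ^ m) (by
      refine (loc_finite κ hn a).subset fun w hw => ?_
      intro h1
      apply hw
      simp only at h1 ⊢
      rw [h1, _root_.one_zpow])
  have h2 : ∏ᶠ w, (κ.loc w a) ^ m = 1 := by
    have := map_finprod (zpowGroupHom m : G →* G) (f := fun w => κ.loc w a) (loc_finite κ hn a)
    rw [κ.prod, map_one] at this
    exact this.symm
  rw [h2, map_one] at h
  exact h.symm

theorem cls_smul_smul (κ : HChar F n G) {v : Fin 2 → F} (hv : v ≠ 0) (γ : G2 F)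
    (y : Y (princ n hn)) : cls κ (γ.1 *ᵥ v) (γ • y) = cls κ v y := by
  unfold cls
  have h1 : ∀ w, clY κ w (γ.1 *ᵥ v) ((γ • y) w) =
      (((κ.loc w (detU γ)) ^ (-1 : ℤ) : G) : WithZero G) * clY κ w v (y w) := by
    intro w
    rw [G2_smul_apply, clY_smul_smul, _root_.zpow_neg_one]
  rw [finprod_congr h1, finprod_mul_distrib ?_ (clY_mulSupport κ hv y),
    finprod_loc_coe κ hn, one_mul]
  refine (loc_finite κ hn (detU γ)).subset fun w hw => ?_
  intro h1
  apply hw
  simp only at h1 ⊢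
  rw [h1, _root_.one_zpow]; rfl

theorem cls_smul (κ : HChar F n G) {v : Fin 2 → F} (hv : v ≠ 0) (c : Fˣ)
    (y : Y (princ n hn)) : cls κ ((c : F) • v) y = cls κ v y := by
  unfold cls
  have h1 : ∀ w, clY κ w ((c : F) • v) (y w) =
      (((κ.loc w c) ^ (-2 : ℤ) : G) : WithZero G) * clY κ w v (y w) := by
    intro w
    rw [clY_smul]
    congr 2
    rw [_root_.zpow_neg, inv_pow]; norm_cast
  rw [finprod_congr h1, finprod_mul_distrib ?_ (clY_mulSupport κ hv y),
    finprod_loc_coe κ hn, one_mul]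
  refine (loc_finite κ hn c).subset fun w hw => ?_
  intro h1
  apply hw
  simp only at h1 ⊢
  rw [h1, _root_.one_zpow]; rfl

open Classical in
/-- The Eisenstein series attached to the class `ζ`. -/
noncomputable def Eis (κ : HChar F n G) (A : Arch F) (ζ : G) (s : ℝ)
    (x : X (⟨A, princ n hn⟩ : Datum F)) : ℝ≥0∞ :=
  ∑' ξ : ℙ F (Fin 2 → F), if cls κ ξ.rep x.2 = (ζ : WithZero G) then
    ENNReal.ofReal (ht ξ.rep x ^ s) else 0

end global

end Fermat.Agent.LT.H
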