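import Fermat.Agent.LT.H.Yb

/-!
# The Rankin–Selberg unfolding
-/

set_option autoImplicit false
set_option linter.unusedSectionVars false

open NumberField IsDedekindDomain Matrix MeasureTheory Module Set
open scoped ComplexConjugate ENNReal Real

namespace Fermat.Agent.LT.H

open Fermat.LT Fermat.Agent.LT.I Fermat.Agent.LT.B

variable {F : Type} [Field F] [NumberField F]

section borel

omit [NumberField F] in
theorem un_dg_mul (a a' : Fˣ) (b b' : F) :
    un b * dg a * (un b' * dg a') = un (b + a * b') * dg (a * a') := by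
  ext i j; fin_cases i <;> fin_cases j <;>
    simp [un_val, dg_val, Matrix.mul_apply, Fin.sum_univ_two]
  ring

omit [NumberField F] in
theorem un_dg_inv (a : Fˣ) (b : F) :
    (un b * dg a)⁻¹ = un (-((a⁻¹ : Fˣ) : F) * b) * dg a⁻¹ := by
  rw [inv_eq_iff_mul_eq_one, un_dg_mul]
  have h1 : b + (a : F) * (-((a⁻¹ : Fˣ) : F) * b) = 0 := by
    rw [← mul_assoc, mul_neg, Units.mul_inv]; ring
  rw [h1, mul_inv_cancel, un_zero, one_mul]
  ext i j; fin_cases i <;> fin_cases j <;> simp [dg_val]

variable (F) in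
/-- the Borel subgroup of `PGL₂(F)` -/
def Bs : Subgroup (PG F) where
  carrier := {g | ∃ (a : Fˣ) (b : F), g = pmk (un b * dg a)}
  mul_mem' := by
    rintro _ _ ⟨a, b, rfl⟩ ⟨a', b', rfl⟩
    refine ⟨a * a', b + a * b', ?_⟩
    rw [← un_dg_mul]
    exact (map_mul _ _ _).symm
  one_mem' := by
    refine ⟨1, 0, ?_⟩
    have : un (0 : F) * dg 1 = 1 := by
      rw [un_zero, one_mul]
      ext i j; fin_cases i <;> fin_cases j <;> simp [dg_val]
    rw [this]
    exact (map_one _).symm
  inv_mem' := by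
    rintro _ ⟨a, b, rfl⟩
    refine ⟨a⁻¹, -((a⁻¹ : Fˣ) : F) * b, ?_⟩
    rw [← un_dg_inv]
    exact (map_inv _ _).symm

theorem pmk_eq_iff {g h : G2 F} : pmk g = pmk h ↔ ∃ c : Fˣ, h = sc c * g := by
  constructor
  · intro e
    have h1 : g⁻¹ * h ∈ scal F := QuotientGroup.eq.mp e
    obtain ⟨c, hc⟩ := (mem_scal_iff _).mp h1
    have h2 : g⁻¹ * h = sc c := Units.ext hc
    exact ⟨c, by rw [sc_comm, ← h2, mul_inv_cancel_left]⟩
  · rintro ⟨c, rfl⟩
    refine QuotientGroup.eq.mpr ?_
    rw [sc_comm, inv_mul_cancel_left]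
    exact sc_mem c

theorem un_dg_injective {a a' : Fˣ} {b b' : F} (h : pmk (un b * dg a) = pmk (un b' * dg a')) :
    a = a' ∧ b = b' := by
  obtain ⟨c, hc⟩ := pmk_eq_iff.mp h
  have hv := congrArg (fun g : G2 F => g.1) hc
  simp only [sc_mul_val] at hv
  have h11 := congrFun (congrFun hv 1) 1
  have h00 := congrFun (congrFun hv 0) 0
  have h01 := congrFun (congrFun hv 0) 1
  simp only [Units.val_mul, un_val, dg_val, Matrix.smul_apply, Matrix.mul_apply,
    Fin.sum_univ_two, Matrix.of_apply, Matrix.cons_val', Matrix.cons_val_zero,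
    Matrix.cons_val_one, Matrix.cons_val_fin_one, smul_eq_mul] at h11 h00 h01
  have hc1 : (c : F) = 1 := by simpa using h11.symm
  rw [hc1] at h00 h01
  constructor
  · apply Units.ext
    simpa using h00.symm
  · simpa using h01.symm

variable (F) in
/-- parametrisation of the Borel subgroup -/
noncomputable def bsEquiv : Fˣ × F ≃ Bs F :=
  Equiv.ofBijective (fun p => ⟨pmk (un p.2 * dg p.1), p.1, p.2, rfl⟩) (by
    constructor
    · rintro ⟨a, b⟩ ⟨a', b'⟩ h
      obtain ⟨h1, h2⟩ := un_dg_injective (congrArg Subtype.val h)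
      exact Prod.ext h1 h2
    · rintro ⟨_, a, b, rfl⟩
      exact ⟨(a, b), rfl⟩)

end borel

variable {D : Datum F}

/-- the `z`-coordinates -/
noncomputable def zc (p : X D) : D.I → ℂ := fun i => (p.1 i).z

/-- the logarithms of the `t`-coordinates -/
noncomputable def xc (p : X D) : D.I → ℝ := fun i => Real.log (p.1 i).t

theorem zc_pt (z : D.I → ℂ) (x : D.I → ℝ) (y : Y D.toLevel) : zc (pt z x y : X D) = z := rfl

theorem xc_pt (z : D.I → ℂ) (x : D.I → ℝ) (y : Y D.toLevel) : xc (pt z x y : X D) = x := by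
  funext i
  change Real.log (Real.exp (x i)) = x i
  rw [Real.log_exp]

theorem pt_zc_xc (p : X D) : pt (zc p) (xc p) p.2 = p := by
  obtain ⟨z, x, y, rfl⟩ := exists_pt p
  rw [zc_pt, xc_pt]; rfl

theorem measurable_zc (y : Y D.toLevel) : Measurable fun p : XI D.toArch => zc ((p, y) : X D) := by
  refine measurable_pi_iff.mpr fun i => ?_
  exact H3.continuous_z.measurable.comp (measurable_pi_apply (X := fun _ => H3) i)

theorem measurable_xc (y : Y D.toLevel) : Measurable fun p : XI D.toArch => xc ((p, y) : X D) := by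
  refine measurable_pi_iff.mpr fun i => ?_
  exact Real.measurable_log.comp
    (H3.continuous_t.measurable.comp (measurable_pi_apply (X := fun _ => H3) i))

open Classical in
/-- the weight for the Borel subgroup -/
noncomputable def wBor (wA : Zb D → ℝ≥0∞) (p : X D) : ℝ≥0∞ :=
  if p.2 = yout (ybk p.2) ∧ zc p ∈ bx D.toArch (bY p.2) then wA (zmk (xc p) (ybk p.2)) else 0

theorem measurable_zmk (q : Yb D.toLevel) : Measurable fun x : D.I → ℝ => (zmk x q : Zb D) :=
  measurable_id.prodMk measurable_const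

theorem measurable_wBor {wA : Zb D → ℝ≥0∞} (hw : Measurable wA) : Measurable (wBor wA) := by
  refine measurable_from_prod_countable_left fun y => ?_
  unfold wBor
  refine Measurable.ite ?_ ?_ measurable_const
  · have h1 : MeasurableSet {_p : XI D.toArch | y = yout (ybk y)} := MeasurableSet.const _
    exact h1.inter ((measurable_zc y) (isBox_bx D.toArch (isLat_bY y)).meas)
  · exact hw.comp ((measurable_zmk (ybk y)).comp (measurable_xc y))

theorem existsUnique_b (y : Y D.toLevel) (z : D.I → ℂ) :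
    ∃! b : F, un b • y = yout (ybk y) ∧
      z + embI D.toArch b ∈ bx D.toArch (bY (yout (ybk y))) := by
  obtain ⟨b₀, hb₀⟩ := exists_un_yout y
  set y' := yout (ybk y) with hy'
  obtain ⟨⟨g, hg⟩, hg1, hg2⟩ := (isBox_bx D.toArch (isLat_bY y')).uniq (z + embI D.toArch b₀)
  obtain ⟨c, hc, rfl⟩ := (mem_latOf _).mp hg
  have hc' : un c • y' = y' := hc
  refine ⟨c + b₀, ⟨?_, ?_⟩, ?_⟩
  · rw [un_add, mul_smul, hb₀, hc']
  · rw [map_add]
    have : z + (embI D.toArch c + embI D.toArch b₀) = embI D.toArch c + (z + embI D.toArch b₀) := by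
      ring
    rw [this]; exact hg1
  · rintro b ⟨h1, h2⟩
    have h3 : b - b₀ ∈ bY y' := by
      change un (b - b₀) • y' = y'
      rw [← hb₀, ← mul_smul, ← un_add, sub_add_cancel, h1, hb₀]
    have h4 := hg2 ⟨embI D.toArch (b - b₀), (mem_latOf _).mpr ⟨_, h3, rfl⟩⟩ (by
      change embI D.toArch (b - b₀) + (z + embI D.toArch b₀) ∈ _
      have : embI D.toArch (b - b₀) + (z + embI D.toArch b₀) = z + embI D.toArch b := by
        rw [map_sub]; ring
      rw [this]; exact h2)
    have h5 : embI D.toArch (b - b₀) = embI D.toArch c := congrArg Subtype.val h4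
    have : Nonempty D.I := by
      obtain ⟨w⟩ : Nonempty (InfinitePlace F) := inferInstance
      exact ⟨D.toArch.equiv.symm w⟩
    have h6 := (embI_injective D.toArch) h5
    rw [← h6, sub_add_cancel]

/-- `wBor` is a weight for the Borel subgroup -/
theorem isWeight_wBor {wA : Zb D → ℝ≥0∞} (hw : IsWeight Fˣ wA) : IsWeight (Bs F) (wBor wA) where
  meas := measurable_wBor hw.meas
  sum_eq p := by
    classical
    obtain ⟨z, x, y, rfl⟩ := exists_pt p
    rw [← (bsEquiv F).tsum_eq, ENNReal.tsum_prod', ← hw.sum_eq (zmk x (ybk y))]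
    refine tsum_congr fun a => ?_
    obtain ⟨b₀, ⟨h1, h2⟩, h3⟩ := existsUnique_b (dg a • y) (embI D.toArch a * z)
    have key : ∀ b : F, wBor wA ((bsEquiv F (a, b)) • (pt z x y : X D)) =
        if un b • dg a • y = yout (ybk (dg a • y)) ∧
          embI D.toArch a * z + embI D.toArch b ∈ bx D.toArch (bY (yout (ybk (dg a • y))))
        then wA (zmk (la D.toArch a + x) (ybk (dg a • y))) else 0 := by
      intro b
      have hs : (bsEquiv F (a, b)) • (pt z x y : X D) =
          pt (embI D.toArch a * z + embI D.toArch b) (la D.toArch a + x) (un b • dg a • y) := by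
        change (un b * dg a) • (pt z x y : X D) = _
        rw [mul_smul, dg_smul_pt, un_smul_pt]
      rw [hs, wBor, zc_pt, xc_pt]
      change (if un b • dg a • y = yout (ybk (un b • dg a • y)) ∧
        embI D.toArch a * z + embI D.toArch b ∈ bx D.toArch (bY (un b • dg a • y)) then
          wA (zmk (la D.toArch a + x) (ybk (un b • dg a • y))) else _) = _
      rw [ybk_un]
      by_cases hb : un b • dg a • y = yout (ybk (dg a • y))
      · rw [hb]
      · rw [if_neg (fun h => hb h.1), if_neg (fun h => hb h.1)]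
    rw [tsum_eq_single b₀]
    · rw [key, if_pos ⟨h1, h2⟩]; rfl
    · intro b hb
      rw [key, if_neg (fun h => hb (h3 b h))]

/-- integration against `wBor` -/
theorem lintegral_wBor {wA : Zb D → ℝ≥0∞} (hw : Measurable wA) {H : X D → ℝ≥0∞}
    (hH : Measurable H) :
    ∫⁻ p, wBor wA p * H p = ∑' q : Yb D.toLevel, ∫⁻ x : D.I → ℝ, dI x * (wA (zmk x q) *
      ∫⁻ z in bx D.toArch (bY (yout q)), H (pt z x (yout q))) := by
  classical
  have hmm : Measurable fun p : X D => wBor wA p * H p := (measurable_wBor hw).mul hH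
  rw [lintegral_X hmm]
  have key : ∀ (y : Y D.toLevel) (x : D.I → ℝ), ∫⁻ z : D.I → ℂ, wBor wA (pt z x y) * H (pt z x y) =
      if y = yout (ybk y) then
        wA (zmk x (ybk y)) * ∫⁻ z in bx D.toArch (bY y), H (pt z x y) else 0 := by
    intro y x
    have hbm := (isBox_bx D.toArch (isLat_bY y)).meas
    by_cases hy : y = yout (ybk y)
    · rw [if_pos hy, ← lintegral_indicator hbm, ← lintegral_const_mul]
      · refine lintegral_congr fun z => ?_
        rw [wBor, zc_pt, xc_pt]
        change (if y = yout (ybk y) ∧ z ∈ bx D.toArch (bY y) then _ else _) * _ = _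
        by_cases hz : z ∈ bx D.toArch (bY y)
        · rw [if_pos ⟨hy, hz⟩, indicator_of_mem hz]; rfl
        · rw [if_neg (fun h => hz h.2), indicator_of_notMem hz, zero_mul, mul_zero]
      · exact (hH.comp (continuous_pt_z x y).measurable).indicator hbm
    · rw [if_neg hy]
      rw [lintegral_eq_zero_iff']
      · refine Filter.Eventually.of_forall fun z => ?_
        change wBor wA (pt z x y) * _ = 0
        rw [wBor]
        change (if y = yout (ybk y) ∧ _ then _ else _) * _ = _
        rw [if_neg (fun h => hy h.1), zero_mul]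
      · exact (((measurable_wBor hw).mul hH).comp (continuous_pt_z x y).measurable).aemeasurable
  simp_rw [key]
  have hinj : Function.Injective (yout : Yb D.toLevel → Y D.toLevel) := by
    intro q q' h
    rw [← ybk_yout q, h, ybk_yout]
  have hsupp : Function.support (fun y : Y D.toLevel => ∫⁻ x : D.I → ℝ, dI x *
      (if y = yout (ybk y) then
        wA (zmk x (ybk y)) * ∫⁻ z in bx D.toArch (bY y), H (pt z x y) else 0)) ⊆
      Set.range (yout : Yb D.toLevel → Y D.toLevel) := by
    intro y hy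
    by_contra hc
    apply hy
    have : y ≠ yout (ybk y) := fun h => hc ⟨_, h.symm⟩
    simp only [if_neg this, mul_zero, lintegral_zero]
  rw [← hinj.tsum_eq hsupp]
  refine tsum_congr fun q => ?_
  simp only [ybk_yout, if_true]

/-- covolume of the lattice of translations -/
noncomputable def covY (q : Yb D.toLevel) : ℝ≥0∞ := volume (bx D.toArch (bY (yout q)))

theorem dn_add (c x : ℝ) : ENNReal.ofReal (Real.exp (2 * c)) * dn (c + x) = dn x := by
  rw [dn, dn, ← ENNReal.ofReal_mul (Real.exp_pos _).le, ← Real.exp_add]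
  congr 2
  ring

theorem dI_la (a : Fˣ) (x : D.I → ℝ) :
    ENNReal.ofReal (nE D.toArch (a : F)) * dI (la D.toArch a + x) = dI x := by
  have h1 : ENNReal.ofReal (nE D.toArch (a : F)) =
      ∏ i, ENNReal.ofReal (Real.exp (2 * la D.toArch a i)) := by
    rw [nE, ENNReal.ofReal_prod_of_nonneg (fun i _ => by positivity)]
    refine Finset.prod_congr rfl fun i _ => ?_
    rw [← exp_la, ← Real.exp_nat_mul]
    norm_num
  rw [h1, dI, dI, ← Finset.prod_mul_distrib]
  exact Finset.prod_congr rfl fun i _ => dn_add _ _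

theorem covY_smul (a : Fˣ) (q : Yb D.toLevel) :
    covY (a • q) = ENNReal.ofReal (nE D.toArch (a : F)) * covY q := by
  obtain ⟨b, hb⟩ := exists_un_yout (dg a • yout q)
  have h0 : ybk (dg a • yout q) = a • q := by rw [← smul_ybk, ybk_yout]
  rw [h0] at hb
  have h1 : bY (yout (a • q)) = smulL (a : F) (bY (yout q)) := by
    rw [← hb, bY_un, bY_dg]
  have h2 := isBox_bx D.toArch (isLat_bY (yout q))
  have h3 := h2.image_mulE D.toArch a.ne_zero
  rw [← h1] at h3
  rw [covY, covY, measure_box_eq (isBox_bx D.toArch (isLat_bY (yout (a • q)))) h3, volume_mulE]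

variable {φ : X D → ℂ}

theorem parseval_pt (hφ : Continuous φ) (hinv : ∀ (g : G2 F) x, φ (g • x) = φ x)
    (hcusp : ∀ x y, cW φ 0 x y = 0) (x : D.I → ℝ) (y : Y D.toLevel) :
    ∫⁻ z in bx D.toArch (bY y), ‖φ (pt z x y)‖ₑ ^ 2 =
      volume (bx D.toArch (bY y)) * ∑' a : Fˣ, ‖cW φ (a : F) x y‖ₑ ^ 2 := by
  classical
  have hc : Continuous fun z : D.I → ℂ => φ (pt z x y) := hφ.comp (continuous_pt_z x y)
  rw [parseval (isLat_bY y) (isBox_bx D.toArch (isLat_bY y)) hc (periodic_pt hinv x y)]
  congr 1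
  have h1 : ∀ ν : F, (if ν ∈ dualOf D.toArch (bY y) then
      ‖fcoef D.toArch (bx D.toArch (bY y)) ν (fun z => φ (pt z x y))‖ₑ ^ 2 else 0) =
      ‖cW φ ν x y‖ₑ ^ 2 := by
    intro ν
    rw [cW]
    by_cases hν : ν ∈ dualOf D.toArch (bY y)
    · rw [if_pos hν, if_pos hν]
    · rw [if_neg hν, if_neg hν, enorm_zero, zero_pow two_ne_zero]
  rw [tsum_congr h1]
  have hsupp : Function.support (fun ν : F => ‖cW φ ν x y‖ₑ ^ 2) ⊆
      Set.range (Units.val : Fˣ → F) := by
    intro ν hν
    by_cases h0 : ν = 0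
    · subst h0
      exfalso; apply hν
      simp only [hcusp, enorm_zero, ne_eq, OfNat.ofNat_ne_zero, not_false_eq_true, zero_pow]
    · exact ⟨Units.mk0 ν h0, rfl⟩
  exact (Units.val_injective.tsum_eq hsupp).symm

theorem measurable_cW (hφ : Continuous φ) (ν : F) (y : Y D.toLevel) :
    Measurable fun x : D.I → ℝ => cW φ ν x y := by
  classical
  unfold cW
  by_cases hν : ν ∈ dualOf D.toArch (bY y)
  · simp only [if_pos hν, fcoef]
    have h1 : StronglyMeasurable (Function.uncurry fun (x : D.I → ℝ) (u : D.I → ℂ) =>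
        eC D.toArch (-ν) u * φ (pt u x y)) := by
      have h2 : Continuous (Function.uncurry fun (x : D.I → ℝ) (u : D.I → ℂ) =>
          eC D.toArch (-ν) u * φ (pt u x y)) := by
        refine ((continuous_eC D.toArch (-ν)).comp continuous_snd).mul (hφ.comp ?_)
        exact (continuous_pt y).comp (continuous_snd.prodMk continuous_fst)
      exact h2.stronglyMeasurable
    exact (h1.integral_prod_right (ν := volume.restrict (bx D.toArch (bY y)))).measurable.const_smul
      (volume (bx D.toArch (bY y))).toReal⁻¹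
  · simp only [if_neg hν]
    exact measurable_const

/-- **Rankin–Selberg unfolding.** -/
theorem RS_unfold {w : X D → ℝ≥0∞} (hw : IsWeight (PG F) w) (hφ : Continuous φ)
    (hinv : ∀ (g : G2 F) x, φ (g • x) = φ x) (hcusp : ∀ x y, cW φ 0 x y = 0)
    {Φ : X D → ℝ≥0∞} (hΦm : Measurable Φ)
    (hΦB : ∀ (a : Fˣ) (b : F) p, Φ ((un b * dg a) • p) = Φ p)
    (hΦz : ∀ z x y, Φ (pt z x y) = Φ (pt 0 x y)) :
    ∫⁻ p, w p * (‖φ p‖ₑ ^ 2 *
        ∑' q : Quotient (QuotientGroup.rightRel (Bs F)), Φ (q.out • p)) =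
      ∑' q : Yb D.toLevel, ∫⁻ x : D.I → ℝ,
        dI x * (covY q * (Φ (pt 0 x (yout q)) * ‖cW φ 1 x (yout q)‖ₑ ^ 2)) := by
  classical
  have hcF : Countable Fˣ := by
    have := countable_field F
    exact Units.val_injective.countable
  obtain ⟨wA, hwA⟩ := exists_weight_Zb (D := D)
  have hinvP : ∀ (g : PG F) (p : X D), φ (g • p) = φ p := by
    intro g p
    obtain ⟨g, rfl⟩ := Matrix.ProjGenLinGroup.mk_surjective g
    exact hinv g p
  have hHm : Measurable fun p : X D => ‖φ p‖ₑ ^ 2 * Φ p :=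
    (hφ.measurable.enorm.pow_const 2).mul hΦm
  have h1 : ∫⁻ p, w p * (‖φ p‖ₑ ^ 2 *
        ∑' q : Quotient (QuotientGroup.rightRel (Bs F)), Φ (q.out • p)) =
      ∫⁻ p, wBor wA p * (‖φ p‖ₑ ^ 2 * Φ p) := by
    rw [← hw.lintegral_unfold_subgroup (Bs F) (isWeight_wBor hwA) hHm.aemeasurable]
    · refine lintegral_congr fun p => ?_
      rw [← ENNReal.tsum_mul_left]
      congr 1
      refine tsum_congr fun q => ?_
      rw [hinvP]
    · rintro ⟨_, a, b, rfl⟩ p
      change ‖φ (pmk (un b * dg a) • p)‖ₑ ^ 2 * Φ ((un b * dg a) • p) = _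
      rw [hinvP, hΦB]
  rw [h1, lintegral_wBor hwA.meas hHm]
  let G : Zb D → ℝ≥0∞ := fun p =>
    dI p.1 * (covY p.2 * (Φ (pt 0 p.1 (yout p.2)) * ‖cW φ 1 p.1 (yout p.2)‖ₑ ^ 2))
  have hG : Measurable G := by
    refine measurable_from_prod_countable_left (α := D.I → ℝ) fun q => ?_
    change Measurable fun x : D.I → ℝ =>
      dI x * (covY q * (Φ (pt 0 x (yout q)) * ‖cW φ 1 x (yout q)‖ₑ ^ 2))
    refine measurable_dI.mul (measurable_const.mul (Measurable.mul ?_ ?_))
    · exact hΦm.comp ((continuous_pt (yout q)).comp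
        (continuous_const.prodMk continuous_id)).measurable
    · exact (measurable_cW hφ 1 (yout q)).enorm.pow_const 2
  have h2 : ∑' q : Yb D.toLevel, ∫⁻ x : D.I → ℝ,
        dI x * (covY q * (Φ (pt 0 x (yout q)) * ‖cW φ 1 x (yout q)‖ₑ ^ 2)) = ∫⁻ p, G p := by
    rw [lintegral_Zb hG]; rfl
  rw [h2, ← hwA.lintegral_unfold hG.aemeasurable, lintegral_Zb]
  · refine tsum_congr fun q => lintegral_congr fun x => ?_
    have h3 : ∫⁻ z in bx D.toArch (bY (yout q)),
        ‖φ (pt z x (yout q))‖ₑ ^ 2 * Φ (pt z x (yout q)) =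
        Φ (pt 0 x (yout q)) * (covY q * ∑' a : Fˣ, ‖cW φ (a : F) x (yout q)‖ₑ ^ 2) := by
      rw [covY, ← parseval_pt hφ hinv hcusp, ← lintegral_const_mul]
      · refine lintegral_congr fun z => ?_
        rw [hΦz, mul_comm]
      · exact ((hφ.comp (continuous_pt_z x _)).measurable.enorm.pow_const 2)
    rw [h3]
    have h4 : ∀ a : Fˣ, G (a • zmk x q) = dI x * (covY q * (Φ (pt 0 x (yout q)) *
        ‖cW φ (a : F) x (yout q)‖ₑ ^ 2)) := by
      intro a
      obtain ⟨b, hb⟩ := exists_un_yout (dg a • yout q)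
      have h0 : ybk (dg a • yout q) = a • q := by rw [← smul_ybk, ybk_yout]
      rw [h0] at hb
      rw [smul_Zb]
      change dI (la D.toArch a + x) * (covY (a • q) * (Φ (pt 0 (la D.toArch a + x) (yout (a • q))) *
        ‖cW φ 1 (la D.toArch a + x) (yout (a • q))‖ₑ ^ 2)) = _
      rw [← hb, norm_cW_un hinv, cW_dg hinv, one_mul, covY_smul]
      have h5 : Φ (pt 0 (la D.toArch a + x) (un b • dg a • yout q)) = Φ (pt 0 x (yout q)) := by
        rw [← hΦB a b (pt 0 x (yout q)), mul_smul, dg_smul_pt, un_smul_pt,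
          hΦz (embI D.toArch a * 0 + embI D.toArch b)]
      rw [h5, ← dI_la a x]
      ring
    simp_rw [h4]
    rw [ENNReal.tsum_mul_left, ENNReal.tsum_mul_left, ENNReal.tsum_mul_left]
    ring
  · refine hwA.meas.mul (Measurable.tsum fun a => hG.comp (measurable_const_smul a))

end Fermat.Agent.LT.H
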