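import Fermat.Agent.LT.H.Tor
import Fermat.Agent.LT.H.WhitEigen
import Fermat.Agent.LT.J.CoefHecke
import Fermat.Agent.LT.I.Ext

/-!
# LT, piece H: a cusp form whose first Whittaker coefficient vanishes on the cell is zero

* `exists_gamma_one` : every point of `Y U` can be moved to the class of `1` at all places with
  `U.n w ≠ 0`;
* `eq_zero_of_cell` : if `cW φ 1 x y = 0` for all `y` in the cell then `φ = 0`.
-/

set_option autoImplicit false
set_option linter.unusedSectionVars false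

open NumberField IsDedekindDomain Matrix MeasureTheory Module Set
open scoped ComplexConjugate ENNReal Real

namespace Fermat.Agent.LT.H

open Fermat.LT Fermat.Agent.LT.I Fermat.Agent.LT.B

variable {F : Type} [Field F] [NumberField F]

/-- every point of `Y U` can be moved to the class of `1` at all places with `U.n w ≠ 0` -/
theorem exists_gamma_one (U : Level F) (y : Y U) :
    ∃ γ : G2 F, ∀ w, U.n w ≠ 0 → (γ • y) w = ((1 : G2 F) : Yl U w) := by
  classical
  set S : Finset (Pl F) := U.n_fin.toFinset with hS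
  have hmem : ∀ w, w ∈ S ↔ U.n w ≠ 0 := fun w => by rw [hS, Set.Finite.mem_toFinset]; rfl
  have h1 : ∀ w ∈ S, 1 ≤ U.n w := fun w hw => Nat.one_le_iff_ne_zero.2 ((hmem w).1 hw)
  rcases S.eq_empty_or_nonempty with hE | ⟨w0, hw0⟩
  · refine ⟨1, fun w hw => absurd ((hmem w).2 hw) ?_⟩
    rw [hE]; exact Finset.notMem_empty w
  have hrep : ∀ w, ∃ g : G2 F, (g : Yl U w) = y w := fun w =>
    QuotientGroup.mk_surjective (y w)
  choose g hg using hrep
  set ε : Pl F → ℝ := fun w => (qv w)⁻¹ ^ (U.n w) / nm w ((g w)⁻¹).1 with hε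
  have hε0 : ∀ w, 0 < ε w := fun w => div_pos (Ext.qinv_pos w _) (nm_pos w _)
  have h2 : ∀ i j : Fin 2, ∃ u : F, ∀ w ∈ S, av w (u - (g w).1 i j) ≤ ε w := fun i j => by
    obtain ⟨x, hx, -⟩ := Fermat.LT.strong_approx S (fun w => (g w).1 i j) ε hε0
    exact ⟨x, hx⟩
  choose u hu using h2
  set M : Matrix (Fin 2) (Fin 2) F := Matrix.of u with hM
  have key : ∀ w ∈ S, nm w (((g w)⁻¹).1 * M - 1) ≤ (qv w)⁻¹ ^ (U.n w) := by
    intro w hw
    have e : ((g w)⁻¹).1 * M - 1 = ((g w)⁻¹).1 * (M - (g w).1) := by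
      rw [mul_sub, ← Units.val_mul, inv_mul_cancel, Units.val_one]
    rw [e]
    have h3 : nm w (M - (g w).1) ≤ ε w := by
      rw [nm_le_iff]
      intro i j
      exact hu i j w hw
    calc nm w (((g w)⁻¹).1 * (M - (g w).1)) ≤ nm w ((g w)⁻¹).1 * nm w (M - (g w).1) :=
          nm_mul_le w _ _
      _ ≤ nm w ((g w)⁻¹).1 * ε w := mul_le_mul_of_nonneg_left h3 (Fermat.LT.nm_nonneg w _)
      _ = (qv w)⁻¹ ^ (U.n w) := by
          rw [hε]
          have := (nm_pos w (g w)⁻¹).ne'
          field_simp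
  have hdet : M.det ≠ 0 := by
    intro h0
    have hlt := Ext.qinv_lt_one w0 (h1 w0 hw0)
    have h3 := Ext.av_eq_one_of w0 ((Ext.av_det_sub_one_le w0 hlt.le (key w0 hw0)).trans_lt hlt)
    rw [Matrix.det_mul, h0, mul_zero, map_zero] at h3
    exact zero_ne_one h3
  set γ : G2 F := Matrix.GeneralLinearGroup.mkOfDetNeZero M hdet with hγ
  refine ⟨γ⁻¹, fun w hw' => ?_⟩
  have hw := (hmem w).2 hw'
  have h4 : (g w)⁻¹ * γ ∈ congGL w (U.n w) := by
    apply Ext.mem_congGL_of w (h1 w hw)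
    rw [Units.val_mul]
    exact key w hw
  rw [G2_smul_apply, ← hg w]
  change ((γ⁻¹ * g w : G2 F) : Yl U w) = _
  rw [eq_comm, QuotientGroup.eq, inv_one, one_mul]
  have h5 : γ⁻¹ * g w = ((g w)⁻¹ * γ)⁻¹ := by group
  rw [h5]
  exact U.cong_le w (inv_mem h4)

theorem InC_one {U : Level F} (w : Pl F) : InC w ((1 : G2 F) : Yl U w) :=
  ⟨1, 0, by rw [dg_one, mul_one]; congr 1; ext i j; fin_cases i <;> fin_cases j <;> simp⟩

/-- **A cusp form whose first Whittaker coefficients vanish on the cell is zero.** -/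
theorem eq_zero_of_cell {D : Datum F} {φ : X D → ℂ} (hφ : IsCusp φ)
    (h : ∀ y : Y D.toLevel, (∀ w, InC w (y w)) → ∀ x, cW φ 1 x y = 0) : φ = 0 := by
  have hinv : ∀ (g : G2 F) x, φ (g • x) = φ x := fun g x => hφ.inv (pmk g) x
  -- all coefficients vanish on the cell
  have h1 : ∀ y : Y D.toLevel, (∀ w, InC w (y w)) → ∀ ν x, cW φ ν x y = 0 := by
    intro y hy ν x
    by_cases hν : ν = 0
    · rw [hν]
      exact cW_zero_eq_zero hφ.mean hinv x y
    · have h2 := cW_dg hinv 1 (Units.mk0 ν hν) x y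
      rw [Units.val_mk0, one_mul] at h2
      rw [← h2]
      refine h _ (fun w => ?_) _
      have h3 := (hy w).smul (Units.mk0 ν hν) 0
      have h4 : un (0 : F) = 1 := by
        ext i j; fin_cases i <;> fin_cases j <;> simp
      rw [h4, one_mul] at h3
      exact h3
  -- hence `φ` vanishes there
  have h2 : ∀ p : X D, (∀ w, InC w (p.2 w)) → φ p = 0 := by
    intro p hp
    obtain ⟨z, x, y, rfl⟩ := exists_pt p
    exact J.CH.eq_zero_of_cW hφ.cont hinv x y (fun ν => h1 y hp ν x) z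
  funext p
  obtain ⟨γ, hγ⟩ := exists_gamma_one D.toLevel p.2
  rw [← hinv γ p]
  refine h2 _ fun w => ?_
  by_cases hw : D.n w = 0
  · exact InC_of_zero hw _
  · have h3 : (γ • p).2 w = (γ • p.2) w := rfl
    rw [h3, hγ w hw]
    exact InC_one w

end Fermat.Agent.LT.H
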