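import Fermat.Agent.LT.Top.STypeOf
import Fermat.Agent.LT.CTree.Hecke

/-!
# LT / H: the sum relation of the shell projector at one place (helper47, for helper81)
-/

set_option autoImplicit false

open NumberField IsDedekindDomain Matrix
open Fermat.LT Fermat.Agent.LT.B

namespace Fermat.Agent.LT.H

variable {F : Type} [Field F] [NumberField F]

/-- If `φ` is fixed by the shell projector at `w` then its sums over `un (rep w c)` vanish. -/
theorem sum_un_eq_zero {D : Datum F} {φ : X D → ℂ} {w : Pl F} {M : ℕ} (hH : D.H w = HT w M)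
    (h : opX w (ew w M) φ = φ) (x : X D) (g : G2 F) :
    ∑ c : 𝓞 F ⧸ w.asIdeal,
      φ (x.1, upd x.2 w ((g * un (CTree.rep w c) : G2 F) : Yl D.toLevel w)) = 0 := by
  have key : ∀ (H : Subgroup (G2 F)) (hH : H = HT w M) (ψ : G2 F ⧸ H → ℂ),
      (∀ a, ∑ᶠ b, kw H (ew w M) a b * ψ b = ψ a) →
      ∑ᶠ c : 𝓞 F ⧸ w.asIdeal, ψ ((g * un (CTree.rep w c) : G2 F) : G2 F ⧸ H) = 0 := by
    intro H hH ψ hψ
    subst hH
    exact (ew_fix_iff w M ψ).mp hψ g
  have h0 := key (D.H w) hH (fun z : Yl D.toLevel w => φ (x.1, upd x.2 w z)) fun a => by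
    have h1 := congrFun h (x.1, upd x.2 w a)
    unfold opX at h1
    rw [upd_same] at h1
    rw [← h1]
    refine finsum_congr fun z => ?_
    rw [Fermat.Agent.LT.B.upd_upd]
  rw [finsum_eq_sum_of_fintype] at h0
  exact h0

end Fermat.Agent.LT.H
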