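import Fermat.Agent.LT.H.Lattice
import Fermat.Agent.LT.A.Stab
import Fermat.Agent.LT.A.XMeas

/-!
# Fourier coefficients of functions on `X D` along the unipotent radical
-/

set_option autoImplicit false
set_option linter.unusedSectionVars false

open NumberField IsDedekindDomain Matrix MeasureTheory Module Set
open scoped ComplexConjugate ENNReal Real

namespace Fermat.Agent.LT.H

open Fermat.LT Fermat.Agent.LT.I

variable {F : Type} [Field F] [NumberField F]

section mulE

variable (A : Arch F)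

theorem det_mulE {c : F} (hc : c ≠ 0) :
    LinearMap.det (mulE A hc : (A.I → ℂ) →ₗ[ℝ] (A.I → ℂ)) = ∏ i, ‖A.emb i c‖ ^ 2 := by
  have h : (mulE A hc : (A.I → ℂ) →ₗ[ℝ] (A.I → ℂ)) = LinearMap.pi fun i =>
      ((ContinuousLinearMap.mul ℝ ℂ (A.emb i c) : ℂ →L[ℝ] ℂ) : ℂ →ₗ[ℝ] ℂ).comp
        (LinearMap.proj i) := by
    ext u i
    rfl
  rw [h, LinearMap.det_pi]
  exact Finset.prod_congr rfl fun i _ => H3.det_mul_complex _

/-- norm of the archimedean component -/
noncomputable def nE (c : F) : ℝ := ∏ i, ‖A.emb i c‖ ^ 2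

theorem nE_pos {c : F} (hc : c ≠ 0) : 0 < nE A c :=
  Finset.prod_pos fun i _ => by
    have : A.emb i c ≠ 0 := (map_ne_zero _).mpr hc
    positivity

theorem injective_mulE {c : F} (hc : c ≠ 0) : Function.Injective (mulE A hc) :=
  (mulE A hc).injective

theorem continuous_mulE {c : F} (hc : c ≠ 0) : Continuous (mulE A hc) :=
  continuous_const.mul continuous_id

theorem setIntegral_mulE {c : F} (hc : c ≠ 0) {s : Set (A.I → ℂ)} (hs : MeasurableSet s)
    (g : (A.I → ℂ) → ℂ) : ∫ u in mulE A hc '' s, g u = nE A c • ∫ u in s, g (embI A c * u) := by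
  have h := integral_image_eq_integral_abs_det_fderiv_smul (volume : Measure (A.I → ℂ)) hs
    (f := mulE A hc) (f' := fun _ => LinearMap.toContinuousLinearMap (mulE A hc : (A.I → ℂ) →ₗ[ℝ] (A.I → ℂ)))
    (fun x _ => (LinearMap.toContinuousLinearMap
      (mulE A hc : (A.I → ℂ) →ₗ[ℝ] (A.I → ℂ))).hasFDerivWithinAt)
    (injective_mulE A hc).injOn g
  rw [h]
  have hd : (LinearMap.toContinuousLinearMap (mulE A hc : (A.I → ℂ) →ₗ[ℝ] (A.I → ℂ))).det =
      nE A c := det_mulE A hc
  simp only [hd, abs_of_pos (nE_pos A hc)]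
  rw [integral_smul]
  rfl

theorem volume_mulE {c : F} (hc : c ≠ 0) (s : Set (A.I → ℂ)) :
    volume (mulE A hc '' s) = ENNReal.ofReal (nE A c) * volume s := by
  have := Measure.addHaar_image_linearMap (volume : Measure (A.I → ℂ))
    (mulE A hc : (A.I → ℂ) →ₗ[ℝ] (A.I → ℂ)) s
  rw [det_mulE] at this
  have h2 : |∏ i, ‖(A.emb i) c‖ ^ 2| = nE A c := abs_of_pos (nE_pos A hc)
  rw [h2] at this
  exact this

/-- multiplication of a subgroup by a scalar -/
def smulL (c : F) (L : AddSubgroup F) : AddSubgroup F := L.map (AddMonoidHom.mulLeft c)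

theorem mem_smulL {c x : F} (hc : c ≠ 0) {L : AddSubgroup F} : x ∈ smulL c L ↔ c⁻¹ * x ∈ L := by
  constructor
  · rintro ⟨y, hy, rfl⟩
    change c⁻¹ * (c * y) ∈ L
    rw [inv_mul_cancel_left₀ hc]; exact hy
  · intro h
    refine ⟨c⁻¹ * x, h, ?_⟩
    change c * (c⁻¹ * x) = x
    rw [mul_inv_cancel_left₀ hc]

theorem mem_dualOf_smulL {c ν : F} (hc : c ≠ 0) {L : AddSubgroup F} :
    ν ∈ dualOf A (smulL c L) ↔ ν * c ∈ dualOf A L := by
  constructor
  · intro h b hb
    obtain ⟨m, hm⟩ := h (c * b) ((mem_smulL hc).mpr (by rwa [inv_mul_cancel_left₀ hc]))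
    exact ⟨m, by rw [mul_assoc, hm]⟩
  · intro h b hb
    obtain ⟨m, hm⟩ := h (c⁻¹ * b) ((mem_smulL hc).mp hb)
    exact ⟨m, by rw [← hm, mul_assoc, mul_inv_cancel_left₀ hc]⟩

theorem IsBox.image_mulE {c : F} (hc : c ≠ 0) {L : AddSubgroup F} {s : Set (A.I → ℂ)}
    (hs : IsBox volume (latOf A L) s) : IsBox volume (latOf A (smulL c L)) (mulE A hc '' s) where
  meas := by
    have : (mulE A hc : (A.I → ℂ) → (A.I → ℂ)) '' s = (mulE A hc).symm ⁻¹' s :=
      (mulE A hc).toEquiv.image_eq_preimage_symm s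
    rw [this]
    have h2 : Continuous (mulE A hc).symm := continuous_const.mul continuous_id
    exact h2.measurable hs.meas
  pos := by
    rw [volume_mulE]
    have := nE_pos A hc
    simp [hs.pos, this]
  fin := by
    rw [volume_mulE]
    exact ENNReal.mul_ne_top ENNReal.ofReal_ne_top hs.fin
  uniq v := by
    obtain ⟨⟨g, hg⟩, hgs, hu⟩ := hs.uniq ((mulE A hc).symm v)
    obtain ⟨x, hx, rfl⟩ := (mem_latOf A).mp hg
    refine ⟨⟨embI A (c * x), (mem_latOf A).mpr ⟨c * x, (mem_smulL hc).mpr (by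
      rwa [inv_mul_cancel_left₀ hc]), rfl⟩⟩, ?_, ?_⟩
    · refine ⟨_, hgs, ?_⟩
      rw [map_add, LinearEquiv.apply_symm_apply, mulE_apply]
      simp only [map_mul]
    · rintro ⟨g', hg'⟩ hs'
      obtain ⟨x', hx', rfl⟩ := (mem_latOf A).mp hg'
      have h1 := (mem_smulL hc).mp hx'
      have h2 := hu ⟨embI A (c⁻¹ * x'), (mem_latOf A).mpr ⟨_, h1, rfl⟩⟩ (by
        obtain ⟨w, hw, hw2⟩ := hs'
        have : w = embI A (c⁻¹ * x') + (mulE A hc).symm v := by
          apply (mulE A hc).injective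
          rw [hw2, map_add, LinearEquiv.apply_symm_apply, mulE_apply, ← map_mul,
            mul_inv_cancel_left₀ hc]
        change embI A (c⁻¹ * x') + (mulE A hc).symm v ∈ s
        rw [← this]; exact hw)
      have h3 : embI A (c⁻¹ * x') = embI A x := congrArg Subtype.val h2
      apply Subtype.ext
      change embI A x' = embI A (c * x)
      rw [map_mul, ← h3, ← map_mul, mul_inv_cancel_left₀ hc]

theorem IsBox.translate {L : AddSubgroup F} {s : Set (A.I → ℂ)}
    (hs : IsBox volume (latOf A L) s) (a : A.I → ℂ) :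
    IsBox volume (latOf A L) ((fun u => a + u) ⁻¹' s) where
  meas := (measurable_const_add a) hs.meas
  pos := by rw [measure_preimage_add]; exact hs.pos
  fin := by rw [measure_preimage_add]; exact hs.fin
  uniq v := by
    obtain ⟨g, hg, hu⟩ := hs.uniq (a + v)
    refine ⟨g, ?_, ?_⟩
    · change a + (g + v) ∈ s
      rw [add_left_comm]; exact hg
    · intro g' hg'
      apply hu
      change a + (g' + v) ∈ s at hg'
      change (g' : A.I → ℂ) + (a + v) ∈ s
      rw [add_left_comm] at hg'; exact hg'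

end mulE

theorem isLat_bY {U : Level F} (y : Y U) : IsLat (bY y) where
  low := trans_fix y
  up := bY_bounded y

theorem exists_box (A : Arch F) {L : AddSubgroup F} (hL : IsLat L) :
    ∃ s, IsBox volume (latOf A L) s := by
  obtain ⟨m, β, b, hb, hmem⟩ := exists_latBasis A hL
  refine ⟨lbox b, isBox_lbox b fun v => ?_⟩
  rw [mem_latOf]
  have key : ∀ k : Fin m → ℤ, embI A (∑ i, (k i : F) * β i) = ∑ i, (k i : ℝ) • b i := by
    intro k
    rw [map_sum]
    refine Finset.sum_congr rfl fun i _ => ?_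
    rw [map_mul, map_intCast, hb]
    funext j
    simp
  constructor
  · rintro ⟨x, hx, rfl⟩
    obtain ⟨k, rfl⟩ := (hmem x).mp hx
    exact ⟨k, key k⟩
  · rintro ⟨k, rfl⟩
    exact ⟨_, (hmem _).mpr ⟨k, rfl⟩, key k⟩

open Classical in
/-- a chosen fundamental domain -/
noncomputable def bx (A : Arch F) (L : AddSubgroup F) : Set (A.I → ℂ) :=
  if h : ∃ s, IsBox volume (latOf A L) s then h.choose else ∅

theorem isBox_bx (A : Arch F) {L : AddSubgroup F} (hL : IsLat L) :
    IsBox volume (latOf A L) (bx A L) := by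
  have h := exists_box A hL
  rw [bx, dif_pos h]
  exact h.choose_spec

section pt

variable {D : Datum F}

/-- the point with coordinates `z`, `t = e^x`, `y` -/
noncomputable def pt (z : D.I → ℂ) (x : D.I → ℝ) (y : Y D.toLevel) : X D :=
  (fun i => H3.mk (z i) (Real.exp (x i)) (Real.exp_pos _), y)

/-- logarithms of the archimedean absolute values -/
noncomputable def la (A : Arch F) (a : Fˣ) : A.I → ℝ := fun i => Real.log ‖A.emb i (a : F)‖

theorem exp_la (A : Arch F) (a : Fˣ) (i : A.I) : Real.exp (la A a i) = ‖A.emb i (a : F)‖ := by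
  rw [la, Real.exp_log]
  exact norm_pos_iff.mpr ((map_ne_zero _).mpr a.ne_zero)

theorem la_mul (A : Arch F) (a b : Fˣ) : la A (a * b) = la A a + la A b := by
  funext i
  rw [Pi.add_apply, la, la, la, Units.val_mul, map_mul, norm_mul, Real.log_mul]
  · exact (norm_pos_iff.mpr ((map_ne_zero _).mpr a.ne_zero)).ne'
  · exact (norm_pos_iff.mpr ((map_ne_zero _).mpr b.ne_zero)).ne'

theorem la_one (A : Arch F) : la A (1 : Fˣ) = 0 := by
  funext i; simp [la]

theorem un_smul_pt (b : F) (z : D.I → ℂ) (x : D.I → ℝ) (y : Y D.toLevel) :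
    un b • pt z x y = pt (z + embI D.toArch b) x (un b • y) := by
  refine Prod.ext (funext fun i => H3.ext ?_ ?_) rfl
  · exact un_smul_z b _ i
  · exact un_smul_t b _ i

theorem dg_smul_pt (a : Fˣ) (z : D.I → ℂ) (x : D.I → ℝ) (y : Y D.toLevel) :
    dg a • pt z x y = pt (embI D.toArch a * z) (la D.toArch a + x) (dg a • y) := by
  refine Prod.ext (funext fun i => H3.ext ?_ ?_) rfl
  · exact dg_smul_z a _ i
  · refine (dg_smul_t a _ i).trans ?_
    change _ = Real.exp (la D.toArch a i + x i)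
    rw [Real.exp_add, exp_la]
    rfl

theorem exists_pt (p : X D) : ∃ z x y, p = pt z x y := by
  refine ⟨fun i => (p.1 i).z, fun i => Real.log (p.1 i).t, p.2, Prod.ext (funext fun i => ?_) rfl⟩
  refine H3.ext rfl ?_
  change (p.1 i).t = Real.exp (Real.log (p.1 i).t)
  rw [Real.exp_log (p.1 i).t_pos]

theorem continuous_pt_z (x : D.I → ℝ) (y : Y D.toLevel) :
    Continuous fun z : D.I → ℂ => (pt z x y : X D) := by
  refine Continuous.prodMk ?_ continuous_const
  refine continuous_pi fun i => ?_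
  rw [H3.continuous_iff]
  exact ⟨continuous_apply i, continuous_const⟩

theorem continuous_pt (y : Y D.toLevel) :
    Continuous fun p : (D.I → ℂ) × (D.I → ℝ) => (pt p.1 p.2 y : X D) := by
  refine Continuous.prodMk ?_ continuous_const
  refine continuous_pi fun i => ?_
  rw [H3.continuous_iff]
  refine ⟨(continuous_apply i).comp continuous_fst, ?_⟩
  exact Real.continuous_exp.comp ((continuous_apply i).comp continuous_snd)

variable {φ : X D → ℂ}

theorem periodic_pt (hinv : ∀ (g : G2 F) x, φ (g • x) = φ x) (x : D.I → ℝ) (y : Y D.toLevel) :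
    ∀ g ∈ latOf D.toArch (bY y), ∀ z, φ (pt (g + z) x y) = φ (pt z x y) := by
  intro g hg z
  obtain ⟨b, hb, rfl⟩ := (mem_latOf _).mp hg
  have h : un b • y = y := hb
  rw [← hinv (un b) (pt z x y), un_smul_pt, h, add_comm]

open Classical in
/-- the `ν`-th Fourier coefficient of `φ` at `(x, y)` -/
noncomputable def cW (φ : X D → ℂ) (ν : F) (x : D.I → ℝ) (y : Y D.toLevel) : ℂ :=
  if ν ∈ dualOf D.toArch (bY y) then
    fcoef D.toArch (bx D.toArch (bY y)) ν (fun z => φ (pt z x y)) else 0

theorem cW_eq_of_box (hinv : ∀ (g : G2 F) x, φ (g • x) = φ x) {ν : F} (x : D.I → ℝ)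
    {y : Y D.toLevel} (hν : ν ∈ dualOf D.toArch (bY y)) {s : Set (D.I → ℂ)}
    (hs : IsBox volume (latOf D.toArch (bY y)) s) :
    cW φ ν x y = fcoef D.toArch s ν (fun z => φ (pt z x y)) := by
  rw [cW, if_pos hν]
  exact fcoef_eq (isBox_bx _ (isLat_bY y)) hs hν (periodic_pt hinv x y)

theorem bY_un (b : F) (y : Y D.toLevel) : bY (un b • y) = bY y := by
  have key : ∀ (b : F) (y : Y D.toLevel), bY y ≤ bY (un b • y) := by
    intro b y c hc
    have hc' : un c • y = y := hc
    change un c • (un b • y) = un b • y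
    rw [← mul_smul, ← un_add, add_comm, un_add, mul_smul, hc']
  apply le_antisymm _ (key b y)
  have := key (-b) (un b • y)
  rwa [un_neg, inv_smul_smul] at this

theorem dg_un (a : Fˣ) (b : F) : dg a * un b = un ((a : F) * b) * dg a := by
  ext i j; fin_cases i <;> fin_cases j <;>
    simp [un_val, dg_val, Matrix.mul_apply, Fin.sum_univ_two]

theorem bY_dg (a : Fˣ) (y : Y D.toLevel) : bY (dg a • y) = smulL (a : F) (bY y) := by
  ext c
  rw [mem_smulL a.ne_zero]
  change un c • (dg a • y) = dg a • y ↔ un ((a : F)⁻¹ * c) • y = y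
  have h : un c * dg a = dg a * un ((a : F)⁻¹ * c) := by
    rw [dg_un, mul_inv_cancel_left₀ a.ne_zero]
  rw [← mul_smul, h, mul_smul]
  exact smul_left_cancel_iff _

theorem dg_mul (a b : Fˣ) : dg (a * b) = dg a * dg b := by
  ext i j; fin_cases i <;> fin_cases j <;>
    simp [dg_val, Matrix.mul_apply, Fin.sum_univ_two]

theorem dg_one : dg (1 : Fˣ) = 1 := by
  ext i j; fin_cases i <;> fin_cases j <;> simp [dg_val]

/-- behaviour of the Fourier coefficients under `un b` -/
theorem cW_un (hinv : ∀ (g : G2 F) x, φ (g • x) = φ x) (ν b : F) (x : D.I → ℝ) (y : Y D.toLevel) :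
    cW φ ν x (un b • y) = eC D.toArch (-ν) (embI D.toArch b) * cW φ ν x y := by
  have hb := bY_un b y
  by_cases hν : ν ∈ dualOf D.toArch (bY y)
  · have hν' : ν ∈ dualOf D.toArch (bY (un b • y)) := by rwa [hb]
    have hs := isBox_bx D.toArch (isLat_bY y)
    have hs' : IsBox volume (latOf D.toArch (bY (un b • y))) (bx D.toArch (bY y)) := by
      rw [hb]; exact hs
    rw [cW_eq_of_box hinv x hν' hs',
      cW_eq_of_box hinv x hν (hs.translate D.toArch (embI D.toArch b)), fcoef, fcoef,
      measure_preimage_add, mul_smul_comm]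
    congr 1
    have h1 := (measurePreserving_add_left (volume : Measure (D.I → ℂ))
      (embI D.toArch b)).setIntegral_preimage_emb
      (measurableEmbedding_addLeft (embI D.toArch b))
      (fun u => eC D.toArch (-ν) u * φ (pt u x (un b • y))) (bx D.toArch (bY y))
    rw [← h1, ← integral_const_mul]
    refine integral_congr_ae (Filter.Eventually.of_forall fun u => ?_)
    simp only
    rw [eC_add, mul_assoc]
    congr 2
    rw [← hinv (un b) (pt u x y), un_smul_pt, add_comm]
  · rw [cW, if_neg (by rwa [hb]), cW, if_neg hν, mul_zero]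

theorem norm_cW_un (hinv : ∀ (g : G2 F) x, φ (g • x) = φ x) (ν b : F) (x : D.I → ℝ)
    (y : Y D.toLevel) : ‖cW φ ν x (un b • y)‖ₑ = ‖cW φ ν x y‖ₑ := by
  rw [cW_un hinv, enorm_mul]
  have h : ‖eC D.toArch (-ν) (embI D.toArch b)‖ₑ = 1 := by
    rw [← ofReal_norm, norm_eC, ENNReal.ofReal_one]
  rw [h, one_mul]

/-- behaviour of the Fourier coefficients under `dg a` -/
theorem cW_dg (hinv : ∀ (g : G2 F) x, φ (g • x) = φ x) (ν : F) (a : Fˣ) (x : D.I → ℝ)
    (y : Y D.toLevel) :
    cW φ ν (la D.toArch a + x) (dg a • y) = cW φ (ν * a) x y := by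
  have hb := bY_dg a y
  by_cases hν : ν * a ∈ dualOf D.toArch (bY y)
  · have hν' : ν ∈ dualOf D.toArch (bY (dg a • y)) := by
      rw [hb]; exact (mem_dualOf_smulL _ a.ne_zero).mpr hν
    have hs := isBox_bx D.toArch (isLat_bY y)
    have hs' : IsBox volume (latOf D.toArch (bY (dg a • y)))
        (mulE D.toArch a.ne_zero '' bx D.toArch (bY y)) := by
      rw [hb]; exact hs.image_mulE D.toArch a.ne_zero
    rw [cW_eq_of_box hinv _ hν' hs', cW_eq_of_box hinv x hν hs, fcoef, fcoef, volume_mulE,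
      ENNReal.toReal_mul, ENNReal.toReal_ofReal (nE_pos _ a.ne_zero).le, setIntegral_mulE _ _ hs.meas,
      smul_smul]
    congr 1
    · have := (nE_pos D.toArch a.ne_zero).ne'
      rw [mul_inv, mul_assoc, mul_comm, mul_assoc, mul_inv_cancel₀ this, mul_one]
    · refine integral_congr_ae (Filter.Eventually.of_forall fun u => ?_)
      simp only
      rw [← dg_smul_pt, hinv]
      congr 1
      rw [eC, eC, ← mul_assoc, ← map_mul, neg_mul]
  · rw [cW, if_neg, cW, if_neg hν]
    rw [hb, mem_dualOf_smulL _ a.ne_zero]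
    exact hν

end pt

end Fermat.Agent.LT.H
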