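import Fermat.Agent.LT.H.CellR
import Fermat.Agent.LT.B.ConstTerm
import Fermat.Agent.LT.B.Cusp
import Fermat.Agent.LT.CTree.Hecke

/-!
# LT, piece H: the torus in `Y` (shared definitions)

* `tg k : GA F` : the element with components `dg (ϖ_w ^ k w)`;
* `psF A b = e(-Tr b)`;
* `IsWY A a` : `a (un b • y) = psF A b * a y`;
* `Jk k` : the ideal lattice `{b | ∀ w, |b|_w ≤ q_w ^ (-k w)}`;
* `IsTor e y k` : `y` is a torus point (all components are `dg (α w)`), `k w = ord_w (α w) + e w`;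
* `UnLev U e` : `un b ∈ U.H w ↔ |b|_w ≤ q_w ^ (-e w)`.
-/

set_option autoImplicit false
set_option linter.unusedSectionVars false

open NumberField IsDedekindDomain Matrix MeasureTheory Module Set
open scoped ComplexConjugate ENNReal Real

namespace Fermat.Agent.LT.H

open Fermat.LT Fermat.Agent.LT.I Fermat.Agent.LT.B
open Fermat.Agent.LT.CTree (unif lv av_unif)

variable {F : Type} [Field F] [NumberField F]

/-- the element of `GA F` with components `dg (ϖ_w ^ k w)` -/
noncomputable def tg (k : Pl F →₀ ℤ) : GA F :=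
  ⟨fun w => dg (unif w ^ k w), by
    refine (k.hasFiniteSupport).subset ?_
    intro w hw hk
    apply hw
    change dg (unif w ^ k w) ∈ intGL w
    rw [hk, zpow_zero, H.dg_one]
    exact one_mem _⟩

theorem tg_apply (k : Pl F →₀ ℤ) (w : Pl F) : (tg k).1 w = dg (unif w ^ k w) := rfl

theorem tg_smul_apply {U : Level F} (k : Pl F →₀ ℤ) (y : Y U) (w : Pl F) :
    (tg k • y) w = dg (unif w ^ k w) • y w := rfl

theorem tg_add (k l : Pl F →₀ ℤ) : tg (k + l) = tg k * tg l := by
  apply Subtype.ext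
  funext w
  change dg (unif w ^ (k w + l w)) = dg (unif w ^ k w) * dg (unif w ^ l w)
  rw [_root_.zpow_add, H.dg_mul]

theorem tg_zero : tg (0 : Pl F →₀ ℤ) = 1 := by
  apply Subtype.ext
  funext w
  change dg (unif w ^ (0 : ℤ)) = 1
  rw [zpow_zero, H.dg_one]

/-- `e(-Tr b)` -/
noncomputable def psF (A : Arch F) (b : F) : ℂ := eC A (-1) (embI A b)

theorem psF_add (A : Arch F) (b c : F) : psF A (b + c) = psF A b * psF A c := by
  rw [psF, map_add, eC_add]; rfl

theorem norm_psF (A : Arch F) (b : F) : ‖psF A b‖ = 1 := norm_eC A _ _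

theorem psF_ne_zero (A : Arch F) (b : F) : psF A b ≠ 0 := by
  intro h
  have := norm_psF A b
  rw [h, norm_zero] at this
  exact zero_ne_one this

theorem psF_eq_one_iff (A : Arch F) (b : F) : psF A b = 1 ↔ ∃ m : ℤ, trC A (embI A b) = m := by
  rw [psF, eC, Complex.exp_eq_one_iff]
  have h1 : trC A (embI A (-1) * embI A b) = - trC A (embI A b) := by
    rw [map_neg, map_one, neg_one_mul, trC_neg]
  rw [h1]
  have h2 : (2 * π * Complex.I : ℂ) ≠ 0 := Complex.two_pi_I_ne_zero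
  constructor
  · rintro ⟨n, hn⟩
    have h3 : ((-trC A (embI A b) : ℝ) : ℂ) = (n : ℂ) := by
      apply mul_left_cancel₀ h2
      rw [hn]; ring
    have h4 : -trC A (embI A b) = (n : ℝ) := by exact_mod_cast h3
    exact ⟨-n, by push_cast; linarith⟩
  · rintro ⟨m, hm⟩
    refine ⟨-m, ?_⟩
    rw [hm]; push_cast; ring

theorem one_mem_dualOf_iff (A : Arch F) (L : AddSubgroup F) :
    (1 : F) ∈ dualOf A L ↔ ∀ b ∈ L, psF A b = 1 := by
  constructor
  · intro h b hb
    rw [psF_eq_one_iff]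
    obtain ⟨m, hm⟩ := h b hb
    exact ⟨m, by rwa [one_mul] at hm⟩
  · intro h b hb
    obtain ⟨m, hm⟩ := (psF_eq_one_iff A b).mp (h b hb)
    exact ⟨m, by rwa [one_mul]⟩

/-- Whittaker functions on `Y` -/
def IsWY (A : Arch F) {U : Level F} (a : Y U → ℂ) : Prop :=
  ∀ (b : F) (y : Y U), a (un b • y) = psF A b * a y

theorem IsWY.supp {A : Arch F} {U : Level F} {a : Y U → ℂ} (h : IsWY A a) {y : Y U}
    (hy : a y ≠ 0) : (1 : F) ∈ dualOf A (bY y) := by
  rw [one_mem_dualOf_iff]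
  intro b hb
  have h1 := h b y
  have hb' : un b • y = y := hb
  rw [hb'] at h1
  exact (mul_right_cancel₀ hy (by rw [one_mul]; exact h1)).symm

theorem IsWY.add {A : Arch F} {U : Level F} {a a' : Y U → ℂ} (h : IsWY A a) (h' : IsWY A a') :
    IsWY A (fun y => a y + a' y) := by
  intro b y
  change a (un b • y) + a' (un b • y) = psF A b * (a y + a' y)
  rw [h, h', mul_add]

theorem IsWY.sub {A : Arch F} {U : Level F} {a a' : Y U → ℂ} (h : IsWY A a) (h' : IsWY A a') :
    IsWY A (fun y => a y - a' y) := by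
  intro b y
  change a (un b • y) - a' (un b • y) = psF A b * (a y - a' y)
  rw [h, h', mul_sub]

/-- ideal lattices -/
def Jk (k : Pl F → ℤ) : AddSubgroup F where
  carrier := {b | ∀ w, av w b ≤ qv w ^ (-k w)}
  add_mem' := by
    intro a b ha hb w
    exact (av_add_le w a b).trans (max_le (ha w) (hb w))
  zero_mem' := by
    intro w
    rw [map_zero]
    exact zpow_nonneg (qv_pos w).le _
  neg_mem' := by
    intro a ha w
    rw [(av w).map_neg]
    exact ha w

theorem mem_Jk {k : Pl F → ℤ} {b : F} : b ∈ Jk k ↔ ∀ w, av w b ≤ qv w ^ (-k w) := Iff.rfl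

/-- the unipotent part of the level -/
def UnLev (U : Level F) (e : Pl F → ℕ) : Prop :=
  ∀ (w : Pl F) (b : F), un b ∈ U.H w ↔ av w b ≤ (qv w)⁻¹ ^ e w

/-- `y` is a torus point with exponents `k` : `y w = dg (α w)`, `k w = ord_w (α w) + e w` -/
def IsTor {U : Level F} (e : Pl F → ℕ) (y : Y U) (k : Pl F → ℤ) : Prop :=
  ∀ w, ∃ α : Fˣ, y w = ((dg α : G2 F) : Yl U w) ∧ av w (α : F) = qv w ^ ((e w : ℤ) - k w)

omit [NumberField F] in
theorem dg_inv_un_dg (α : Fˣ) (b : F) :
    (dg α)⁻¹ * (un b * dg α) = un (((α⁻¹ : Fˣ) : F) * b) := by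
  have h : un b * dg α = dg α * un (((α⁻¹ : Fˣ) : F) * b) := by
    ext i j; fin_cases i <;> fin_cases j <;>
      simp [un_val, dg_val, Matrix.mul_apply, Fin.sum_univ_two]
  rw [h, inv_mul_cancel_left]

theorem un_smul_dg_iff {U : Level F} {e : Pl F → ℕ} (hU : UnLev U e) (w : Pl F) (α : Fˣ) (b : F) :
    un b • ((dg α : G2 F) : Yl U w) = ((dg α : G2 F) : Yl U w) ↔
      av w b ≤ av w (α : F) * (qv w)⁻¹ ^ e w := by
  change ((un b * dg α : G2 F) : Yl U w) = _ ↔ _
  rw [eq_comm, QuotientGroup.eq, dg_inv_un_dg, hU, map_mul, Units.val_inv_eq_inv_val, map_inv₀]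
  have h : 0 < av w (α : F) := (av w).pos α.ne_zero
  rw [inv_mul_le_iff₀ h]

theorem IsTor.bY_eq {U : Level F} {e : Pl F → ℕ} (hU : UnLev U e) {y : Y U} {k : Pl F → ℤ}
    (h : IsTor e y k) : bY y = Jk k := by
  ext b
  have h1 : b ∈ bY y ↔ ∀ w, un b • y w = y w := by
    constructor
    · intro hb w
      have hb' : un b • y = y := hb
      have := congrArg (fun z : Y U => z w) hb'
      exact this
    · intro hb
      exact Y.ext' fun w => hb w
  rw [h1, mem_Jk]
  refine forall_congr' fun w => ?_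
  obtain ⟨α, h2, h3⟩ := h w
  rw [h2, un_smul_dg_iff hU, h3, inv_pow, ← zpow_natCast, ← _root_.zpow_neg,
    ← zpow_add₀ (qv_pos w).ne']
  rw [show (e w : ℤ) - k w + -(e w : ℤ) = -k w by ring]

theorem IsTor.tg_smul {U : Level F} {e : Pl F → ℕ} {y : Y U} {k : Pl F → ℤ}
    (h : IsTor e y k) (m : Pl F →₀ ℤ) : IsTor e (tg m • y) (fun w => k w + m w) := by
  intro w
  obtain ⟨α, h2, h3⟩ := h w
  refine ⟨unif w ^ m w * α, ?_, ?_⟩
  · rw [tg_smul_apply, h2, H.dg_mul]; rfl
  · rw [Units.val_mul, map_mul, h3, Units.val_zpow_eq_zpow_val, map_zpow₀, av_unif, _root_.inv_zpow,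
      ← _root_.zpow_neg, ← zpow_add₀ (qv_pos w).ne']
    congr 1; ring

/-- the base point -/
theorem isTor_one {U : Level F} (e : Pl F → ℕ) :
    IsTor e (⟨fun w => ((1 : G2 F) : Yl U w), by simp⟩ : Y U) (fun w => (e w : ℤ)) := by
  intro w
  refine ⟨1, ?_, ?_⟩
  · rw [H.dg_one]
  · rw [sub_self, zpow_zero, Units.val_one, map_one]

end Fermat.Agent.LT.H
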