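import Fermat.Agent.LT.H.IdF
import Fermat.Agent.LT.H.Coef
import Fermat.Agent.LT.CTree.Val
import Fermat.Agent.LT.H.TorDef

/-!
LT piece H (helper30 for helper81): ideal lattices `Jk k`, the different, strong approximation,
covolumes and comparison of Fourier coefficients for nested lattices.
-/

set_option autoImplicit false
set_option linter.unusedSectionVars false

open NumberField IsDedekindDomain Matrix MeasureTheory Module Set
open scoped ENNReal nonZeroDivisors

namespace Fermat.Agent.LT.H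

open Fermat.LT Fermat.Agent.LT.I Fermat.Agent.LT.CTree

variable {F : Type} [Field F] [NumberField F]

/-! ### ideal lattices -/

theorem Jk_mono {k k' : Pl F → ℤ} (h : ∀ w, k' w ≤ k w) : Jk k ≤ Jk k' := by
  intro b hb w
  refine (hb w).trans ?_
  rw [zpow_le_zpow_iff_right₀ (one_lt_qv w)]
  have := h w
  omega

theorem mul_mem_Jk {k k' : Pl F → ℤ} {a b : F} (ha : a ∈ Jk k) (hb : b ∈ Jk k') :
    a * b ∈ Jk (k + k') := by
  intro w
  rw [map_mul, Pi.add_apply, neg_add, zpow_add₀ (qv_pos w).ne']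
  exact mul_le_mul (ha w) (hb w) ((av w).nonneg _) (zpow_pos (qv_pos w) _).le

theorem mem_Jk_zero {b : F} : b ∈ Jk (0 : Pl F → ℤ) ↔ ∃ a : 𝓞 F, (a : F) = b := by
  constructor
  · intro h
    have h1 : ∀ w : Pl F, w.valuation F b ≤ 1 := by
      intro w
      rw [← av_le_one_iff_valuation]
      simpa using h w
    exact IsDedekindDomain.HeightOneSpectrum.mem_integers_of_valuation_le_one F b h1
  · rintro ⟨a, rfl⟩ w
    simpa using av_int_le w a

theorem int_mul_mem_Jk {k : Pl F → ℤ} (a : 𝓞 F) {b : F} (hb : b ∈ Jk k) : (a : F) * b ∈ Jk k := by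
  have := mul_mem_Jk (mem_Jk_zero.mpr ⟨a, rfl⟩) hb
  rwa [zero_add] at this

/-- the idele family with exponents `k` -/
noncomputable def famK (k : Pl F → ℤ) (hk : {w | k w ≠ 0}.Finite) : IdeleFam F :=
  ⟨fun w => unif w ^ k w, by
    refine hk.subset fun w hw h => hw ?_
    show av w ((unif w ^ k w : Fˣ) : F) = 1
    rw [h, zpow_zero, Units.val_one, map_one]⟩

theorem av_unif_zpow_Jk (w : Pl F) (n : ℤ) : av w ((unif w ^ n : Fˣ) : F) = qv w ^ (-n) := by
  rw [Units.val_zpow_eq_zpow_val, map_zpow₀, av_unif, _root_.inv_zpow, ← _root_.zpow_neg]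

theorem av_famK (k : Pl F → ℤ) (hk : {w | k w ≠ 0}.Finite) (w : Pl F) :
    av w ((famK k hk).1 w : F) = qv w ^ (-k w) := av_unif_zpow_Jk w _

theorem mem_Jk_iff_idealOf {k : Pl F → ℤ} (hk : {w | k w ≠ 0}.Finite) {b : F} :
    b ∈ Jk k ↔ b ∈ idealOf (famK k hk) := by
  rw [One.mem_idealOf]
  exact forall_congr' fun w => by rw [av_famK]

theorem exists_small_Jk {k : Pl F → ℤ} (hk : {w | k w ≠ 0}.Finite) :
    ∃ c : 𝓞 F, c ≠ 0 ∧ (c : F) ∈ Jk k := by
  obtain ⟨c, hc, h⟩ := FractionalIdeal.exists_ne_zero_mem_isInteger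
    (idealOf_ne_zero (famK k hk))
  exact ⟨c, hc, (mem_Jk_iff_idealOf hk).mpr h⟩

theorem neg_finite {k : Pl F → ℤ} (hk : {w | k w ≠ 0}.Finite) : {w | (-k) w ≠ 0}.Finite := by
  refine hk.subset fun w hw h => hw ?_
  rw [Pi.neg_apply, h, neg_zero]

/-- **(T1)** -/
theorem isLat_Jk {k : Pl F → ℤ} (hk : {w | k w ≠ 0}.Finite) : IsLat (Jk k) where
  low := by
    obtain ⟨c, hc, h⟩ := exists_small_Jk hk
    refine ⟨c, hc, fun b => ?_⟩
    have := int_mul_mem_Jk b h
    rwa [mul_comm, ← map_mul] at this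
  up := by
    obtain ⟨n, hn, h⟩ := exists_small_Jk (neg_finite hk)
    refine ⟨n, hn, fun b hb => ?_⟩
    have := mul_mem_Jk h hb
    rw [neg_add_cancel] at this
    exact mem_Jk_zero.mp this

/-- **(T3)** strong approximation in `Jk k` -/
theorem Jk_approx {k : Pl F → ℤ} (hk : {w | k w ≠ 0}.Finite) (T : Finset (Pl F)) (b : Pl F → F)
    (hb : ∀ w ∈ T, av w (b w) ≤ qv w ^ (-k w)) (ε : Pl F → ℝ) (hε : ∀ w, 0 < ε w) :
    ∃ b' ∈ Jk k, ∀ w ∈ T, av w (b' - b w) ≤ ε w := by
  classical
  obtain ⟨x, hx1, hx2⟩ := strong_approx (T ∪ hk.toFinset) (fun w => if w ∈ T then b w else 0)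
    (fun w => min (ε w) (qv w ^ (-k w))) (fun w => lt_min (hε w) (zpow_pos (qv_pos w) _))
  refine ⟨x, fun w => ?_, fun w hw => ?_⟩
  · by_cases hw : w ∈ T
    · have h1 := hx1 w (Finset.mem_union_left _ hw)
      rw [if_pos hw] at h1
      have h2 : x = (x - b w) + b w := by ring
      rw [h2]
      exact (av_add_le w _ _).trans (max_le (h1.trans (min_le_right _ _)) (hb w hw))
    · by_cases hw2 : w ∈ hk.toFinset
      · have h1 := hx1 w (Finset.mem_union_right _ hw2)
        rw [if_neg hw, sub_zero] at h1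
        exact h1.trans (min_le_right _ _)
      · have h1 := hx2 w (by
          rw [Finset.mem_union]
          exact fun h => h.elim hw hw2)
        have h2 : k w = 0 := by
          by_contra h
          exact hw2 ((Set.Finite.mem_toFinset _).2 h)
        rw [h2, neg_zero, zpow_zero]
        exact h1
  · have h1 := hx1 w (Finset.mem_union_left _ hw)
    rw [if_pos hw] at h1
    exact h1.trans (min_le_left _ _)

/-- elements of `Jk k` with exact valuations at finitely many places -/
theorem exists_exact {k : Pl F → ℤ} (hk : {w | k w ≠ 0}.Finite) (T : Finset (Pl F)) :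
    ∃ b ∈ Jk k, ∀ w ∈ T, av w b = qv w ^ (-k w) := by
  obtain ⟨b, hb, h⟩ := Jk_approx hk T (fun w => ((unif w ^ k w : Fˣ) : F))
    (fun w _ => (av_unif_zpow_Jk w _).le) (fun w => qv w ^ (-k w - 1))
    (fun w => zpow_pos (qv_pos w) _)
  refine ⟨b, hb, fun w hw => ?_⟩
  have h1 := h w hw
  have h2 : b = (b - ((unif w ^ k w : Fˣ) : F)) + ((unif w ^ k w : Fˣ) : F) := by ring
  rw [h2, av_add_eq_of_lt, av_unif_zpow_Jk]
  rw [av_unif_zpow_Jk]
  refine h1.trans_lt ?_
  rw [zpow_lt_zpow_iff_right₀ (one_lt_qv w)]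
  omega

/-! ### the different -/

open Fermat.Agent.MW.Selmer in
theorem mem_fracIdeal_iff {J : FractionalIdeal (𝓞 F)⁰ F} (hJ : J ≠ 0) (x : F) :
    x ∈ J ↔ ∀ w : Pl F, av w x ≤ qv w ^ (-FractionalIdeal.count F w J) := by
  by_cases hx : x = 0
  · subst hx
    constructor
    · intro _ w
      rw [map_zero]
      exact (zpow_pos (qv_pos w) _).le
    · intro _
      exact J.coeToSubmodule.zero_mem
  set X : Fˣ := Units.mk0 x hx with hX
  have hspan : FractionalIdeal.spanSingleton (𝓞 F)⁰ x ≠ 0 := by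
    rw [Ne, FractionalIdeal.spanSingleton_eq_zero_iff]; exact hx
  have hcx : ∀ w, FractionalIdeal.count F w (FractionalIdeal.spanSingleton (𝓞 F)⁰ x) = cnt w X :=
    fun w => rfl
  have key : x ∈ J ↔ ∀ w : Pl F, FractionalIdeal.count F w J ≤ cnt w X := by
    rw [← FractionalIdeal.spanSingleton_le_iff_mem]
    constructor
    · intro h w
      have := FractionalIdeal.count_mono F w hspan h
      rw [hcx] at this
      exact this
    · intro h
      have h1 : FractionalIdeal.spanSingleton (𝓞 F)⁰ x * J⁻¹ ≤ 1 := by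
        refine One.fracIdeal_le_one (mul_ne_zero hspan (inv_ne_zero hJ)) fun w => ?_
        rw [FractionalIdeal.count_mul F w hspan (inv_ne_zero hJ),
          FractionalIdeal.count_inv, hcx]
        have := h w
        omega
      have h2 : FractionalIdeal.spanSingleton (𝓞 F)⁰ x =
          (FractionalIdeal.spanSingleton (𝓞 F)⁰ x * J⁻¹) * J := by
        rw [mul_assoc, inv_mul_cancel₀ hJ, mul_one]
      rw [h2]
      calc (FractionalIdeal.spanSingleton (𝓞 F)⁰ x * J⁻¹) * J
          ≤ 1 * J := mul_le_mul' h1 le_rfl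
        _ = J := one_mul _
  rw [key]
  refine forall_congr' fun w => ?_
  have e : av w x = av w (X : F) := rfl
  rw [e, Fermat.LT.av_eq_zpow, One.qv_zpow_le_iff]

variable (F) in
/-- the codifferent -/
noncomputable def codiff : FractionalIdeal (𝓞 F)⁰ F :=
  FractionalIdeal.dual ℤ ℚ (1 : FractionalIdeal (𝓞 F)⁰ F)

theorem codiff_ne_zero : codiff F ≠ 0 := FractionalIdeal.dual_ne_zero ℤ ℚ one_ne_zero

theorem mem_codiff {x : F} :
    x ∈ codiff F ↔ ∀ a : 𝓞 F, ∃ m : ℤ, Algebra.trace ℚ F (x * a) = m := by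
  rw [codiff, FractionalIdeal.mem_dual (A := ℤ) (K := ℚ)
    (one_ne_zero : (1 : FractionalIdeal (𝓞 F)⁰ F) ≠ 0)]
  constructor
  · intro h a
    obtain ⟨m, hm⟩ := h (a : F) ((FractionalIdeal.mem_one_iff _).mpr ⟨a, rfl⟩)
    exact ⟨m, by rw [← Algebra.traceForm_apply, ← hm]; rfl⟩
  · intro h a ha
    obtain ⟨a', rfl⟩ := (FractionalIdeal.mem_one_iff _).mp ha
    obtain ⟨m, hm⟩ := h a'
    exact ⟨m, by rw [Algebra.traceForm_apply]; exact hm.symm⟩

/-- the exponent of the different -/
noncomputable def dExp (w : Pl F) : ℤ := -FractionalIdeal.count F w (codiff F)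

theorem dExp_finite : {w : Pl F | dExp w ≠ 0}.Finite := by
  have h := FractionalIdeal.finite_factors (K := F) (codiff F)
  rw [Filter.eventually_cofinite] at h
  refine h.subset fun w hw h0 => hw ?_
  rw [dExp, h0, neg_zero]

theorem mem_codiff_iff {x : F} : x ∈ codiff F ↔ ∀ w : Pl F, av w x ≤ qv w ^ dExp w :=
  mem_fracIdeal_iff codiff_ne_zero x

theorem dExp_nonneg (w : Pl F) : 0 ≤ dExp w := by
  have h1 : (1 : F) ∈ codiff F := by
    rw [mem_codiff]
    intro a
    have h2 : IsIntegral ℤ (Algebra.trace ℚ F (1 * (a : F))) := by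
      rw [one_mul]
      exact Algebra.isIntegral_trace a.isIntegral_coe
    obtain ⟨m, hm⟩ := IsIntegrallyClosed.isIntegral_iff.mp h2
    exact ⟨m, hm.symm⟩
  have h2 := mem_codiff_iff.mp h1 w
  rw [map_one, ← zpow_zero (qv w), zpow_le_zpow_iff_right₀ (one_lt_qv w)] at h2
  exact h2

/-- **(T2)** -/
theorem one_mem_dualOf_Jk {k : Pl F → ℤ} (hk : {w | k w ≠ 0}.Finite) (A : Arch F) :
    (1 : F) ∈ dualOf A (Jk k) ↔ ∀ w, -dExp w ≤ k w := by
  have h0 : (1 : F) ∈ dualOf A (Jk k) ↔ ∀ b ∈ Jk k, ∃ m : ℤ, Algebra.trace ℚ F b = m := by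
    refine forall₂_congr fun b _ => exists_congr fun m => ?_
    rw [one_mul, trC_embI]
    constructor
    · intro h; exact_mod_cast h
    · intro h; rw [h]; push_cast; rfl
  rw [h0]
  constructor
  · intro h w
    obtain ⟨b, hb, hbw⟩ := exists_exact hk {w}
    have h1 : b ∈ codiff F := by
      rw [mem_codiff]
      intro a
      refine h _ ?_
      rw [mul_comm]
      exact int_mul_mem_Jk a hb
    have h2 := mem_codiff_iff.mp h1 w
    rw [hbw w (Finset.mem_singleton_self w), zpow_le_zpow_iff_right₀ (one_lt_qv w)] at h2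
    omega
  · intro h b hb
    have h1 : b ∈ codiff F := by
      rw [mem_codiff_iff]
      intro w
      refine (hb w).trans ?_
      rw [zpow_le_zpow_iff_right₀ (one_lt_qv w)]
      have := h w
      omega
    obtain ⟨m, hm⟩ := mem_codiff.mp h1 1
    exact ⟨m, by simpa using hm⟩

/-- **(T2)**, existential form -/
theorem exists_different (F : Type) [Field F] [NumberField F] :
    ∃ δ : Pl F → ℤ, {w | δ w ≠ 0}.Finite ∧
      ∀ (k : Pl F → ℤ), {w | k w ≠ 0}.Finite → ∀ A : Arch F,
        ((1 : F) ∈ dualOf A (Jk k) ↔ ∀ w, -δ w ≤ k w) :=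
  ⟨dExp, dExp_finite, fun _ hk A => one_mem_dualOf_Jk hk A⟩

/-! ### nested lattices -/

section nested

variable {A : Arch F} {L L' : AddSubgroup F}

theorem nonempty_I (A : Arch F) : Nonempty A.I := by
  obtain ⟨w⟩ : Nonempty (InfinitePlace F) := inferInstance
  exact ⟨A.equiv.symm w⟩

theorem embI_inj (A : Arch F) : Function.Injective (embI A) := by
  have := nonempty_I A
  exact (embI A).injective

/-- the quotient of nested lattices -/
abbrev Qn (L' L : AddSubgroup F) : Type := L ⧸ L'.addSubgroupOf L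

/-- a representative of a class -/
noncomputable def rpn (q : Qn L' L) : L := Quotient.out q

theorem mk_rpn (q : Qn L' L) : (QuotientAddGroup.mk (rpn q) : Qn L' L) = q := Quotient.out_eq' q

/-- the union of translates of a box -/
noncomputable def ubox (A : Arch F) (L' L : AddSubgroup F) (s : Set (A.I → ℂ)) :
    Set (A.I → ℂ) :=
  ⋃ q : Qn L' L, (fun u => embI A ((rpn q : L) : F) + u) '' s

theorem mem_tr {A : Arch F} {x : F} {s : Set (A.I → ℂ)} {u : A.I → ℂ} :
    u ∈ (fun u => embI A x + u) '' s ↔ embI A (-x) + u ∈ s := by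
  constructor
  · rintro ⟨v, hv, rfl⟩
    rw [map_neg, neg_add_cancel_left]
    exact hv
  · intro h
    refine ⟨_, h, ?_⟩
    simp only [map_neg, add_neg_cancel_left]

theorem countable_Qn : Countable (Qn L' L) := by
  have : Countable F := Finsupp.Countable.of_moduleFinite (R := ℚ)
  have h2 : Countable L := inferInstance
  exact Quotient.countable

theorem measurableSet_tr {x : F} {s : Set (A.I → ℂ)} (hs : MeasurableSet s) :
    MeasurableSet ((fun u => embI A x + u) '' s) := by
  have : (fun u => embI A x + u) '' s = (fun u => embI A (-x) + u) ⁻¹' s := by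
    ext u
    exact mem_tr
  rw [this]
  exact hs.preimage (measurable_const_add _)

theorem measurableSet_ubox {s : Set (A.I → ℂ)} (hs : MeasurableSet s) :
    MeasurableSet (ubox A L' L s) := by
  have := countable_Qn (L' := L') (L := L)
  exact MeasurableSet.iUnion fun q => measurableSet_tr hs

/-- uniqueness in a box, in terms of elements of the lattice -/
theorem box_uniq {s : Set (A.I → ℂ)} (h : ∀ v, ∃! g : latOf A L, (g : A.I → ℂ) + v ∈ s)
    (v : A.I → ℂ) : ∃ x ∈ L, embI A x + v ∈ s ∧ ∀ y ∈ L, embI A y + v ∈ s → y = x := by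
  obtain ⟨⟨g, x, hx, rfl⟩, hg, hu⟩ := h v
  refine ⟨x, hx, hg, fun y hy hys => ?_⟩
  have := hu ⟨embI A y, y, hy, rfl⟩ hys
  exact embI_inj A (congrArg Subtype.val this)

theorem ubox_uniq (hle : L' ≤ L) {s : Set (A.I → ℂ)}
    (h : ∀ v, ∃! g : latOf A L, (g : A.I → ℂ) + v ∈ s) (v : A.I → ℂ) :
    ∃! g : latOf A L', (g : A.I → ℂ) + v ∈ ubox A L' L s := by
  obtain ⟨x, hx, hxs, hxu⟩ := box_uniq h v
  let q0 : Qn L' L := QuotientAddGroup.mk (-⟨x, hx⟩ : L)
  have hq0 : ((rpn q0 : L) : F) + x ∈ L' := by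
    have h1 : (QuotientAddGroup.mk (rpn q0) : Qn L' L) = QuotientAddGroup.mk (-⟨x, hx⟩ : L) :=
      mk_rpn q0
    have h2 := QuotientAddGroup.eq.mp h1.symm
    rw [AddSubgroup.mem_addSubgroupOf] at h2
    have h3 : ((-(-⟨x, hx⟩ : L) + rpn q0 : L) : F) = ((rpn q0 : L) : F) + x := by
      rw [neg_neg, AddSubgroup.coe_add, add_comm]
    rwa [h3] at h2
  refine ⟨⟨embI A (((rpn q0 : L) : F) + x), _, hq0, rfl⟩, ?_, ?_⟩
  · refine mem_iUnion.mpr ⟨q0, ?_⟩
    rw [mem_tr]
    have : embI A (-((rpn q0 : L) : F)) + (embI A (((rpn q0 : L) : F) + x) + v)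
        = embI A x + v := by
      rw [← add_assoc, ← map_add]
      congr 2
      ring
    show embI A (-((rpn q0 : L) : F)) + (embI A (((rpn q0 : L) : F) + x) + v) ∈ s
    rw [this]
    exact hxs
  · rintro ⟨g, y, hy, rfl⟩ hg
    obtain ⟨q, hq⟩ := mem_iUnion.mp hg
    rw [mem_tr] at hq
    have h1 : embI A (-((rpn q : L) : F)) + (embI A y + v)
        = embI A (y - ((rpn q : L) : F)) + v := by
      rw [← add_assoc, ← map_add]
      congr 2
      ring
    have h2 : embI A (y - ((rpn q : L) : F)) + v ∈ s := by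
      rw [← h1]
      exact hq
    have h3 := hxu _ (L.sub_mem (hle hy) (rpn q).2) h2
    have h4 : q = q0 := by
      rw [← mk_rpn q]
      refine QuotientAddGroup.eq.mpr ?_
      rw [AddSubgroup.mem_addSubgroupOf]
      have : ((-(rpn q) + (-⟨x, hx⟩ : L) : L) : F) = -y := by
        rw [AddSubgroup.coe_add, AddSubgroup.coe_neg, AddSubgroup.coe_neg]
        show -((rpn q : L) : F) + -x = -y
        rw [← h3]
        ring
      rw [this]
      exact L'.neg_mem hy
    subst h4
    refine Subtype.ext ?_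
    show embI A y = embI A (((rpn q0 : L) : F) + x)
    congr 1
    rw [← h3]
    ring

theorem volume_ubox {s : Set (A.I → ℂ)} (hs : MeasurableSet s)
    (h : ∀ v, ∃! g : latOf A L, (g : A.I → ℂ) + v ∈ s) :
    volume (ubox A L' L s) = ∑' _ : Qn L' L, volume s := by
  have hc := countable_Qn (L' := L') (L := L)
  unfold ubox
  rw [measure_iUnion]
  · refine tsum_congr fun q => ?_
    have : (fun u => embI A ((rpn q : L) : F) + u) '' s
        = (fun u => embI A (-((rpn q : L) : F)) + u) ⁻¹' s := by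
      ext u
      exact mem_tr
    rw [this, measure_preimage_add]
  · intro q q' hqq
    rw [Function.onFun, Set.disjoint_left]
    intro u hu hu'
    apply hqq
    rw [mem_tr] at hu hu'
    obtain ⟨x, hx, -, hxu⟩ := box_uniq h u
    have h1 := hxu _ (L.neg_mem (rpn q).2) hu
    have h2 := hxu _ (L.neg_mem (rpn q').2) hu'
    have h3 : rpn q = rpn q' := Subtype.ext (neg_injective (h1.trans h2.symm))
    rw [← mk_rpn q, ← mk_rpn q', h3]
  · intro q
    exact measurableSet_tr hs

theorem finite_Qn (A : Arch F) (hL' : IsLat L') (hL : IsLat L) (hle : L' ≤ L) :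
    Finite (Qn L' L) := by
  have hb := isBox_bx A hL
  have hb' := isBox_bx A hL'
  have hc := countable_latOf (A := A) (L := L')
  have hfd : IsAddFundamentalDomain (latOf A L') (ubox A L' L (bx A L)) (volume : Measure (A.I → ℂ)) :=
    IsAddFundamentalDomain.mk' (measurableSet_ubox hb.meas).nullMeasurableSet
      (ubox_uniq hle hb.uniq)
  have h1 := hfd.measure_eq hb'.isAddFundamentalDomain
  rw [volume_ubox hb.meas hb.uniq] at h1
  by_contra hinf
  rw [not_finite_iff_infinite] at hinf
  rw [ENNReal.tsum_const_eq_top_of_ne_zero hb.pos] at h1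
  exact hb'.fin h1.symm

theorem relIndex_ne_zero_isLat (A : Arch F) (hL' : IsLat L') (hL : IsLat L) (hle : L' ≤ L) :
    L'.relIndex L ≠ 0 := by
  have := finite_Qn A hL' hL hle
  exact AddSubgroup.index_ne_zero_of_finite

theorem isBox_ubox (hL' : IsLat L') (hL : IsLat L) (hle : L' ≤ L) {s : Set (A.I → ℂ)}
    (hs : IsBox volume (latOf A L) s) : IsBox volume (latOf A L') (ubox A L' L s) where
  meas := measurableSet_ubox hs.meas
  uniq := ubox_uniq hle hs.uniq
  pos := by
    rw [volume_ubox hs.meas hs.uniq]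
    intro h
    rw [ENNReal.tsum_eq_zero] at h
    exact hs.pos (h (QuotientAddGroup.mk 0))
  fin := by
    have := finite_Qn A hL' hL hle
    rw [volume_ubox hs.meas hs.uniq, ENNReal.tsum_const]
    exact ENNReal.mul_ne_top (by simpa using this) hs.fin

/-- **(T4)** covolumes -/
theorem volume_bx_relIndex (A : Arch F) (hL' : IsLat L') (hL : IsLat L) (hle : L' ≤ L) :
    volume (bx A L') = (L'.relIndex L : ℝ≥0∞) * volume (bx A L) := by
  have hfin := finite_Qn A hL' hL hle
  have h := isBox_ubox (A := A) hL' hL hle (isBox_bx A hL)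
  rw [measure_box_eq (isBox_bx A hL') h, volume_ubox (isBox_bx A hL).meas (isBox_bx A hL).uniq,
    ENNReal.tsum_const]
  congr 1
  rw [ENat.card_eq_coe_natCard]
  rfl

theorem dualOf_anti (A : Arch F) (hle : L' ≤ L) : dualOf A L ⊆ dualOf A L' :=
  fun _ hν b hb => hν b (hle hb)

theorem latOf_mono (A : Arch F) (hle : L' ≤ L) : latOf A L' ≤ latOf A L :=
  AddSubgroup.map_mono hle

/-- the standard box is contained in a compact set -/
theorem exists_compact_box (A : Arch F) (hL : IsLat L) :
    ∃ s, IsBox volume (latOf A L) s ∧ ∃ K, IsCompact K ∧ s ⊆ K := by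
  obtain ⟨m, β, b, hb, hmem⟩ := exists_latBasis A hL
  refine ⟨lbox b, isBox_lbox b fun v => ?_, ?_⟩
  · rw [mem_latOf]
    have key : ∀ k : Fin m → ℤ, embI A (∑ i, (k i : F) * β i) = ∑ i, (k i : ℝ) • b i := by
      intro k
      rw [map_sum]
      refine Finset.sum_congr rfl fun i _ => ?_
      rw [map_mul, map_intCast, hb]
      funext j
      simp
    constructor
    · rintro ⟨x, hx, rfl⟩
      obtain ⟨k, rfl⟩ := (hmem x).mp hx
      exact ⟨k, key k⟩
    · rintro ⟨k, rfl⟩
      exact ⟨_, (hmem _).mpr ⟨k, rfl⟩, key k⟩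
  · refine ⟨b.equivFunL.symm '' (Set.pi univ fun _ => Icc (0 : ℝ) 1),
      (isCompact_univ_pi fun i => isCompact_Icc).image b.equivFunL.symm.continuous, ?_⟩
    intro v hv
    refine ⟨b.equivFunL v, fun i _ => ?_, by simp⟩
    have := hv i
    simp only [Pi.zero_apply, Int.cast_zero, zero_add] at this
    exact Ioc_subset_Icc_self this

/-- continuous periodic functions are integrable on every box -/
theorem integrableOn_isBox (hL : IsLat L) {s : Set (A.I → ℂ)} (hs : IsBox volume (latOf A L) s)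
    {h : (A.I → ℂ) → ℂ} (hc : Continuous h)
    (hper : ∀ g ∈ latOf A L, ∀ u, h (g + u) = h u) : IntegrableOn h s := by
  obtain ⟨s0, hs0, K, hK, hsK⟩ := exists_compact_box A hL
  refine ⟨hc.aestronglyMeasurable, ?_⟩
  unfold HasFiniteIntegral
  rw [lintegral_box_eq hs hs0 fun g hg u => by rw [hper g hg]]
  exact ((hc.continuousOn.integrableOn_compact hK).mono_set hsK).2

theorem eC_periodic {ν : F} (hν : ν ∈ dualOf A L) {f : (A.I → ℂ) → ℂ}
    (hper : ∀ g ∈ latOf A L, ∀ u, f (g + u) = f u) :
    ∀ g ∈ latOf A L, ∀ u, eC A (-ν) (g + u) * f (g + u) = eC A (-ν) u * f u :=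
  fun g hg u => by rw [eC_neg_periodic A hν hg, hper g hg]

theorem integral_ubox (hL' : IsLat L') (hL : IsLat L) (hle : L' ≤ L) {s : Set (A.I → ℂ)}
    (hs : IsBox volume (latOf A L) s) {h : (A.I → ℂ) → ℂ} (hc : Continuous h)
    (hper : ∀ g ∈ latOf A L, ∀ u, h (g + u) = h u) :
    ∫ u in ubox A L' L s, h u = (L'.relIndex L : ℂ) * ∫ u in s, h u := by
  have hfin := finite_Qn A hL' hL hle
  have hbu := isBox_ubox (A := A) hL' hL hle hs
  have hint : IntegrableOn h (ubox A L' L s) :=
    integrableOn_isBox hL' hbu hc fun g hg u => hper g (latOf_mono A hle hg) u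
  have hdisj : Pairwise (Function.onFun Disjoint
      fun q : Qn L' L => (fun u => embI A ((rpn q : L) : F) + u) '' s) := by
    intro q q' hqq
    rw [Function.onFun, Set.disjoint_left]
    intro u hu hu'
    apply hqq
    rw [mem_tr] at hu hu'
    obtain ⟨x, hx, -, hxu⟩ := box_uniq hs.uniq u
    have h1 := hxu _ (L.neg_mem (rpn q).2) hu
    have h2 := hxu _ (L.neg_mem (rpn q').2) hu'
    have h3 : rpn q = rpn q' := Subtype.ext (neg_injective (h1.trans h2.symm))
    rw [← mk_rpn q, ← mk_rpn q', h3]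
  have hcount := countable_Qn (L' := L') (L := L)
  have h1 : ∫ u in ubox A L' L s, h u = ∑' q : Qn L' L,
      ∫ u in (fun u => embI A ((rpn q : L) : F) + u) '' s, h u :=
    integral_iUnion (fun q => measurableSet_tr hs.meas) hdisj hint
  have h2 : ∀ q : Qn L' L, ∫ u in (fun u => embI A ((rpn q : L) : F) + u) '' s, h u
      = ∫ u in s, h u := by
    intro q
    have he : MeasurableEmbedding fun u : A.I → ℂ => embI A ((rpn q : L) : F) + u :=
      measurableEmbedding_addLeft _
    have hmp : MeasurePreserving (fun u : A.I → ℂ => embI A ((rpn q : L) : F) + u) :=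
      measurePreserving_add_left volume _
    rw [hmp.setIntegral_image_emb he]
    refine setIntegral_congr_fun hs.meas fun u _ => ?_
    exact hper _ ⟨_, (rpn q).2, rfl⟩ u
  rw [h1, tsum_congr h2]
  have := Fintype.ofFinite (Qn L' L)
  rw [tsum_fintype, Finset.sum_const, nsmul_eq_mul]
  congr 1
  rw [Finset.card_univ, ← Nat.card_eq_fintype_card]
  rfl

/-- **(T4)** Fourier coefficients for nested lattices, `ν` in the smaller dual -/
theorem fcoef_of_le_mem (hL' : IsLat L') (hL : IsLat L) (hle : L' ≤ L) {f : (A.I → ℂ) → ℂ}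
    (hf : Continuous f) (hper : ∀ g ∈ latOf A L, ∀ u, f (g + u) = f u) {ν : F}
    (hν : ν ∈ dualOf A L) : fcoef A (bx A L') ν f = fcoef A (bx A L) ν f := by
  have hb := isBox_bx A hL
  have hbu := isBox_ubox (A := A) hL' hL hle hb
  rw [fcoef_eq (isBox_bx A hL') hbu (dualOf_anti A hle hν)
    fun g hg u => hper g (latOf_mono A hle hg) u]
  have h1 : ∫ u in ubox A L' L (bx A L), eC A (-ν) u * f u =
      (L'.relIndex L : ℂ) * ∫ u in bx A L, eC A (-ν) u * f u :=
    integral_ubox (h := fun u => eC A (-ν) u * f u) hL' hL hle hb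
      ((continuous_eC A (-ν)).mul hf) (eC_periodic hν hper)
  have h2 := volume_bx_relIndex A hL' hL hle
  rw [measure_box_eq (isBox_bx A hL') hbu] at h2
  have hn : (L'.relIndex L : ℂ) ≠ 0 := by exact_mod_cast relIndex_ne_zero_isLat A hL' hL hle
  have hv : ((volume (bx A L)).toReal : ℂ) ≠ 0 := by
    exact_mod_cast (ENNReal.toReal_pos hb.pos hb.fin).ne'
  rw [fcoef, fcoef]
  refine (congrArg (fun z : ℂ => (volume (ubox A L' L (bx A L))).toReal⁻¹ • z) h1).trans ?_
  rw [h2, ENNReal.toReal_mul, ENNReal.toReal_natCast, Complex.real_smul, Complex.real_smul]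
  push_cast
  field_simp

/-- **(T4)** Fourier coefficients for nested lattices, `ν` not in the smaller dual -/
theorem fcoef_of_le_notMem (hL' : IsLat L') (hle : L' ≤ L) {f : (A.I → ℂ) → ℂ}
    (hper : ∀ g ∈ latOf A L, ∀ u, f (g + u) = f u) {ν : F}
    (hν' : ν ∈ dualOf A L') (hν : ν ∉ dualOf A L) : fcoef A (bx A L') ν f = 0 := by
  have hb' := isBox_bx A hL'
  -- an element of `L` on which the character is not trivial
  have h1 : ∃ b ∈ L, ¬ ∃ m : ℤ, trC A (embI A (ν * b)) = m := by
    by_contra h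
    push Not at h
    exact hν fun b hb => h b hb
  obtain ⟨b, hb, hbm⟩ := h1
  have hne : eC A (-ν) (embI A b) ≠ 1 := by
    intro h
    apply hbm
    rw [eC, Complex.exp_eq_one_iff] at h
    obtain ⟨n, hn⟩ := h
    have h2 : (2 * Real.pi * Complex.I : ℂ) ≠ 0 := Complex.two_pi_I_ne_zero
    have h3 : ((trC A (embI A (-ν) * embI A b) : ℝ) : ℂ) = (n : ℂ) := by
      apply mul_left_cancel₀ h2
      rw [hn]; ring
    have h4 : trC A (embI A (-ν) * embI A b) = (n : ℝ) := by exact_mod_cast h3
    rw [← map_mul, neg_mul, map_neg, trC_neg] at h4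
    exact ⟨-n, by push_cast; linarith⟩
  -- the translated box
  have hbox : IsBox volume (latOf A L') ((fun u => embI A b + u) '' (bx A L')) := by
    refine ⟨measurableSet_tr hb'.meas, fun v => ?_, ?_, ?_⟩
    · obtain ⟨g, hg, hu⟩ := hb'.uniq (embI A (-b) + v)
      refine ⟨g, ?_, fun g' hg' => hu g' ?_⟩
      · refine mem_tr.mpr ?_
        rw [add_left_comm]
        exact hg
      · have := mem_tr.mp hg'
        rw [add_left_comm] at this
        exact this
    · have : (fun u => embI A b + u) '' (bx A L') = (fun u => embI A (-b) + u) ⁻¹' (bx A L') := by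
        ext u
        exact mem_tr
      rw [this, measure_preimage_add]
      exact hb'.pos
    · have : (fun u => embI A b + u) '' (bx A L') = (fun u => embI A (-b) + u) ⁻¹' (bx A L') := by
        ext u
        exact mem_tr
      rw [this, measure_preimage_add]
      exact hb'.fin
  have hper' : ∀ g ∈ latOf A L', ∀ u, f (g + u) = f u :=
    fun g hg u => hper g (latOf_mono A hle hg) u
  have h5 := integral_box_eq (h := fun u => eC A (-ν) u * f u) hb' hbox (eC_periodic hν' hper')
  have he : MeasurableEmbedding fun u : A.I → ℂ => embI A b + u := measurableEmbedding_addLeft _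
  have hmp : MeasurePreserving (fun u : A.I → ℂ => embI A b + u) :=
    measurePreserving_add_left volume _
  rw [hmp.setIntegral_image_emb he] at h5
  have h6 : ∫ u in bx A L', eC A (-ν) (embI A b + u) * f (embI A b + u)
      = eC A (-ν) (embI A b) * ∫ u in bx A L', eC A (-ν) u * f u := by
    rw [← integral_const_mul]
    refine setIntegral_congr_fun hb'.meas fun u _ => ?_
    have h8 : f (embI A b + u) = f u := hper _ ⟨b, hb, rfl⟩ u
    rw [eC_add, h8, mul_assoc]
  rw [h6] at h5
  have h7 : ∫ u in bx A L', eC A (-ν) u * f u = 0 := by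
    by_contra h0
    apply hne
    have := mul_right_cancel₀ h0 ((one_mul _).trans h5)
    exact this.symm
  rw [fcoef, h7, smul_zero]

open Classical in
/-- **(T4)** Fourier coefficients for nested lattices -/
theorem fcoef_of_le (hL' : IsLat L') (hL : IsLat L) (hle : L' ≤ L) {f : (A.I → ℂ) → ℂ}
    (hf : Continuous f) (hper : ∀ g ∈ latOf A L, ∀ u, f (g + u) = f u) {ν : F}
    (hν : ν ∈ dualOf A L') :
    fcoef A (bx A L') ν f = if ν ∈ dualOf A L then fcoef A (bx A L) ν f else 0 := by
  split_ifs with h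
  · exact fcoef_of_le_mem hL' hL hle hf hper h
  · exact fcoef_of_le_notMem hL' hle hper hν h

end nested

/-! ### one step in the exponents -/

section step

variable [DecidableEq (Pl F)]

theorem update_finite {k : Pl F → ℤ} (hk : {w | k w ≠ 0}.Finite) (w : Pl F) (n : ℤ) :
    {v | Function.update k w n v ≠ 0}.Finite := by
  refine (hk.union (Set.finite_singleton w)).subset fun v hv => ?_
  by_cases h : v = w
  · exact Or.inr h
  · refine Or.inl ?_
    have : Function.update k w n v ≠ 0 := hv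
    rwa [Function.update_of_ne h] at this

theorem Jk_update_le (k : Pl F → ℤ) (w : Pl F) :
    Jk (Function.update k w (k w + 1)) ≤ Jk k := by
  refine Jk_mono fun v => ?_
  by_cases h : v = w
  · subst h
    rw [Function.update_self]
    omega
  · rw [Function.update_of_ne h]

theorem relIndex_Jk_update {k : Pl F → ℤ} (hk : {w | k w ≠ 0}.Finite) (w : Pl F) :
    (Jk (Function.update k w (k w + 1))).relIndex (Jk k) = Ideal.absNorm w.asIdeal := by
  obtain ⟨b, hb, hbw⟩ := exists_exact hk {w}
  have hbw := hbw w (Finset.mem_singleton_self w)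
  have hbw0 : 0 < av w b := by rw [hbw]; exact zpow_pos (qv_pos w) _
  have hb0 : b ≠ 0 := by
    rintro rfl
    rw [map_zero] at hbw0
    exact lt_irrefl _ hbw0
  set k' := Function.update k w (k w + 1) with hk'
  let ψ : 𝓞 F →+ F := (AddMonoidHom.mulRight b).comp (algebraMap (𝓞 F) F).toAddMonoidHom
  have hψ : ∀ a : 𝓞 F, ψ a = (a : F) * b := fun a => rfl
  have hmem : ∀ x : F, x ∈ Jk k → (x ∈ Jk k' ↔ av w x ≤ qv w ^ (-(k w + 1))) := by
    intro x hx
    constructor
    · intro h
      have := h w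
      rwa [hk', Function.update_self] at this
    · intro h v
      by_cases hv : v = w
      · subst hv
        rw [hk', Function.update_self]
        exact h
      · rw [hk', Function.update_of_ne hv]
        exact hx v
  have hcomap : (Jk k').comap ψ = w.asIdeal.toAddSubgroup := by
    ext a
    rw [AddSubgroup.mem_comap, hψ, hmem _ (int_mul_mem_Jk a hb), map_mul, hbw, neg_add,
      zpow_add₀ (qv_pos w).ne', mul_comm, mul_le_mul_iff_right₀ (zpow_pos (qv_pos w) _),
      _root_.zpow_neg_one]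
    have h1 := mem_pow_iff w a 1
    rw [pow_one, pow_one] at h1
    exact h1.symm
  have hsup : ψ.range ⊔ Jk k' = Jk k := by
    apply le_antisymm
    · refine sup_le ?_ (Jk_update_le k w)
      rintro _ ⟨a, rfl⟩
      exact int_mul_mem_Jk a hb
    · intro x hx
      have hxw : av w (x / b) ≤ 1 := by
        rw [map_div₀, div_le_one hbw0, hbw]
        exact hx w
      obtain ⟨a', ha', h⟩ := Jk_approx (k := (0 : Pl F → ℤ)) (by simp) {w} (fun _ => x / b)
        (fun v hv => by
          rw [Finset.mem_singleton] at hv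
          subst hv
          simpa using hxw) (fun v => (qv v)⁻¹) (fun v => inv_pos.mpr (qv_pos v))
      obtain ⟨a, rfl⟩ := mem_Jk_zero.mp ha'
      have h1 := h w (Finset.mem_singleton_self w)
      have h2 : x - (a : F) * b ∈ Jk k' := by
        have h3 : x - (a : F) * b ∈ Jk k := (Jk k).sub_mem hx (int_mul_mem_Jk a hb)
        rw [hmem _ h3]
        have h4 : x - (a : F) * b = -(((a : F) - x / b) * b) := by
          field_simp
          ring
        rw [h4, (av w).map_neg, map_mul, hbw, neg_add, zpow_add₀ (qv_pos w).ne', mul_comm,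
          _root_.zpow_neg_one]
        exact mul_le_mul_of_nonneg_left h1 (zpow_pos (qv_pos w) _).le
      have h5 : x = (a : F) * b + (x - (a : F) * b) := by ring
      rw [h5]
      exact AddSubgroup.add_mem_sup ⟨a, rfl⟩ h2
  rw [← hsup, AddSubgroup.relIndex_sup_right, ← AddSubgroup.index_comap, hcomap,
    Ideal.absNorm_apply, Submodule.cardQuot_apply]
  rfl

/-- **(T4')** -/
theorem volume_bx_update (A : Arch F) {k : Pl F → ℤ} (hk : {w | k w ≠ 0}.Finite) (w : Pl F) :
    volume (bx A (Jk (Function.update k w (k w + 1)))) =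
      ENNReal.ofReal (qv w) * volume (bx A (Jk k)) := by
  rw [volume_bx_relIndex A (isLat_Jk (update_finite hk w _)) (isLat_Jk hk) (Jk_update_le k w),
    relIndex_Jk_update hk w]
  congr 1
  rw [qv, ENNReal.ofReal_natCast]

end step

end Fermat.Agent.LT.H
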