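import Fermat.Agent.LT.H.Core
import Fermat.Agent.LT.Geo.EThree
import Fermat.Agent.LT.H.Jk

/-!
# The levels `HT w M` and `stdH w`: torus, unipotent part, cell, Kirillov condition
-/

set_option autoImplicit false
set_option linter.unusedSectionVars false

open NumberField IsDedekindDomain Matrix MeasureTheory Module Set Filter Topology
open scoped ComplexConjugate ENNReal Real

namespace Fermat.Agent.LT.H

open Fermat.LT Fermat.Agent.LT.I Fermat.Agent.LT.B Fermat.Agent.LT.CArch
open Fermat.Agent.LT.CTree (sq unif rep av_lt_one_iff_le)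

variable {F : Type} [Field F] [NumberField F]

theorem un_mem_HT_iff (w : Pl F) (M : ℕ) (b : F) : un b ∈ HT w M ↔ av w b ≤ (qv w)⁻¹ := by
  rw [mem_HT', un_mem_stdH_iff]
  have h10 : (un b).1 1 0 = 0 := by simp [un_val]
  have h01 : (un b).1 0 1 = b := by simp [un_val]
  rw [h10, h01, nm_un, map_zero]
  constructor
  · rintro ⟨h1, -, h3⟩
    rw [max_eq_left h1] at h3
    exact (av_lt_one_iff_le w).mp h3
  · intro h
    have h1 : av w b < 1 := (av_lt_one_iff_le w).mpr h
    rw [max_eq_left h1.le]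
    refine ⟨h1.le, ⟨one_pos, ?_⟩, h1⟩
    have := qvM_pos w M
    linarith

theorem dg_mem_HT (w : Pl F) (M : ℕ) {u : Fˣ} (hu : av w (u : F) = 1) : dg u ∈ HT w M := by
  rw [mem_HT']
  have h10 : (dg u).1 1 0 = 0 := by simp [dg_val]
  have h01 : (dg u).1 0 1 = 0 := by simp [dg_val]
  rw [h10, h01, map_zero]
  have h1 := nm_pos w (dg u)
  refine ⟨intGL_le_stdH w (dg_mem_intGL w hu), ⟨h1, ?_⟩, h1⟩
  have := qvM_pos w M
  positivity

theorem lo_mem_congGL (w : Pl F) (n : ℕ) {k : G2 F} (h00 : k.1 0 0 = 1) (h01 : k.1 0 1 = 0)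
    (h11 : k.1 1 1 = 1) (h10 : av w (k.1 1 0) ≤ (qv w)⁻¹ ^ n) : k ∈ congGL w n := by
  have hd : k.1.det = 1 := by rw [Matrix.det_fin_two, h00, h01, h11]; ring
  have hq : (qv w)⁻¹ ^ n ≤ 1 := qpow_le_one w n
  have hk : nm w k.1 ≤ 1 := by
    rw [nm_le_iff]
    intro i j
    fin_cases i <;> fin_cases j
    · change av w (k.1 0 0) ≤ 1; rw [h00, map_one]
    · change av w (k.1 0 1) ≤ 1; rw [h01, map_zero]; exact zero_le_one
    · exact h10.trans hq
    · change av w (k.1 1 1) ≤ 1; rw [h11, map_one]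
  have hinv : (k⁻¹).1 = k.1.adjugate := by
    rw [Matrix.coe_units_inv, Matrix.inv_def, hd, Ring.inverse_one, one_smul]
  refine ⟨⟨hk, ?_⟩, ?_⟩
  · rw [hinv, nm_adjugate]; exact hk
  · rw [nm_le_iff]
    have h0 : 0 ≤ (qv w)⁻¹ ^ n := (qvM_pos w n).le
    intro i j
    fin_cases i <;> fin_cases j
    · change av w ((k.1 - 1) 0 0) ≤ _
      rw [Matrix.sub_apply, h00, Matrix.one_apply_eq, sub_self, map_zero]; exact h0
    · change av w ((k.1 - 1) 0 1) ≤ _
      rw [Matrix.sub_apply, h01, Matrix.one_apply_ne (by decide), sub_self, map_zero]; exact h0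
    · change av w ((k.1 - 1) 1 0) ≤ _
      rw [Matrix.sub_apply, Matrix.one_apply_ne (by decide), sub_zero]; exact h10
    · change av w ((k.1 - 1) 1 1) ≤ _
      rw [Matrix.sub_apply, h11, Matrix.one_apply_eq, sub_self, map_zero]; exact h0

/-- the cell of `HT w M` -/
theorem HT_cell (w : Pl F) (M : ℕ) {h : G2 F} (hh : h ∈ HT w M) : ∃ (c a : Fˣ) (b : F),
    ∃ k ∈ congGL w (max M 1), h = sc c * (un b * dg a * k) := by
  rw [mem_HT'] at hh
  obtain ⟨h1, ⟨h2, h3⟩, h4⟩ := hh
  have hnm := nm_pos w h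
  -- the lower right entry has maximal absolute value
  have hdet := av_det_of_mem w h1
  have hd0 : h.1.det ≠ 0 := ((Matrix.isUnit_iff_isUnit_det _).mp h.isUnit).ne_zero
  have h11 : av w (h.1 1 1) = nm w h.1 := by
    apply le_antisymm (av_le_nm w _ _ _)
    by_contra hc
    push Not at hc
    have h5 : av w h.1.det < nm w h.1 ^ 2 := by
      rw [Matrix.det_fin_two, sub_eq_add_neg]
      refine (av_add_le w _ _).trans_lt (max_lt ?_ ?_)
      · rw [map_mul, _root_.sq]
        exact mul_lt_mul_of_nonneg_of_pos' (av_le_nm w _ _ _) hc ((av w).nonneg _) hnm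
      · rw [(av w).map_neg, map_mul, _root_.sq]
        exact mul_lt_mul'' h4 h2 ((av w).nonneg _) ((av w).nonneg _)
    rw [hdet] at h5
    exact lt_irrefl _ h5
  have hne : h.1 1 1 ≠ 0 := by
    intro h0
    rw [h0, map_zero] at h11
    linarith
  set c : Fˣ := Units.mk0 (h.1 1 1) hne with hc
  set x : F := (h.1 1 1)⁻¹ * h.1 1 0 with hx
  set b : F := (h.1 1 1)⁻¹ * h.1 0 1 with hb
  have ha : (h.1 1 1)⁻¹ * h.1 0 0 - b * x ≠ 0 := by
    intro h0
    apply hd0
    rw [Matrix.det_fin_two]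
    have : (h.1 1 1)⁻¹ * h.1 0 0 - b * x = (h.1 1 1)⁻¹ * (h.1 1 1)⁻¹ *
        (h.1 0 0 * h.1 1 1 - h.1 0 1 * h.1 1 0) := by
      rw [hb, hx]; field_simp
    rw [this] at h0
    have h6 : (h.1 1 1)⁻¹ * (h.1 1 1)⁻¹ ≠ 0 := by positivity
    exact (mul_eq_zero.mp h0).resolve_left h6
  set k : G2 F := Matrix.GeneralLinearGroup.mkOfDetNeZero !![1, 0; x, 1] (by simp) with hk
  have hkv : k.1 = !![1, 0; x, 1] := rfl
  refine ⟨c, Units.mk0 _ ha, b, k, lo_mem_congGL w _ (by simp [hkv]) (by simp [hkv])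
    (by simp [hkv]) ?_, ?_⟩
  · have : k.1 1 0 = x := by simp [hkv]
    rw [this, hx, map_mul, map_inv₀, h11, inv_mul_le_iff₀ hnm]
    rcases le_total M 1 with hM | hM
    · rw [max_eq_right hM, pow_one]
      have h7 : av w ((h.1 1 1)⁻¹ * h.1 1 0) < 1 := by
        rw [map_mul, map_inv₀, h11, inv_mul_lt_iff₀ hnm, mul_one]; exact h2
      have h8 := (av_lt_one_iff_le w).mp h7
      rw [map_mul, map_inv₀, h11, inv_mul_le_iff₀ hnm] at h8
      exact h8
    · rw [max_eq_left hM]; exact h3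
  · apply Units.ext
    rw [sc_mul_val, Units.val_mul, Units.val_mul, un_val, dg_val, hkv]
    ext i j
    fin_cases i <;> fin_cases j <;>
      simp [hc, hb, hx] <;> field_simp

/-- the exponent -/
def eT (D : Datum F) (w : Pl F) : ℕ := if D.n w = 0 then 0 else 1

/-- level conditions for the levels `HT w M` / full level -/
theorem ulev_T {D : Datum F} {M : ℕ}
    (hlev : ∀ w, D.n w = 0 ∨ (D.H w = HT w M ∧ D.n w = max M 1)) :
    ULev D (eT D) D.n_fin.toFinset where
  mem w := by simp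
  ulev w b := by
    rcases hlev w with h | ⟨h, h'⟩
    · rw [D.H_eq h, un_mem_stdH_iff, eT, if_pos h, pow_zero]
    · have h2 : D.n w ≠ 0 := by omega
      rw [h, un_mem_HT_iff, eT, if_neg h2, pow_one]
  efin := by
    refine D.n_fin.subset fun w hw h => hw ?_
    rw [eT, if_pos h]
  dlev w u hu := by
    rcases hlev w with h | ⟨h, h'⟩
    · rw [D.H_eq h]
      exact intGL_le_stdH w (dg_mem_intGL w hu)
    · rw [h]; exact dg_mem_HT w M hu
  cell w hw := by
    have hw' : D.n w ≠ 0 := by simpa using hw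
    rcases hlev w with h | ⟨h, h'⟩
    · exact absurd h hw'
    · refine ⟨D.cong_le w, fun g hg => ?_⟩
      rw [h] at hg
      rw [h']
      exact HT_cell w M hg

/-- **The Kirillov condition** from the vanishing of the sums over `un (O_w / w)`. -/
theorem kirillov {D : Datum F} {M : ℕ}
    (hlev : ∀ w, D.n w = 0 ∨ (D.H w = HT w M ∧ D.n w = max M 1)) {a : Y D.toLevel → ℂ}
    (ha : IsWY D.toArch a) {w : Pl F} (hw : D.n w ≠ 0)
    (hsum : ∀ (y : Y D.toLevel) (g : G2 F),
      ∑ c : 𝓞 F ⧸ w.asIdeal, a (upd y w ((g * un (rep w c) : G2 F) : Yl D.toLevel w)) = 0)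
    {y : Y D.toLevel} {k : Pl F → ℤ} (hk : {w | k w ≠ 0}.Finite) (hy : IsTor (eT D) y k)
    (h1 : ∀ v, -dExp v ≤ k v) (h2 : -dExp w < k w) : a y = 0 := by
  classical
  have hU := (ulev_T hlev).ulev
  have hd : (1 : F) ∈ dualOf D.toArch (Jk (Function.update k w (k w - 1))) := by
    rw [one_mem_dualOf_Jk (update_finite hk w _)]
    intro v
    by_cases hv : v = w
    · subst hv; rw [Function.update_self]; linarith
    · rw [Function.update_of_ne hv]; exact h1 v
  rw [one_mem_dualOf_iff] at hd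
  obtain ⟨α, hα1, hα2⟩ := hy w
  have he : eT D w = 1 := by rw [eT, if_neg hw]
  have hterm : ∀ c : 𝓞 F ⧸ w.asIdeal,
      a (upd y w ((dg α * un (rep w c) : G2 F) : Yl D.toLevel w)) = a y := by
    intro c
    set y2 := upd y w ((dg α * un (rep w c) : G2 F) : Yl D.toLevel w) with hy2
    have hpt : y2 w = un ((α : F) * rep w c) • y w := by
      rw [hy2, upd_same, hα1, H.dg_un]; rfl
    obtain ⟨β, hβ⟩ := exists_un_eq y y2 (fun v => by
      by_cases hv : v = w
      · subst hv; exact ⟨_, hpt⟩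
      · exact ⟨0, by rw [un_zero, one_smul, hy2, upd_ne y hv]⟩)
    have hβv : ∀ v, un β • y v = y2 v := fun v => by rw [hβ]; rfl
    rw [hβ, ha, hd β ?_, one_mul]
    rw [mem_Jk]
    intro v
    by_cases hv : v = w
    · subst hv
      rw [Function.update_self]
      have h3 : un (β - (α : F) * rep v c) • y v = y v := by
        have h4 := hβv v
        rw [hpt] at h4
        rw [sub_eq_neg_add, un_add, mul_smul, h4, un_neg, inv_smul_smul]
      rw [hα1, un_smul_dg_iff hU, he, pow_one, hα2, he] at h3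
      have hq := qv_pos v
      have h5 : qv v ^ (((1 : ℕ) : ℤ) - k v) * (qv v)⁻¹ = qv v ^ (-k v) := by
        rw [← _root_.zpow_neg_one, ← zpow_add₀ hq.ne']
        congr 1; push_cast; ring
      rw [h5] at h3
      have h6 : av v ((α : F) * rep v c) ≤ qv v ^ (-(k v - 1)) := by
        rw [map_mul, hα2, he]
        refine (mul_le_of_le_one_right (zpow_nonneg hq.le _) (CTree.av_rep_le v c)).trans
          (le_of_eq ?_)
        congr 1; push_cast; ring
      have h7 : qv v ^ (-k v) ≤ qv v ^ (-(k v - 1)) :=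
        zpow_le_zpow_right₀ (one_lt_qv v).le (by linarith)
      have h8 : β = (β - (α : F) * rep v c) + (α : F) * rep v c := by ring
      rw [h8]
      exact (av_add_le v _ _).trans (max_le (h3.trans h7) h6)
    · rw [Function.update_of_ne hv]
      have h3 : un β • y v = y v := by rw [hβv v, hy2, upd_ne y hv]
      obtain ⟨α', h4, h5⟩ := hy v
      rw [h4, un_smul_dg_iff hU, h5] at h3
      refine h3.trans (le_of_eq ?_)
      rw [inv_pow, ← zpow_natCast, ← _root_.zpow_neg, ← zpow_add₀ (qv_pos v).ne']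
      congr 1; ring
  have h3 := hsum y (dg α)
  rw [Finset.sum_congr rfl fun c _ => hterm c, Finset.sum_const, Finset.card_univ, nsmul_eq_mul,
    mul_eq_zero] at h3
  refine h3.resolve_left ?_
  have : 0 < Fintype.card (𝓞 F ⧸ w.asIdeal) := Fintype.card_pos
  exact_mod_cast this.ne'

end Fermat.Agent.LT.H
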