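import Fermat.Agent.LT.H.UniqCore
import Fermat.Agent.LT.H.LevT
import Fermat.Agent.LT.H.CellZero
import Fermat.Agent.LT.H.KirSum
import Fermat.Agent.LT.K.DensL
import Fermat.Agent.LT.Top.IfaceL

/-!
# Uniqueness of `π_L` (piece H of LT): `UniqL R`
-/

set_option autoImplicit false
set_option linter.unusedSectionVars false

open NumberField IsDedekindDomain Matrix MeasureTheory Module Set Filter Topology
open scoped ComplexConjugate ENNReal Real

namespace Fermat.Agent.LT.H

open Fermat.LT Fermat.Agent.LT.I Fermat.Agent.LT.B Fermat.Agent.LT.CArch Fermat.Agent.LT.D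
open Fermat.Agent.LT.CTree (sq unif rep)
open Fermat.Agent.LT.Top (EForm goodPl SType IsLev UniqL)
open Fermat.Agent.LT.K (Octa)

/-- the Whittaker function of an eigenform of type `SType` -/
theorem wdata_of {F : Type} [Field F] [NumberField F] {D : Datum F} {M : ℕ}
    (hlev : ∀ w, D.n w = 0 ∨ (D.H w = HT w M ∧ D.n w = max M 1)) {lam : Pl F → ℝ} {φ : X D → ℂ}
    (h : EForm D lam φ) (hs : SType D M φ) : ∃ a : Y D.toLevel → ℂ, IsWhit φ a ∧
      WData D (eT D) D.n_fin.toFinset lam a := by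
  classical
  obtain ⟨a, hW, hwy, hh⟩ := exists_whit h
  have hinv : ∀ (g : G2 F) x, φ (g • x) = φ x := fun g x => h.cusp.inv (LT.pmk g) x
  refine ⟨a, hW, hwy, fun w hw y => hh w (by simpa using hw) y,
    fun w hw y k hk hy h1 h2 => ?_⟩
  have hw' : D.n w ≠ 0 := by simpa using hw
  have hH : D.H w = HT w M := by
    rcases hlev w with h | h
    · exact absurd h hw'
    · exact h.1
  refine kirillov hlev hwy hw' (fun y g => ?_) hk hy h1 h2
  have h3 := sum_un_eq_zero hH (hs w hw')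
  have h4 := J.CH.cW_sum_zero h.cusp.cont hinv Finset.univ (fun _ : 𝓞 F ⧸ w.asIdeal => 1)
    (fun c => upd y w ((g * un (rep w c) : G2 F) : Yl D.toLevel w)) 1 (fun z x => by
      simp only [one_mul]
      exact h3 (pt z x y) g) 0
  simp only [one_mul] at h4
  rw [Finset.sum_congr rfl fun c _ => hW 0 _, ← Finset.sum_mul] at h4
  exact (mul_eq_zero.mp h4).resolve_right (prodWh_ne_zero 0)

/-- **Uniqueness of `π_L`.** -/
theorem uniqL (R : Octa) : UniqL R := by
  classical
  intro M C D hD φ₀ h₀ hs₀ lam φ h hs hA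
  have hlev : ∀ w, D.n w = 0 ∨ (D.H w = HT w M ∧ D.n w = max M 1) := by
    intro w
    by_cases hw : (R.ab w).inertia K.Q8 = ⊥
    · exact Or.inl (hD.unr w hw)
    · exact Or.inr (hD.ram w hw)
  obtain ⟨a₀, hW₀, hd₀⟩ := wdata_of hlev h₀ hs₀
  obtain ⟨a, hW, hd⟩ := wdata_of hlev h hs
  exact uniq_core (ulev_T hlev) h₀ h hW₀ hW hd₀ hd (fun ψ hψ hz => eq_zero_of_cell hψ hz)
    (fun w => R.abs_lam_le w) {v | pl C v.1 ≠ v.1}
    (fun v hv => (hA v.1 hv (by simpa using v.2)).symm)
    (fun s hs => K.summable_out _ hs) (K.summable_fix_out C _) (R.tendsto_lam_sq C _)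

end Fermat.Agent.LT.H
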