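import Mathlib

/-!
# Local Rankin–Selberg factors

For a (normalised, real) Hecke eigenvalue `l = α + α⁻¹` we study `U l k = α^k + ⋯ + α^{-k}` and
`t l k = α^k + α^{-k}`, the local factor `∑ U l k * U m k * X^k = (1 - X²) / Q l m X` and its
logarithm.
-/

set_option autoImplicit false

open Filter Topology

namespace Fermat.Agent.LT.H.Local

/-- `U l k = α^k + α^{k-2} + ⋯ + α^{-k}` if `l = α + α⁻¹`. -/
noncomputable def U (l : ℝ) : ℕ → ℝ
  | 0 => 1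
  | 1 => l
  | (k + 2) => l * U l (k + 1) - U l k

/-- `t l k = α^k + α^{-k}` if `l = α + α⁻¹`. -/
noncomputable def t (l : ℝ) : ℕ → ℝ
  | 0 => 2
  | 1 => l
  | (k + 2) => l * t l (k + 1) - t l k

@[simp] theorem U_zero (l : ℝ) : U l 0 = 1 := rfl
@[simp] theorem U_one (l : ℝ) : U l 1 = l := rfl
theorem U_add_two (l : ℝ) (k : ℕ) : U l (k + 2) = l * U l (k + 1) - U l k := rfl
@[simp] theorem t_zero (l : ℝ) : t l 0 = 2 := rfl
@[simp] theorem t_one (l : ℝ) : t l 1 = l := rfl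
theorem t_add_two (l : ℝ) (k : ℕ) : t l (k + 2) = l * t l (k + 1) - t l k := rfl

/-- The denominator of the Rankin–Selberg factor. -/
noncomputable def Q (l m : ℝ) (X : ℂ) : ℂ :=
  1 - l * m * X + (l ^ 2 + m ^ 2 - 2) * X ^ 2 - l * m * X ^ 3 + X ^ 4

/-- Satake parameter. -/
theorem exists_root (l : ℝ) {b : ℝ} (hb : 1 ≤ b) (h : |l| ≤ b + b⁻¹) :
    ∃ α : ℂ, α ≠ 0 ∧ α + α⁻¹ = l ∧ ‖α‖ ≤ b ∧ ‖α⁻¹‖ ≤ b := by
  rcases le_or_gt |l| 2 with h2 | h2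
  · have h4 : 0 ≤ 4 - l ^ 2 := by
      have := abs_le.1 h2
      nlinarith
    set w := Real.sqrt (4 - l ^ 2) with hw
    have hw2 : w ^ 2 = 4 - l ^ 2 := Real.sq_sqrt h4
    set α : ℂ := ⟨l / 2, w / 2⟩ with hα
    have hn : Complex.normSq α = 1 := by
      rw [Complex.normSq_apply, hα]; simp only; nlinarith
    have hnorm : ‖α‖ = 1 := by
      have := Complex.sq_norm α
      rw [hn] at this
      nlinarith [norm_nonneg α]
    have hne : α ≠ 0 := by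
      intro h0; rw [h0] at hnorm; simp at hnorm
    have hinv : α⁻¹ = (starRingEnd ℂ) α := by
      rw [Complex.inv_def, hn]; simp
    refine ⟨α, hne, ?_, by rw [hnorm]; exact hb, by rw [norm_inv, hnorm, inv_one]; exact hb⟩
    rw [hinv, Complex.add_conj]
    simp [hα]
    ring
  · -- the real case
    have key : ∀ x : ℝ, 2 < x → x ≤ b + b⁻¹ → ∃ a : ℝ, 0 < a ∧ a + a⁻¹ = x ∧ a ≤ b ∧ a⁻¹ ≤ b := by
      intro x hx hxb
      set w := Real.sqrt (x ^ 2 - 4) with hw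
      have hw2 : w ^ 2 = x ^ 2 - 4 := Real.sq_sqrt (by nlinarith)
      have hw0 : 0 ≤ w := Real.sqrt_nonneg _
      have ha : 1 < (x + w) / 2 := by linarith
      have ha0 : 0 < (x + w) / 2 := by linarith
      have hinv : ((x + w) / 2)⁻¹ = (x - w) / 2 := by
        rw [inv_eq_iff_eq_inv, eq_comm, inv_eq_iff_eq_inv, eq_comm]
        field_simp
        nlinarith
      refine ⟨(x + w) / 2, ha0, by rw [hinv]; ring, ?_, ?_⟩
      · by_contra hcon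
        push Not at hcon
        have hb0 : 0 < b := by linarith
        have h1 : b + b⁻¹ < (x + w) / 2 + ((x + w) / 2)⁻¹ := by
          have : (x + w) / 2 + ((x + w) / 2)⁻¹ - (b + b⁻¹) =
              ((x + w) / 2 - b) * (1 - ((x + w) / 2)⁻¹ * b⁻¹) := by
            field_simp
            ring
          have h3 : ((x + w) / 2)⁻¹ * b⁻¹ < 1 := by
            rw [← mul_inv]
            exact inv_lt_one_of_one_lt₀ (by nlinarith)
          nlinarith [mul_pos (sub_pos.2 hcon) (sub_pos.2 h3)]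
        rw [hinv] at h1
        linarith
      · calc ((x + w) / 2)⁻¹ ≤ 1 := (inv_lt_one_of_one_lt₀ ha).le
          _ ≤ b := hb
    rcases le_or_gt 0 l with h0 | h0
    · rw [abs_of_nonneg h0] at h h2
      obtain ⟨a, ha0, ha1, ha2, ha3⟩ := key l h2 h
      refine ⟨a, by exact_mod_cast ha0.ne', by exact_mod_cast ha1, ?_, ?_⟩
      · rw [Complex.norm_real, Real.norm_of_nonneg ha0.le]; exact ha2
      · rw [norm_inv, Complex.norm_real, Real.norm_of_nonneg ha0.le]; exact ha3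
    · rw [abs_of_neg h0] at h h2
      obtain ⟨a, ha0, ha1, ha2, ha3⟩ := key (-l) h2 h
      refine ⟨-a, by simpa using ha0.ne', ?_, ?_, ?_⟩
      · have : ((-a : ℝ) : ℂ) + ((-a : ℝ) : ℂ)⁻¹ = ((-(a + a⁻¹) : ℝ) : ℂ) := by
          push_cast
          rw [inv_neg]; ring
        rw [ha1, neg_neg] at this
        simpa using this
      · rw [norm_neg, Complex.norm_real, Real.norm_of_nonneg ha0.le]; exact ha2
      · rw [norm_inv, norm_neg, Complex.norm_real, Real.norm_of_nonneg ha0.le]; exact ha3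

theorem t_eq {l : ℝ} {α : ℂ} (h0 : α ≠ 0) (h : α + α⁻¹ = l) (k : ℕ) :
    ((t l k : ℝ) : ℂ) = α ^ k + α⁻¹ ^ k := by
  have : ∀ k, ((t l k : ℝ) : ℂ) = α ^ k + α⁻¹ ^ k ∧
      ((t l (k + 1) : ℝ) : ℂ) = α ^ (k + 1) + α⁻¹ ^ (k + 1) := by
    intro k
    induction k with
    | zero =>
      refine ⟨by norm_num, ?_⟩
      simp [h]
    | succ k ih =>
      refine ⟨ih.2, ?_⟩
      rw [t_add_two]
      push_cast
      rw [ih.1, ih.2, ← h]
      have : α * α⁻¹ = 1 := mul_inv_cancel₀ h0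
      linear_combination (α⁻¹ ^ k + α ^ k) * this
  exact (this k).1

theorem t_mul_three (l : ℝ) (k : ℕ) : t (t l 3) k = t l (3 * k) := by
  obtain ⟨α, h0, h1, -, -⟩ := exists_root l (b := 1 + |l|) (by linarith [abs_nonneg l])
    (by have : 0 < (1 + |l|)⁻¹ := by positivity
        linarith)
  have h3 : α ^ 3 + (α ^ 3)⁻¹ = ((t l 3 : ℝ) : ℂ) := by
    rw [t_eq h0 h1, inv_pow]
  have := t_eq (pow_ne_zero 3 h0) h3 k
  rw [← pow_mul, ← inv_pow, ← pow_mul, ← t_eq h0 h1] at this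
  exact_mod_cast this

theorem t_three (l : ℝ) : t l 3 = l ^ 3 - 3 * l := by
  simp only [t]; ring

theorem U_succ {l : ℝ} {α : ℂ} (h0 : α ≠ 0) (h : α + α⁻¹ = l) (k : ℕ) :
    ((U l (k + 1) : ℝ) : ℂ) = α * U l k + α⁻¹ ^ (k + 1) := by
  induction k with
  | zero => simp [h]
  | succ k ih =>
    rw [U_add_two]
    push_cast
    rw [ih, ← h]
    have : α * α⁻¹ = 1 := mul_inv_cancel₀ h0
    linear_combination ((U l k : ℝ) : ℂ) * this

section bounds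

variable {l m b b' : ℝ}

theorem abs_t_le (hb : 1 ≤ b) (h : |l| ≤ b + b⁻¹) (k : ℕ) : |t l k| ≤ 2 * b ^ k := by
  obtain ⟨α, h0, h1, h2, h3⟩ := exists_root l hb h
  have h4 : |t l k| = ‖((t l k : ℝ) : ℂ)‖ := by rw [Complex.norm_real]; rfl
  rw [h4, t_eq h0 h1]
  refine (norm_add_le _ _).trans ?_
  rw [norm_pow, norm_pow]
  have := pow_le_pow_left₀ (norm_nonneg _) h2 k
  have := pow_le_pow_left₀ (norm_nonneg _) h3 k
  linarith

theorem abs_U_le (hb : 1 ≤ b) (h : |l| ≤ b + b⁻¹) (k : ℕ) : |U l k| ≤ (k + 1) * b ^ k := by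
  obtain ⟨α, h0, h1, h2, h3⟩ := exists_root l hb h
  have h4 : ∀ k, |U l k| = ‖((U l k : ℝ) : ℂ)‖ := fun k ↦ by rw [Complex.norm_real]; rfl
  induction k with
  | zero => simp
  | succ k ih =>
    rw [h4, U_succ h0 h1]
    refine (norm_add_le _ _).trans ?_
    rw [norm_mul, norm_pow, ← h4]
    have h5 := pow_le_pow_left₀ (norm_nonneg _) h3 (k + 1)
    have h6 := mul_le_mul h2 ih (abs_nonneg _) (by linarith)
    push_cast
    calc ‖α‖ * |U l k| + ‖α⁻¹‖ ^ (k + 1) ≤ b * ((k + 1) * b ^ k) + b ^ (k + 1) := add_le_add h6 h5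
      _ = (k + 1 + 1) * b ^ (k + 1) := by ring

theorem summable_U (hb : 1 ≤ b) (hl : |l| ≤ b + b⁻¹) (hb' : 1 ≤ b') (hm : |m| ≤ b' + b'⁻¹)
    {X : ℂ} (hX : b * b' * ‖X‖ < 1) :
    Summable fun k : ℕ ↦ ‖((U l k * U m k : ℝ) : ℂ) * X ^ k‖ := by
  have h1 : Summable fun k : ℕ ↦ ((k : ℝ) + 1) ^ 2 * (b * b' * ‖X‖) ^ k := by
    have h0 : ‖b * b' * ‖X‖‖ < 1 := by
      rw [Real.norm_of_nonneg (by positivity)]; exact hX
    have e2 := (summable_pow_mul_geometric_of_norm_lt_one 2 h0)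
    have e1 := (summable_pow_mul_geometric_of_norm_lt_one 1 h0)
    have e0 := (summable_pow_mul_geometric_of_norm_lt_one 0 h0)
    refine ((e2.add (e1.mul_left 2)).add e0).congr fun k ↦ ?_
    ring
  refine Summable.of_nonneg_of_le (fun k ↦ norm_nonneg _) (fun k ↦ ?_) h1
  rw [norm_mul, norm_pow, Complex.norm_real, Real.norm_eq_abs, abs_mul, mul_pow, mul_pow, sq]
  have h2 := abs_U_le hb hl k
  have h3 := abs_U_le hb' hm k
  calc |U l k| * |U m k| * ‖X‖ ^ k ≤ (((k : ℝ) + 1) * b ^ k) * (((k : ℝ) + 1) * b' ^ k) * ‖X‖ ^ k := by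
        gcongr
    _ = ((k : ℝ) + 1) * ((k : ℝ) + 1) * (b ^ k * b' ^ k * ‖X‖ ^ k) := by ring

/-- The local Rankin–Selberg identity. -/
theorem tsum_U_mul_Q (hb : 1 ≤ b) (hl : |l| ≤ b + b⁻¹) (hb' : 1 ≤ b') (hm : |m| ≤ b' + b'⁻¹)
    {X : ℂ} (hX : b * b' * ‖X‖ < 1) :
    (∑' k : ℕ, ((U l k * U m k : ℝ) : ℂ) * X ^ k) * Q l m X = 1 - X ^ 2 := by
  set c : ℕ → ℂ := fun k ↦ ((U l k * U m k : ℝ) : ℂ) with hc
  have hs : Summable fun k : ℕ ↦ c k * X ^ k := (summable_U hb hl hb' hm hX).of_norm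
  have hsh : ∀ j, Summable fun k : ℕ ↦ c (k + j) * X ^ (k + j) := fun j ↦
    (summable_nat_add_iff (f := fun k : ℕ ↦ c k * X ^ k) j).2 hs
  have hrec : ∀ k, c (k + 4) = l * m * c (k + 3) - (l ^ 2 + m ^ 2 - 2) * c (k + 2) +
      l * m * c (k + 1) - c k := by
    intro k
    simp only [hc]
    have e : U l (k + 4) * U m (k + 4) = l * m * (U l (k + 3) * U m (k + 3)) -
        (l ^ 2 + m ^ 2 - 2) * (U l (k + 2) * U m (k + 2)) + l * m * (U l (k + 1) * U m (k + 1)) -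
        U l k * U m k := by
      rw [show k + 4 = (k + 2) + 2 from rfl, U_add_two l (k + 2), U_add_two m (k + 2),
        show k + 2 + 1 = k + 3 from rfl, show k + 3 = (k + 1) + 2 from rfl, U_add_two l (k + 1),
        U_add_two m (k + 1), show k + 1 + 1 = k + 2 from rfl, U_add_two l k, U_add_two m k]
      ring
    exact_mod_cast e
  have c0 : c 0 = 1 := by simp [hc]
  have c1 : c 1 = l * m := by simp [hc]
  have c2 : c 2 = (l ^ 2 - 1) * (m ^ 2 - 1) := by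
    simp only [hc, U]; push_cast; ring
  have c3 : c 3 = (l ^ 3 - 2 * l) * (m ^ 3 - 2 * m) := by
    simp only [hc, U]; push_cast; ring
  set S := ∑' k : ℕ, c k * X ^ k with hS
  have s1 : S = c 0 + ∑' k : ℕ, c (k + 1) * X ^ (k + 1) := by
    rw [hS, hs.tsum_eq_zero_add]; simp
  have s2 : S = c 0 + c 1 * X + ∑' k : ℕ, c (k + 2) * X ^ (k + 2) := by
    rw [s1, (hsh 1).tsum_eq_zero_add]; simp [add_assoc]
  have s3 : S = c 0 + c 1 * X + c 2 * X ^ 2 + ∑' k : ℕ, c (k + 3) * X ^ (k + 3) := by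
    rw [s2, (hsh 2).tsum_eq_zero_add]; simp [add_assoc]
  have s4 : S = c 0 + c 1 * X + c 2 * X ^ 2 + c 3 * X ^ 3 +
      ∑' k : ℕ, c (k + 4) * X ^ (k + 4) := by
    rw [s3, (hsh 3).tsum_eq_zero_add]; simp [add_assoc]
  have key : ∑' k : ℕ, c (k + 4) * X ^ (k + 4) =
      l * m * X * (∑' k : ℕ, c (k + 3) * X ^ (k + 3)) -
      (l ^ 2 + m ^ 2 - 2) * X ^ 2 * (∑' k : ℕ, c (k + 2) * X ^ (k + 2)) +
      l * m * X ^ 3 * (∑' k : ℕ, c (k + 1) * X ^ (k + 1)) - X ^ 4 * S := by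
    rw [hS, ← tsum_mul_left, ← tsum_mul_left, ← tsum_mul_left, ← tsum_mul_left,
      ← Summable.tsum_sub ((hsh 3).mul_left _) ((hsh 2).mul_left _),
      ← Summable.tsum_add (((hsh 3).mul_left _).sub ((hsh 2).mul_left _)) ((hsh 1).mul_left _),
      ← Summable.tsum_sub ((((hsh 3).mul_left _).sub ((hsh 2).mul_left _)).add
        ((hsh 1).mul_left _)) (hs.mul_left _)]
    refine tsum_congr fun k ↦ ?_
    rw [hrec k]
    ring
  rw [c0] at s1 s2 s3 s4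
  rw [c1] at s2 s3 s4
  rw [c2] at s3 s4
  rw [c3] at s4
  unfold Q
  linear_combination s4 + key - (l * m * X) * s3 + (l ^ 2 + m ^ 2 - 2) * X ^ 2 * s2 -
    l * m * X ^ 3 * s1

/-- The logarithm of the local factor. -/
theorem hasSum_log (hb : 1 ≤ b) (hl : |l| ≤ b + b⁻¹) (hb' : 1 ≤ b') (hm : |m| ≤ b' + b'⁻¹)
    {Y : ℝ} (hY : b * b' * |Y| < 1) :
    ∃ s : ℝ, HasSum (fun k : ℕ ↦ t l k * t m k * Y ^ k / k) s ∧
      Q l m Y = ((Real.exp (-s) : ℝ) : ℂ) := by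
  obtain ⟨α, a0, a1, a2, a3⟩ := exists_root l hb hl
  obtain ⟨β, d0, d1, d2, d3⟩ := exists_root m hb' hm
  have hbd : ∀ x y : ℂ, ‖x‖ ≤ b → ‖y‖ ≤ b' → ‖x * y * Y‖ < 1 := by
    intro x y hx hy
    rw [norm_mul, norm_mul, Complex.norm_real, Real.norm_eq_abs]
    refine lt_of_le_of_lt ?_ hY
    gcongr
  have H1 := Complex.hasSum_taylorSeries_neg_log (hbd α β a2 d2)
  have H2 := Complex.hasSum_taylorSeries_neg_log (hbd α β⁻¹ a2 d3)
  have H3 := Complex.hasSum_taylorSeries_neg_log (hbd α⁻¹ β a3 d2)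
  have H4 := Complex.hasSum_taylorSeries_neg_log (hbd α⁻¹ β⁻¹ a3 d3)
  have H := ((H1.add H2).add H3).add H4
  have hcongr : ∀ k : ℕ, (α * β * Y) ^ k / k + (α * β⁻¹ * Y) ^ k / k + (α⁻¹ * β * Y) ^ k / k +
      (α⁻¹ * β⁻¹ * Y) ^ k / k = ((t l k * t m k * Y ^ k / k : ℝ) : ℂ) := by
    intro k
    push_cast
    rw [t_eq a0 a1, t_eq d0 d1]
    ring
  have H' : HasSum (fun k : ℕ ↦ ((t l k * t m k * Y ^ k / k : ℝ) : ℂ)) _ :=
    H.congr_fun (fun k ↦ (hcongr k).symm) |> fun h ↦ h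
  have hsum : Summable fun k : ℕ ↦ t l k * t m k * Y ^ k / k := by
    have := H'.summable
    exact_mod_cast this
  refine ⟨_, hsum.hasSum, ?_⟩
  have h5 := (Complex.hasSum_ofReal.2 hsum.hasSum).unique H'
  rw [Complex.ofReal_exp, Complex.ofReal_neg, h5]
  have hne : ∀ z : ℂ, ‖z‖ < 1 → 1 - z ≠ 0 := by
    intro z hz h
    rw [sub_eq_zero] at h
    rw [← h] at hz
    simp at hz
  have hexp : Complex.exp (-(-Complex.log (1 - α * β * Y) + -Complex.log (1 - α * β⁻¹ * Y) +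
      -Complex.log (1 - α⁻¹ * β * Y) + -Complex.log (1 - α⁻¹ * β⁻¹ * Y))) =
      (1 - α * β * Y) * (1 - α * β⁻¹ * Y) * (1 - α⁻¹ * β * Y) * (1 - α⁻¹ * β⁻¹ * Y) := by
    rw [show -(-Complex.log (1 - α * β * Y) + -Complex.log (1 - α * β⁻¹ * Y) +
      -Complex.log (1 - α⁻¹ * β * Y) + -Complex.log (1 - α⁻¹ * β⁻¹ * Y)) =
      Complex.log (1 - α * β * Y) + Complex.log (1 - α * β⁻¹ * Y) +
      Complex.log (1 - α⁻¹ * β * Y) + Complex.log (1 - α⁻¹ * β⁻¹ * Y) by ring]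
    rw [Complex.exp_add, Complex.exp_add, Complex.exp_add,
      Complex.exp_log (hne _ (hbd α β a2 d2)), Complex.exp_log (hne _ (hbd α β⁻¹ a2 d3)),
      Complex.exp_log (hne _ (hbd α⁻¹ β a3 d2)), Complex.exp_log (hne _ (hbd α⁻¹ β⁻¹ a3 d3))]
  rw [hexp]
  unfold Q
  rw [← a1, ← d1]
  have e1 : α * α⁻¹ = 1 := mul_inv_cancel₀ a0
  have e2 : β * β⁻¹ = 1 := mul_inv_cancel₀ d0
  generalize α⁻¹ = α' at *
  generalize β⁻¹ = β' at *
  generalize (Y : ℂ) = y at *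
  linear_combination ((2 * (β * β' - 1) + β ^ 2 + β' ^ 2) * y ^ 2 -
      (α + α') * (β + β') * β * β' * y ^ 3 + β * β' * (α * α' * β * β' + 1) * y ^ 4) * (-e1) +
    ((α ^ 2 + α' ^ 2) * y ^ 2 - (α + α') * (β + β') * y ^ 3 +
      (α * α' * β * β' + 1) * y ^ 4) * (-e2)

/-- `S l m Y = -log (Q l m Y)`. -/
noncomputable def S (l m Y : ℝ) : ℝ := ∑' k : ℕ, t l k * t m k * Y ^ k / k

theorem summable_S (hb : 1 ≤ b) (hl : |l| ≤ b + b⁻¹) (hb' : 1 ≤ b') (hm : |m| ≤ b' + b'⁻¹)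
    {Y : ℝ} (hY : b * b' * |Y| < 1) : Summable fun k : ℕ ↦ t l k * t m k * Y ^ k / k := by
  obtain ⟨s, hs, -⟩ := hasSum_log hb hl hb' hm hY
  exact hs.summable

theorem Q_eq_exp (hb : 1 ≤ b) (hl : |l| ≤ b + b⁻¹) (hb' : 1 ≤ b') (hm : |m| ≤ b' + b'⁻¹)
    {Y : ℝ} (hY : b * b' * |Y| < 1) : Q l m Y = ((Real.exp (-S l m Y) : ℝ) : ℂ) := by
  obtain ⟨s, hs, h⟩ := hasSum_log hb hl hb' hm hY
  rw [S, hs.tsum_eq, h]

theorem S_self_nonneg (l : ℝ) {Y : ℝ} (hY : 0 ≤ Y) : 0 ≤ S l l Y := by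
  refine tsum_nonneg fun k ↦ ?_
  have := mul_self_nonneg (t l k)
  positivity

theorem abs_S_le (hb : 1 ≤ b) (hl : |l| ≤ b + b⁻¹) (hb' : 1 ≤ b') (hm : |m| ≤ b' + b'⁻¹)
    {Y : ℝ} (hY0 : 0 ≤ Y) (hY : b * b * Y < 1) (hY' : b' * b' * Y < 1) :
    |S l m Y| ≤ (S l l Y + S m m Y) / 2 := by
  have h1 := summable_S hb hl hb hl (Y := Y) (by rwa [abs_of_nonneg hY0])
  have h2 := summable_S hb' hm hb' hm (Y := Y) (by rwa [abs_of_nonneg hY0])
  have hle : ∀ k : ℕ, ‖t l k * t m k * Y ^ k / k‖ ≤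
      (t l k * t l k * Y ^ k / k + t m k * t m k * Y ^ k / k) / 2 := by
    intro k
    rw [Real.norm_eq_abs, abs_div, abs_mul, abs_mul, abs_of_nonneg (pow_nonneg hY0 k),
      Nat.abs_cast]
    have h3 : |t l k| * |t m k| ≤ (t l k * t l k + t m k * t m k) / 2 := by
      nlinarith [sq_nonneg (|t l k| - |t m k|), sq_abs (t l k), sq_abs (t m k)]
    have h4 : 0 ≤ Y ^ k / (k : ℝ) := by positivity
    calc |t l k| * |t m k| * Y ^ k / k = (|t l k| * |t m k|) * (Y ^ k / k) := by ring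
      _ ≤ (t l k * t l k + t m k * t m k) / 2 * (Y ^ k / k) := mul_le_mul_of_nonneg_right h3 h4
      _ = _ := by ring
  have h5 : Summable fun k : ℕ ↦ ‖t l k * t m k * Y ^ k / k‖ :=
    Summable.of_nonneg_of_le (fun k ↦ norm_nonneg _) hle ((h1.add h2).div_const 2)
  calc |S l m Y| = ‖∑' k : ℕ, t l k * t m k * Y ^ k / k‖ := rfl
    _ ≤ ∑' k : ℕ, ‖t l k * t m k * Y ^ k / k‖ := norm_tsum_le_tsum_norm h5
    _ ≤ ∑' k : ℕ, (t l k * t l k * Y ^ k / k + t m k * t m k * Y ^ k / k) / 2 :=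
        h5.tsum_le_tsum hle ((h1.add h2).div_const 2)
    _ = (S l l Y + S m m Y) / 2 := by
        rw [tsum_div_const, h1.tsum_add h2]; rfl

/-- Crude upper bound. -/
theorem abs_S_le_log (hb : 1 ≤ b) (hl : |l| ≤ b + b⁻¹) (hb' : 1 ≤ b') (hm : |m| ≤ b' + b'⁻¹)
    {Y : ℝ} (hY0 : 0 ≤ Y) (hY : b * b' * Y < 1) :
    |S l m Y| ≤ 4 * (-Real.log (1 - b * b' * Y)) := by
  have h1 := summable_S hb hl hb' hm (Y := Y) (by rwa [abs_of_nonneg hY0])
  have hx : |b * b' * Y| < 1 := by rwa [abs_of_nonneg (by positivity)]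
  have h2 := (Real.hasSum_pow_div_log_of_abs_lt_one hx)
  have h2' : HasSum (fun k : ℕ ↦ (b * b' * Y) ^ k / k) (-Real.log (1 - b * b' * Y)) := by
    rw [← hasSum_nat_add_iff' 1]
    simpa using h2
  have hle : ∀ k : ℕ, ‖t l k * t m k * Y ^ k / k‖ ≤ 4 * ((b * b' * Y) ^ k / k) := by
    intro k
    rw [Real.norm_eq_abs, abs_div, abs_mul, abs_mul, abs_of_nonneg (pow_nonneg hY0 k),
      Nat.abs_cast]
    have h3 := mul_le_mul (abs_t_le hb hl k) (abs_t_le hb' hm k) (abs_nonneg _) (by positivity)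
    have h4 : 0 ≤ Y ^ k / (k : ℝ) := by positivity
    calc |t l k| * |t m k| * Y ^ k / k = (|t l k| * |t m k|) * (Y ^ k / k) := by ring
      _ ≤ (2 * b ^ k * (2 * b' ^ k)) * (Y ^ k / k) := mul_le_mul_of_nonneg_right h3 h4
      _ = 4 * ((b * b' * Y) ^ k / k) := by rw [mul_pow, mul_pow]; ring
  have h5 : Summable fun k : ℕ ↦ ‖t l k * t m k * Y ^ k / k‖ :=
    Summable.of_nonneg_of_le (fun k ↦ norm_nonneg _) hle (h2'.summable.mul_left 4)
  calc |S l m Y| = ‖∑' k : ℕ, t l k * t m k * Y ^ k / k‖ := rfl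
    _ ≤ ∑' k : ℕ, ‖t l k * t m k * Y ^ k / k‖ := norm_tsum_le_tsum_norm h5
    _ ≤ ∑' k : ℕ, 4 * ((b * b' * Y) ^ k / k) := h5.tsum_le_tsum hle (h2'.summable.mul_left 4)
    _ = 4 * (-Real.log (1 - b * b' * Y)) := by rw [tsum_mul_left, h2'.tsum_eq]

/-- The first term is a lower bound. -/
theorem le_S_self (hb : 1 ≤ b) (hl : |l| ≤ b + b⁻¹) {Y : ℝ} (hY0 : 0 ≤ Y)
    (hY : b * b * Y < 1) : l ^ 2 * Y ≤ S l l Y := by
  have h1 := summable_S hb hl hb hl (Y := Y) (by rwa [abs_of_nonneg hY0])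
  have h2 := h1.le_tsum 1 (fun k _ ↦ by
    have := mul_self_nonneg (t l k)
    positivity)
  refine le_trans (le_of_eq ?_) h2
  simp [sq]

/-- Cubing the Satake parameter. -/
theorem S_cube_le (hb : 1 ≤ b) (hl : |l| ≤ b + b⁻¹) {Y : ℝ} (hY0 : 0 ≤ Y)
    (hY : b * b * Y < 1) : S (t l 3) (t l 3) (Y ^ 3) ≤ 3 * S l l Y := by
  have h1 := summable_S hb hl hb hl (Y := Y) (by rwa [abs_of_nonneg hY0])
  have hinj : Function.Injective (fun k : ℕ ↦ 3 * k) := fun a b h ↦ by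
    simpa using h
  have h2 := h1.comp_injective hinj
  have h3 : S (t l 3) (t l 3) (Y ^ 3) = 3 * ∑' k : ℕ,
      ((fun k : ℕ ↦ t l k * t l k * Y ^ k / k) ∘ (fun k : ℕ ↦ 3 * k)) k := by
    rw [S, ← tsum_mul_left]
    refine tsum_congr fun k ↦ ?_
    simp only [Function.comp_apply]
    rw [t_mul_three, ← pow_mul]
    push_cast
    rcases Nat.eq_zero_or_pos k with h | h
    · subst h; simp
    · have : (k : ℝ) ≠ 0 := by exact_mod_cast h.ne'
      field_simp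
  rw [h3]
  refine mul_le_mul_of_nonneg_left ?_ (by norm_num)
  refine h2.tsum_le_tsum_of_inj (fun k : ℕ ↦ 3 * k) hinj (fun k _ ↦ ?_) (fun k ↦ le_rfl) h1
  have := mul_self_nonneg (t l k)
  positivity

theorem abs_t_three_le (hb : 1 ≤ b) (hl : |l| ≤ b + b⁻¹) : |t l 3| ≤ b ^ 3 + (b ^ 3)⁻¹ := by
  have hb0 : 0 < b := by linarith
  have hs : b ^ 3 + (b ^ 3)⁻¹ = (b + b⁻¹) ^ 3 - 3 * (b + b⁻¹) := by
    field_simp
    ring
  have h2 : 2 ≤ b + b⁻¹ := by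
    rw [← sub_nonneg]
    have : b + b⁻¹ - 2 = (b - 1) ^ 2 / b := by field_simp; ring
    rw [this]; positivity
  rw [hs, t_three, show l ^ 3 - 3 * l = l * (l ^ 2 - 3) by ring, abs_mul]
  set x := |l| with hx
  have hx0 : 0 ≤ x := abs_nonneg _
  have hx2 : l ^ 2 = x ^ 2 := (sq_abs l).symm
  rw [hx2]
  rcases le_or_gt 2 x with h | h
  · rw [abs_of_nonneg (by nlinarith)]
    have : (b + b⁻¹) ^ 3 - 3 * (b + b⁻¹) - x * (x ^ 2 - 3) =
      (b + b⁻¹ - x) * ((b + b⁻¹) ^ 2 + (b + b⁻¹) * x + x ^ 2 - 3) := by ring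
    nlinarith [mul_nonneg (sub_nonneg.2 hl) (show 0 ≤ (b + b⁻¹) ^ 2 + (b + b⁻¹) * x + x ^ 2 - 3 by
      nlinarith)]
  · have h3 : (2 : ℝ) ≤ (b + b⁻¹) ^ 3 - 3 * (b + b⁻¹) := by
      nlinarith [mul_nonneg (sub_nonneg.2 h2) (sq_nonneg (b + b⁻¹ + 1))]
    refine le_trans ?_ h3
    rcases le_or_gt 0 (x ^ 2 - 3) with h4 | h4
    · rw [abs_of_nonneg h4]
      nlinarith [mul_nonneg (sub_nonneg.2 h.le) (sq_nonneg (x + 1))]
    · rw [abs_of_neg h4]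
      nlinarith [mul_nonneg (show (0:ℝ) ≤ x + 2 by linarith) (sq_nonneg (x - 1))]

end bounds

/-- The product of the three twisted denominators. -/
theorem Q_prod_three (l m : ℝ) (X : ℂ) {z : ℂ} (hz : z ^ 2 + z + 1 = 0) :
    Q l m X * Q l m (z * X) * Q l m (z ^ 2 * X) = Q (t l 3) (t m 3) (X ^ 3) := by
  have h3 : z ^ 3 = 1 := by linear_combination (z - 1) * hz
  set a : ℂ := l * m with ha
  set b : ℂ := (l : ℂ) ^ 2 + (m : ℂ) ^ 2 - 2 with hb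
  have e0 : Q l m X = (1 - a * X ^ 3) + (-a * X + X ^ 4) + b * X ^ 2 := by
    unfold Q; rw [ha, hb]; ring
  have e1 : Q l m (z * X) = (1 - a * X ^ 3) + z * (-a * X + X ^ 4) + z ^ 2 * (b * X ^ 2) := by
    unfold Q; rw [← ha, ← hb]
    linear_combination (-a * X ^ 3 + z * X ^ 4) * h3
  have e2 : Q l m (z ^ 2 * X) = (1 - a * X ^ 3) + z ^ 2 * (-a * X + X ^ 4) +
      z * (b * X ^ 2) := by
    unfold Q; rw [← ha, ← hb]
    linear_combination (-a * X ^ 3 * (z ^ 3 + 1) + z ^ 2 * X ^ 4 * (z ^ 3 + 1) + z * b * X ^ 2) * h3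
  have e3 : ∀ A B C : ℂ, (A + B + C) * (A + z * B + z ^ 2 * C) * (A + z ^ 2 * B + z * C) =
      A ^ 3 + B ^ 3 + C ^ 3 - 3 * A * B * C := by
    intro A B C
    linear_combination (A + B + C) * ((A * B + A * C + B * C) * hz +
      (B ^ 2 + C ^ 2 + z * B * C) * h3)
  rw [e0, e1, e2, e3, t_three, t_three]
  unfold Q
  push_cast
  rw [ha, hb]
  ring

/-- The local factor `(1 - X²) / Q`. -/
noncomputable def R (l m : ℝ) (X : ℂ) : ℂ := ∑' k : ℕ, ((U l k * U m k : ℝ) : ℂ) * X ^ k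

section factor

variable {l m b b' : ℝ}

theorem Q_ne_zero (hb : 1 ≤ b) (hl : |l| ≤ b + b⁻¹) (hb' : 1 ≤ b') (hm : |m| ≤ b' + b'⁻¹)
    {X : ℂ} (hX : b * b' * ‖X‖ < 1) : Q l m X ≠ 0 := by
  intro h
  have h1 := tsum_U_mul_Q hb hl hb' hm hX
  rw [h, mul_zero] at h1
  have h2 : ‖X‖ < 1 := by
    refine lt_of_le_of_lt ?_ hX
    have : 1 ≤ b * b' := one_le_mul_of_one_le_of_one_le hb hb'
    nlinarith [norm_nonneg X]
  have h3 : ‖X ^ 2‖ = 1 := by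
    rw [show X ^ 2 = 1 by linear_combination h1]; simp
  rw [norm_pow] at h3
  nlinarith [norm_nonneg X]

theorem R_eq (hb : 1 ≤ b) (hl : |l| ≤ b + b⁻¹) (hb' : 1 ≤ b') (hm : |m| ≤ b' + b'⁻¹)
    {X : ℂ} (hX : b * b' * ‖X‖ < 1) : R l m X = (1 - X ^ 2) / Q l m X := by
  rw [eq_div_iff (Q_ne_zero hb hl hb' hm hX)]
  exact tsum_U_mul_Q hb hl hb' hm hX

/-- Real local factor. -/
theorem R_real (hb : 1 ≤ b) (hl : |l| ≤ b + b⁻¹) (hb' : 1 ≤ b') (hm : |m| ≤ b' + b'⁻¹)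
    {X : ℝ} (hX0 : 0 ≤ X) (hX : b * b' * X < 1) :
    R l m X = ((Real.exp (Real.log (1 - X ^ 2) + S l m X) : ℝ) : ℂ) := by
  have hX1 : X < 1 := by
    refine lt_of_le_of_lt ?_ hX
    have : 1 ≤ b * b' := one_le_mul_of_one_le_of_one_le hb hb'
    nlinarith
  have hX' : b * b' * ‖(X : ℂ)‖ < 1 := by rwa [Complex.norm_real, Real.norm_of_nonneg hX0]
  rw [R_eq hb hl hb' hm hX', Q_eq_exp hb hl hb' hm (by rwa [abs_of_nonneg hX0]), Real.exp_add,
    Real.exp_log (by nlinarith), Real.exp_neg]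
  push_cast
  rw [div_inv_eq_mul]

/-- The three twists at an inert prime. -/
theorem R_prod_three (hb : 1 ≤ b) (hl : |l| ≤ b + b⁻¹) (hb' : 1 ≤ b') (hm : |m| ≤ b' + b'⁻¹)
    {X : ℝ} (hX0 : 0 ≤ X) (hX : b * b' * X < 1) {z : ℂ} (hz : z ^ 2 + z + 1 = 0) :
    R l m X * R l m (z * X) * R l m (z ^ 2 * X) =
      ((Real.exp (Real.log (1 - X ^ 6) + S (t l 3) (t m 3) (X ^ 3)) : ℝ) : ℂ) := by
  have h3 : z ^ 3 = 1 := by linear_combination (z - 1) * hz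
  have hX1 : X < 1 := by
    refine lt_of_le_of_lt ?_ hX
    have : 1 ≤ b * b' := one_le_mul_of_one_le_of_one_le hb hb'
    nlinarith
  have hzn : ‖z‖ = 1 := by
    have h4 : ‖z‖ ^ 3 = 1 := by rw [← norm_pow, h3, norm_one]
    exact (pow_eq_one_iff_of_nonneg (norm_nonneg _) (by norm_num)).1 h4
  have hX0' : b * b' * ‖(X : ℂ)‖ < 1 := by rwa [Complex.norm_real, Real.norm_of_nonneg hX0]
  have hX1' : b * b' * ‖z * (X : ℂ)‖ < 1 := by rwa [norm_mul, hzn, one_mul]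
  have hX2' : b * b' * ‖z ^ 2 * (X : ℂ)‖ < 1 := by
    rwa [norm_mul, norm_pow, hzn, one_pow, one_mul]
  have hY0 : 0 ≤ X ^ 3 := by positivity
  have hY : b ^ 3 * b' ^ 3 * X ^ 3 < 1 := by
    rw [← mul_pow, ← mul_pow]
    exact pow_lt_one₀ (by positivity) hX (by norm_num)
  have hX6 : X ^ 6 < 1 := pow_lt_one₀ hX0 hX1 (by norm_num)
  rw [R_eq hb hl hb' hm hX0', R_eq hb hl hb' hm hX1', R_eq hb hl hb' hm hX2', div_mul_div_comm,
    div_mul_div_comm, Q_prod_three l m X hz]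
  have e1 : ((X : ℂ) ^ 3) = ((X ^ 3 : ℝ) : ℂ) := by push_cast; ring
  rw [e1, Q_eq_exp (one_le_pow₀ hb) (abs_t_three_le hb hl) (one_le_pow₀ hb')
    (abs_t_three_le hb' hm) (by rwa [abs_of_nonneg hY0]), Real.exp_add, Real.exp_log (by linarith),
    Real.exp_neg]
  push_cast
  rw [div_inv_eq_mul]
  congr 1
  linear_combination (-(X : ℂ) ^ 2 + (X : ℂ) ^ 4 * z ^ 2) * (hz + z * h3) -
    (X : ℂ) ^ 6 * (z ^ 3 + 1) * h3

end factor

end Fermat.Agent.LT.H.Local
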