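import Fermat.Agent.LT.H.Par
import Fermat.Agent.LT.A.Mixed

/-!
# Lattices in `ℂ^I` coming from lattices in `F`, dual lattices, Parseval
-/

set_option autoImplicit false
set_option linter.unusedSectionVars false

open NumberField IsDedekindDomain Matrix MeasureTheory Module Set
open scoped ComplexConjugate ENNReal Real

namespace Fermat.Agent.LT.H

open Fermat.LT Fermat.Agent.LT.I

variable {F : Type} [Field F] [NumberField F] (A : Arch F)

/-- the trace `ℂ^I → ℝ` -/
noncomputable def trC (u : A.I → ℂ) : ℝ := ∑ i, 2 * (u i).re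

theorem trC_add (u v : A.I → ℂ) : trC A (u + v) = trC A u + trC A v := by
  simp only [trC, Pi.add_apply, Complex.add_re, mul_add, Finset.sum_add_distrib]

theorem trC_smul (c : ℝ) (u : A.I → ℂ) : trC A (c • u) = c * trC A u := by
  simp only [trC, Pi.smul_apply, Complex.real_smul, Complex.re_ofReal_mul, Finset.mul_sum]
  exact Finset.sum_congr rfl fun i _ => by ring

theorem trC_neg (u : A.I → ℂ) : trC A (-u) = - trC A u := by
  have := trC_smul A (-1) u
  simpa using this

/-- the trace as a linear map -/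
noncomputable def trL : (A.I → ℂ) →ₗ[ℝ] ℝ where
  toFun := trC A
  map_add' := trC_add A
  map_smul' := trC_smul A

theorem trC_embI (x : F) : trC A (embI A x) = ((Algebra.trace ℚ F x : ℚ) : ℝ) := by
  classical
  have h1 : (algebraMap ℚ ℂ) (Algebra.trace ℚ F x) = ∑ σ : F →ₐ[ℚ] ℂ, σ x :=
    trace_eq_sum_embeddings ℂ
  have h2 : ∑ σ : F →ₐ[ℚ] ℂ, σ x = ∑ φ : F →+* ℂ, φ x :=
    Fintype.sum_equiv (RingHom.equivRatAlgHom (R := F) (S := ℂ)).symm _ _ fun σ => rfl
  have h3 : ∑ φ : F →+* ℂ, φ x =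
      ∑ w : InfinitePlace F, ∑ φ : F →+* ℂ with InfinitePlace.mk φ = w, φ x :=
    (Finset.sum_fiberwise _ _ _).symm
  have h4 : ∑ w : InfinitePlace F, ∑ φ : F →+* ℂ with InfinitePlace.mk φ = w, φ x =
      ∑ i : A.I, ∑ φ : F →+* ℂ with InfinitePlace.mk φ = A.pl i, φ x :=
    (Fintype.sum_equiv A.equiv _ _ fun i => rfl).symm
  have h5 : ∀ i : A.I, ∑ φ : F →+* ℂ with InfinitePlace.mk φ = A.pl i, φ x =
      ((2 * (A.emb i x).re : ℝ) : ℂ) := by
    intro i
    have hne : A.emb i ≠ ComplexEmbedding.conjugate (A.emb i) := by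
      intro h
      exact A.cx i h.symm
    have hs : (Finset.univ.filter fun φ : F →+* ℂ => InfinitePlace.mk φ = A.pl i) =
        {A.emb i, ComplexEmbedding.conjugate (A.emb i)} := by
      ext φ
      simp only [Finset.mem_filter, Finset.mem_univ, true_and, Finset.mem_insert,
        Finset.mem_singleton]
      rw [Arch.pl, InfinitePlace.mk_eq_iff]
      constructor
      · rintro (h | h)
        · exact Or.inl h
        · refine Or.inr ?_
          rw [← h]
          exact (star_star _).symm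
      · rintro (h | h)
        · exact Or.inl h
        · refine Or.inr ?_
          rw [h]
          exact star_star _
    rw [hs, Finset.sum_pair hne]
    rw [ComplexEmbedding.conjugate_coe_eq, Complex.add_conj]
  have h6 : ((trC A (embI A x) : ℝ) : ℂ) = (algebraMap ℚ ℂ) (Algebra.trace ℚ F x) := by
    rw [h1, h2, h3, h4, Finset.sum_congr rfl fun i _ => h5 i, trC]
    push_cast
    rfl
  have h7 : (algebraMap ℚ ℂ) (Algebra.trace ℚ F x) = ((((Algebra.trace ℚ F x : ℚ)) : ℝ) : ℂ) := by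
    simp
  rw [h7] at h6
  exact_mod_cast h6

/-- the additive character `u ↦ e(Tr(ν u))` of `ℂ^I` -/
noncomputable def eC (ν : F) (u : A.I → ℂ) : ℂ :=
  Complex.exp (2 * π * Complex.I * (trC A (embI A ν * u) : ℝ))

theorem norm_eC (ν : F) (u : A.I → ℂ) : ‖eC A ν u‖ = 1 := by
  unfold eC
  have h : (2 * π * Complex.I * (trC A (embI A ν * u) : ℝ) : ℂ) =
      ((2 * π * trC A (embI A ν * u) : ℝ) : ℂ) * Complex.I := by push_cast; ring
  rw [h, Complex.norm_exp_ofReal_mul_I]

theorem eC_add (ν : F) (u v : A.I → ℂ) : eC A ν (u + v) = eC A ν u * eC A ν v := by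
  unfold eC
  rw [mul_add, trC_add, ← Complex.exp_add]
  congr 1
  push_cast
  ring

theorem eC_zero (u : A.I → ℂ) : eC A 0 u = 1 := by
  unfold eC
  rw [map_zero, zero_mul]
  simp [trC]

theorem eC_eq_one_of_int {ν : F} {u : A.I → ℂ} {m : ℤ} (h : trC A (embI A ν * u) = m) :
    eC A ν u = 1 := by
  unfold eC
  rw [h]
  have := Complex.exp_int_mul_two_pi_mul_I m
  rw [← this]
  congr 1
  push_cast
  ring

theorem continuous_trC : Continuous (trC A) := by
  unfold trC
  fun_prop

theorem continuous_eC (ν : F) : Continuous (eC A ν) := by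
  unfold eC
  have h1 : Continuous fun u : A.I → ℂ => trC A (embI A ν * u) :=
    (continuous_trC A).comp (continuous_const.mul continuous_id)
  fun_prop

/-- `bLat` of a subgroup of `F` -/
def latOf (L : AddSubgroup F) : AddSubgroup (A.I → ℂ) := L.map (embI A).toAddMonoidHom

theorem mem_latOf {L : AddSubgroup F} {u : A.I → ℂ} : u ∈ latOf A L ↔ ∃ x ∈ L, embI A x = u :=
  Iff.rfl

/-- A subgroup of `F` commensurable with `𝓞 F`. -/
structure IsLat (L : AddSubgroup F) : Prop where
  low : ∃ c : 𝓞 F, c ≠ 0 ∧ ∀ b : 𝓞 F, ((c * b : 𝓞 F) : F) ∈ L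
  up : ∃ n : 𝓞 F, n ≠ 0 ∧ ∀ b ∈ L, ∃ d : 𝓞 F, (d : F) = (n : F) * b

/-- dual lattice -/
def dualOf (L : AddSubgroup F) : Set F := {ν | ∀ b ∈ L, ∃ m : ℤ, trC A (embI A (ν * b)) = m}

theorem span_embI_top : Submodule.span ℝ (Set.range fun x : 𝓞 F => embI A (x : F)) = ⊤ := by
  rw [eq_top_iff, ← (latB A).span_eq]
  apply Submodule.span_mono
  rintro _ ⟨j, rfl⟩
  refine ⟨RingOfIntegers.basis F j, ?_⟩
  rw [latB_apply]
  change embI A _ = embI A _
  congr 1
  exact (integralBasis_apply F j).symm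

/-- multiplication by `embI c`, `c ≠ 0` -/
noncomputable def mulE {c : F} (hc : c ≠ 0) : (A.I → ℂ) ≃ₗ[ℝ] (A.I → ℂ) where
  toFun u := embI A c * u
  invFun u := embI A c⁻¹ * u
  map_add' u v := by rw [mul_add]
  map_smul' r u := by simp
  left_inv u := by
    change embI A c⁻¹ * (embI A c * u) = u
    rw [← mul_assoc, ← map_mul, inv_mul_cancel₀ hc, map_one, one_mul]
  right_inv u := by
    change embI A c * (embI A c⁻¹ * u) = u
    rw [← mul_assoc, ← map_mul, mul_inv_cancel₀ hc, map_one, one_mul]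

theorem mulE_apply {c : F} (hc : c ≠ 0) (u : A.I → ℂ) : mulE A hc u = embI A c * u := rfl

theorem card_chooseBasis : Fintype.card (Free.ChooseBasisIndex ℤ (𝓞 F)) = finrank ℚ F := by
  rw [← Module.finrank_eq_card_chooseBasisIndex, RingOfIntegers.rank]

theorem finrank_CI : finrank ℝ (A.I → ℂ) = finrank ℚ F := by
  rw [Module.finrank_eq_card_basis (latB A), card_chooseBasis]

/-- `L` has a `ℤ`-basis which is an `ℝ`-basis of `ℂ^I`. -/
theorem exists_latBasis {L : AddSubgroup F} (hL : IsLat L) :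
    ∃ (m : ℕ) (β : Fin m → F) (b : Basis (Fin m) ℝ (A.I → ℂ)), (∀ i, b i = embI A (β i)) ∧
      ∀ x : F, x ∈ L ↔ ∃ k : Fin m → ℤ, x = ∑ i, (k i : F) * β i := by
  obtain ⟨c, hc, hcL⟩ := hL.low
  obtain ⟨n, hn, hnL⟩ := hL.up
  have hcF : (c : F) ≠ 0 := by simpa using hc
  have hnF : (n : F) ≠ 0 := by simpa using hn
  let jn : 𝓞 F →ₗ[ℤ] F :=
    (LinearMap.mulLeft ℤ (n : F)⁻¹).comp ((Algebra.linearMap (𝓞 F) F).restrictScalars ℤ)
  have hjn : ∀ d : 𝓞 F, jn d = (n : F)⁻¹ * (d : F) := fun d => rfl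
  let M : Submodule ℤ (𝓞 F) := Submodule.comap jn (AddSubgroup.toIntSubmodule L)
  have hM : ∀ d : 𝓞 F, d ∈ M ↔ (n : F)⁻¹ * (d : F) ∈ L := fun d => Iff.rfl
  have hMf : Module.Finite ℤ M := inferInstance
  have hMfree : Module.Free ℤ M := inferInstance
  let bM := Module.finBasis ℤ M
  set m := finrank ℤ M with hm
  let β : Fin m → F := fun i => jn (bM i : 𝓞 F)
  have hβL : ∀ i, β i ∈ L := fun i => (bM i).2
  have hmem : ∀ x : F, x ∈ L ↔ ∃ k : Fin m → ℤ, x = ∑ i, (k i : F) * β i := by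
    intro x
    constructor
    · intro hx
      obtain ⟨d, hd⟩ := hnL x hx
      have hxd : x = jn d := by rw [hjn, hd, inv_mul_cancel_left₀ hnF]
      have hdM : d ∈ M := by rw [hM, ← hjn, ← hxd]; exact hx
      refine ⟨fun i => bM.repr ⟨d, hdM⟩ i, ?_⟩
      have h1 := bM.sum_repr ⟨d, hdM⟩
      have h2 := congrArg (fun z : M => jn (z : 𝓞 F)) h1
      simp only [Submodule.coe_sum, Submodule.coe_smul, map_sum, map_smul] at h2
      rw [hxd, ← h2]
      refine Finset.sum_congr rfl fun i _ => ?_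
      rw [zsmul_eq_mul]
    · rintro ⟨k, rfl⟩
      refine L.sum_mem fun i _ => ?_
      rw [← zsmul_eq_mul]
      exact L.zsmul_mem (hβL i) _
  -- spanning
  have hspan : ⊤ ≤ Submodule.span ℝ (Set.range fun i => embI A (β i)) := by
    set W := Submodule.span ℝ (Set.range fun i => embI A (β i)) with hW
    have h1 : ∀ x ∈ L, embI A x ∈ W := by
      intro x hx
      obtain ⟨k, rfl⟩ := (hmem x).mp hx
      rw [map_sum]
      refine W.sum_mem fun i _ => ?_
      rw [map_mul, map_intCast]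
      have : ((k i : ℤ) : A.I → ℂ) * embI A (β i) = ((k i : ℤ) : ℝ) • embI A (β i) := by
        funext j
        simp
      rw [this]
      exact W.smul_mem _ (Submodule.subset_span ⟨i, rfl⟩)
    have h2 : (⊤ : Submodule ℝ (A.I → ℂ)).map (mulE A hcF).toLinearMap ≤ W := by
      rw [← span_embI_top A, Submodule.map_span, Submodule.span_le]
      rintro _ ⟨_, ⟨o, rfl⟩, rfl⟩
      have : (mulE A hcF).toLinearMap (embI A (o : F)) = embI A ((c * o : 𝓞 F) : F) := by
        change embI A (c : F) * embI A (o : F) = _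
        rw [← map_mul]; rfl
      change (mulE A hcF).toLinearMap (embI A (o : F)) ∈ W
      rw [this]
      exact h1 _ (hcL o)
    rwa [Submodule.map_top, LinearEquiv.range] at h2
  have hcard : Fintype.card (Fin m) = finrank ℝ (A.I → ℂ) := by
    apply le_antisymm
    · rw [Fintype.card_fin, finrank_CI, hm, ← RingOfIntegers.rank F]
      exact Submodule.finrank_le M
    · exact finrank_le_of_span_eq_top (top_le_iff.mp hspan) |>.trans (by simp)
  refine ⟨m, β, basisOfTopLeSpanOfCardEqFinrank _ hspan hcard, fun i => ?_, hmem⟩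
  rw [coe_basisOfTopLeSpanOfCardEqFinrank]

theorem trC_mul_sum {ι : Type} [Fintype ι] (ν : F) (b : Basis ι ℝ (A.I → ℂ)) {β : ι → F}
    (hb : ∀ i, b i = embI A (β i)) (x : ι → ℝ) :
    trC A (embI A ν * ∑ i, x i • b i) = ∑ i, x i * trC A (embI A (ν * β i)) := by
  have h1 : embI A ν * ∑ i, x i • b i = ∑ i, x i • embI A (ν * β i) := by
    rw [Finset.mul_sum]
    refine Finset.sum_congr rfl fun i _ => ?_
    rw [hb, mul_smul_comm, map_mul]
  rw [h1]
  change trL A _ = _
  rw [map_sum]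
  refine Finset.sum_congr rfl fun i _ => ?_
  rw [map_smul]; rfl

/-- For a `ℤ`-basis `β` of `L`, the dual lattice is parametrised by `ℤ^m`. -/
theorem exists_dualEquiv {L : AddSubgroup F} {ι : Type} [Fintype ι] {β : ι → F}
    (b : Basis ι ℝ (A.I → ℂ)) (hb : ∀ i, b i = embI A (β i))
    (hmem : ∀ x : F, x ∈ L ↔ ∃ k : ι → ℤ, x = ∑ i, (k i : F) * β i) :
    ∃ e : (ι → ℤ) ≃ dualOf A L, ∀ m i, trC A (embI A ((e m : F) * β i)) = m i := by
  classical
  have hcard : Fintype.card ι = finrank ℚ F := by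
    rw [← Module.finrank_eq_card_basis b, finrank_CI]
  have hβL : ∀ i, β i ∈ L := fun i => (hmem _).mpr ⟨Pi.single i 1, by
    rw [Finset.sum_eq_single i]
    · simp
    · intro j _ hj; simp [hj]
    · intro h; exact absurd (Finset.mem_univ i) h⟩
  let T : F →ₗ[ℚ] (ι → ℚ) :=
    LinearMap.pi fun i => (Algebra.trace ℚ F).comp (LinearMap.mulRight ℚ (β i))
  have hT : ∀ x i, T x i = Algebra.trace ℚ F (x * β i) := fun x i => rfl
  have hTR : ∀ x i, trC A (embI A (x * β i)) = ((T x i : ℚ) : ℝ) := fun x i => by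
    rw [hT, trC_embI]
  have hinj : Function.Injective T := by
    rw [injective_iff_map_eq_zero]
    intro x hx
    by_contra hx0
    have h1 : ∀ u : A.I → ℂ, trC A (embI A x * u) = 0 := by
      intro u
      rw [← b.sum_repr u, trC_mul_sum A x b hb]
      refine Finset.sum_eq_zero fun i _ => ?_
      rw [hTR, hx]
      simp
    have h2 := h1 (embI A x⁻¹)
    rw [← map_mul, mul_inv_cancel₀ hx0, map_one] at h2
    have h3 : trC A (1 : A.I → ℂ) = 2 * Fintype.card A.I := by
      simp [trC, mul_comm]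
    rw [h3] at h2
    have h4 : Nonempty A.I := by
      obtain ⟨w⟩ : Nonempty (InfinitePlace F) := inferInstance
      exact ⟨A.equiv.symm w⟩
    have h5 : (0 : ℝ) < Fintype.card A.I := by exact_mod_cast Fintype.card_pos
    linarith
  have hsurj : Function.Surjective T := by
    rw [← LinearMap.injective_iff_surjective_of_finrank_eq_finrank]
    · exact hinj
    · rw [Module.finrank_fintype_fun_eq_card, hcard]
  have hdual : ∀ ν : F, ν ∈ dualOf A L ↔ ∃ m : ι → ℤ, ∀ i, T ν i = m i := by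
    intro ν
    constructor
    · intro h
      have h1 : ∀ i, ∃ m : ℤ, T ν i = m := by
        intro i
        obtain ⟨m, hm⟩ := h (β i) (hβL i)
        rw [hTR] at hm
        exact ⟨m, by exact_mod_cast hm⟩
      choose m hm using h1
      exact ⟨m, hm⟩
    · rintro ⟨m, hm⟩ x hx
      obtain ⟨k, rfl⟩ := (hmem x).mp hx
      refine ⟨∑ i, k i * m i, ?_⟩
      have h1 : embI A (ν * ∑ i, (k i : F) * β i) = embI A ν * ∑ i, (k i : ℝ) • b i := by
        rw [map_mul, map_sum]
        congr 1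
        refine Finset.sum_congr rfl fun i _ => ?_
        rw [map_mul, map_intCast, hb]
        funext j
        simp
      rw [h1, trC_mul_sum A ν b hb]
      push_cast
      refine Finset.sum_congr rfl fun i _ => ?_
      rw [hTR, hm]
      push_cast
      rfl
  let f : (ι → ℤ) → dualOf A L := fun m =>
    ⟨(hsurj fun i => (m i : ℚ)).choose, (hdual _).mpr ⟨m, fun i => by
      rw [(hsurj fun i => (m i : ℚ)).choose_spec]⟩⟩
  have hf : ∀ m, T (f m : F) = fun i => (m i : ℚ) := fun m => (hsurj fun i => (m i : ℚ)).choose_spec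
  have hbij : Function.Bijective f := by
    constructor
    · intro m m' h
      have h1 := congrArg (fun z : dualOf A L => T (z : F)) h
      simp only [hf] at h1
      funext i
      have := congrFun h1 i
      exact_mod_cast this
    · rintro ⟨ν, hν⟩
      obtain ⟨m, hm⟩ := (hdual ν).mp hν
      refine ⟨m, Subtype.ext (hinj ?_)⟩
      rw [hf]
      exact (funext hm).symm
  refine ⟨Equiv.ofBijective f hbij, fun m i => ?_⟩
  rw [hTR]
  change ((T (f m : F) i : ℚ) : ℝ) = _
  rw [hf]
  push_cast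
  rfl

/-- The Fourier coefficient computed with the fundamental domain `s`. -/
noncomputable def fcoef (s : Set (A.I → ℂ)) (ν : F) (f : (A.I → ℂ) → ℂ) : ℂ :=
  (volume s).toReal⁻¹ • ∫ u in s, eC A (-ν) u * f u

theorem eC_neg_periodic {L : AddSubgroup F} {ν : F} (hν : ν ∈ dualOf A L) {g : A.I → ℂ}
    (hg : g ∈ latOf A L) (u : A.I → ℂ) : eC A (-ν) (g + u) = eC A (-ν) u := by
  obtain ⟨x, hx, rfl⟩ := (mem_latOf A).mp hg
  obtain ⟨m, hm⟩ := hν x hx
  rw [eC_add, eC_eq_one_of_int A (m := -m), one_mul]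
  rw [map_neg, neg_mul, trC_neg, ← map_mul, hm]
  push_cast; rfl

section parseval

variable {A} {L : AddSubgroup F} {s s' : Set (A.I → ℂ)} {f : (A.I → ℂ) → ℂ}

theorem countable_latOf : Countable (latOf A L) := by
  have : Countable F := Finsupp.Countable.of_moduleFinite (R := ℚ)
  have h : Function.Surjective (fun x : L => (⟨embI A x, (mem_latOf A).mpr ⟨x, x.2, rfl⟩⟩ : latOf A L)) := by
    rintro ⟨_, x, hx, rfl⟩
    exact ⟨⟨x, hx⟩, rfl⟩
  exact h.countable

theorem measure_box_eq (hs : IsBox volume (latOf A L) s) (hs' : IsBox volume (latOf A L) s') :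
    volume s = volume s' := by
  have := countable_latOf (A := A) (L := L)
  exact hs.isAddFundamentalDomain.measure_eq hs'.isAddFundamentalDomain

theorem lintegral_box_eq (hs : IsBox volume (latOf A L) s) (hs' : IsBox volume (latOf A L) s')
    {h : (A.I → ℂ) → ℝ≥0∞} (hh : ∀ g ∈ latOf A L, ∀ u, h (g + u) = h u) :
    ∫⁻ u in s, h u = ∫⁻ u in s', h u := by
  have := countable_latOf (A := A) (L := L)
  exact hs.isAddFundamentalDomain.setLIntegral_eq hs'.isAddFundamentalDomain h
    fun g x => hh g g.2 x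

theorem integral_box_eq (hs : IsBox volume (latOf A L) s) (hs' : IsBox volume (latOf A L) s')
    {h : (A.I → ℂ) → ℂ} (hh : ∀ g ∈ latOf A L, ∀ u, h (g + u) = h u) :
    ∫ u in s, h u = ∫ u in s', h u := by
  have := countable_latOf (A := A) (L := L)
  exact hs.isAddFundamentalDomain.setIntegral_eq hs'.isAddFundamentalDomain
    (f := h) fun g x => hh g g.2 x

theorem fcoef_eq (hs : IsBox volume (latOf A L) s) (hs' : IsBox volume (latOf A L) s') {ν : F}
    (hν : ν ∈ dualOf A L) (hf : ∀ g ∈ latOf A L, ∀ u, f (g + u) = f u) :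
    fcoef A s ν f = fcoef A s' ν f := by
  rw [fcoef, fcoef, measure_box_eq hs hs']
  congr 1
  refine integral_box_eq hs hs' fun g hg u => ?_
  rw [eC_neg_periodic A hν hg, hf g hg]

open Classical in
/-- **Parseval's identity.** -/
theorem parseval (hL : IsLat L) (hs : IsBox volume (latOf A L) s) (hf : Continuous f)
    (hper : ∀ g ∈ latOf A L, ∀ u, f (g + u) = f u) :
    ∫⁻ u in s, ‖f u‖ₑ ^ 2 = volume s *
      ∑' ν : F, if ν ∈ dualOf A L then ‖fcoef A s ν f‖ₑ ^ 2 else 0 := by
  obtain ⟨m, β, b, hb, hmem⟩ := exists_latBasis A hL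
  obtain ⟨e, he⟩ := exists_dualEquiv A b hb hmem
  have hlat : ∀ v, v ∈ latOf A L ↔ ∃ k : Fin m → ℤ, v = ∑ i, (k i : ℝ) • b i := by
    intro v
    rw [mem_latOf]
    have key : ∀ k : Fin m → ℤ, embI A (∑ i, (k i : F) * β i) = ∑ i, (k i : ℝ) • b i := by
      intro k
      rw [map_sum]
      refine Finset.sum_congr rfl fun i _ => ?_
      rw [map_mul, map_intCast, hb]
      funext j
      simp
    constructor
    · rintro ⟨x, hx, rfl⟩
      obtain ⟨k, rfl⟩ := (hmem x).mp hx
      exact ⟨k, key k⟩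
    · rintro ⟨k, rfl⟩
      exact ⟨_, (hmem _).mpr ⟨k, rfl⟩, key k⟩
  have hs0 : IsBox volume (latOf A L) (lbox b) := isBox_lbox b hlat
  -- reduce to the box `lbox b`
  have h1 : ∫⁻ u in s, ‖f u‖ₑ ^ 2 = ∫⁻ u in lbox b, ‖f u‖ₑ ^ 2 :=
    lintegral_box_eq hs hs0 fun g hg u => by rw [hper g hg]
  have h2 : ∀ ν : F, (if ν ∈ dualOf A L then ‖fcoef A s ν f‖ₑ ^ 2 else 0) =
      (dualOf A L).indicator (fun ν => ‖fcoef A (lbox b) ν f‖ₑ ^ 2) ν := by
    intro ν
    by_cases hν : ν ∈ dualOf A L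
    · rw [if_pos hν, indicator_of_mem hν, fcoef_eq hs hs0 hν hper]
    · rw [if_neg hν, indicator_of_notMem hν]
  rw [h1, measure_box_eq hs hs0, tsum_congr h2, ← tsum_subtype (dualOf A L)
    (fun ν => ‖fcoef A (lbox b) ν f‖ₑ ^ 2), ← e.tsum_eq]
  -- the function in coordinates
  let g : (Fin m → ℝ) → ℂ := fun x => f (b.equivFunL.symm x)
  have hg : Continuous g := hf.comp b.equivFunL.symm.continuous
  have hsymm : ∀ x : Fin m → ℝ, b.equivFunL.symm x = ∑ i, x i • b i := fun x =>
    b.equivFun_symm_apply x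
  have hgper : ∀ (k : Fin m → ℤ) x, g (x + zv k) = g x := by
    intro k x
    change f (b.equivFunL.symm (x + zv k)) = f (b.equivFunL.symm x)
    rw [map_add, add_comm]
    exact hper _ ((hlat _).mpr ⟨k, hsymm _⟩) _
  rw [lintegral_lbox, ← tsum_box_sq hg hgper]
  congr 1
  refine tsum_congr fun k => ?_
  congr 2
  rw [fcoef, integral_lbox, smul_smul, inv_mul_cancel₀, one_smul]
  · refine integral_congr_ae (Filter.Eventually.of_forall fun x => ?_)
    change ex (-k) x * g x = eC A (-(e k : F)) (b.equivFunL.symm x) * g x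
    congr 1
    rw [ex, eC, hsymm, trC_mul_sum A _ b hb]
    congr 2
    push_cast
    refine Finset.sum_congr rfl fun i _ => ?_
    rw [neg_mul, map_neg, trC_neg, he]
    push_cast
    simp only [Pi.neg_apply, Int.cast_neg]
    ring
  · exact (ENNReal.toReal_pos hs0.pos hs0.fin).ne'

end parseval

end Fermat.Agent.LT.H
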