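import Mathlib

/-!
# The Bessel function `K₀`

`K0 x = ∫_{u > 0} exp (- x cosh u)`; moments, derivatives, the differential equation, bounds.
-/

set_option autoImplicit false

open MeasureTheory Set Filter Topology Real

noncomputable section

namespace Fermat.Agent.LT.H.Bessel

/-- `∫_{u > 0} cosh(u)^n exp (- x cosh u)` -/
def Mo (n : ℕ) (x : ℝ) : ℝ := ∫ u in Ioi (0 : ℝ), cosh u ^ n * exp (-(x * cosh u))

/-- The Bessel function `K₀`. -/
def K0 (x : ℝ) : ℝ := ∫ u in Ioi (0 : ℝ), exp (-(x * cosh u))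

theorem K0_eq_Mo (x : ℝ) : K0 x = Mo 0 x := by simp [K0, Mo]

theorem self_le_cosh (u : ℝ) : u ≤ cosh u := by
  have h1 : u + 1 ≤ exp u := add_one_le_exp u
  have h2 : -u + 1 ≤ exp (-u) := add_one_le_exp (-u)
  have h3 : 0 < exp (-u) := exp_pos _
  rw [Real.cosh_eq]
  by_cases h : u ≤ 1
  · by_cases h0 : 0 ≤ u
    · have := Real.one_le_cosh u
      rw [Real.cosh_eq] at this
      linarith
    · have := Real.one_le_cosh u
      rw [Real.cosh_eq] at this
      linarith
  · -- `exp u ≥ 1 + u + u²/2 ≥ 2 u`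
    have hq : 1 + u + u ^ 2 / 2 ≤ exp u := quadratic_le_exp_of_nonneg (by linarith)
    nlinarith [sq_nonneg (u - 1)]

/-- `y ^ n * exp (-a y) ≤ C` for `y ≥ 0`. -/
theorem pow_mul_exp_le (n : ℕ) {a : ℝ} (ha : 0 < a) : ∃ C : ℝ, 0 < C ∧ ∀ y : ℝ, 0 ≤ y →
    y ^ n * exp (-(a * y)) ≤ C := by
  refine ⟨n.factorial / a ^ n, by positivity, fun y hy => ?_⟩
  have h1 : (a * y) ^ n / n.factorial ≤ exp (a * y) := pow_div_factorial_le_exp _ (by positivity) n
  rw [exp_neg, mul_inv_le_iff₀ (exp_pos _), div_mul_eq_mul_div, le_div_iff₀ (by positivity)]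
  rw [div_le_iff₀ (by positivity), mul_pow] at h1
  nlinarith [exp_pos (a * y)]

theorem continuous_integrand (n : ℕ) (x : ℝ) :
    Continuous fun u : ℝ => cosh u ^ n * exp (-(x * cosh u)) := by
  fun_prop

/-- domination -/
theorem exists_bound (n : ℕ) {a : ℝ} (ha : 0 < a) : ∃ C : ℝ, 0 < C ∧ ∀ x, a ≤ x → ∀ u : ℝ,
    cosh u ^ n * exp (-(x * cosh u)) ≤ C * exp (-(a / 2) * u) := by
  obtain ⟨C, hC, h⟩ := pow_mul_exp_le n (half_pos ha)
  refine ⟨C, hC, fun x hx u => ?_⟩
  have hc : 0 < cosh u := cosh_pos u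
  have h1 : exp (-(x * cosh u)) ≤ exp (-(a / 2 * cosh u)) * exp (-(a / 2) * u) := by
    rw [← exp_add]
    apply exp_le_exp.mpr
    have := self_le_cosh u
    nlinarith [mul_le_mul_of_nonneg_right hx hc.le, mul_le_mul_of_nonneg_left this (half_pos ha).le]
  calc cosh u ^ n * exp (-(x * cosh u)) ≤ cosh u ^ n * (exp (-(a / 2 * cosh u)) * exp (-(a / 2) * u)) :=
        mul_le_mul_of_nonneg_left h1 (by positivity)
    _ = (cosh u ^ n * exp (-(a / 2 * cosh u))) * exp (-(a / 2) * u) := by ring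
    _ ≤ C * exp (-(a / 2) * u) := mul_le_mul_of_nonneg_right (h _ hc.le) (exp_pos _).le

theorem integrableOn_exp {a : ℝ} (ha : 0 < a) (C : ℝ) :
    IntegrableOn (fun u : ℝ => C * exp (-(a / 2) * u)) (Ioi 0) :=
  (exp_neg_integrableOn_Ioi 0 (half_pos ha)).const_mul C

theorem integrable (n : ℕ) {x : ℝ} (hx : 0 < x) :
    IntegrableOn (fun u : ℝ => cosh u ^ n * exp (-(x * cosh u))) (Ioi 0) := by
  obtain ⟨C, hC, h⟩ := exists_bound n hx
  refine Integrable.mono' (integrableOn_exp hx C) (continuous_integrand n x).aestronglyMeasurable ?_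
  refine Eventually.of_forall fun u => ?_
  rw [Real.norm_of_nonneg (by have := cosh_pos u; positivity)]
  exact h x le_rfl u

theorem hasDerivAt_Mo (n : ℕ) {x : ℝ} (hx : 0 < x) : HasDerivAt (Mo n) (-Mo (n + 1) x) x := by
  obtain ⟨C, hC, h⟩ := exists_bound (n + 1) (half_pos hx)
  have key := hasDerivAt_integral_of_dominated_loc_of_deriv_le
    (μ := volume.restrict (Ioi (0 : ℝ)))
    (F := fun (y : ℝ) (u : ℝ) => cosh u ^ n * exp (-(y * cosh u)))
    (F' := fun (y : ℝ) (u : ℝ) => -(cosh u ^ (n + 1) * exp (-(y * cosh u))))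
    (x₀ := x) (bound := fun u => C * exp (-(x / 2 / 2) * u)) (s := Ioi (x / 2))
    (Ioi_mem_nhds (by linarith))
    (Eventually.of_forall fun y => (continuous_integrand n y).aestronglyMeasurable)
    (integrable n hx)
    ((continuous_integrand (n + 1) x).neg.aestronglyMeasurable)
    (Eventually.of_forall fun u y hy => by
      rw [norm_neg, Real.norm_of_nonneg (by have := cosh_pos u; positivity)]
      exact h y (le_of_lt hy) u)
    (integrableOn_exp (half_pos hx) C)
    (Eventually.of_forall fun u y hy => by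
      have h1 : HasDerivAt (fun y : ℝ => -(y * cosh u)) (-(1 * cosh u)) y :=
        ((hasDerivAt_id' y).mul_const (cosh u)).fun_neg
      exact ((h1.exp).const_mul (cosh u ^ n)).congr_deriv (by ring))
  have := key.2
  rw [integral_neg] at this
  exact this

/-- The differential equation in terms of moments. -/
theorem Mo_ode {x : ℝ} (hx : 0 < x) : x * (Mo 2 x - Mo 0 x) = Mo 1 x := by
  have hd : ∀ u ∈ Ioi (0 : ℝ), HasDerivAt (fun u => sinh u * exp (-(x * cosh u)))
      (cosh u ^ 1 * exp (-(x * cosh u)) - x * (cosh u ^ 2 * exp (-(x * cosh u)) - cosh u ^ 0 * exp (-(x * cosh u)))) u := by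
    intro u _
    have h1 : HasDerivAt (fun u : ℝ => -(x * cosh u)) (-(x * sinh u)) u :=
      ((hasDerivAt_cosh u).const_mul x).fun_neg
    have h3 : sinh u ^ 2 = cosh u ^ 2 - 1 := by linarith [cosh_sq u]
    refine ((hasDerivAt_sinh u).fun_mul h1.exp).congr_deriv ?_
    linear_combination (-x * exp (-(x * cosh u))) * h3
  have hint := ((integrable 1 hx).sub (((integrable 2 hx).sub (integrable 0 hx)).const_mul x))
  have htend : Tendsto (fun u => sinh u * exp (-(x * cosh u))) atTop (𝓝 0) := by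
    obtain ⟨C, hC, h⟩ := exists_bound 1 hx
    have h0 : Tendsto (fun u : ℝ => C * exp (-(x / 2) * u)) atTop (𝓝 0) := by
      have : Tendsto (fun u : ℝ => exp (-(x / 2) * u)) atTop (𝓝 0) := by
        apply tendsto_exp_atBot.comp
        apply Tendsto.const_mul_atTop_of_neg (by linarith) tendsto_id
      simpa using this.const_mul C
    refine squeeze_zero_norm' ?_ h0
    filter_upwards [eventually_ge_atTop (0 : ℝ)] with u hu
    have hs : 0 ≤ sinh u := sinh_nonneg_iff.mpr hu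
    rw [Real.norm_of_nonneg (by positivity)]
    refine le_trans ?_ (h x le_rfl u)
    rw [pow_one]
    exact mul_le_mul_of_nonneg_right (sinh_lt_cosh u).le (exp_pos _).le
  have key := integral_Ioi_of_hasDerivAt_of_tendsto (a := (0 : ℝ))
    (f := fun u => sinh u * exp (-(x * cosh u))) (m := 0) (by fun_prop) hd hint htend
  have e1 := integral_sub (integrable 1 hx) (((integrable 2 hx).sub (integrable 0 hx)).const_mul x)
  have e2 := integral_sub (integrable 2 hx) (integrable 0 hx)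
  have e3 : ∫ u in Ioi (0 : ℝ), x * (cosh u ^ 2 * exp (-(x * cosh u)) - cosh u ^ 0 * exp (-(x * cosh u))) =
      x * (Mo 2 x - Mo 0 x) := by
    rw [integral_const_mul, Mo, Mo, ← e2]
  simp only [sinh_zero, zero_mul, sub_zero] at key
  have e4 : Mo 1 x - x * (Mo 2 x - Mo 0 x) = 0 := by
    rw [← e3]
    exact e1.symm.trans key
  linarith

theorem Mo_pos (n : ℕ) {x : ℝ} (hx : 0 < x) : 0 < Mo n x := by
  refine (integral_pos_iff_support_of_nonneg (fun u => ?_) (integrable n hx)).mpr ?_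
  · have := cosh_pos u
    positivity
  · have : Function.support (fun u : ℝ => cosh u ^ n * exp (-(x * cosh u))) = univ := by
      ext u
      have := cosh_pos u
      simp only [Function.mem_support, mem_univ, iff_true]
      positivity
    rw [this]
    simp

theorem K0_pos {x : ℝ} (hx : 0 < x) : 0 < K0 x := by
  rw [K0_eq_Mo]; exact Mo_pos 0 hx

/-- exponential decay -/
theorem Mo_le (n : ℕ) {a x : ℝ} (ha : 0 < a) (hx : a ≤ x) :
    Mo n x ≤ exp (-(x - a)) * Mo n a := by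
  unfold Mo
  rw [← integral_const_mul]
  refine integral_mono (integrable n (ha.trans_le hx)) ((integrable n ha).const_mul _) fun u => ?_
  have hc := one_le_cosh u
  have : exp (-(x * cosh u)) ≤ exp (-(x - a)) * exp (-(a * cosh u)) := by
    rw [← exp_add]
    apply exp_le_exp.mpr
    nlinarith
  calc cosh u ^ n * exp (-(x * cosh u)) ≤ cosh u ^ n * (exp (-(x - a)) * exp (-(a * cosh u))) :=
        mul_le_mul_of_nonneg_left this (by have := cosh_pos u; positivity)
    _ = exp (-(x - a)) * (cosh u ^ n * exp (-(a * cosh u))) := by ring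

/-- behaviour at `0` -/
theorem exists_K0_le {ε : ℝ} (hε : 0 < ε) : ∃ C : ℝ, 0 < C ∧ ∀ x : ℝ, 0 < x →
    K0 x ≤ C * x ^ (-ε) := by
  -- `exp (-y) ≤ c y^(-ε)`
  obtain ⟨c, hc, hcy⟩ : ∃ c : ℝ, 0 < c ∧ ∀ y : ℝ, 0 < y → exp (-y) ≤ c * y ^ (-ε) := by
    obtain ⟨n, hn⟩ := exists_nat_gt ε
    obtain ⟨C, hC, h⟩ := pow_mul_exp_le n one_pos
    refine ⟨max C 1, by positivity, fun y hy => ?_⟩
    rw [rpow_neg hy.le, ← div_eq_mul_inv, le_div_iff₀ (by positivity)]
    rcases le_total y 1 with h1 | h1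
    · have e1 : y ^ ε ≤ 1 := rpow_le_one hy.le h1 hε.le
      have e2 : exp (-y) ≤ 1 := exp_le_one_iff.mpr (by linarith)
      calc exp (-y) * y ^ ε ≤ 1 * 1 := mul_le_mul e2 e1 (by positivity) (by norm_num)
        _ ≤ max C 1 := by rw [one_mul]; exact le_max_right _ _
    · have e1 : y ^ ε ≤ y ^ (n : ℝ) := rpow_le_rpow_of_exponent_le h1 hn.le
      rw [rpow_natCast] at e1
      calc exp (-y) * y ^ ε ≤ exp (-y) * y ^ n := mul_le_mul_of_nonneg_left e1 (exp_pos _).le
        _ = y ^ n * exp (-(1 * y)) := by rw [one_mul, mul_comm]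
        _ ≤ C := h y hy.le
        _ ≤ max C 1 := le_max_left _ _
  have hint : IntegrableOn (fun u : ℝ => cosh u ^ (-ε)) (Ioi 0) := by
    have h1 : IntegrableOn (fun u : ℝ => (2 : ℝ) ^ ε * exp (-ε * u)) (Ioi 0) :=
      (exp_neg_integrableOn_Ioi 0 hε).const_mul _
    refine Integrable.mono' h1 ?_ (Eventually.of_forall fun u => ?_)
    · apply Continuous.aestronglyMeasurable
      exact Continuous.rpow_const continuous_cosh fun u => Or.inl (cosh_pos u).ne'
    · have h2 : exp u / 2 ≤ cosh u := by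
        rw [cosh_eq]
        have := exp_pos (-u)
        linarith
      rw [Real.norm_of_nonneg (rpow_nonneg (cosh_pos u).le _)]
      calc cosh u ^ (-ε) ≤ (exp u / 2) ^ (-ε) :=
            rpow_le_rpow_of_nonpos (by positivity) h2 (by linarith)
        _ = (2 : ℝ) ^ ε * exp (-ε * u) := by
            rw [div_rpow (exp_pos u).le (by norm_num), ← exp_mul, rpow_neg (by norm_num : (0:ℝ) ≤ 2),
              div_inv_eq_mul, mul_comm, mul_comm u]
  refine ⟨c * (∫ u in Ioi (0 : ℝ), cosh u ^ (-ε)) + 1, ?_, fun x hx => ?_⟩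
  · have : 0 ≤ ∫ u in Ioi (0 : ℝ), cosh u ^ (-ε) := integral_nonneg fun u => rpow_nonneg (cosh_pos u).le _
    positivity
  · have h3 : K0 x ≤ ∫ u in Ioi (0 : ℝ), (c * x ^ (-ε)) * cosh u ^ (-ε) := by
      unfold K0
      have hi := integrable 0 hx
      simp only [pow_zero, one_mul] at hi
      refine integral_mono hi (hint.const_mul _) fun u => ?_
      have := hcy (x * cosh u) (by have := cosh_pos u; positivity)
      rw [mul_rpow hx.le (cosh_pos u).le] at this
      linarith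
    rw [integral_const_mul] at h3
    have h4 : 0 < x ^ (-ε) := rpow_pos_of_pos hx _
    nlinarith

/-! ### The Whittaker function `t K₀(c t)` -/

/-- `K0' = - Mo 1` -/
theorem hasDerivAt_K0 {x : ℝ} (hx : 0 < x) : HasDerivAt K0 (-Mo 1 x) x := by
  have : K0 = Mo 0 := funext K0_eq_Mo
  rw [this]
  exact hasDerivAt_Mo 0 hx

/-- The Whittaker function. -/
def Wh (c t : ℝ) : ℝ := t * K0 (c * t)

/-- its derivative -/
def Wh' (c t : ℝ) : ℝ := K0 (c * t) - c * t * Mo 1 (c * t)

/-- its second derivative -/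
def Wh'' (c t : ℝ) : ℝ := -(2 * c * Mo 1 (c * t)) + c ^ 2 * t * Mo 2 (c * t)

theorem hasDerivAt_Mo_mul (n : ℕ) {c t : ℝ} (hc : 0 < c) (ht : 0 < t) :
    HasDerivAt (fun t => Mo n (c * t)) (-(c * Mo (n + 1) (c * t))) t := by
  have h1 := hasDerivAt_Mo n (mul_pos hc ht)
  have h2 : HasDerivAt (fun t => c * t) (c * 1) t := (hasDerivAt_id' t).const_mul c
  exact (h1.comp t h2).congr_deriv (by ring)

theorem hasDerivAt_Wh {c t : ℝ} (hc : 0 < c) (ht : 0 < t) : HasDerivAt (Wh c) (Wh' c t) t := by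
  have h1 := hasDerivAt_Mo_mul 0 hc ht
  have h2 : Wh c = fun t => t * Mo 0 (c * t) := by funext t; rw [Wh, K0_eq_Mo]
  rw [h2]
  exact ((hasDerivAt_id' t).fun_mul h1).congr_deriv (by rw [Wh', K0_eq_Mo]; ring)

theorem hasDerivAt_Wh' {c t : ℝ} (hc : 0 < c) (ht : 0 < t) : HasDerivAt (Wh' c) (Wh'' c t) t := by
  have h0 := hasDerivAt_Mo_mul 0 hc ht
  have h1 := hasDerivAt_Mo_mul 1 hc ht
  have h2 : Wh' c = fun t => Mo 0 (c * t) - c * t * Mo 1 (c * t) := by
    funext t; rw [Wh', K0_eq_Mo]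
  have h3 : HasDerivAt (fun t => c * t) (c * 1) t := (hasDerivAt_id' t).const_mul c
  rw [h2]
  exact (h0.fun_sub (h3.fun_mul h1)).congr_deriv (by rw [Wh'']; ring)

/-- `t² W'' - t W' + (1 - c² t²) W = 0` -/
theorem Wh_ode {c t : ℝ} (hc : 0 < c) (ht : 0 < t) :
    t ^ 2 * Wh'' c t - t * Wh' c t + (1 - c ^ 2 * t ^ 2) * Wh c t = 0 := by
  have h := Mo_ode (mul_pos hc ht)
  rw [Wh'', Wh', Wh, K0_eq_Mo]
  linear_combination (c * t ^ 2) * h

theorem Wh_pos {c t : ℝ} (hc : 0 < c) (ht : 0 < t) : 0 < Wh c t :=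
  mul_pos ht (K0_pos (mul_pos hc ht))

theorem Wh_scale (c t : ℝ) (hc : c ≠ 0) : Wh c t = c⁻¹ * Wh 1 (c * t) := by
  rw [Wh, Wh, one_mul]
  field_simp

end Fermat.Agent.LT.H.Bessel
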