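import Mathlib

/-!
# Euler products over `P →₀ ℕ`

`P` is an abstract set of primes.  A multiplicative function on `P →₀ ℕ` is given by its local
coefficients `f : P → ℕ → 𝕜` with `f v 0 = 1`.
-/

set_option autoImplicit false

open Filter Topology

namespace Fermat.Agent.LT.H.Euler

variable {P : Type*} {𝕜 : Type*} [NormedField 𝕜]

/-- The multiplicative function with local coefficients `f`. -/
noncomputable def mulF (f : P → ℕ → 𝕜) (n : P →₀ ℕ) : 𝕜 := n.prod f

theorem mulF_zero (f : P → ℕ → 𝕜) : mulF f 0 = 1 := by simp [mulF]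

theorem mulF_single {f : P → ℕ → 𝕜} (h0 : ∀ v, f v 0 = 1) (v : P) (k : ℕ) :
    mulF f (Finsupp.single v k) = f v k := by
  simp [mulF, Finsupp.prod_single_index, h0]

theorem mulF_add {f : P → ℕ → 𝕜} (h0 : ∀ v, f v 0 = 1) (v : P) (k : ℕ) {m : P →₀ ℕ}
    (hm : m v = 0) : mulF f (Finsupp.single v k + m) = f v k * mulF f m := by
  classical
  unfold mulF
  rw [Finsupp.prod_add_index_of_disjoint, Finsupp.prod_single_index (h0 v)]
  refine Finset.disjoint_left.2 fun w hw hw' ↦ ?_
  have h1 := Finsupp.support_single_subset hw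
  rw [Finset.mem_singleton] at h1
  subst h1
  simp [hm] at hw'

/-- Splitting off one prime. -/
noncomputable def splitEquiv [DecidableEq P] (v : P) (T : Finset P) (hv : v ∉ T) :
    ℕ × {m : P →₀ ℕ // m.support ⊆ T} ≃ {n : P →₀ ℕ // n.support ⊆ insert v T} where
  toFun x := ⟨Finsupp.single v x.1 + x.2.1, by
    refine Finsupp.support_add.trans (Finset.union_subset ?_ ?_)
    · exact Finsupp.support_single_subset.trans (by simp)
    · exact x.2.2.trans (Finset.subset_insert _ _)⟩
  invFun n := ⟨n.1 v, ⟨n.1.erase v, by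
    intro w hw
    rw [Finsupp.support_erase, Finset.mem_erase] at hw
    exact (Finset.mem_insert.1 (n.2 hw.2)).resolve_left hw.1⟩⟩
  left_inv := by
    rintro ⟨k, m, hm⟩
    have hmv : m v = 0 := by
      by_contra h
      exact hv (hm (Finsupp.mem_support_iff.2 h))
    refine Prod.ext ?_ (Subtype.ext ?_)
    · simp [hmv]
    · ext w
      by_cases hw : w = v
      · subst hw; simp [hmv]
      · simp [Finsupp.erase_ne hw]
  right_inv := by
    rintro ⟨n, hn⟩
    exact Subtype.ext (Finsupp.single_add_erase v n)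

variable [CompleteSpace 𝕜]

theorem tsum_support_subset {f : P → ℕ → 𝕜} (h0 : ∀ v, f v 0 = 1)
    (hsum : Summable fun n ↦ ‖mulF f n‖) (T : Finset P) :
    ∑' n : {n : P →₀ ℕ // n.support ⊆ T}, mulF f n.1 = ∏ v ∈ T, ∑' k, f v k := by
  classical
  induction T using Finset.induction_on with
  | empty =>
    have : Unique {n : P →₀ ℕ // n.support ⊆ (∅ : Finset P)} :=
      { default := ⟨0, by simp⟩
        uniq := by
          rintro ⟨n, hn⟩
          refine Subtype.ext ?_
          simpa using hn }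
    rw [tsum_eq_single (⟨0, by simp⟩ : {n : P →₀ ℕ // n.support ⊆ (∅ : Finset P)})
      (fun b hb ↦ absurd (Subsingleton.elim _ _) hb)]
    simp [mulF_zero]
  | insert v T hv ih =>
    rw [Finset.prod_insert hv, ← ih, ← (splitEquiv v T hv).tsum_eq]
    have hs1 : Summable fun k ↦ ‖f v k‖ := by
      have h1 := hsum.comp_injective (Finsupp.single_injective (M := ℕ) v)
      refine h1.congr fun k ↦ ?_
      simp only [Function.comp_apply]
      rw [mulF_single h0]
    have hs2 : Summable fun m : {m : P →₀ ℕ // m.support ⊆ T} ↦ ‖mulF f m.1‖ :=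
      hsum.comp_injective Subtype.val_injective
    rw [tsum_mul_tsum_of_summable_norm hs1 hs2]
    refine tsum_congr fun x ↦ ?_
    obtain ⟨k, m, hm⟩ := x
    have hmv : m v = 0 := by
      by_contra h
      exact hv (hm (Finsupp.mem_support_iff.2 h))
    exact mulF_add h0 v k hmv

/-- **Euler product**. -/
theorem hasProd {f : P → ℕ → 𝕜} (h0 : ∀ v, f v 0 = 1) (hsum : Summable fun n ↦ ‖mulF f n‖) :
    HasProd (fun v ↦ ∑' k, f v k) (∑' n, mulF f n) := by
  classical
  have key : ∀ T : Finset P, ∏ v ∈ T, ∑' k, f v k =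
      ∑' n, ({n : P →₀ ℕ | n.support ⊆ T}.indicator (mulF f) n) := by
    intro T
    rw [← tsum_support_subset h0 hsum T]
    exact (tsum_subtype {n : P →₀ ℕ | n.support ⊆ T} (mulF f))
  unfold HasProd
  simp only [SummationFilter.unconditional_filter]
  rw [tendsto_congr key]
  refine tendsto_tsum_of_dominated_convergence hsum (fun n ↦ ?_) (Eventually.of_forall fun T n ↦ ?_)
  · refine tendsto_const_nhds.congr' ?_
    filter_upwards [eventually_ge_atTop n.support] with T hT
    rw [Set.indicator_of_mem]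
    exact hT
  · by_cases h : n ∈ {n : P →₀ ℕ | n.support ⊆ T}
    · rw [Set.indicator_of_mem h]
    · rw [Set.indicator_of_notMem h]; simp

omit [CompleteSpace 𝕜] in
theorem summable_local {f : P → ℕ → 𝕜} (h0 : ∀ v, f v 0 = 1)
    (hsum : Summable fun n ↦ ‖mulF f n‖) (v : P) : Summable fun k ↦ ‖f v k‖ := by
  have h1 := hsum.comp_injective (Finsupp.single_injective (M := ℕ) v)
  refine h1.congr fun k ↦ ?_
  simp only [Function.comp_apply]
  rw [mulF_single h0]

omit [CompleteSpace 𝕜] in
/-- The sum of all proper local terms converges. -/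
theorem summable_local_sub_one {f : P → ℕ → 𝕜} (h0 : ∀ v, f v 0 = 1)
    (hsum : Summable fun n ↦ ‖mulF f n‖) : Summable fun v ↦ ∑' k, ‖f v (k + 1)‖ := by
  have hinj : Function.Injective (fun x : P × ℕ ↦ Finsupp.single x.1 (x.2 + 1)) := by
    rintro ⟨v, k⟩ ⟨w, l⟩ h
    have h' : Finsupp.single v (k + 1) = Finsupp.single w (l + 1) := h
    rw [Finsupp.single_eq_single_iff] at h'
    rcases h' with ⟨h1, h2⟩ | ⟨h1, h2⟩
    · subst h1
      simp only [Prod.mk.injEq, true_and]
      omega
    · omega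
  have h1 := hsum.comp_injective hinj
  have h2 : Summable fun x : P × ℕ ↦ ‖f x.1 (x.2 + 1)‖ := by
    refine h1.congr fun x ↦ ?_
    simp only [Function.comp_apply]
    rw [mulF_single h0]
  exact h2.prod

section real

/-- Logarithm of the Euler product of a non-negative multiplicative function. -/
theorem real_log {f : P → ℕ → ℝ} (h0 : ∀ v, f v 0 = 1) (hnn : ∀ v k, 0 ≤ f v k)
    (hsum : Summable (mulF f)) :
    (∀ v, 1 ≤ ∑' k, f v k) ∧ (Summable fun v ↦ Real.log (∑' k, f v k)) ∧
      Real.exp (∑' v, Real.log (∑' k, f v k)) = ∑' n, mulF f n := by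
  have hnn' : ∀ n, 0 ≤ mulF f n := fun n ↦ Finset.prod_nonneg fun v _ ↦ hnn v _
  have hsum' : Summable fun n ↦ ‖mulF f n‖ := hsum.norm
  have hl : ∀ v, Summable (f v) := fun v ↦ (summable_local h0 hsum' v).of_norm
  have heq : ∀ v, ∑' k, f v k = 1 + ∑' k, ‖f v (k + 1)‖ := by
    intro v
    rw [(hl v).tsum_eq_zero_add, h0]
    congr 1
    exact tsum_congr fun k ↦ (Real.norm_of_nonneg (hnn v _)).symm
  have hR1 : ∀ v, 1 ≤ ∑' k, f v k := fun v ↦ by
    rw [heq v]
    have : 0 ≤ ∑' k, ‖f v (k + 1)‖ := tsum_nonneg fun k ↦ norm_nonneg _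
    linarith
  have hs := summable_local_sub_one h0 hsum'
  have hlog : Summable fun v ↦ Real.log (∑' k, f v k) := by
    refine Summable.of_nonneg_of_le (fun v ↦ Real.log_nonneg (hR1 v)) (fun v ↦ ?_) hs
    have h1 := Real.log_le_sub_one_of_pos (show 0 < ∑' k, f v k from by linarith [hR1 v])
    rw [heq v] at h1 ⊢
    linarith
  refine ⟨hR1, hlog, ?_⟩
  rw [Real.rexp_tsum_eq_tprod (fun v ↦ by linarith [hR1 v]) hlog]
  exact (hasProd h0 hsum').tprod_eq

end real

end Fermat.Agent.LT.H.Euler
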