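import Mathlib
import Fermat.Agent.LT.H.Euler
import Fermat.Agent.LT.H.Local

/-!
# Uniqueness of Hecke eigensystems from Rankin–Selberg bounds

Abstract (Dirichlet series) part of the argument that a cuspidal eigensystem over `K` is
determined by its eigenvalues at the primes split in a cyclic cubic extension, and the easier
statement over `L`.
-/

set_option autoImplicit false

open Filter Topology

namespace Fermat.Agent.LT.H.Unique

open Fermat.Agent.LT.H.Euler Fermat.Agent.LT.H.Local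

variable {P : Type*}

/-- Terms of the Rankin–Selberg Dirichlet series twisted by `c`. -/
noncomputable def LS (q : P → ℝ) (c : P → ℂ) (l m : P → ℝ) (s : ℝ) (n : P →₀ ℕ) : ℂ :=
  mulF (fun v k ↦ ((U (l v) k * U (m v) k : ℝ) : ℂ) * (c v * ((q v ^ (-s) : ℝ) : ℂ)) ^ k) n

variable {q : P → ℝ} {l m : P → ℝ} {s : ℝ}

theorem norm_LS {c : P → ℂ} (hc : ∀ v, ‖c v‖ = 1) (hq : ∀ v, 2 ≤ q v) (l m : P → ℝ) (s : ℝ)
    (n : P →₀ ℕ) : ‖LS q c l m s n‖ =
      mulF (fun v k ↦ |U (l v) k| * |U (m v) k| * (q v ^ (-s)) ^ k) n := by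
  unfold LS mulF Finsupp.prod
  rw [norm_prod]
  refine Finset.prod_congr rfl fun v _ ↦ ?_
  have : 0 ≤ q v ^ (-s) := Real.rpow_nonneg (by linarith [hq v]) _
  rw [norm_mul, norm_pow, norm_mul, hc, one_mul, Complex.norm_real, Complex.norm_real,
    Real.norm_eq_abs, Real.norm_of_nonneg this, abs_mul]

theorem mulF_eq_three (q : P → ℝ) (l m : P → ℝ) (s : ℝ) (n : P →₀ ℕ) :
    mulF (fun v k ↦ |U (l v) k| * |U (m v) k| * (q v ^ (-s)) ^ k) n =
      mulF (fun v k ↦ |U (l v) k|) n * mulF (fun v k ↦ |U (m v) k|) n *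
        mulF (fun v k ↦ (q v ^ (-s)) ^ k) n := by
  unfold mulF Finsupp.prod
  rw [Finset.prod_mul_distrib, Finset.prod_mul_distrib]

theorem mulF_nonneg {f : P → ℕ → ℝ} (h : ∀ v k, 0 ≤ f v k) (n : P →₀ ℕ) : 0 ≤ mulF f n :=
  Finset.prod_nonneg fun v _ ↦ h v _

/-- Summability of the mixed series. -/
theorem summable_mixed {c c1 c2 : P → ℂ} (hc : ∀ v, ‖c v‖ = 1) (hc1 : ∀ v, ‖c1 v‖ = 1)
    (hc2 : ∀ v, ‖c2 v‖ = 1) (hq : ∀ v, 2 ≤ q v)
    (h1 : Summable fun n ↦ ‖LS q c1 l l s n‖) (h2 : Summable fun n ↦ ‖LS q c2 m m s n‖) :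
    Summable fun n ↦ ‖LS q c l m s n‖ := by
  refine Summable.of_nonneg_of_le (fun n ↦ norm_nonneg _) (fun n ↦ ?_)
    ((h1.add h2).mul_left (1 / 2))
  rw [norm_LS hc hq, norm_LS hc1 hq, norm_LS hc2 hq, mulF_eq_three, mulF_eq_three, mulF_eq_three]
  set A := mulF (fun v k ↦ |U (l v) k|) n
  set B := mulF (fun v k ↦ |U (m v) k|) n
  have hx : 0 ≤ mulF (fun v k ↦ (q v ^ (-s)) ^ k) n :=
    mulF_nonneg (fun v k ↦ pow_nonneg (Real.rpow_nonneg (by linarith [hq v]) _) _) n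
  nlinarith [mul_nonneg hx (sq_nonneg (A - B))]

theorem summable_coef {c c1 : P → ℂ} (hc : ∀ v, ‖c v‖ = 1) (hc1 : ∀ v, ‖c1 v‖ = 1)
    (hq : ∀ v, 2 ≤ q v) (h1 : Summable fun n ↦ ‖LS q c1 l m s n‖) :
    Summable fun n ↦ ‖LS q c l m s n‖ := by
  refine h1.congr fun n ↦ ?_
  rw [norm_LS hc hq, norm_LS hc1 hq]

/-- The bound `√q` for Satake parameters. -/
def Bdd (q : P → ℝ) (l : P → ℝ) : Prop := ∀ v, |l v| ≤ Real.sqrt (q v) + (Real.sqrt (q v))⁻¹

theorem one_le_sqrt (hq : ∀ v, 2 ≤ q v) (v : P) : 1 ≤ Real.sqrt (q v) := by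
  rw [Real.one_le_sqrt]; linarith [hq v]

theorem X_pos (hq : ∀ v, 2 ≤ q v) (v : P) (s : ℝ) : 0 < q v ^ (-s) :=
  Real.rpow_pos_of_pos (by linarith [hq v]) _

theorem X_le_half (hq : ∀ v, 2 ≤ q v) (v : P) {s : ℝ} (hs : 1 < s) : q v ^ (-s) ≤ 1 / 2 := by
  have h1 : q v ^ (-s) ≤ q v ^ (-1 : ℝ) :=
    Real.rpow_le_rpow_of_exponent_le (by linarith [hq v]) (by linarith)
  rw [Real.rpow_neg_one] at h1
  refine h1.trans ?_
  rw [one_div]
  exact inv_anti₀ (by norm_num) (hq v)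

theorem sqrt_mul_X_lt (hq : ∀ v, 2 ≤ q v) (v : P) {s : ℝ} (hs : 1 < s) :
    Real.sqrt (q v) * Real.sqrt (q v) * q v ^ (-s) < 1 := by
  have h0 : 0 < q v := by linarith [hq v]
  rw [Real.mul_self_sqrt h0.le]
  nth_rewrite 1 [← Real.rpow_one (q v)]
  rw [← Real.rpow_add h0]
  exact Real.rpow_lt_one_of_one_lt_of_neg (by linarith [hq v]) (by linarith)

theorem abs_log_one_sub_le {x : ℝ} (h0 : 0 ≤ x) (h1 : x ≤ 1 / 2) :
    |Real.log (1 - x)| ≤ 2 * x := by
  have h2 : Real.log (1 - x) ≤ 0 := Real.log_nonpos (by linarith) (by linarith)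
  rw [abs_of_nonpos h2]
  have h3 := Real.one_sub_inv_le_log_of_pos (show 0 < 1 - x by linarith)
  have h4 : (1 - x)⁻¹ - 1 ≤ 2 * x := by
    rw [sub_le_iff_le_add, inv_le_comm₀ (by linarith) (by linarith), inv_eq_one_div,
      div_le_iff₀ (by linarith)]
    nlinarith
  linarith

section fixed_s

variable (hq : ∀ v, 2 ≤ q v) (hs : 1 < s)

include hq hs

/-- Summability of the logarithms of the local factors of the square series. -/
theorem summable_S_self (hl : Bdd q l) (hsum : Summable fun v ↦ q v ^ (-s)) {c : P → ℂ}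
    (hc : ∀ v, ‖c v‖ = 1) (h1 : Summable fun n ↦ ‖LS q c l l s n‖) :
    Summable fun v ↦ S (l v) (l v) (q v ^ (-s)) := by
  set f : P → ℕ → ℝ := fun v k ↦ |U (l v) k| * |U (l v) k| * (q v ^ (-s)) ^ k with hf
  have hf1 : Summable (mulF f) := h1.congr fun n ↦ norm_LS hc hq l l s n
  have hf0 : ∀ v k, 0 ≤ f v k := fun v k ↦ by
    have := (X_pos hq v s).le
    positivity
  obtain ⟨hR1, hR2, -⟩ := real_log (f := f) (fun v ↦ by simp [hf]) hf0 hf1
  have hX : ∀ v, Real.log (∑' k, f v k) =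
      Real.log (1 - (q v ^ (-s)) ^ 2) + S (l v) (l v) (q v ^ (-s)) := by
    intro v
    have h2 := R_real (one_le_sqrt hq v) (hl v) (one_le_sqrt hq v) (hl v) (X_pos hq v s).le
      (sqrt_mul_X_lt hq v hs)
    have h3 : R (l v) (l v) ((q v ^ (-s) : ℝ) : ℂ) = ((∑' k, f v k : ℝ) : ℂ) := by
      rw [R, Complex.ofReal_tsum]
      refine tsum_congr fun k ↦ ?_
      simp only [hf]
      rw [abs_mul_abs_self]
      push_cast
      ring
    rw [h3] at h2
    rw [Complex.ofReal_inj.1 h2, Real.log_exp]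
  have hlog : Summable fun v ↦ Real.log (1 - (q v ^ (-s)) ^ 2) := by
    refine Summable.of_norm_bounded (hsum.mul_left 1) fun v ↦ ?_
    have h4 := (X_pos hq v s).le
    have h5 := X_le_half hq v hs
    rw [Real.norm_eq_abs]
    refine (abs_log_one_sub_le (sq_nonneg _) (by nlinarith)).trans ?_
    nlinarith
  refine (hR2.sub hlog).congr fun v ↦ ?_
  rw [hX v]; ring

theorem summable_S_mixed (hl : Bdd q l) (hm : Bdd q m)
    (h1 : Summable fun v ↦ S (l v) (l v) (q v ^ (-s)))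
    (h2 : Summable fun v ↦ S (m v) (m v) (q v ^ (-s))) :
    Summable fun v ↦ S (l v) (m v) (q v ^ (-s)) := by
  refine Summable.of_norm_bounded ((h1.add h2).div_const 2) fun v ↦ ?_
  exact abs_S_le (one_le_sqrt hq v) (hl v) (one_le_sqrt hq v) (hm v) (X_pos hq v s).le
    (sqrt_mul_X_lt hq v hs) (sqrt_mul_X_lt hq v hs)

omit hs in
theorem bdd_t3 (hl : Bdd q l) (v : P) :
    |t (l v) 3| ≤ Real.sqrt (q v) ^ 3 + (Real.sqrt (q v) ^ 3)⁻¹ :=
  abs_t_three_le (one_le_sqrt hq v) (hl v)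

theorem cube_lt (v : P) :
    Real.sqrt (q v) ^ 3 * Real.sqrt (q v) ^ 3 * (q v ^ (-s)) ^ 3 < 1 := by
  rw [← mul_pow, ← mul_pow]
  have := (X_pos hq v s).le
  exact pow_lt_one₀ (by positivity) (sqrt_mul_X_lt hq v hs) (by norm_num)

theorem summable_S3_self (hl : Bdd q l)
    (h1 : Summable fun v ↦ S (l v) (l v) (q v ^ (-s))) :
    Summable fun v ↦ S (t (l v) 3) (t (l v) 3) ((q v ^ (-s)) ^ 3) := by
  refine Summable.of_nonneg_of_le (fun v ↦ S_self_nonneg _ (pow_nonneg (X_pos hq v s).le 3))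
    (fun v ↦ ?_) (h1.mul_left 3)
  exact S_cube_le (one_le_sqrt hq v) (hl v) (X_pos hq v s).le (sqrt_mul_X_lt hq v hs)

theorem abs_S3_le (hl : Bdd q l) (hm : Bdd q m) (v : P) :
    |S (t (l v) 3) (t (m v) 3) ((q v ^ (-s)) ^ 3)| ≤
      (S (t (l v) 3) (t (l v) 3) ((q v ^ (-s)) ^ 3) +
        S (t (m v) 3) (t (m v) 3) ((q v ^ (-s)) ^ 3)) / 2 :=
  abs_S_le (one_le_pow₀ (one_le_sqrt hq v)) (bdd_t3 hq hl v) (one_le_pow₀ (one_le_sqrt hq v))
    (bdd_t3 hq hm v) (pow_nonneg (X_pos hq v s).le 3) (cube_lt hq hs v) (cube_lt hq hs v)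

theorem summable_S3_mixed (hl : Bdd q l) (hm : Bdd q m)
    (h1 : Summable fun v ↦ S (l v) (l v) (q v ^ (-s)))
    (h2 : Summable fun v ↦ S (m v) (m v) (q v ^ (-s))) :
    Summable fun v ↦ S (t (l v) 3) (t (m v) 3) ((q v ^ (-s)) ^ 3) := by
  refine Summable.of_norm_bounded (((summable_S3_self hq hs hl h1).add
    (summable_S3_self hq hs hm h2)).div_const 2) fun v ↦ ?_
  exact abs_S3_le hq hs hl hm v

/-- Local logarithm of the product of the three twisted series. -/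
noncomputable def G (q : P → ℝ) (w : P → ℂ) (l m : P → ℝ) (s : ℝ) (v : P) : ℝ :=
  open Classical in
  if w v = 1 then 3 * (Real.log (1 - (q v ^ (-s)) ^ 2) + S (l v) (m v) (q v ^ (-s)))
  else Real.log (1 - (q v ^ (-s)) ^ 6) + S (t (l v) 3) (t (m v) 3) ((q v ^ (-s)) ^ 3)

theorem R_three {w : P → ℂ} (hw : ∀ v, w v ^ 3 = 1) (hl : Bdd q l) (hm : Bdd q m) (v : P) :
    R (l v) (m v) (w v ^ 0 * ((q v ^ (-s) : ℝ) : ℂ)) *
      R (l v) (m v) (w v ^ 1 * ((q v ^ (-s) : ℝ) : ℂ)) *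
      R (l v) (m v) (w v ^ 2 * ((q v ^ (-s) : ℝ) : ℂ)) = ((Real.exp (G q w l m s v) : ℝ) : ℂ) := by
  rw [pow_zero, one_mul, pow_one]
  by_cases h : w v = 1
  · rw [G, if_pos h, h, one_pow, one_mul, R_real (one_le_sqrt hq v) (hl v) (one_le_sqrt hq v)
      (hm v) (X_pos hq v s).le (sqrt_mul_X_lt hq v hs), ← Complex.ofReal_mul,
      ← Complex.ofReal_mul, ← Real.exp_add, ← Real.exp_add]
    congr 2
    ring
  · rw [G, if_neg h]
    have hz : w v ^ 2 + w v + 1 = 0 := by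
      have h1 : (w v - 1) * (w v ^ 2 + w v + 1) = 0 := by linear_combination hw v
      exact (mul_eq_zero.1 h1).resolve_left (sub_ne_zero.2 h)
    exact R_prod_three (one_le_sqrt hq v) (hl v) (one_le_sqrt hq v) (hm v) (X_pos hq v s).le
      (sqrt_mul_X_lt hq v hs) hz

theorem summable_G (w : P → ℂ) (hl : Bdd q l) (hm : Bdd q m)
    (hsum : Summable fun v ↦ q v ^ (-s))
    (h1 : Summable fun v ↦ S (l v) (l v) (q v ^ (-s)))
    (h2 : Summable fun v ↦ S (m v) (m v) (q v ^ (-s))) : Summable (G q w l m s) := by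
  have h3 := summable_S_mixed hq hs hl hm h1 h2
  have h4 := summable_S3_mixed hq hs hl hm h1 h2
  refine Summable.of_norm_bounded (((hsum.mul_left 3).add (h3.norm.mul_left 3)).add h4.norm)
    fun v ↦ ?_
  have h5 := (X_pos hq v s).le
  have h6 := X_le_half hq v hs
  have h7 : |Real.log (1 - (q v ^ (-s)) ^ 2)| ≤ q v ^ (-s) :=
    (abs_log_one_sub_le (sq_nonneg _) (by nlinarith)).trans (by nlinarith)
  have h8 : |Real.log (1 - (q v ^ (-s)) ^ 6)| ≤ q v ^ (-s) := by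
    have h9 : (q v ^ (-s)) ^ 6 ≤ (q v ^ (-s)) ^ 2 :=
      pow_le_pow_of_le_one h5 (by linarith) (by norm_num)
    exact (abs_log_one_sub_le (by positivity) (by nlinarith)).trans (by nlinarith)
  simp only [G, Real.norm_eq_abs]
  split_ifs with h
  · rw [abs_mul, abs_of_pos (show (0:ℝ) < 3 by norm_num)]
    have := abs_add_le (Real.log (1 - (q v ^ (-s)) ^ 2)) (S (l v) (m v) (q v ^ (-s)))
    have := abs_nonneg (S (t (l v) 3) (t (m v) 3) ((q v ^ (-s)) ^ 3))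
    linarith
  · have := abs_add_le (Real.log (1 - (q v ^ (-s)) ^ 6))
      (S (t (l v) 3) (t (m v) 3) ((q v ^ (-s)) ^ 3))
    have := abs_nonneg (S (l v) (m v) (q v ^ (-s)))
    linarith

/-- **Product formula** for the three twisted Rankin–Selberg series. -/
theorem prod_three {w : P → ℂ} (hw : ∀ v, w v ^ 3 = 1) (hl : Bdd q l) (hm : Bdd q m)
    (hsum : Summable fun v ↦ q v ^ (-s))
    (h1 : Summable fun n ↦ ‖LS q (fun _ ↦ 1) l l s n‖)
    (h2 : Summable fun n ↦ ‖LS q (fun _ ↦ 1) m m s n‖) :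
    (∑' n, LS q (fun v ↦ w v ^ 0) l m s n) * (∑' n, LS q (fun v ↦ w v ^ 1) l m s n) *
      (∑' n, LS q (fun v ↦ w v ^ 2) l m s n) = ((Real.exp (∑' v, G q w l m s v) : ℝ) : ℂ) := by
  have hwn : ∀ v, ‖w v‖ = 1 := fun v ↦ by
    have h4 : ‖w v‖ ^ 3 = 1 := by rw [← norm_pow, hw, norm_one]
    exact (pow_eq_one_iff_of_nonneg (norm_nonneg _) (by norm_num)).1 h4
  have hone : ∀ v : P, ‖(fun _ : P ↦ (1 : ℂ)) v‖ = 1 := fun v ↦ by simp
  have hc : ∀ i : ℕ, ∀ v, ‖(fun v ↦ w v ^ i) v‖ = 1 := fun i v ↦ by simp [hwn]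
  have hS : ∀ i : ℕ, Summable fun n ↦ ‖LS q (fun v ↦ w v ^ i) l m s n‖ := fun i ↦
    summable_mixed (hc i) hone hone hq h1 h2
  have hP : ∀ i : ℕ, HasProd (fun v ↦ R (l v) (m v) (w v ^ i * ((q v ^ (-s) : ℝ) : ℂ)))
      (∑' n, LS q (fun v ↦ w v ^ i) l m s n) := fun i ↦
    hasProd (f := fun v k ↦ ((U (l v) k * U (m v) k : ℝ) : ℂ) *
      (w v ^ i * ((q v ^ (-s) : ℝ) : ℂ)) ^ k) (fun v ↦ by simp) (hS i)
  have h3 := ((hP 0).mul (hP 1)).mul (hP 2)
  have h4 : HasProd (fun v ↦ ((Real.exp (G q w l m s v) : ℝ) : ℂ))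
      ((∑' n, LS q (fun v ↦ w v ^ 0) l m s n) * (∑' n, LS q (fun v ↦ w v ^ 1) l m s n) *
      (∑' n, LS q (fun v ↦ w v ^ 2) l m s n)) := by
    refine h3.congr_fun fun v ↦ ?_
    exact (R_three hq hs hw hl hm v).symm
  have hG := summable_G hq hs w hl hm hsum
    (summable_S_self hq hs hl hsum hone h1) (summable_S_self hq hs hm hsum hone h2)
  have h5 : HasProd (fun v ↦ ((Real.exp (G q w l m s v) : ℝ) : ℂ))
      ((Real.exp (∑' v, G q w l m s v) : ℝ) : ℂ) := by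
    have h6 := (Complex.hasSum_ofReal.2 hG.hasSum).cexp
    rw [Complex.ofReal_exp]
    refine h6.congr_fun fun v ↦ ?_
    simp
  exact h4.unique h5

end fixed_s

section final

theorem tendsto_log_pole : Tendsto (fun s : ℝ ↦ Real.log (1 / (s - 1))) (𝓝[>] 1) atTop := by
  refine Real.tendsto_log_atTop.comp ?_
  have h1 : Tendsto (fun s : ℝ ↦ s - 1) (𝓝[>] 1) (𝓝[>] 0) := by
    refine tendsto_nhdsWithin_of_tendsto_nhds_of_eventually_within _ ?_ ?_
    · have : Tendsto (fun s : ℝ ↦ s - 1) (𝓝 1) (𝓝 (1 - 1)) := tendsto_id.sub_const 1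
      rw [sub_self] at this
      exact this.mono_left nhdsWithin_le_nhds
    · filter_upwards [self_mem_nhdsWithin] with s hs
      have : (1 : ℝ) < s := hs
      simpa using this
  refine h1.inv_tendsto_nhdsGT_zero.congr fun s ↦ ?_
  simp

variable {w : P → ℂ}

/-- Decomposition of the logarithm. -/
theorem tsum_G_ge (hq : ∀ v, 2 ≤ q v) (hs : 1 < s) (hl : Bdd q l) (hm : Bdd q m)
    (hsplit : ∀ v, w v = 1 → l v = m v) (hsum2 : Summable fun v ↦ q v ^ (-2 : ℝ))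
    (h1 : Summable fun v ↦ S (l v) (l v) (q v ^ (-s)))
    (h2 : Summable fun v ↦ S (m v) (m v) (q v ^ (-s))) :
    ∃ M E : ℝ, 3 * (∑' v, {v | w v = 1}.indicator (fun v ↦ l v ^ 2 * q v ^ (-s)) v) -
        6 * ∑' v, q v ^ (-2 : ℝ) ≤ M ∧ -2 * ∑' v, q v ^ (-2 : ℝ) ≤ E ∧
      ∑' v, G q w l l s v = M + E +
        ∑' v, {v | w v = 1}ᶜ.indicator (fun v ↦ S (t (l v) 3) (t (l v) 3) ((q v ^ (-s)) ^ 3)) v ∧
      ∑' v, G q w m m s v = M + E +
        ∑' v, {v | w v = 1}ᶜ.indicator (fun v ↦ S (t (m v) 3) (t (m v) 3) ((q v ^ (-s)) ^ 3)) v ∧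
      ∑' v, G q w l m s v = M + E +
        ∑' v, {v | w v = 1}ᶜ.indicator (fun v ↦ S (t (l v) 3) (t (m v) 3) ((q v ^ (-s)) ^ 3)) v ∧
      |∑' v, {v | w v = 1}ᶜ.indicator
          (fun v ↦ S (t (l v) 3) (t (m v) 3) ((q v ^ (-s)) ^ 3)) v| ≤
        ((∑' v, {v | w v = 1}ᶜ.indicator
          (fun v ↦ S (t (l v) 3) (t (l v) 3) ((q v ^ (-s)) ^ 3)) v) +
        ∑' v, {v | w v = 1}ᶜ.indicator
          (fun v ↦ S (t (m v) 3) (t (m v) 3) ((q v ^ (-s)) ^ 3)) v) / 2 := by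
  classical
  set A : Set P := {v | w v = 1} with hA
  have hX0 : ∀ v, 0 ≤ q v ^ (-s) := fun v ↦ (X_pos hq v s).le
  have hX1 : ∀ v, q v ^ (-s) ≤ 1 / 2 := fun v ↦ X_le_half hq v hs
  have hX2 : ∀ v, (q v ^ (-s)) ^ 2 ≤ q v ^ (-2 : ℝ) := by
    intro v
    have h0 : 0 < q v := by linarith [hq v]
    rw [← Real.rpow_natCast, ← Real.rpow_mul h0.le]
    exact Real.rpow_le_rpow_of_exponent_le (by linarith [hq v]) (by push_cast; linarith)
  have hL2 : ∀ v, |Real.log (1 - (q v ^ (-s)) ^ 2)| ≤ 2 * q v ^ (-2 : ℝ) := fun v ↦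
    (abs_log_one_sub_le (sq_nonneg _) (by nlinarith [hX0 v, hX1 v])).trans
      (by linarith [hX2 v])
  have hL6 : ∀ v, |Real.log (1 - (q v ^ (-s)) ^ 6)| ≤ 2 * q v ^ (-2 : ℝ) := fun v ↦ by
    have h9 : (q v ^ (-s)) ^ 6 ≤ (q v ^ (-s)) ^ 2 :=
      pow_le_pow_of_le_one (hX0 v) (by linarith [hX1 v]) (by norm_num)
    exact (abs_log_one_sub_le (by have := hX0 v; positivity)
      (by nlinarith [hX0 v, hX1 v])).trans (by linarith [hX2 v])
  have sL2 : Summable fun v ↦ Real.log (1 - (q v ^ (-s)) ^ 2) :=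
    Summable.of_norm_bounded (hsum2.mul_left 2) hL2
  have sL6 : Summable fun v ↦ Real.log (1 - (q v ^ (-s)) ^ 6) :=
    Summable.of_norm_bounded (hsum2.mul_left 2) hL6
  have sM : Summable fun v ↦ 3 * (Real.log (1 - (q v ^ (-s)) ^ 2) +
      S (l v) (l v) (q v ^ (-s))) := (sL2.add h1).mul_left 3
  have s3l := (summable_S3_self hq hs hl h1).indicator Aᶜ
  have s3m := (summable_S3_self hq hs hm h2).indicator Aᶜ
  have s3 := (summable_S3_mixed hq hs hl hm h1 h2).indicator Aᶜ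
  refine ⟨∑' v, A.indicator (fun v ↦ 3 * (Real.log (1 - (q v ^ (-s)) ^ 2) +
      S (l v) (l v) (q v ^ (-s)))) v,
    ∑' v, Aᶜ.indicator (fun v ↦ Real.log (1 - (q v ^ (-s)) ^ 6)) v, ?_, ?_, ?_, ?_, ?_, ?_⟩
  · have sl2 : Summable fun v ↦ l v ^ 2 * q v ^ (-s) := by
      refine Summable.of_nonneg_of_le (fun v ↦ mul_nonneg (sq_nonneg _) (hX0 v)) (fun v ↦ ?_) h1
      exact le_S_self (one_le_sqrt hq v) (hl v) (hX0 v) (sqrt_mul_X_lt hq v hs)
    rw [← tsum_mul_left, ← tsum_mul_left, ← Summable.tsum_sub ((sl2.indicator A).mul_left 3)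
      (hsum2.mul_left 6)]
    refine Summable.tsum_le_tsum (fun v ↦ ?_) (((sl2.indicator A).mul_left 3).sub
      (hsum2.mul_left 6)) (sM.indicator A)
    by_cases hv : v ∈ A
    · rw [Set.indicator_of_mem hv, Set.indicator_of_mem hv]
      have e1 := le_S_self (one_le_sqrt hq v) (hl v) (hX0 v) (sqrt_mul_X_lt hq v hs)
      have e2 := abs_le.1 (hL2 v)
      linarith [e2.1]
    · rw [Set.indicator_of_notMem hv, Set.indicator_of_notMem hv]
      have : 0 ≤ q v ^ (-2 : ℝ) := Real.rpow_nonneg (by linarith [hq v]) _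
      linarith
  · rw [← tsum_mul_left]
    refine Summable.tsum_le_tsum (fun v ↦ ?_) (hsum2.mul_left (-2)) (sL6.indicator Aᶜ)
    have : 0 ≤ q v ^ (-2 : ℝ) := Real.rpow_nonneg (by linarith [hq v]) _
    by_cases hv : v ∈ Aᶜ
    · rw [Set.indicator_of_mem hv]
      linarith [(abs_le.1 (hL6 v)).1]
    · rw [Set.indicator_of_notMem hv]
      linarith
  · rw [← (sM.indicator A).tsum_add (sL6.indicator Aᶜ),
      ← ((sM.indicator A).add (sL6.indicator Aᶜ)).tsum_add s3l]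
    refine tsum_congr fun v ↦ ?_
    by_cases hv : w v = 1
    · simp [G, hA, hv]
    · simp [G, hA, hv]
  · rw [← (sM.indicator A).tsum_add (sL6.indicator Aᶜ),
      ← ((sM.indicator A).add (sL6.indicator Aᶜ)).tsum_add s3m]
    refine tsum_congr fun v ↦ ?_
    by_cases hv : w v = 1
    · simp [G, hA, hv, hsplit v hv]
    · simp [G, hA, hv]
  · rw [← (sM.indicator A).tsum_add (sL6.indicator Aᶜ),
      ← ((sM.indicator A).add (sL6.indicator Aᶜ)).tsum_add s3]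
    refine tsum_congr fun v ↦ ?_
    by_cases hv : w v = 1
    · simp [G, hA, hv, hsplit v hv]
    · simp [G, hA, hv]
  · rw [← s3l.tsum_add s3m, ← tsum_div_const, ← Real.norm_eq_abs]
    refine (norm_tsum_le_tsum_norm s3.norm).trans ?_
    refine Summable.tsum_le_tsum (fun v ↦ ?_) s3.norm ((s3l.add s3m).div_const 2)
    by_cases hv : v ∈ Aᶜ
    · rw [Set.indicator_of_mem hv, Set.indicator_of_mem hv, Set.indicator_of_mem hv]
      exact abs_S3_le hq hs hl hm v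
    · rw [Set.indicator_of_notMem hv, Set.indicator_of_notMem hv, Set.indicator_of_notMem hv]
      simp

/-- **Uniqueness over `K`**: two eigensystems agreeing at the primes with `w v = 1` (the primes
split in the cyclic cubic extension) with the Rankin–Selberg bounds cannot be orthogonal. -/
theorem uniqueness_cubic (hq : ∀ v, 2 ≤ q v)
    (hsum : ∀ s : ℝ, 1 < s → Summable fun v ↦ q v ^ (-s))
    (hw : ∀ v, w v ^ 3 = 1) (hl : Bdd q l) (hm : Bdd q m)
    (hsplit : ∀ v, w v = 1 → l v = m v) {κ C0 : ℝ} (hκ : 1 / 2 < κ)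
    (hdens : ∀ᶠ s : ℝ in 𝓝[>] 1, κ * Real.log (1 / (s - 1)) ≤
      3 * (∑' v, {v | w v = 1}.indicator (fun v ↦ l v ^ 2 * q v ^ (-s)) v) + C0)
    (hsl : ∀ s : ℝ, 1 < s → Summable fun n ↦ ‖LS q (fun _ ↦ 1) l l s n‖)
    (hsm : ∀ s : ℝ, 1 < s → Summable fun n ↦ ‖LS q (fun _ ↦ 1) m m s n‖)
    {C : ℝ}
    (hll0 : ∀ᶠ s : ℝ in 𝓝[>] 1, ‖∑' n, LS q (fun v ↦ w v ^ 0) l l s n‖ ≤ C / (s - 1))
    (hll1 : ∀ᶠ s : ℝ in 𝓝[>] 1, ‖∑' n, LS q (fun v ↦ w v ^ 1) l l s n‖ ≤ C)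
    (hll2 : ∀ᶠ s : ℝ in 𝓝[>] 1, ‖∑' n, LS q (fun v ↦ w v ^ 2) l l s n‖ ≤ C)
    (hmm0 : ∀ᶠ s : ℝ in 𝓝[>] 1, ‖∑' n, LS q (fun v ↦ w v ^ 0) m m s n‖ ≤ C / (s - 1))
    (hmm1 : ∀ᶠ s : ℝ in 𝓝[>] 1, ‖∑' n, LS q (fun v ↦ w v ^ 1) m m s n‖ ≤ C)
    (hmm2 : ∀ᶠ s : ℝ in 𝓝[>] 1, ‖∑' n, LS q (fun v ↦ w v ^ 2) m m s n‖ ≤ C)
    (hlm0 : ∀ᶠ s : ℝ in 𝓝[>] 1, ‖∑' n, LS q (fun v ↦ w v ^ 0) l m s n‖ ≤ C)
    (hlm1 : ∀ᶠ s : ℝ in 𝓝[>] 1, ‖∑' n, LS q (fun v ↦ w v ^ 1) l m s n‖ ≤ C)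
    (hlm2 : ∀ᶠ s : ℝ in 𝓝[>] 1, ‖∑' n, LS q (fun v ↦ w v ^ 2) l m s n‖ ≤ C) : False := by
  have hone : ∀ v : P, ‖(fun _ : P ↦ (1 : ℂ)) v‖ = 1 := fun v ↦ by simp
  have hsum2 : Summable fun v ↦ q v ^ (-2 : ℝ) := hsum 2 (by norm_num)
  set T := ∑' v, q v ^ (-2 : ℝ) with hT
  set D := max C 1 with hD
  have hD1 : 1 ≤ D := le_max_right _ _
  have hCD : C ≤ D := le_max_left _ _
  have hmain : ∀ᶠ s : ℝ in 𝓝[>] 1,
      (2 * κ - 1) * Real.log (1 / (s - 1)) ≤ 2 * C0 + 16 * T + 6 * Real.log D := by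
    filter_upwards [self_mem_nhdsWithin, hdens, hll0, hll1, hll2, hmm0, hmm1, hmm2, hlm0, hlm1,
      hlm2] with s hs' hd a0 a1 a2 b0 b1 b2 c0 c1 c2
    have hs : 1 < s := hs'
    have hs1 : 0 < s - 1 := by linarith
    have h1 := summable_S_self hq hs hl (hsum s hs) hone (hsl s hs)
    have h2 := summable_S_self hq hs hm (hsum s hs) hone (hsm s hs)
    obtain ⟨M, E, e1, e2, e3, e4, e5, e6⟩ := tsum_G_ge (w := w) hq hs hl hm hsplit
      hsum2 h1 h2
    have p1 := congrArg norm (prod_three hq hs hw hl hl (hsum s hs) (hsl s hs) (hsl s hs))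
    have p2 := congrArg norm (prod_three hq hs hw hm hm (hsum s hs) (hsm s hs) (hsm s hs))
    have p3 := congrArg norm (prod_three hq hs hw hl hm (hsum s hs) (hsl s hs) (hsm s hs))
    rw [norm_mul, norm_mul, Complex.norm_real, Real.norm_of_nonneg (Real.exp_pos _).le] at p1 p2 p3
    have hlogD : 0 ≤ Real.log D := Real.log_nonneg hD1
    have up : ∀ x y z g : ℝ, 0 ≤ x → 0 ≤ y → 0 ≤ z → x ≤ C / (s - 1) → y ≤ C → z ≤ C →
        x * y * z = Real.exp g → g ≤ Real.log (1 / (s - 1)) + 3 * Real.log D := by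
      intro x y z g hx hy hz hx' hy' hz' h
      have h3 : Real.exp g ≤ (D / (s - 1)) * D * D := by
        rw [← h]
        have : x ≤ D / (s - 1) := hx'.trans (div_le_div_of_nonneg_right hCD hs1.le)
        have h5 : y ≤ D := hy'.trans hCD
        have h6 : z ≤ D := hz'.trans hCD
        gcongr
      have h4 := Real.log_le_log (Real.exp_pos _) h3
      rw [Real.log_exp] at h4
      refine h4.trans (le_of_eq ?_)
      rw [show D / (s - 1) * D * D = (1 / (s - 1)) * D ^ 3 by ring,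
        Real.log_mul (by positivity) (by positivity), Real.log_pow]
      norm_num
    have up2 : ∀ x y z g : ℝ, 0 ≤ x → 0 ≤ y → 0 ≤ z → x ≤ C → y ≤ C → z ≤ C →
        x * y * z = Real.exp g → g ≤ 3 * Real.log D := by
      intro x y z g hx hy hz hx' hy' hz' h
      have h3 : Real.exp g ≤ D * D * D := by
        rw [← h]
        have : x ≤ D := hx'.trans hCD
        have h5 : y ≤ D := hy'.trans hCD
        have h6 : z ≤ D := hz'.trans hCD
        gcongr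
      have h4 := Real.log_le_log (Real.exp_pos _) h3
      rw [Real.log_exp] at h4
      refine h4.trans (le_of_eq ?_)
      rw [show D * D * D = D ^ 3 by ring, Real.log_pow]
      norm_num
    have q1 := up _ _ _ _ (norm_nonneg _) (norm_nonneg _) (norm_nonneg _) a0 a1 a2 p1
    have q2 := up _ _ _ _ (norm_nonneg _) (norm_nonneg _) (norm_nonneg _) b0 b1 b2 p2
    have q3 := up2 _ _ _ _ (norm_nonneg _) (norm_nonneg _) (norm_nonneg _) c0 c1 c2 p3
    rw [e3] at q1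
    rw [e4] at q2
    rw [e5] at q3
    have q4 := (abs_le.1 e6).1
    nlinarith
  have hlim : Tendsto (fun s : ℝ ↦ (2 * κ - 1) * Real.log (1 / (s - 1))) (𝓝[>] 1) atTop :=
    tendsto_log_pole.const_mul_atTop (by linarith)
  have h7 := hlim.eventually_gt_atTop (2 * C0 + 16 * T + 6 * Real.log D)
  obtain ⟨s, h8, h9⟩ := (hmain.and h7).exists
  linarith

/-- **Uniqueness over `L`**: `l` tempered, `l = m` on `A`, and the primes outside `A` are sparse
(`∑ q^{-1/2} < ∞`); then the mixed Rankin–Selberg series is unbounded as soon as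
`∑_{A} l² q^{-s} → ∞`. -/
theorem uniqueness_sparse (hq : ∀ v, 2 ≤ q v)
    (hsum : ∀ s : ℝ, 1 < s → Summable fun v ↦ q v ^ (-s))
    (hl : ∀ v, |l v| ≤ 2) (hm : Bdd q m) (A : Set P) (hA : ∀ v ∈ A, l v = m v)
    (hsparse : Summable fun v ↦ Aᶜ.indicator (fun v ↦ q v ^ (-(1 / 2) : ℝ)) v)
    (hsl : ∀ s : ℝ, 1 < s → Summable fun n ↦ ‖LS q (fun _ ↦ 1) l m s n‖)
    (hdens : Tendsto (fun s : ℝ ↦ ∑' v, A.indicator (fun v ↦ l v ^ 2 * q v ^ (-s)) v)
      (𝓝[>] 1) atTop) {C : ℝ}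
    (hlm : ∀ᶠ s : ℝ in 𝓝[>] 1, ‖∑' n, LS q (fun _ ↦ 1) l m s n‖ ≤ C) : False := by
  classical
  have hsum2 : Summable fun v ↦ q v ^ (-2 : ℝ) := hsum 2 (by norm_num)
  have hone : ∀ v : P, ‖(fun _ : P ↦ (1 : ℂ)) v‖ = 1 := fun v ↦ by simp
  have hl' : ∀ v, |l v| ≤ 1 + (1 : ℝ)⁻¹ := fun v ↦ by simpa [show (1:ℝ) + 1 = 2 by norm_num] using hl v
  have hlB : Bdd q l := fun v ↦ by
    refine (hl v).trans ?_
    have h1 := one_le_sqrt hq v
    rw [← sub_nonneg]
    have : Real.sqrt (q v) + (Real.sqrt (q v))⁻¹ - 2 = (Real.sqrt (q v) - 1) ^ 2 / Real.sqrt (q v) := by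
      field_simp; ring
    rw [this]; positivity
  set T := ∑' v, q v ^ (-2 : ℝ) with hT
  set B := ∑' v, Aᶜ.indicator (fun v ↦ q v ^ (-(1 / 2) : ℝ)) v with hB
  -- a uniform constant for the sparse primes
  set c := (1 - (2 : ℝ) ^ (-(1 / 2) : ℝ))⁻¹ with hc
  have hhalf : (2 : ℝ) ^ (-(1 / 2) : ℝ) < 1 :=
    Real.rpow_lt_one_of_one_lt_of_neg (by norm_num) (by norm_num)
  have hc0 : 0 < c := inv_pos.2 (by linarith)
  have hmain : ∀ᶠ s : ℝ in 𝓝[>] 1,
      ∑' v, A.indicator (fun v ↦ l v ^ 2 * q v ^ (-s)) v ≤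
        4 * T + 4 * c * B + Real.log (max C 1) := by
    filter_upwards [self_mem_nhdsWithin, hlm] with s hs' hC
    have hs : 1 < s := hs'
    have hX0 : ∀ v, 0 ≤ q v ^ (-s) := fun v ↦ (X_pos hq v s).le
    have hX1 : ∀ v, q v ^ (-s) ≤ 1 / 2 := fun v ↦ X_le_half hq v hs
    have hX2 : ∀ v, (q v ^ (-s)) ^ 2 ≤ q v ^ (-2 : ℝ) := by
      intro v
      have h0 : 0 < q v := by linarith [hq v]
      rw [← Real.rpow_natCast, ← Real.rpow_mul h0.le]
      exact Real.rpow_le_rpow_of_exponent_le (by linarith [hq v]) (by push_cast; linarith)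
    have hL2 : ∀ v, |Real.log (1 - (q v ^ (-s)) ^ 2)| ≤ 2 * q v ^ (-2 : ℝ) := fun v ↦
      (abs_log_one_sub_le (sq_nonneg _) (by nlinarith [hX0 v, hX1 v])).trans
        (by linarith [hX2 v])
    have sL2 : Summable fun v ↦ Real.log (1 - (q v ^ (-s)) ^ 2) :=
      Summable.of_norm_bounded (hsum2.mul_left 2) hL2
    -- the Euler product
    have hP : HasProd (fun v ↦ R (l v) (m v) ((1 : ℂ) * ((q v ^ (-s) : ℝ) : ℂ)))
        (∑' n, LS q (fun _ ↦ 1) l m s n) :=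
      hasProd (f := fun v k ↦ ((U (l v) k * U (m v) k : ℝ) : ℂ) *
        ((1 : ℂ) * ((q v ^ (-s) : ℝ) : ℂ)) ^ k) (fun v ↦ by simp) (hsl s hs)
    have hmX : ∀ v, Real.sqrt (q v) * q v ^ (-s) ≤ q v ^ (-(1 / 2) : ℝ) := by
      intro v
      have h0 : 0 < q v := by linarith [hq v]
      rw [Real.sqrt_eq_rpow, ← Real.rpow_add h0]
      exact Real.rpow_le_rpow_of_exponent_le (by linarith [hq v]) (by linarith)
    have hmX2 : ∀ v, q v ^ (-(1 / 2) : ℝ) ≤ (2 : ℝ) ^ (-(1 / 2) : ℝ) := fun v ↦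
      Real.rpow_le_rpow_of_nonpos (by norm_num) (hq v) (by norm_num)
    have hlt : ∀ v, 1 * Real.sqrt (q v) * q v ^ (-s) < 1 := fun v ↦ by
      rw [one_mul]; linarith [hmX v, hmX2 v]
    -- bound outside `A`
    have hout : ∀ v, |S (l v) (m v) (q v ^ (-s))| ≤ 4 * c * q v ^ (-(1 / 2) : ℝ) := by
      intro v
      refine (abs_S_le_log le_rfl (hl' v) (one_le_sqrt hq v) (hm v) (hX0 v) (hlt v)).trans ?_
      rw [one_mul]
      set x := Real.sqrt (q v) * q v ^ (-s) with hx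
      have hx0 : 0 ≤ x := mul_nonneg (Real.sqrt_nonneg _) (hX0 v)
      have hx1 : x ≤ (2 : ℝ) ^ (-(1 / 2) : ℝ) := (hmX v).trans (hmX2 v)
      have h3 := Real.one_sub_inv_le_log_of_pos (show 0 < 1 - x by linarith)
      have h4 : (1 - x)⁻¹ - 1 = x * (1 - x)⁻¹ := by
        have : 1 - x ≠ 0 := by linarith
        field_simp
        ring
      have h5 : (1 - x)⁻¹ ≤ c := inv_anti₀ (by linarith) (by linarith)
      have h6 : x * (1 - x)⁻¹ ≤ q v ^ (-(1 / 2) : ℝ) * c :=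
        mul_le_mul (hmX v) h5 (inv_nonneg.2 (by linarith)) (Real.rpow_nonneg (by linarith [hq v]) _)
      nlinarith
    have sS : Summable fun v ↦ S (l v) (m v) (q v ^ (-s)) := by
      have sA : Summable fun v ↦ A.indicator (fun v ↦ S (l v) (m v) (q v ^ (-s))) v := by
        refine Summable.of_norm_bounded ((hsum s hs).mul_left 8) fun v ↦ ?_
        by_cases hv : v ∈ A
        · rw [Set.indicator_of_mem hv, Real.norm_eq_abs, ← hA v hv]
          refine (abs_S_le_log le_rfl (hl' v) le_rfl (hl' v) (hX0 v)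
            (by rw [one_mul, one_mul]; linarith [hX1 v])).trans ?_
          rw [one_mul, one_mul]
          have := abs_log_one_sub_le (hX0 v) (hX1 v)
          have := neg_abs_le (Real.log (1 - q v ^ (-s)))
          linarith
        · rw [Set.indicator_of_notMem hv, norm_zero]
          have := hX0 v
          positivity
      have sAc : Summable fun v ↦ Aᶜ.indicator (fun v ↦ S (l v) (m v) (q v ^ (-s))) v := by
        refine Summable.of_norm_bounded (hsparse.mul_left (4 * c)) fun v ↦ ?_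
        by_cases hv : v ∈ Aᶜ
        · rw [Set.indicator_of_mem hv, Set.indicator_of_mem hv]; exact hout v
        · rw [Set.indicator_of_notMem hv, Set.indicator_of_notMem hv]; simp
      refine (sA.add sAc).congr fun v ↦ ?_
      exact Set.indicator_self_add_compl_apply A (fun v ↦ S (l v) (m v) (q v ^ (-s))) v
    have hG := sL2.add sS
    have h5 : HasProd (fun v ↦ R (l v) (m v) ((1 : ℂ) * ((q v ^ (-s) : ℝ) : ℂ)))
        ((Real.exp (∑' v, (Real.log (1 - (q v ^ (-s)) ^ 2) + S (l v) (m v) (q v ^ (-s)))) : ℝ) :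
          ℂ) := by
      have h6 := (Complex.hasSum_ofReal.2 hG.hasSum).cexp
      rw [Complex.ofReal_exp]
      refine h6.congr_fun fun v ↦ ?_
      rw [one_mul, R_real le_rfl (hl' v) (one_le_sqrt hq v) (hm v) (hX0 v) (hlt v)]
      simp
    have h7 := hP.unique h5
    rw [h7, Complex.norm_real, Real.norm_of_nonneg (Real.exp_pos _).le] at hC
    have h8 : ∑' v, (Real.log (1 - (q v ^ (-s)) ^ 2) + S (l v) (m v) (q v ^ (-s))) ≤
        Real.log (max C 1) := by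
      have := Real.log_le_log (Real.exp_pos _) (hC.trans (le_max_left C 1))
      rwa [Real.log_exp] at this
    have sl2 : Summable fun v ↦ A.indicator (fun v ↦ l v ^ 2 * q v ^ (-s)) v := by
      refine Summable.of_norm_bounded ((hsum s hs).mul_left 4) fun v ↦ ?_
      by_cases hv : v ∈ A
      · rw [Set.indicator_of_mem hv, Real.norm_of_nonneg (mul_nonneg (sq_nonneg _) (hX0 v))]
        have := abs_le.1 (hl v)
        nlinarith [hX0 v, mul_nonneg (hX0 v) (show 0 ≤ 4 - l v ^ 2 by nlinarith)]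
      · rw [Set.indicator_of_notMem hv, norm_zero]
        have := hX0 v
        positivity
    have h9 : (∑' v, A.indicator (fun v ↦ l v ^ 2 * q v ^ (-s)) v) - 2 * T - 4 * c * B ≤
        ∑' v, (Real.log (1 - (q v ^ (-s)) ^ 2) + S (l v) (m v) (q v ^ (-s))) := by
      rw [hT, hB, ← tsum_mul_left, ← tsum_mul_left, ← sl2.tsum_sub (hsum2.mul_left 2),
        ← (sl2.sub (hsum2.mul_left 2)).tsum_sub (hsparse.mul_left (4 * c))]
      refine Summable.tsum_le_tsum (fun v ↦ ?_) ((sl2.sub (hsum2.mul_left 2)).sub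
        (hsparse.mul_left (4 * c))) hG
      have e2 := (abs_le.1 (hL2 v)).1
      by_cases hv : v ∈ A
      · rw [Set.indicator_of_mem hv, Set.indicator_of_notMem (by simpa using hv), ← hA v hv]
        have := le_S_self le_rfl (hl' v) (hX0 v) (by rw [one_mul, one_mul]; linarith [hX1 v])
        linarith
      · rw [Set.indicator_of_notMem hv, Set.indicator_of_mem (by simpa using hv)]
        have := (abs_le.1 (hout v)).1
        linarith
    have hT0 : 0 ≤ T := tsum_nonneg fun v ↦ Real.rpow_nonneg (by linarith [hq v]) _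
    linarith
  have h7 := hdens.eventually_gt_atTop (4 * T + 4 * c * B + Real.log (max C 1))
  obtain ⟨s, h8, h9⟩ := (hmain.and h7).exists
  linarith

end final

end Fermat.Agent.LT.H.Unique
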