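import Mathlib
import Fermat.Agent.LT.H.Unique

/-!
# The Asai Dirichlet series is unbounded

`P` = good rational primes, `A` = those split in `K`.  The Asai series has local factor
`∑ U(l)_k² X^k` at split primes (Galois-invariant eigensystem) and `∑ U(l)_k X^k` at inert primes.
-/

set_option autoImplicit false

open Filter Topology

namespace Fermat.Agent.LT.H.AsaiSeries

open Fermat.Agent.LT.H.Euler Fermat.Agent.LT.H.Local Fermat.Agent.LT.H.Unique

variable {P : Type*}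

/-- Local coefficients. -/
noncomputable def coef (A : Set P) (q : P → ℝ) (l l' : P → ℝ) (s : ℝ) (v : P) (k : ℕ) : ℝ :=
  open Classical in
  (if v ∈ A then U (l v) k * U (l' v) k else U (l v) k) * (q v ^ (-s)) ^ k

theorem summable_U_single {l : ℝ} (hl : |l| ≤ 2) {X : ℝ} (hX0 : 0 ≤ X) (hX : X < 1) :
    Summable fun k : ℕ ↦ ‖U l k * X ^ k‖ := by
  have h1 := summable_U (l := l) (m := 2) le_rfl
    (by rw [inv_one]; linarith : |l| ≤ 1 + (1 : ℝ)⁻¹) le_rfl (by norm_num : |(2:ℝ)| ≤ 1 + (1 : ℝ)⁻¹)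
    (X := (X : ℂ)) (by rw [one_mul, one_mul, Complex.norm_real, Real.norm_of_nonneg hX0]; exact hX)
  have hU : ∀ k, U 2 k = k + 1 := by
    have : ∀ k, U 2 k = k + 1 ∧ U 2 (k + 1) = (k + 1 : ℕ) + 1 := by
      intro k
      induction k with
      | zero => refine ⟨by simp, by simp; norm_num⟩
      | succ k ih =>
        refine ⟨ih.2, ?_⟩
        rw [U_add_two, ih.1, ih.2]; push_cast; ring
    exact fun k ↦ (this k).1
  refine Summable.of_nonneg_of_le (fun k ↦ norm_nonneg _) (fun k ↦ ?_) h1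
  rw [hU, norm_mul, norm_mul, norm_pow, norm_pow, Complex.norm_real, Complex.norm_real,
    Real.norm_eq_abs, Real.norm_eq_abs, Real.norm_eq_abs, abs_mul]
  have h3 : (1 : ℝ) ≤ |((k : ℝ) + 1)| := by
    rw [abs_of_nonneg (by positivity)]
    have : (0 : ℝ) ≤ k := Nat.cast_nonneg k
    linarith
  have h4 := pow_nonneg (abs_nonneg X) k
  have h5 := abs_nonneg (U l k)
  calc |U l k| * |X| ^ k = |U l k| * 1 * |X| ^ k := by ring
    _ ≤ |U l k| * |((k : ℝ) + 1)| * |X| ^ k := by gcongr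

theorem tsum_U_single {l : ℝ} (hl : |l| ≤ 2) {X : ℝ} (hX0 : 0 ≤ X) (hX : X < 1) :
    (∑' k : ℕ, U l k * X ^ k) * (1 - l * X + X ^ 2) = 1 := by
  have hs := (summable_U_single hl hX0 hX).of_norm
  have hsh : ∀ j, Summable fun k : ℕ ↦ U l (k + j) * X ^ (k + j) := fun j ↦
    (summable_nat_add_iff (f := fun k : ℕ ↦ U l k * X ^ k) j).2 hs
  set Z := ∑' k : ℕ, U l k * X ^ k with hZ
  have s1 : Z = 1 + ∑' k : ℕ, U l (k + 1) * X ^ (k + 1) := by
    rw [hZ, hs.tsum_eq_zero_add]; simp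
  have s2 : Z = 1 + l * X + ∑' k : ℕ, U l (k + 2) * X ^ (k + 2) := by
    rw [s1, (hsh 1).tsum_eq_zero_add]; simp [add_assoc]
  have key : ∑' k : ℕ, U l (k + 2) * X ^ (k + 2) =
      l * X * (∑' k : ℕ, U l (k + 1) * X ^ (k + 1)) - X ^ 2 * Z := by
    rw [hZ, ← tsum_mul_left, ← tsum_mul_left, ← Summable.tsum_sub ((hsh 1).mul_left _)
      (hs.mul_left _)]
    refine tsum_congr fun k ↦ ?_
    rw [U_add_two]; ring
  linear_combination s2 + key - l * X * s1

/-- **Lower bound** for the Asai series. -/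
theorem exp_le_tsum {A : Set P} {q : P → ℝ} {l l' : P → ℝ} {s : ℝ} (hq : ∀ v, 2 ≤ q v)
    (hs : 1 < s) (hsum : Summable fun v ↦ q v ^ (-s)) (hsum2 : Summable fun v ↦ q v ^ (-2 : ℝ))
    (hlA : ∀ v ∈ A, |l v| ≤ Real.sqrt (q v) + (Real.sqrt (q v))⁻¹) (hll : ∀ v ∈ A, l' v = l v)
    (hl : ∀ v ∉ A, |l v| ≤ 2)
    (hS : Summable fun n ↦ ‖mulF (coef A q l l' s) n‖) :
    Real.exp ((∑' v, Aᶜ.indicator (fun v ↦ l v * q v ^ (-s)) v) - 2 * ∑' v, q v ^ (-2 : ℝ)) ≤
      ∑' n, mulF (coef A q l l' s) n := by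
  classical
  have hX0 : ∀ v, 0 ≤ q v ^ (-s) := fun v ↦ (X_pos hq v s).le
  have hX1 : ∀ v, q v ^ (-s) ≤ 1 / 2 := fun v ↦ X_le_half hq v hs
  have hX2 : ∀ v, (q v ^ (-s)) ^ 2 ≤ q v ^ (-2 : ℝ) := by
    intro v
    have h0 : 0 < q v := by linarith [hq v]
    rw [← Real.rpow_natCast, ← Real.rpow_mul h0.le]
    exact Real.rpow_le_rpow_of_exponent_le (by linarith [hq v]) (by push_cast; linarith)
  have hP := hasProd (f := coef A q l l' s) (fun v ↦ by simp [coef]) hS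
  have s1 : Summable fun v ↦ Aᶜ.indicator (fun v ↦ l v * q v ^ (-s)) v := by
    refine Summable.of_norm_bounded (hsum.mul_left 2) fun v ↦ ?_
    by_cases hv : v ∈ Aᶜ
    · rw [Set.indicator_of_mem hv, Real.norm_eq_abs, abs_mul, abs_of_nonneg (hX0 v)]
      exact mul_le_mul_of_nonneg_right (hl v hv) (hX0 v)
    · rw [Set.indicator_of_notMem hv, norm_zero]
      have := hX0 v
      positivity
  have hH := (s1.sub (hsum2.mul_left 2)).hasSum.rexp
  rw [s1.tsum_sub (hsum2.mul_left 2), tsum_mul_left] at hH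
  refine le_of_tendsto_of_tendsto' hH hP fun T ↦ ?_
  refine Finset.prod_le_prod (fun v _ ↦ (Real.exp_pos _).le) fun v _ ↦ ?_
  simp only [Function.comp_apply]
  by_cases hv : v ∈ A
  · rw [Set.indicator_of_notMem (by simpa using hv)]
    have h1 : ∑' k, coef A q l l' s v k = Real.exp (Real.log (1 - (q v ^ (-s)) ^ 2) +
        S (l v) (l v) (q v ^ (-s))) := by
      have h2 := R_real (one_le_sqrt hq v) (hlA v hv) (one_le_sqrt hq v) (hlA v hv) (hX0 v)
        (sqrt_mul_X_lt hq v hs)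
      rw [R] at h2
      rw [← Complex.ofReal_inj, ← h2, Complex.ofReal_tsum]
      refine tsum_congr fun k ↦ ?_
      simp only [coef, if_pos hv, hll v hv]
      push_cast
      ring
    rw [h1]
    refine Real.exp_le_exp.2 ?_
    have h3 := S_self_nonneg (l v) (hX0 v)
    have h4 := (abs_le.1 (abs_log_one_sub_le (sq_nonneg (q v ^ (-s)))
      (by nlinarith [hX0 v, hX1 v]))).1
    linarith [hX2 v]
  · rw [Set.indicator_of_mem (by simpa using hv)]
    have h1 : ∑' k, coef A q l l' s v k = (1 - l v * q v ^ (-s) + (q v ^ (-s)) ^ 2)⁻¹ := by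
      rw [← eq_inv_of_mul_eq_one_left (tsum_U_single (hl v hv) (hX0 v) (by linarith [hX1 v]))]
      refine tsum_congr fun k ↦ ?_
      simp only [coef, if_neg hv]
    rw [h1]
    have h2 := abs_le.1 (hl v hv)
    have h3 : 0 < 1 - l v * q v ^ (-s) + (q v ^ (-s)) ^ 2 := by
      nlinarith [hX0 v, hX1 v, mul_nonneg (hX0 v) (sub_nonneg.2 h2.2)]
    rw [← Real.exp_log (inv_pos.2 h3), Real.log_inv]
    refine Real.exp_le_exp.2 ?_
    have h4 := Real.log_le_sub_one_of_pos h3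
    have h5 : 0 ≤ q v ^ (-2 : ℝ) := Real.rpow_nonneg (by linarith [hq v]) _
    linarith [hX2 v]

/-- **The Asai series is unbounded** as soon as `∑_{inert} l_p p^{-s} → ∞`. -/
theorem asai_unbounded {A : Set P} {q : P → ℝ} {l l' : P → ℝ} (hq : ∀ v, 2 ≤ q v)
    (hsum : ∀ s : ℝ, 1 < s → Summable fun v ↦ q v ^ (-s))
    (hlA : ∀ v ∈ A, |l v| ≤ Real.sqrt (q v) + (Real.sqrt (q v))⁻¹) (hll : ∀ v ∈ A, l' v = l v)
    (hl : ∀ v ∉ A, |l v| ≤ 2)
    (hS : ∀ s : ℝ, 1 < s → Summable fun n ↦ ‖mulF (coef A q l l' s) n‖)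
    (hdens : Tendsto (fun s : ℝ ↦ ∑' v, Aᶜ.indicator (fun v ↦ l v * q v ^ (-s)) v)
      (𝓝[>] 1) atTop) {C : ℝ}
    (hC : ∀ᶠ s : ℝ in 𝓝[>] 1, |∑' n, mulF (coef A q l l' s) n| ≤ C) : False := by
  have hsum2 : Summable fun v ↦ q v ^ (-2 : ℝ) := hsum 2 (by norm_num)
  have hmain : ∀ᶠ s : ℝ in 𝓝[>] 1, ∑' v, Aᶜ.indicator (fun v ↦ l v * q v ^ (-s)) v ≤
      2 * (∑' v, q v ^ (-2 : ℝ)) + Real.log (max C 1) := by
    filter_upwards [self_mem_nhdsWithin, hC] with s hs' hC'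
    have hs : 1 < s := hs'
    have h1 := exp_le_tsum hq hs (hsum s hs) hsum2 hlA hll hl (hS s hs)
    have h2 := h1.trans ((le_abs_self _).trans (hC'.trans (le_max_left C 1)))
    have h3 := Real.log_le_log (Real.exp_pos _) h2
    rw [Real.log_exp] at h3
    linarith
  obtain ⟨s, h8, h9⟩ := (hmain.and (hdens.eventually_gt_atTop _)).exists
  exact absurd h8 (not_le.2 h9)

end Fermat.Agent.LT.H.AsaiSeries
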