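import Fermat.Agent.LT.H.Unfold
import Fermat.Agent.LT.A.Trunc

/-!
# The Eisenstein series with a cell condition on `X D`, and the Rankin–Selberg identity for it

* `InC w z` : the local point `z` lies in `B(F) H_w / H_w`;
* `PhiC S s p = 1[p.2 w ∈ cell, w ∈ S] · ht e1 p ^ s`;
* `EC S s p = ∑_{γ ∈ B(F) \ PGL₂(F)} PhiC S s (γ p)`;
* `RS_cell` : the unfolded integral of `‖φ‖² EC`.
-/

set_option autoImplicit false
set_option linter.unusedSectionVars false

open NumberField IsDedekindDomain Matrix MeasureTheory Module Set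
open scoped ComplexConjugate ENNReal Real

namespace Fermat.Agent.LT.H

open Fermat.LT Fermat.Agent.LT.I Fermat.Agent.LT.B

variable {F : Type} [Field F] [NumberField F]

/-- `z` is in the cell at `w` -/
def InC {U : Level F} (w : Pl F) (z : Yl U w) : Prop :=
  ∃ (a : Fˣ) (b : F), z = ((un b * dg a : G2 F) : Yl U w)

theorem InC.smul {U : Level F} {w : Pl F} {z : Yl U w} (h : InC w z) (a : Fˣ) (b : F) :
    InC w ((un b * dg a) • z) := by
  obtain ⟨a', b', rfl⟩ := h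
  refine ⟨a * a', b + a * b', ?_⟩
  change ((un b * dg a * (un b' * dg a') : G2 F) : Yl U w) = _
  rw [un_dg_mul]

theorem InC_smul_iff {U : Level F} {w : Pl F} {z : Yl U w} (a : Fˣ) (b : F) :
    InC w ((un b * dg a) • z) ↔ InC w z := by
  refine ⟨fun h => ?_, fun h => h.smul a b⟩
  have := h.smul a⁻¹ (-((a⁻¹ : Fˣ) : F) * b)
  rwa [← un_dg_inv, inv_smul_smul] at this

variable {D : Datum F}

open Classical in
/-- the function to be summed over `B(F) \ PGL₂(F)` -/
noncomputable def PhiC (S : Set (Pl F)) (s : ℝ) (p : X D) : ℝ≥0∞ :=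
  if ∀ w ∈ S, InC w (p.2 w) then ENNReal.ofReal (ht e1 p ^ s) else 0

/-- the Eisenstein series with cell condition on `S` -/
noncomputable def EC (S : Set (Pl F)) (s : ℝ) (p : X D) : ℝ≥0∞ :=
  ∑' q : Quotient (QuotientGroup.rightRel (Bs F)), PhiC S s (q.out • p)

theorem measurable_PhiC (S : Set (Pl F)) (s : ℝ) : Measurable (PhiC (D := D) S s) := by
  classical
  refine measurable_from_prod_countable_left fun y => ?_
  unfold PhiC
  by_cases h : ∀ w ∈ S, InC w (y w)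
  · simp only [if_pos h]
    refine Measurable.ennreal_ofReal ?_
    exact ((measurable_ht e1_ne).comp (measurable_id.prodMk measurable_const)).pow_const s
  · simp only [if_neg h]
    exact measurable_const

theorem PhiC_borel (S : Set (Pl F)) (s : ℝ) (a : Fˣ) (b : F) (p : X D) :
    PhiC S s ((un b * dg a) • p) = PhiC S s p := by
  unfold PhiC
  have h1 : ht e1 ((un b * dg a) • p) = ht e1 p := by rw [mul_smul, ht_e1_un, ht_e1_dg]
  have h2 : (∀ w ∈ S, InC w (((un b * dg a) • p).2 w)) ↔ ∀ w ∈ S, InC w (p.2 w) :=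
    forall₂_congr fun w _ => InC_smul_iff a b
  rw [h1]
  by_cases h : ∀ w ∈ S, InC w (p.2 w)
  · rw [if_pos h, if_pos (h2.mpr h)]
  · rw [if_neg h, if_neg (fun h' => h (h2.mp h'))]

theorem ht_e1_pt (z : D.I → ℂ) (x : D.I → ℝ) (y : Y D.toLevel) :
    ht e1 (pt z x y : X D) = (∏ i, Real.exp (x i) ^ 2) * hfin e1 y := by
  rw [ht, hinf_e1]; rfl

theorem PhiC_pt (S : Set (Pl F)) (s : ℝ) (z : D.I → ℂ) (x : D.I → ℝ) (y : Y D.toLevel) :
    PhiC S s (pt z x y : X D) = PhiC S s (pt 0 x y : X D) := by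
  unfold PhiC
  rw [ht_e1_pt, ht_e1_pt]; rfl

open Classical in
/-- finite part of `PhiC` -/
noncomputable def phC (S : Set (Pl F)) (s : ℝ) {U : Level F} (y : Y U) : ℝ≥0∞ :=
  if ∀ w ∈ S, InC w (y w) then ENNReal.ofReal (hfin e1 y ^ s) else 0

theorem PhiC_eq (S : Set (Pl F)) (s : ℝ) (z : D.I → ℂ) (x : D.I → ℝ) (y : Y D.toLevel) :
    PhiC S s (pt z x y : X D) = (∏ i, ENNReal.ofReal (Real.exp (2 * s * x i))) * phC S s y := by
  unfold PhiC phC
  rw [ht_e1_pt]
  by_cases h : ∀ w ∈ S, InC w (y w)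
  · have h' : ∀ w ∈ S, InC w ((pt z x y : X D).2 w) := h
    rw [if_pos h, if_pos h', Real.mul_rpow (Finset.prod_nonneg fun i _ => by positivity)
      (hfin_pos e1_ne y).le, ENNReal.ofReal_mul (Real.rpow_nonneg
      (Finset.prod_nonneg fun i _ => by positivity) s), ← Real.finsetProd_rpow _ _
      (fun i _ => by positivity), ENNReal.ofReal_prod_of_nonneg (fun i _ => by positivity)]
    congr 1
    refine Finset.prod_congr rfl fun i _ => ?_
    congr 1
    rw [← Real.exp_nat_mul, ← Real.exp_mul]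
    congr 1
    push_cast
    ring
  · have h' : ¬ ∀ w ∈ S, InC w ((pt z x y : X D).2 w) := h
    rw [if_neg h, if_neg h', mul_zero]

variable {φ : X D → ℂ}

/-- **Rankin–Selberg identity.** -/
theorem RS_cell {w : X D → ℝ≥0∞} (hw : IsWeight (PG F) w) (hφ : Continuous φ)
    (hinv : ∀ (g : G2 F) x, φ (g • x) = φ x) (hcusp : ∀ x y, cW φ 0 x y = 0)
    (S : Set (Pl F)) (s : ℝ) :
    ∫⁻ p, w p * (‖φ p‖ₑ ^ 2 * EC S s p) =
      ∑' q : Yb D.toLevel, ∫⁻ x : D.I → ℝ, dI x *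
        (covY q * (PhiC S s (pt 0 x (yout q)) * ‖cW φ 1 x (yout q)‖ₑ ^ 2)) :=
  RS_unfold hw hφ hinv hcusp (measurable_PhiC S s) (PhiC_borel S s) (PhiC_pt S s)

/-- **Rankin–Selberg identity, factorised.** -/
theorem RS_fact {w : X D → ℝ≥0∞} (hw : IsWeight (PG F) w) (hφ : Continuous φ)
    (hinv : ∀ (g : G2 F) x, φ (g • x) = φ x) (hcusp : ∀ x y, cW φ 0 x y = 0)
    {W : ℝ → ℝ} (hWm : Measurable W) {a : Y D.toLevel → ℂ}
    (hW : ∀ x y, cW φ 1 x y = a y * ∏ i, (W (x i) : ℂ))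
    (S : Set (Pl F)) (s : ℝ) :
    ∫⁻ p, w p * (‖φ p‖ₑ ^ 2 * EC S s p) =
      (∫⁻ x : ℝ, dn x * (ENNReal.ofReal (Real.exp (2 * s * x)) * ‖W x‖ₑ ^ 2)) ^ Fintype.card D.I *
      ∑' q : Yb D.toLevel, covY q * (phC S s (yout q) * ‖a (yout q)‖ₑ ^ 2) := by
  rw [RS_cell hw hφ hinv hcusp, ← ENNReal.tsum_mul_left]
  refine tsum_congr fun q => ?_
  have hm : Measurable fun x : ℝ => dn x * (ENNReal.ofReal (Real.exp (2 * s * x)) * ‖W x‖ₑ ^ 2) :=
    measurable_dn.mul ((Real.continuous_exp.measurable.comp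
      (measurable_const_mul _)).ennreal_ofReal.mul (hWm.enorm.pow_const 2))
  have h1 : ∀ x : D.I → ℝ, dI x *
        (covY q * (PhiC S s (pt 0 x (yout q)) * ‖cW φ 1 x (yout q)‖ₑ ^ 2)) =
      (∏ i, dn (x i) * (ENNReal.ofReal (Real.exp (2 * s * x i)) * ‖W (x i)‖ₑ ^ 2)) *
        (covY q * (phC S s (yout q) * ‖a (yout q)‖ₑ ^ 2)) := by
    intro x
    have h2 : ‖∏ i, (W (x i) : ℂ)‖ₑ = ∏ i, ‖W (x i)‖ₑ := by
      rw [← ofReal_norm, norm_prod, ENNReal.ofReal_prod_of_nonneg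
        (fun i _ => norm_nonneg _)]
      refine Finset.prod_congr rfl fun i _ => ?_
      rw [Complex.norm_real, ofReal_norm]
    rw [PhiC_eq, hW, enorm_mul, h2, dI, Finset.prod_mul_distrib, Finset.prod_mul_distrib,
      Finset.prod_pow]
    ring
  simp_rw [h1]
  rw [lintegral_mul_const]
  · congr 1
    have := lintegral_pi_prod (fun _ : D.I => (volume : Measure ℝ))
      (f := fun _ x => dn x * (ENNReal.ofReal (Real.exp (2 * s * x)) * ‖W x‖ₑ ^ 2)) (fun _ => hm)
    refine this.trans ?_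
    rw [Finset.prod_const, Finset.card_univ]
  · exact Finset.measurable_prod _ fun i _ => hm.comp (measurable_pi_apply i)

end Fermat.Agent.LT.H
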