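import Mathlib
import Fermat.Agent.EXT.LatticeSum

/-!
# Lattice sums of slowly oscillating functions

If `|g (x + y) - g x| ≤ ε g x` for all `y` in a fundamental domain, then
`|∑ g(l) - covol⁻¹ ∫ g| ≤ ε covol⁻¹ ∫ g`.
-/

set_option autoImplicit false

open MeasureTheory Module
open scoped Pointwise

namespace Fermat.Agent.LT.H.OscSum

variable {E : Type*} [NormedAddCommGroup E] [NormedSpace ℝ E] [FiniteDimensional ℝ E]
  [MeasurableSpace E] [BorelSpace E] (L : Submodule ℤ E) [DiscreteTopology L] [IsZLattice ℝ L]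
  (μ : Measure E) [μ.IsAddHaarMeasure]

theorem exists_sum_sub_integral_osc :
    ∃ D : ℝ, 0 ≤ D ∧ ∀ (ε : ℝ) (g : E → ℝ), 0 ≤ ε → (∀ x, 0 ≤ g x) → Integrable g μ →
      (∀ x y : E, ‖y‖ ≤ D → |g (x + y) - g x| ≤ ε * g x) →
      (Summable fun l : L => g l) ∧
        |∑' l : L, g l - (ZLattice.covolume L μ)⁻¹ * ∫ x, g x ∂μ| ≤
          ε * ((ZLattice.covolume L μ)⁻¹ * ∫ x, g x ∂μ) := by
  classical
  have : Module.Free ℤ L := ZLattice.module_free ℝ L
  have : Module.Finite ℤ L := ZLattice.module_finite ℝ L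
  have : Countable L := by infer_instance
  set b := Free.chooseBasis ℤ L
  set F := ZSpan.fundamentalDomain (b.ofZLatticeBasis ℝ) with hFdef
  have hF : IsAddFundamentalDomain L F μ := ZLattice.isAddFundamentalDomain b μ
  have hFb : Bornology.IsBounded F := ZSpan.fundamentalDomain_isBounded _
  obtain ⟨D, hD⟩ := hFb.exists_norm_le
  have hcov : ZLattice.covolume L μ = μ.real F :=
    ZLattice.covolume_eq_measure_fundamentalDomain L μ hF
  have hpos : 0 < ZLattice.covolume L μ := ZLattice.covolume_pos L μ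
  have hFm : MeasurableSet F := ZSpan.fundamentalDomain_measurableSet _
  have hFfin : μ F < ⊤ := hFb.measure_lt_top
  set v := ZLattice.covolume L μ with hv
  refine ⟨max D 0, le_max_right _ _, ?_⟩
  intro ε g hε hg0 hg hgd
  have hI := EXT.LatticeSum.hasSum_integral_fundamentalDomain L μ hF g hg
  -- the key termwise estimate
  have key : ∀ l : L, |g l - v⁻¹ * ∫ y in F, g ((l : E) + y) ∂μ| ≤
      ε * (v⁻¹ * ∫ y in F, g ((l : E) + y) ∂μ) := by
    intro l
    have hint : IntegrableOn (fun y => g ((l : E) + y)) F μ :=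
      (hg.comp_add_left (l : E)).integrableOn
    have hconst : IntegrableOn (fun _ : E => g l) F μ := by
      exact integrableOn_const hFfin.ne
    have e1 : g l - v⁻¹ * ∫ y in F, g ((l : E) + y) ∂μ =
        - (v⁻¹ * ∫ y in F, (g ((l : E) + y) - g l) ∂μ) := by
      rw [integral_sub hint hconst, setIntegral_const, smul_eq_mul, ← hcov]
      field_simp
      ring
    have e2 : |∫ y in F, (g ((l : E) + y) - g l) ∂μ| ≤
        ∫ y in F, ε * g ((l : E) + y) ∂μ := by
      refine (abs_integral_le_integral_abs).trans ?_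
      refine setIntegral_mono_on (hint.sub hconst).abs (hint.const_mul ε) hFm ?_
      intro y hy
      have h1 := hgd ((l : E) + y) (-y) (by
        rw [norm_neg]; exact (hD y hy).trans (le_max_left _ _))
      rw [add_neg_cancel_right, abs_sub_comm] at h1
      exact h1
    rw [e1, abs_neg, abs_mul, abs_of_pos (inv_pos.mpr hpos)]
    rw [integral_const_mul] at e2
    calc v⁻¹ * |∫ y in F, (g ((l : E) + y) - g l) ∂μ|
        ≤ v⁻¹ * (ε * ∫ y in F, g ((l : E) + y) ∂μ) := by
          apply mul_le_mul_of_nonneg_left e2 (inv_pos.mpr hpos).le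
      _ = ε * (v⁻¹ * ∫ y in F, g ((l : E) + y) ∂μ) := by ring
  have hS' : Summable fun l : L => ε * (v⁻¹ * ∫ y in F, g ((l : E) + y) ∂μ) :=
    (hI.summable.mul_left v⁻¹).mul_left ε
  have hsumdiff : Summable fun l : L => g l - v⁻¹ * ∫ y in F, g ((l : E) + y) ∂μ :=
    Summable.of_norm_bounded hS' key
  have hsum : Summable fun l : L => g l := by
    have := hsumdiff.add (hI.summable.mul_left v⁻¹)
    refine this.congr fun l => ?_
    ring
  refine ⟨hsum, ?_⟩
  have e3 : ∑' l : L, g l - v⁻¹ * ∫ x, g x ∂μ =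
      ∑' l : L, (g l - v⁻¹ * ∫ y in F, g ((l : E) + y) ∂μ) := by
    rw [Summable.tsum_sub hsum (hI.summable.mul_left v⁻¹), tsum_mul_left, hI.tsum_eq]
  rw [e3]
  calc |∑' l : L, (g l - v⁻¹ * ∫ y in F, g ((l : E) + y) ∂μ)|
      ≤ ∑' l : L, |g l - v⁻¹ * ∫ y in F, g ((l : E) + y) ∂μ| := by
        have := norm_tsum_le_tsum_norm (hsumdiff.norm)
        simpa using this
    _ ≤ ∑' l : L, ε * (v⁻¹ * ∫ y in F, g ((l : E) + y) ∂μ) :=
        Summable.tsum_le_tsum key hsumdiff.abs hS'
    _ = ε * (v⁻¹ * ∫ x, g x ∂μ) := by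
        rw [tsum_mul_left, tsum_mul_left, hI.tsum_eq]

end Fermat.Agent.LT.H.OscSum
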