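import Mathlib
import Fermat.Agent.EXT.ConeFunction
import Fermat.Agent.LT.H.OscSum

/-!
# The function `∏_w (|x|_w² + Y_w²)^(-d_w s)`
-/

set_option autoImplicit false
set_option linter.unusedSectionVars false

open MeasureTheory Module NumberField NumberField.InfinitePlace NumberField.mixedEmbedding

namespace Fermat.Agent.LT.H.Eis

open scoped Classical

section one

variable {E : Type*} [NormedAddCommGroup E] [NormedSpace ℝ E] [FiniteDimensional ℝ E]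
  [MeasureSpace E] [BorelSpace E] [(volume : Measure E).IsAddHaarMeasure]

variable (E) in
/-- one place integral -/
noncomputable def J (d s : ℝ) : ℝ := ∫ x : E, (‖x‖ ^ 2 + 1) ^ (-d * s)

lemma integrable_J {d s : ℝ} (hs : (finrank ℝ E : ℝ) < 2 * (d * s)) :
    Integrable fun x : E => (‖x‖ ^ 2 + 1) ^ (-d * s) := by
  have h := integrable_rpow_neg_one_add_norm_sq (μ := (volume : Measure E)) hs
  refine h.congr (Filter.Eventually.of_forall fun x => ?_)
  show (1 + ‖x‖ ^ 2) ^ (-(2 * (d * s)) / 2) = (‖x‖ ^ 2 + 1) ^ (-d * s)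
  rw [add_comm]
  congr 1
  ring

lemma scale_aux {d s Y : ℝ} (hY : 0 < Y) (x : E) :
    (‖x‖ ^ 2 + Y ^ 2) ^ (-d * s) = Y ^ (-(2 * (d * s))) * (‖Y⁻¹ • x‖ ^ 2 + 1) ^ (-d * s) := by
  have h1 : ‖x‖ ^ 2 + Y ^ 2 = Y ^ 2 * (‖Y⁻¹ • x‖ ^ 2 + 1) := by
    rw [_root_.norm_smul, Real.norm_eq_abs, abs_of_pos (inv_pos.mpr hY)]
    field_simp
  rw [h1, Real.mul_rpow (by positivity) (by positivity), ← Real.rpow_natCast Y 2,
    ← Real.rpow_mul hY.le]
  congr 2
  push_cast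
  ring

lemma integrable_scale {d s Y : ℝ} (hY : 0 < Y) (hs : (finrank ℝ E : ℝ) < 2 * (d * s)) :
    Integrable fun x : E => (‖x‖ ^ 2 + Y ^ 2) ^ (-d * s) := by
  have h := (integrable_J (E := E) hs).comp_smul (inv_ne_zero hY.ne')
  refine (h.const_mul (Y ^ (-(2 * (d * s))))).congr (Filter.Eventually.of_forall fun x => ?_)
  exact (scale_aux hY x).symm

lemma integral_scale {s Y : ℝ} (hY : 0 < Y) :
    ∫ x : E, (‖x‖ ^ 2 + Y ^ 2) ^ (-(finrank ℝ E : ℝ) * s) =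
      (Y ^ (1 - 2 * s)) ^ finrank ℝ E * J E (finrank ℝ E) s := by
  simp_rw [scale_aux hY]
  rw [integral_const_mul]
  have h := Measure.integral_comp_smul (volume : Measure E)
    (fun x : E => (‖x‖ ^ 2 + 1) ^ (-(finrank ℝ E : ℝ) * s)) Y⁻¹
  rw [h, smul_eq_mul, J, ← mul_assoc]
  congr 1
  rw [inv_pow, inv_inv, abs_of_pos (pow_pos hY _), ← Real.rpow_natCast, ← Real.rpow_natCast,
    ← Real.rpow_add hY, ← Real.rpow_mul hY.le]
  congr 1
  ring

lemma J_pos {d s : ℝ} (hs : (finrank ℝ E : ℝ) < 2 * (d * s)) : 0 < J E d s := by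
  have hpos : ∀ x : E, 0 < (‖x‖ ^ 2 + 1) ^ (-d * s) := fun x => by positivity
  refine (integral_pos_iff_support_of_nonneg (fun x => (hpos x).le) (integrable_J hs)).mpr ?_
  have h1 : Function.support (fun x : E => (‖x‖ ^ 2 + 1) ^ (-d * s)) = Set.univ := by
    ext x
    simp only [Function.mem_support, Set.mem_univ, iff_true]
    exact (hpos x).ne'
  rw [h1]
  exact isOpen_univ.measure_pos _ ⟨0, trivial⟩

/-- Lipschitz behaviour at `s = 1`. -/
lemma J_sub_le (hd : 0 < finrank ℝ E) : ∃ C : ℝ, 0 ≤ C ∧ ∀ s : ℝ, 1 ≤ s →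
    |J E (finrank ℝ E) s - J E (finrank ℝ E) 1| ≤ C * (s - 1) := by
  set d : ℝ := (finrank ℝ E : ℝ) with hdd
  have hd1 : (1 : ℝ) ≤ d := by rw [hdd]; exact_mod_cast hd
  have hi34 : Integrable fun x : E => (‖x‖ ^ 2 + 1) ^ (-d * (3 / 4 : ℝ)) :=
    integrable_J (by rw [← hdd]; linarith)
  refine ⟨∫ x : E, 4 * (‖x‖ ^ 2 + 1) ^ (-d * (3 / 4 : ℝ)), ?_, ?_⟩
  · exact integral_nonneg fun x => by positivity
  intro s hs
  have h1 := integrable_J (E := E) (d := d) (s := s) (by rw [← hdd]; nlinarith)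
  have h2 := integrable_J (E := E) (d := d) (s := 1) (by rw [← hdd]; nlinarith)
  rw [J, J, ← integral_sub h1 h2]
  refine (abs_integral_le_integral_abs).trans ?_
  rw [← integral_mul_const]
  refine integral_mono (h1.sub h2).abs ((hi34.const_mul 4).mul_const _) fun x => ?_
  show |(‖x‖ ^ 2 + 1) ^ (-d * s) - (‖x‖ ^ 2 + 1) ^ (-d * 1)| ≤
    4 * (‖x‖ ^ 2 + 1) ^ (-d * (3 / 4 : ℝ)) * (s - 1)
  set a : ℝ := ‖x‖ ^ 2 + 1 with ha
  have ha1 : 1 ≤ a := by rw [ha]; nlinarith [sq_nonneg ‖x‖]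
  have ha0 : 0 < a := by linarith
  set b := a ^ d with hb
  have hb1 : 1 ≤ b := Real.one_le_rpow ha1 (by linarith)
  have hb0 : 0 < b := by linarith
  have e : ∀ r : ℝ, a ^ (-d * r) = b ^ (-r) := by
    intro r
    rw [hb, ← Real.rpow_mul ha0.le]; congr 1; ring
  rw [e, e, e]
  -- `|b^(-s) - b^(-1)| ≤ b^(-1) (s-1) log b`
  have h3 : b ^ (-s) ≤ b ^ (-1 : ℝ) := Real.rpow_le_rpow_of_exponent_le hb1 (by linarith)
  rw [abs_of_nonpos (by linarith), neg_sub]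
  have h4 : b ^ (-s) = b ^ (-1 : ℝ) * b ^ (-(s - 1)) := by
    rw [← Real.rpow_add hb0]; congr 1; ring
  have h5 : 1 - (s - 1) * Real.log b ≤ b ^ (-(s - 1)) := by
    rw [Real.rpow_def_of_pos hb0]
    have := Real.add_one_le_exp (Real.log b * -(s - 1))
    linarith
  have h6 : Real.log b ≤ 4 * b ^ (1 / 4 : ℝ) := by
    have := Real.log_le_rpow_div hb0.le (show (0 : ℝ) < 1 / 4 by norm_num)
    linarith
  have h7 : b ^ (-(3 / 4 : ℝ)) = b ^ (-1 : ℝ) * b ^ (1 / 4 : ℝ) := by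
    rw [← Real.rpow_add hb0]; congr 1; norm_num
  rw [h4, h7]
  have hb1' : 0 < b ^ (-1 : ℝ) := Real.rpow_pos_of_pos hb0 _
  have h8 : b ^ (-1 : ℝ) - b ^ (-1 : ℝ) * b ^ (-(s - 1)) ≤ b ^ (-1 : ℝ) * ((s - 1) * Real.log b) := by
    have := mul_le_mul_of_nonneg_left h5 hb1'.le
    linarith
  refine h8.trans ?_
  have h9 := mul_le_mul_of_nonneg_left h6 (show (0:ℝ) ≤ s - 1 by linarith)
  have h10 := mul_le_mul_of_nonneg_left h9 hb1'.le
  linarith

end one

variable (K : Type*) [Field K] [NumberField K]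

/-- `∏_w (|x|_w² + Y_w²)^(-d_w s)` -/
noncomputable def QF (Y : InfinitePlace K → ℝ) (s : ℝ) (x : mixedSpace K) : ℝ :=
  ∏ w, (normAtPlace w x ^ 2 + Y w ^ 2) ^ (-(mult w : ℝ) * s)

/-- `∫ ∏_w (|x|_w² + 1)^(-d_w s)` -/
noncomputable def Ic (s : ℝ) : ℝ := J ℝ 1 s ^ nrRealPlaces K * J ℂ 2 s ^ nrComplexPlaces K

variable {K}

lemma QF_nonneg (Y : InfinitePlace K → ℝ) (s : ℝ) (x : mixedSpace K) : 0 ≤ QF K Y s x :=
  Finset.prod_nonneg fun w _ => by positivity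

lemma QF_pos {Y : InfinitePlace K → ℝ} (hY : ∀ w, 0 < Y w) (s : ℝ) (x : mixedSpace K) :
    0 < QF K Y s x :=
  Finset.prod_pos fun w _ => by
    have := hY w
    positivity

lemma QF_eq (Y : InfinitePlace K → ℝ) (s : ℝ) (x : mixedSpace K) :
    QF K Y s x = (∏ w : {w : InfinitePlace K // IsReal w}, (‖x.1 w‖ ^ 2 + Y w ^ 2) ^ (-(1 : ℝ) * s)) *
      ∏ w : {w : InfinitePlace K // IsComplex w}, (‖x.2 w‖ ^ 2 + Y w ^ 2) ^ (-(2 : ℝ) * s) := by
  rw [QF, prod_eq_prod_mul_prod]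
  congr 1
  · refine Finset.prod_congr rfl fun w _ => ?_
    rw [normAtPlace_apply_of_isReal w.2, mult_isReal, Nat.cast_one]
  · refine Finset.prod_congr rfl fun w _ => ?_
    rw [normAtPlace_apply_of_isComplex w.2, mult_isComplex, Nat.cast_ofNat]

lemma integrable_QF {Y : InfinitePlace K → ℝ} (hY : ∀ w, 0 < Y w) {s : ℝ} (hs : 1 ≤ s) :
    Integrable (QF K Y s) := by
  have h1 : Integrable (fun x : {w : InfinitePlace K // IsReal w} → ℝ =>
      ∏ w, (‖x w‖ ^ 2 + Y w ^ 2) ^ (-(1 : ℝ) * s)) := by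
    refine Integrable.fintype_prod (f := fun (w : {w : InfinitePlace K // IsReal w}) (t : ℝ) =>
      (‖t‖ ^ 2 + Y w ^ 2) ^ (-(1 : ℝ) * s)) fun w => ?_
    refine integrable_scale (hY w) ?_
    rw [finrank_self]; push_cast; linarith
  have h2 : Integrable (fun x : {w : InfinitePlace K // IsComplex w} → ℂ =>
      ∏ w, (‖x w‖ ^ 2 + Y w ^ 2) ^ (-(2 : ℝ) * s)) := by
    refine Integrable.fintype_prod (f := fun (w : {w : InfinitePlace K // IsComplex w}) (t : ℂ) =>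
      (‖t‖ ^ 2 + Y w ^ 2) ^ (-(2 : ℝ) * s)) fun w => ?_
    refine integrable_scale (hY w) ?_
    rw [Complex.finrank_real_complex]; push_cast; linarith
  have h3 := h1.mul_prod h2
  refine h3.congr (Filter.Eventually.of_forall fun x => ?_)
  exact (QF_eq Y s x).symm

lemma integral_QF {Y : InfinitePlace K → ℝ} (hY : ∀ w, 0 < Y w) (s : ℝ) :
    ∫ x, QF K Y s x = (∏ w, Y w ^ mult w) ^ (1 - 2 * s) * Ic K s := by
  simp_rw [QF_eq]
  have h0 := integral_prod_mul (μ := (volume : Measure ({w : InfinitePlace K // IsReal w} → ℝ)))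
    (ν := (volume : Measure ({w : InfinitePlace K // IsComplex w} → ℂ)))
    (fun x => ∏ w, (‖x w‖ ^ 2 + Y w ^ 2) ^ (-(1 : ℝ) * s))
    (fun x => ∏ w, (‖x w‖ ^ 2 + Y w ^ 2) ^ (-(2 : ℝ) * s))
  have e0 : ∫ x : mixedSpace K, (∏ w : {w : InfinitePlace K // IsReal w},
      (‖x.1 w‖ ^ 2 + Y w ^ 2) ^ (-(1 : ℝ) * s)) *
      ∏ w : {w : InfinitePlace K // IsComplex w}, (‖x.2 w‖ ^ 2 + Y w ^ 2) ^ (-(2 : ℝ) * s) =
      (∫ x : {w : InfinitePlace K // IsReal w} → ℝ,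
        ∏ w, (‖x w‖ ^ 2 + Y w ^ 2) ^ (-(1 : ℝ) * s)) *
      ∫ x : {w : InfinitePlace K // IsComplex w} → ℂ,
        ∏ w, (‖x w‖ ^ 2 + Y w ^ 2) ^ (-(2 : ℝ) * s) := h0
  rw [e0, integral_fintype_prod_volume_eq_prod
    (f := fun (w : {w : InfinitePlace K // IsReal w}) (t : ℝ) => (‖t‖ ^ 2 + Y w ^ 2) ^ (-(1 : ℝ) * s)),
    integral_fintype_prod_volume_eq_prod
    (f := fun (w : {w : InfinitePlace K // IsComplex w}) (t : ℂ) =>
      (‖t‖ ^ 2 + Y w ^ 2) ^ (-(2 : ℝ) * s))]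
  have e1 : ∀ w : {w : InfinitePlace K // IsReal w}, ∫ t : ℝ, (‖t‖ ^ 2 + Y w ^ 2) ^ (-(1 : ℝ) * s) =
      Y w ^ (1 - 2 * s) * J ℝ 1 s := by
    intro w
    have := integral_scale (E := ℝ) (s := s) (hY w)
    rw [finrank_self] at this
    simpa using this
  have e2 : ∀ w : {w : InfinitePlace K // IsComplex w},
      ∫ t : ℂ, (‖t‖ ^ 2 + Y w ^ 2) ^ (-(2 : ℝ) * s) = (Y w ^ 2) ^ (1 - 2 * s) * J ℂ 2 s := by
    intro w
    have := integral_scale (E := ℂ) (s := s) (hY w)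
    rw [Complex.finrank_real_complex] at this
    push_cast at this
    rw [this, ← Real.rpow_natCast, ← Real.rpow_natCast, ← Real.rpow_mul (hY w).le,
      ← Real.rpow_mul (hY w).le, mul_comm (1 - 2 * s)]
  rw [Finset.prod_congr rfl fun w _ => e1 w, Finset.prod_congr rfl fun w _ => e2 w,
    Finset.prod_mul_distrib, Finset.prod_mul_distrib, Finset.prod_const, Finset.prod_const,
    Finset.card_univ, Finset.card_univ, prod_eq_prod_mul_prod, Ic]
  have e3 : (∏ w : {w : InfinitePlace K // IsReal w}, Y w.1 ^ mult w.1) =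
      ∏ w : {w : InfinitePlace K // IsReal w}, Y w :=
    Finset.prod_congr rfl fun w _ => by rw [mult_isReal, pow_one]
  have e4 : (∏ w : {w : InfinitePlace K // IsComplex w}, Y w.1 ^ mult w.1) =
      ∏ w : {w : InfinitePlace K // IsComplex w}, Y w ^ 2 :=
    Finset.prod_congr rfl fun w _ => by rw [mult_isComplex]
  have e5 : (0 : ℝ) ≤ ∏ w : {w : InfinitePlace K // IsReal w}, Y w :=
    Finset.prod_nonneg fun w _ => (hY w).le
  have e6 : (0 : ℝ) ≤ ∏ w : {w : InfinitePlace K // IsComplex w}, Y w ^ 2 :=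
    Finset.prod_nonneg fun w _ => by positivity
  rw [e3, e4, Real.mul_rpow e5 e6,
    ← Real.finsetProd_rpow Finset.univ (fun w : {w : InfinitePlace K // IsReal w} => Y w)
      (fun w _ => (hY w).le),
    ← Real.finsetProd_rpow Finset.univ (fun w : {w : InfinitePlace K // IsComplex w} => Y w ^ 2)
      (fun w _ => by positivity)]
  simp only [nrRealPlaces, nrComplexPlaces]
  ring

lemma Ic_pos {s : ℝ} (hs : 1 ≤ s) : 0 < Ic K s := by
  have h1 : 0 < J ℝ 1 s := J_pos (by rw [finrank_self]; push_cast; linarith)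
  have h2 : 0 < J ℂ 2 s := J_pos (by rw [Complex.finrank_real_complex]; push_cast; linarith)
  unfold Ic
  positivity

end Fermat.Agent.LT.H.Eis
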