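import Mathlib
import Fermat.Agent.LT.H.EisFun

/-!
# Oscillation of `QF` and balancing by units
-/

set_option autoImplicit false
set_option linter.unusedSectionVars false

open MeasureTheory Module NumberField NumberField.InfinitePlace NumberField.mixedEmbedding

namespace Fermat.Agent.LT.H.Eis

open scoped Classical

lemma sqrt_lip {a b Y : ℝ} (ha : 0 ≤ a) (hb : 0 ≤ b) (hY : 0 < Y) :
    |√(a ^ 2 + Y ^ 2) - √(b ^ 2 + Y ^ 2)| ≤ |a - b| := by
  have h1 : 0 < √(a ^ 2 + Y ^ 2) := Real.sqrt_pos.mpr (by positivity)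
  have h2 : 0 < √(b ^ 2 + Y ^ 2) := Real.sqrt_pos.mpr (by positivity)
  have h3 : (√(a ^ 2 + Y ^ 2) - √(b ^ 2 + Y ^ 2)) * (√(a ^ 2 + Y ^ 2) + √(b ^ 2 + Y ^ 2)) =
      (a - b) * (a + b) := by
    have e1 := Real.sq_sqrt (show (0 : ℝ) ≤ a ^ 2 + Y ^ 2 by positivity)
    have e2 := Real.sq_sqrt (show (0 : ℝ) ≤ b ^ 2 + Y ^ 2 by positivity)
    nlinarith
  have h4 : a + b ≤ √(a ^ 2 + Y ^ 2) + √(b ^ 2 + Y ^ 2) :=
    add_le_add (Real.le_sqrt_of_sq_le (by nlinarith)) (Real.le_sqrt_of_sq_le (by nlinarith))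
  have h5 : |√(a ^ 2 + Y ^ 2) - √(b ^ 2 + Y ^ 2)| * (√(a ^ 2 + Y ^ 2) + √(b ^ 2 + Y ^ 2)) =
      |a - b| * (a + b) := by
    rw [← abs_of_pos (add_pos h1 h2), ← abs_mul, h3, abs_mul, abs_of_nonneg (add_nonneg ha hb)]
  have h6 : |a - b| * (a + b) ≤ |a - b| * (√(a ^ 2 + Y ^ 2) + √(b ^ 2 + Y ^ 2)) :=
    mul_le_mul_of_nonneg_left h4 (abs_nonneg _)
  rw [← h5] at h6
  exact le_of_mul_le_mul_right h6 (add_pos h1 h2)

lemma log_lip {a b Y m D : ℝ} (ha : 0 ≤ a) (hb : 0 ≤ b) (hm : 0 < m) (hmY : m ≤ Y)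
    (h : |a - b| ≤ D) : |Real.log (a ^ 2 + Y ^ 2) - Real.log (b ^ 2 + Y ^ 2)| ≤ 2 * (D / m) := by
  have hY : 0 < Y := lt_of_lt_of_le hm hmY
  have e : ∀ t : ℝ, Real.log (t ^ 2 + Y ^ 2) = 2 * Real.log (√(t ^ 2 + Y ^ 2)) := by
    intro t
    rw [Real.log_sqrt (by positivity)]; ring
  rw [e, e, ← mul_sub, abs_mul, abs_two]
  refine mul_le_mul_of_nonneg_left ?_ (by norm_num)
  refine EXT.ConeFunction.abs_log_sub_log_le hm ?_ ?_ ((sqrt_lip ha hb hY).trans h)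
  · exact hmY.trans (Real.le_sqrt_of_sq_le (by nlinarith [sq_nonneg a]))
  · exact hmY.trans (Real.le_sqrt_of_sq_le (by nlinarith [sq_nonneg b]))

variable {K : Type*} [Field K] [NumberField K]

lemma log_QF {Y : InfinitePlace K → ℝ} (hY : ∀ w, 0 < Y w) (s : ℝ) (x : mixedSpace K) :
    Real.log (QF K Y s x) = ∑ w, (-(mult w : ℝ) * s) * Real.log (normAtPlace w x ^ 2 + Y w ^ 2) := by
  rw [QF, Real.log_prod (fun w _ => by have := hY w; positivity)]
  refine Finset.sum_congr rfl fun w _ => ?_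
  rw [Real.log_rpow (by have := hY w; positivity)]

lemma abs_log_QF_sub {Y : InfinitePlace K → ℝ} {m D : ℝ} (hm : 0 < m) (hY : ∀ w, m ≤ Y w)
    {s : ℝ} (hs : 0 ≤ s) (hs2 : s ≤ 2) (x y : mixedSpace K) (hy : ‖y‖ ≤ D) :
    |Real.log (QF K Y s (x + y)) - Real.log (QF K Y s x)| ≤ 4 * (finrank ℚ K) * (D / m) := by
  have hY0 : ∀ w, 0 < Y w := fun w => lt_of_lt_of_le hm (hY w)
  rw [log_QF hY0, log_QF hY0, ← Finset.sum_sub_distrib]
  refine (Finset.abs_sum_le_sum_abs _ _).trans ?_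
  have key : ∀ w ∈ (Finset.univ : Finset (InfinitePlace K)),
      |(-(mult w : ℝ) * s) * Real.log (normAtPlace w (x + y) ^ 2 + Y w ^ 2) -
        (-(mult w : ℝ) * s) * Real.log (normAtPlace w x ^ 2 + Y w ^ 2)| ≤
      (mult w : ℝ) * (4 * (D / m)) := by
    intro w _
    rw [← mul_sub, abs_mul, abs_mul, abs_neg, Nat.abs_cast, abs_of_nonneg hs, mul_assoc]
    refine mul_le_mul_of_nonneg_left ?_ (Nat.cast_nonneg _)
    have h1 := log_lip (normAtPlace_nonneg w (x + y)) (normAtPlace_nonneg w x) hm (hY w)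
      ((EXT.ConeFunction.abs_normAtPlace_add_sub_le K w x y).trans hy)
    have h2 : 0 ≤ |Real.log (normAtPlace w (x + y) ^ 2 + Y w ^ 2) -
      Real.log (normAtPlace w x ^ 2 + Y w ^ 2)| := abs_nonneg _
    nlinarith
  refine (Finset.sum_le_sum key).trans (le_of_eq ?_)
  rw [← Finset.sum_mul, ← Nat.cast_sum, sum_mult_eq]
  ring

lemma exp_sub_one_le {u δ : ℝ} (h : |u| ≤ δ) : |Real.exp u - 1| ≤ δ * Real.exp δ := by
  have h0 : 0 ≤ δ := (abs_nonneg _).trans h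
  rw [abs_le] at h ⊢
  have h1 : 1 - δ ≤ Real.exp u := by
    have := Real.add_one_le_exp u
    linarith
  have h2 : Real.exp u ≤ Real.exp δ := Real.exp_le_exp.mpr h.2
  have h3 : Real.exp δ - 1 ≤ δ * Real.exp δ := by
    have h4 := Real.add_one_le_exp (-δ)
    have h5 : Real.exp (-δ) * Real.exp δ = 1 := by rw [← Real.exp_add]; simp
    have h6 := mul_le_mul_of_nonneg_right h4 (Real.exp_pos δ).le
    linarith
  have h4 : δ ≤ δ * Real.exp δ := by
    have := Real.one_le_exp h0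
    nlinarith
  constructor <;> linarith

/-- relative oscillation of `QF` -/
lemma exists_QF_osc (D Y0 : ℝ) (hD : 0 ≤ D) (hY0 : 0 < Y0) : ∃ C : ℝ, 0 ≤ C ∧
    ∀ (Y : InfinitePlace K → ℝ) (m : ℝ), Y0 ≤ m → (∀ w, m ≤ Y w) → ∀ s : ℝ, 0 ≤ s → s ≤ 2 →
      ∀ x y : mixedSpace K, ‖y‖ ≤ D → |QF K Y s (x + y) - QF K Y s x| ≤ C / m * QF K Y s x := by
  set A : ℝ := 4 * (finrank ℚ K) * D with hA
  have hA0 : 0 ≤ A := by positivity
  refine ⟨A * Real.exp (A / Y0), by positivity, ?_⟩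
  intro Y m hm hY s hs hs2 x y hy
  have hm0 : 0 < m := lt_of_lt_of_le hY0 hm
  have hYp : ∀ w, 0 < Y w := fun w => lt_of_lt_of_le hm0 (hY w)
  have h1 := abs_log_QF_sub hm0 hY hs hs2 x y hy
  have hq := QF_pos hYp s x
  have hq' := QF_pos hYp s (x + y)
  have h2 : QF K Y s (x + y) = Real.exp (Real.log (QF K Y s (x + y)) - Real.log (QF K Y s x)) *
      QF K Y s x := by
    rw [Real.exp_sub, Real.exp_log hq, Real.exp_log hq']
    field_simp
  set u := Real.log (QF K Y s (x + y)) - Real.log (QF K Y s x) with hu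
  have h3 : |QF K Y s (x + y) - QF K Y s x| = |Real.exp u - 1| * QF K Y s x := by
    rw [h2, ← abs_of_pos hq, ← abs_mul, abs_of_pos hq]
    congr 1; ring
  rw [h3]
  refine mul_le_mul_of_nonneg_right ?_ hq.le
  have h4 : 4 * (finrank ℚ K) * (D / m) = A / m := by rw [hA]; ring
  rw [h4] at h1
  refine (exp_sub_one_le h1).trans ?_
  have h5 : A / m ≤ A / Y0 := div_le_div_of_nonneg_left hA0 hY0 hm
  have h6 := Real.exp_le_exp.mpr h5
  have h7 : 0 ≤ A / m := by positivity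
  calc A / m * Real.exp (A / m) ≤ A / m * Real.exp (A / Y0) := mul_le_mul_of_nonneg_left h6 h7
    _ = A * Real.exp (A / Y0) / m := by ring

end Fermat.Agent.LT.H.Eis
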