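import Mathlib
import Fermat.Agent.EXT.PartialZeta
import Fermat.Agent.LT.H.EisOsc
import Fermat.Agent.LT.H.UnitBal

/-!
# Sums of `QF` over fractional ideals
-/

set_option autoImplicit false
set_option linter.unusedSectionVars false
set_option maxSynthPendingDepth 3

open MeasureTheory Module NumberField NumberField.InfinitePlace NumberField.mixedEmbedding
  nonZeroDivisors

namespace Fermat.Agent.LT.H.Eis

open scoped Classical

variable (K : Type*) [Field K] [NumberField K]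

theorem exists_class_reps : ∃ S : Finset (FractionalIdeal (𝓞 K)⁰ K)ˣ,
    ∀ I : (FractionalIdeal (𝓞 K)⁰ K)ˣ, ∃ J ∈ S, ∃ x : Kˣ, J = toPrincipalIdeal (𝓞 K) K x * I := by
  refine ⟨Finset.univ.image fun c : ClassGroup (𝓞 K) =>
    Quotient.out (ClassGroup.equiv (R := 𝓞 K) K c), fun I => ?_⟩
  set c : ClassGroup (𝓞 K) := (ClassGroup.equiv (R := 𝓞 K) K).symm (QuotientGroup.mk I) with hc
  refine ⟨Quotient.out (ClassGroup.equiv (R := 𝓞 K) K c), Finset.mem_image_of_mem _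
    (Finset.mem_univ c), ?_⟩
  have h1 : (QuotientGroup.mk I : (FractionalIdeal (𝓞 K)⁰ K)ˣ ⧸ (toPrincipalIdeal (𝓞 K) K).range) =
      QuotientGroup.mk (Quotient.out (ClassGroup.equiv (R := 𝓞 K) K c)) := by
    rw [hc, MulEquiv.apply_symm_apply]
    exact (Quotient.out_eq _).symm
  rw [QuotientGroup.eq] at h1
  obtain ⟨x, hx⟩ := h1
  refine ⟨x, ?_⟩
  rw [hx]
  rw [mul_comm, mul_inv_cancel_left]

variable {K}

lemma QF_scale {Y : InfinitePlace K → ℝ} (hY : ∀ w, 0 < Y w) (s : ℝ) {α : K} (hα : α ≠ 0)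
    (z : mixedSpace K) :
    QF K (fun w => w α * Y w) s (mixedEmbedding K α * z) =
      (|(Algebra.norm ℚ α : ℚ)| : ℝ) ^ (-(2 * s)) * QF K Y s z := by
  unfold QF
  have h1 : ∀ w : InfinitePlace K,
      (normAtPlace w (mixedEmbedding K α * z) ^ 2 + (w α * Y w) ^ 2) ^ (-(mult w : ℝ) * s) =
      ((w α) ^ mult w) ^ (-(2 * s)) * (normAtPlace w z ^ 2 + Y w ^ 2) ^ (-(mult w : ℝ) * s) := by
    intro w
    have hw : 0 < w α := pos_iff.mpr hα
    rw [_root_.map_mul, normAtPlace_apply]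
    have e : (w α * normAtPlace w z) ^ 2 + (w α * Y w) ^ 2 =
        (w α) ^ 2 * (normAtPlace w z ^ 2 + Y w ^ 2) := by ring
    have e2 : ((w α) ^ 2 : ℝ) ^ (-(mult w : ℝ) * s) = ((w α) ^ mult w) ^ (-(2 * s)) := by
      rw [← Real.rpow_natCast, ← Real.rpow_natCast, ← Real.rpow_mul hw.le, ← Real.rpow_mul hw.le]
      congr 1
      push_cast
      ring
    rw [e, Real.mul_rpow (by positivity) (by have := hY w; positivity), e2]
  rw [Finset.prod_congr rfl fun w _ => h1 w, Finset.prod_mul_distrib,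
    Real.finsetProd_rpow _ _ (fun w _ => by positivity), prod_eq_abs_norm]
  push_cast
  rfl

lemma prod_scale (Y : InfinitePlace K → ℝ) (α : K) :
    ∏ w : InfinitePlace K, (w α * Y w) ^ mult w =
      (|(Algebra.norm ℚ α : ℚ)| : ℝ) * ∏ w, Y w ^ mult w := by
  simp only [mul_pow]
  rw [Finset.prod_mul_distrib, prod_eq_abs_norm]
  push_cast
  rfl

/-- `N(I)` as a real number -/
noncomputable def fN (I : (FractionalIdeal (𝓞 K)⁰ K)ˣ) : ℝ :=
  ((FractionalIdeal.absNorm (I : FractionalIdeal (𝓞 K)⁰ K) : ℚ) : ℝ)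

lemma fN_pos (I : (FractionalIdeal (𝓞 K)⁰ K)ˣ) : 0 < fN I := by
  unfold fN
  have h1 : FractionalIdeal.absNorm (I : FractionalIdeal (𝓞 K)⁰ K) ≠ 0 := by
    rw [Ne, FractionalIdeal.absNorm_eq_zero_iff]
    exact I.ne_zero
  have h2 := FractionalIdeal.absNorm_nonneg (I : FractionalIdeal (𝓞 K)⁰ K)
  exact_mod_cast lt_of_le_of_ne h2 h1.symm

lemma fN_mul (I J : (FractionalIdeal (𝓞 K)⁰ K)ˣ) : fN (I * J) = fN I * fN J := by
  unfold fN
  rw [Units.val_mul, _root_.map_mul]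
  push_cast
  rfl

lemma fN_toPrincipalIdeal (x : Kˣ) : fN (toPrincipalIdeal (𝓞 K) K x) =
    (|(Algebra.norm ℚ (x : K) : ℚ)| : ℝ) := by
  unfold fN
  rw [coe_toPrincipalIdeal, FractionalIdeal.absNorm_span_singleton]
  push_cast
  rfl

lemma covolume_eq (J : (FractionalIdeal (𝓞 K)⁰ K)ˣ) :
    ZLattice.covolume (mixedEmbedding.idealLattice K J) = fN J * EXT.PartialZeta.vK K := by
  rw [covolume_idealLattice, fN, EXT.PartialZeta.vK]
  ring

lemma mem_toPrincipalIdeal_mul {I : (FractionalIdeal (𝓞 K)⁰ K)ˣ} {x : Kˣ} {t : K} :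
    (x : K) * t ∈ ((toPrincipalIdeal (𝓞 K) K x * I : (FractionalIdeal (𝓞 K)⁰ K)ˣ) :
      FractionalIdeal (𝓞 K)⁰ K) ↔ t ∈ (I : FractionalIdeal (𝓞 K)⁰ K) := by
  rw [Units.val_mul, coe_toPrincipalIdeal, FractionalIdeal.mem_singleton_mul]
  constructor
  · rintro ⟨y, hy, h⟩
    rwa [mul_left_cancel₀ x.ne_zero h]
  · intro h
    exact ⟨t, h, rfl⟩

/-- the bijection between the points of `I` and the lattice of `x I` -/
noncomputable def pointEquiv (I : (FractionalIdeal (𝓞 K)⁰ K)ˣ) (x : Kˣ) :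
    {t : K // t ∈ (I : FractionalIdeal (𝓞 K)⁰ K)} ≃
      mixedEmbedding.idealLattice K (toPrincipalIdeal (𝓞 K) K x * I) where
  toFun t := ⟨mixedEmbedding K ((x : K) * t), (mem_idealLattice K _).mpr
    ⟨(x : K) * t, mem_toPrincipalIdeal_mul.mpr t.2, rfl⟩⟩
  invFun l := ⟨(x : K)⁻¹ * ((mem_idealLattice K _).mp l.2).choose, by
    have h := ((mem_idealLattice K _).mp l.2).choose_spec.1
    rw [← mem_toPrincipalIdeal_mul (x := x), mul_inv_cancel_left₀ x.ne_zero]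
    exact h⟩
  left_inv t := by
    apply Subtype.ext
    set l : mixedEmbedding.idealLattice K (toPrincipalIdeal (𝓞 K) K x * I) :=
      ⟨mixedEmbedding K ((x : K) * t), (mem_idealLattice K _).mpr
        ⟨(x : K) * t, mem_toPrincipalIdeal_mul.mpr t.2, rfl⟩⟩ with hl
    have h := ((mem_idealLattice K _).mp l.2).choose_spec.2
    have h2 := mixedEmbedding_injective K h
    show (x : K)⁻¹ * ((mem_idealLattice K _).mp l.2).choose = t
    rw [h2, inv_mul_cancel_left₀ x.ne_zero]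
  right_inv l := by
    apply Subtype.ext
    show mixedEmbedding K ((x : K) * ((x : K)⁻¹ * ((mem_idealLattice K _).mp l.2).choose)) = l
    rw [mul_inv_cancel_left₀ x.ne_zero]
    exact ((mem_idealLattice K _).mp l.2).choose_spec.2

lemma pointEquiv_coe (I : (FractionalIdeal (𝓞 K)⁰ K)ˣ) (x : Kˣ)
    (t : {t : K // t ∈ (I : FractionalIdeal (𝓞 K)⁰ K)}) :
    (pointEquiv I x t : mixedSpace K) = mixedEmbedding K ((x : K) * t) := rfl

/-- the main term -/
noncomputable def mT (I : (FractionalIdeal (𝓞 K)⁰ K)ˣ) (Y : InfinitePlace K → ℝ) (s : ℝ) : ℝ :=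
  (fN I * EXT.PartialZeta.vK K)⁻¹ * ((∏ w, Y w ^ mult w) ^ (1 - 2 * s) * Ic K s)

lemma mT_pos (I : (FractionalIdeal (𝓞 K)⁰ K)ˣ) {Y : InfinitePlace K → ℝ} (hY : ∀ w, 0 < Y w)
    {s : ℝ} (hs : 1 ≤ s) : 0 < mT I Y s := by
  unfold mT
  have h1 := fN_pos I
  have h2 := EXT.PartialZeta.vK_pos K
  have h3 := Ic_pos (K := K) hs
  have h4 : 0 < ∏ w : InfinitePlace K, Y w ^ mult w := Finset.prod_pos fun w _ => pow_pos (hY w) _
  positivity

variable (K)

theorem exists_frac_sum (c0 : ℝ) (hc0 : 0 < c0) : ∃ C : ℝ, 0 ≤ C ∧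
    ∀ (I : (FractionalIdeal (𝓞 K)⁰ K)ˣ) (Y : InfinitePlace K → ℝ), (∀ w, 0 < Y w) →
      c0 ≤ (∏ w, Y w ^ mult w) / fN I → ∀ s : ℝ, 1 ≤ s → s ≤ 2 → ∀ x : mixedSpace K,
      Summable (fun t : {t : K // t ∈ (I : FractionalIdeal (𝓞 K)⁰ K)} =>
        QF K Y s (mixedEmbedding K (t : K) - x)) ∧
      |∑' t : {t : K // t ∈ (I : FractionalIdeal (𝓞 K)⁰ K)},
        QF K Y s (mixedEmbedding K (t : K) - x) - mT I Y s| ≤
        C * ((∏ w, Y w ^ mult w) / fN I) ^ (-(finrank ℚ K : ℝ)⁻¹) * mT I Y s := by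
  obtain ⟨S, hS⟩ := exists_class_reps K
  obtain ⟨c, hc0', hc1, hbal⟩ := exists_unit_balance K
  set n : ℝ := (finrank ℚ K : ℝ) with hn
  have hn0 : 0 < n := by rw [hn]; exact_mod_cast finrank_pos
  -- constants for each representative
  have hJ : ∀ J : (FractionalIdeal (𝓞 K)⁰ K)ˣ, ∃ C : ℝ, 0 ≤ C ∧ ∀ (Y : InfinitePlace K → ℝ)
      (m : ℝ), c * (fN J * c0) ^ n⁻¹ ≤ m → (∀ w, m ≤ Y w) → ∀ s : ℝ, 1 ≤ s → s ≤ 2 →
      ∀ x : mixedSpace K,
      Summable (fun l : mixedEmbedding.idealLattice K J => QF K Y s ((l : mixedSpace K) - x)) ∧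
      |∑' l : mixedEmbedding.idealLattice K J, QF K Y s ((l : mixedSpace K) - x) - mT J Y s| ≤
        C / m * mT J Y s := by
    intro J
    obtain ⟨D, hD, hsum⟩ := OscSum.exists_sum_sub_integral_osc (mixedEmbedding.idealLattice K J)
      (volume : Measure (mixedSpace K))
    have hm0 : 0 < c * (fN J * c0) ^ n⁻¹ := by
      have := fN_pos J
      positivity
    obtain ⟨C, hC0, hC⟩ := exists_QF_osc (K := K) D _ hD hm0
    refine ⟨C, hC0, fun Y m hm hY s hs1 hs2 x => ?_⟩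
    have hmp : 0 < m := lt_of_lt_of_le hm0 hm
    have hYp : ∀ w, 0 < Y w := fun w => lt_of_lt_of_le hmp (hY w)
    have h1 := hsum (C / m) (fun z => QF K Y s (z - x)) (by positivity)
      (fun z => QF_nonneg _ _ _) ((integrable_QF hYp hs1).comp_sub_right x) (by
        intro z y hy
        have := hC Y m hm hY s (by linarith) hs2 (z - x) y hy
        rwa [← add_sub_right_comm] at this)
    have h2 : (ZLattice.covolume (mixedEmbedding.idealLattice K J) volume)⁻¹ *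
        ∫ z, QF K Y s (z - x) = mT J Y s := by
      rw [integral_sub_right_eq_self (QF K Y s) x, integral_QF hYp, covolume_eq, mT]
    rw [h2] at h1
    exact h1
  choose CJ hCJ0 hCJ using hJ
  set C1 : ℝ := ∑ J ∈ S, CJ J * (c * fN J ^ n⁻¹)⁻¹ with hC1
  have hterm : ∀ J : (FractionalIdeal (𝓞 K)⁰ K)ˣ, 0 ≤ CJ J * (c * fN J ^ n⁻¹)⁻¹ := by
    intro J
    have := fN_pos J
    have := hCJ0 J
    positivity
  refine ⟨C1, Finset.sum_nonneg fun J _ => hterm J, ?_⟩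
  intro I Y hY hc s hs1 hs2 x
  obtain ⟨J, hJS, α, hα⟩ := hS I
  set P : ℝ := ∏ w, Y w ^ mult w with hP
  have hP0 : 0 < P := Finset.prod_pos fun w _ => pow_pos (hY w) _
  have hI0 := fN_pos I
  have hJ0 := fN_pos J
  -- balance
  obtain ⟨u, hu⟩ := hbal (fun w => w (α : K) * Y w)
    (fun w => mul_pos (pos_iff.mpr α.ne_zero) (hY w))
  rw [prod_scale] at hu
  set uK : Kˣ := Units.map (algebraMap (𝓞 K) K).toMonoidHom u with huK
  have huKv : (uK : K) = (u : K) := rfl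
  set β : Kˣ := uK * α with hβ
  have hu1 : toPrincipalIdeal (𝓞 K) K uK = 1 := by
    rw [toPrincipalIdeal_eq_iff, huKv]
    apply le_antisymm
    · rw [FractionalIdeal.spanSingleton_le_iff_mem, Units.val_one]
      exact (FractionalIdeal.mem_one_iff (𝓞 K)⁰).mpr ⟨(u : 𝓞 K), rfl⟩
    · rw [Units.val_one, FractionalIdeal.one_le, FractionalIdeal.mem_spanSingleton]
      refine ⟨((u⁻¹ : (𝓞 K)ˣ) : 𝓞 K), ?_⟩
      rw [Algebra.smul_def]
      have : algebraMap (𝓞 K) K (((u⁻¹ : (𝓞 K)ˣ) : 𝓞 K) * (u : 𝓞 K)) = 1 := by simp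
      rw [_root_.map_mul] at this
      exact this
  have hβJ : toPrincipalIdeal (𝓞 K) K β * I = J := by
    rw [hβ, _root_.map_mul, hu1, one_mul, hα]
  have hNα : (|(Algebra.norm ℚ (α : K) : ℚ)| : ℝ) * fN I = fN J := by
    rw [hα, fN_mul, fN_toPrincipalIdeal]
  have hNβ : (|(Algebra.norm ℚ (β : K) : ℚ)| : ℝ) * fN I = fN J := by
    rw [← hβJ, fN_mul, fN_toPrincipalIdeal]
  set Nβ : ℝ := (|(Algebra.norm ℚ (β : K) : ℚ)| : ℝ) with hNβd
  have hNβ0 : 0 < Nβ := by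
    have h1 : 0 < Nβ * fN I := by rw [hNβ]; exact hJ0
    exact pos_of_mul_pos_left h1 hI0.le
  set m : ℝ := c * (fN J * (P / fN I)) ^ n⁻¹ with hm
  have hu' : ∀ w : InfinitePlace K, m ≤ w (β : K) * Y w := by
    intro w
    have h1 := hu w
    have h2 : (|(Algebra.norm ℚ (α : K) : ℚ)| : ℝ) * P = fN J * (P / fN I) := by
      rw [← hNα]
      field_simp
    rw [← hP, h2] at h1
    have h3 : (β : K) = (u : K) * (α : K) := rfl
    rw [hm, h3, _root_.map_mul, mul_assoc]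
    exact h1
  have hmm : c * (fN J * c0) ^ n⁻¹ ≤ m := by
    rw [hm]
    refine mul_le_mul_of_nonneg_left ?_ hc0'.le
    exact Real.rpow_le_rpow (by positivity) (mul_le_mul_of_nonneg_left hc hJ0.le) (by positivity)
  obtain ⟨hSum, hEst⟩ := hCJ J (fun w => w (β : K) * Y w) m hmm hu' s hs1 hs2
    (mixedEmbedding K (β : K) * x)
  subst hβJ
  -- transport
  have hkey : ∀ t : {t : K // t ∈ (I : FractionalIdeal (𝓞 K)⁰ K)},
      QF K (fun w => w (β : K) * Y w) s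
        ((pointEquiv I β t : mixedSpace K) - mixedEmbedding K (β : K) * x) =
      Nβ ^ (-(2 * s)) * QF K Y s (mixedEmbedding K (t : K) - x) := by
    intro t
    rw [pointEquiv_coe, _root_.map_mul, ← mul_sub, QF_scale hY s β.ne_zero]
  have hNs : 0 < Nβ ^ (-(2 * s)) := Real.rpow_pos_of_pos hNβ0 _
  have hS1 : Summable (fun t : {t : K // t ∈ (I : FractionalIdeal (𝓞 K)⁰ K)} =>
      Nβ ^ (-(2 * s)) * QF K Y s (mixedEmbedding K (t : K) - x)) := by
    have := (pointEquiv I β).summable_iff.mpr hSum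
    refine this.congr fun t => ?_
    exact hkey t
  have hS2 : Summable (fun t : {t : K // t ∈ (I : FractionalIdeal (𝓞 K)⁰ K)} =>
      QF K Y s (mixedEmbedding K (t : K) - x)) := (summable_mul_left_iff hNs.ne').mp hS1
  refine ⟨hS2, ?_⟩
  have hT : ∑' l : mixedEmbedding.idealLattice K (toPrincipalIdeal (𝓞 K) K β * I),
      QF K (fun w => w (β : K) * Y w) s ((l : mixedSpace K) - mixedEmbedding K (β : K) * x) =
      Nβ ^ (-(2 * s)) * ∑' t : {t : K // t ∈ (I : FractionalIdeal (𝓞 K)⁰ K)},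
        QF K Y s (mixedEmbedding K (t : K) - x) := by
    rw [← (pointEquiv I β).tsum_eq, ← tsum_mul_left]
    exact tsum_congr hkey
  have hM : mT (toPrincipalIdeal (𝓞 K) K β * I) (fun w => w (β : K) * Y w) s =
      Nβ ^ (-(2 * s)) * mT I Y s := by
    unfold mT
    rw [prod_scale, fN_mul, fN_toPrincipalIdeal, ← hNβd, ← hP, Real.mul_rpow hNβ0.le hP0.le]
    have h1 : Nβ ^ (1 - 2 * s) = Nβ * Nβ ^ (-(2 * s)) := by
      rw [sub_eq_add_neg, Real.rpow_add hNβ0, Real.rpow_one]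
    rw [h1]
    have := EXT.PartialZeta.vK_pos K
    field_simp
  rw [hT, hM, ← mul_sub, abs_mul, abs_of_pos hNs] at hEst
  set J' := toPrincipalIdeal (𝓞 K) K β * I with hJ'
  have h5 : |∑' t : {t : K // t ∈ (I : FractionalIdeal (𝓞 K)⁰ K)},
        QF K Y s (mixedEmbedding K (t : K) - x) - mT I Y s| ≤ CJ J' / m * mT I Y s := by
    have h6 : CJ J' / m * (Nβ ^ (-(2 * s)) * mT I Y s) =
      Nβ ^ (-(2 * s)) * (CJ J' / m * mT I Y s) := by ring
    rw [h6] at hEst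
    exact le_of_mul_le_mul_left hEst hNs
  refine h5.trans ?_
  refine mul_le_mul_of_nonneg_right ?_ (mT_pos I hY hs1).le
  have hPI : 0 < P / fN I := by positivity
  have h7 : CJ J' / m = CJ J' * (c * fN J' ^ n⁻¹)⁻¹ * (P / fN I) ^ (-n⁻¹) := by
    rw [hm, Real.mul_rpow hJ0.le hPI.le, Real.rpow_neg hPI.le]
    have h8 : 0 < (P / fN I) ^ n⁻¹ := Real.rpow_pos_of_pos hPI _
    have h9 : 0 < fN J' ^ n⁻¹ := Real.rpow_pos_of_pos hJ0 _
    field_simp
  rw [h7]
  refine mul_le_mul_of_nonneg_right ?_ (Real.rpow_pos_of_pos hPI _).le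
  exact Finset.single_le_sum (f := fun J => CJ J * (c * fN J ^ n⁻¹)⁻¹) (fun J _ => hterm J) hJS

end Fermat.Agent.LT.H.Eis
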