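import Mathlib
import Fermat.Agent.LT.H.EisSum

/-!
# Uniform comparison of lattice sums and integrals; balanced bases of fractional ideals
-/

set_option autoImplicit false
set_option linter.unusedSectionVars false
set_option maxSynthPendingDepth 3

open MeasureTheory Module NumberField NumberField.InfinitePlace NumberField.mixedEmbedding
  nonZeroDivisors

namespace Fermat.Agent.LT.H.LatG

section general

variable {E : Type*} [NormedAddCommGroup E] [NormedSpace ℝ E] [FiniteDimensional ℝ E]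
  [MeasurableSpace E] [BorelSpace E] (L : Submodule ℤ E) [DiscreteTopology L] [IsZLattice ℝ L]
  (μ : Measure E) [μ.IsAddHaarMeasure]

theorem sum_sub_integral_G {ι : Type*} [Fintype ι] (b : Basis ι ℤ L) (D : ℝ)
    (hD : ∑ i, ‖(b i : E)‖ ≤ D) (g G : E → ℝ) (hg : Integrable g μ) (hG : Integrable G μ)
    (h : ∀ x z : E, ‖x - z‖ ≤ D → |g x - g z| ≤ G z) :
    (Summable fun l : L => g l) ∧
      |∑' l : L, g l - (ZLattice.covolume L μ)⁻¹ * ∫ x, g x ∂μ| ≤
        (ZLattice.covolume L μ)⁻¹ * ∫ x, G x ∂μ := by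
  classical
  have : Module.Free ℤ L := ZLattice.module_free ℝ L
  have : Module.Finite ℤ L := ZLattice.module_finite ℝ L
  have : Countable L := by infer_instance
  set F := ZSpan.fundamentalDomain (b.ofZLatticeBasis ℝ) with hFdef
  have hF : IsAddFundamentalDomain L F μ := ZLattice.isAddFundamentalDomain b μ
  have hFb : Bornology.IsBounded F := ZSpan.fundamentalDomain_isBounded _
  have hDF : ∀ y ∈ F, ‖y‖ ≤ D := by
    intro y hy
    have h1 := ZSpan.norm_fract_le (K := ℝ) (b.ofZLatticeBasis ℝ) y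
    rw [(ZSpan.fract_eq_self).mpr hy] at h1
    refine h1.trans (le_trans (le_of_eq ?_) hD)
    refine Finset.sum_congr rfl fun i _ => ?_
    rw [Basis.ofZLatticeBasis_apply]
  have hcov : ZLattice.covolume L μ = μ.real F :=
    ZLattice.covolume_eq_measure_fundamentalDomain L μ hF
  have hpos : 0 < ZLattice.covolume L μ := ZLattice.covolume_pos L μ
  have hFm : MeasurableSet F := ZSpan.fundamentalDomain_measurableSet _
  have hFfin : μ F < ⊤ := hFb.measure_lt_top
  set v := ZLattice.covolume L μ with hv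
  have hI := EXT.LatticeSum.hasSum_integral_fundamentalDomain L μ hF g hg
  have hIG := EXT.LatticeSum.hasSum_integral_fundamentalDomain L μ hF G hG
  -- the key termwise estimate
  have key : ∀ l : L, |g l - v⁻¹ * ∫ y in F, g ((l : E) + y) ∂μ| ≤
      v⁻¹ * ∫ y in F, G ((l : E) + y) ∂μ := by
    intro l
    have hint : IntegrableOn (fun y => g ((l : E) + y)) F μ :=
      (hg.comp_add_left (l : E)).integrableOn
    have hintG : IntegrableOn (fun y => G ((l : E) + y)) F μ :=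
      (hG.comp_add_left (l : E)).integrableOn
    have hconst : IntegrableOn (fun _ : E => g l) F μ := by
      exact integrableOn_const hFfin.ne
    have e1 : g l - v⁻¹ * ∫ y in F, g ((l : E) + y) ∂μ =
        v⁻¹ * ∫ y in F, (g l - g ((l : E) + y)) ∂μ := by
      rw [integral_sub hconst hint, setIntegral_const, smul_eq_mul, ← hcov]
      field_simp
    have e2 : |∫ y in F, (g l - g ((l : E) + y)) ∂μ| ≤
        ∫ y in F, G ((l : E) + y) ∂μ := by
      refine (abs_integral_le_integral_abs).trans ?_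
      refine setIntegral_mono_on (hconst.sub hint).abs hintG hFm ?_
      intro y hy
      refine h _ _ ?_
      rw [sub_add_cancel_left, norm_neg]
      exact hDF y hy
    rw [e1, abs_mul, abs_of_pos (inv_pos.mpr hpos)]
    exact mul_le_mul_of_nonneg_left e2 (inv_pos.mpr hpos).le
  have hS' : Summable fun l : L => v⁻¹ * ∫ y in F, G ((l : E) + y) ∂μ :=
    hIG.summable.mul_left v⁻¹
  have hsumdiff : Summable fun l : L => g l - v⁻¹ * ∫ y in F, g ((l : E) + y) ∂μ :=
    Summable.of_norm_bounded hS' key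
  have hsum : Summable fun l : L => g l := by
    have := hsumdiff.add (hI.summable.mul_left v⁻¹)
    refine this.congr fun l => ?_
    ring
  refine ⟨hsum, ?_⟩
  have e3 : ∑' l : L, g l - v⁻¹ * ∫ x, g x ∂μ =
      ∑' l : L, (g l - v⁻¹ * ∫ y in F, g ((l : E) + y) ∂μ) := by
    rw [Summable.tsum_sub hsum (hI.summable.mul_left v⁻¹), tsum_mul_left, hI.tsum_eq]
  rw [e3]
  calc |∑' l : L, (g l - v⁻¹ * ∫ y in F, g ((l : E) + y) ∂μ)|
      ≤ ∑' l : L, |g l - v⁻¹ * ∫ y in F, g ((l : E) + y) ∂μ| := by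
        have := norm_tsum_le_tsum_norm (hsumdiff.norm)
        simpa using this
    _ ≤ ∑' l : L, v⁻¹ * ∫ y in F, G ((l : E) + y) ∂μ :=
        Summable.tsum_le_tsum key hsumdiff.abs hS'
    _ = v⁻¹ * ∫ x, G x ∂μ := by
        rw [tsum_mul_left, hIG.tsum_eq]

end general

open scoped Classical

open Eis

variable (K : Type*) [Field K] [NumberField K]

/-- norm of a product by a field element -/
lemma norm_mixedEmbedding_mul_le {β : K} {a : ℝ} (ha : ∀ w : InfinitePlace K, w β ≤ a)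
    (x : mixedSpace K) : ‖mixedEmbedding K β * x‖ ≤ a * ‖x‖ := by
  refine EXT.ConeFunction.norm_le_of_forall_normAtPlace_le K fun w => ?_
  rw [_root_.map_mul, normAtPlace_apply]
  have h1 := EXT.ConeFunction.normAtPlace_le_norm K w x
  exact mul_le_mul (ha w) h1 (normAtPlace_nonneg _ _) ((apply_nonneg w β).trans (ha w))

/-- multiplication by `β` as a map between ideal lattices -/
noncomputable def mulLat (J : (FractionalIdeal (𝓞 K)⁰ K)ˣ) (β : Kˣ) :
    mixedEmbedding.idealLattice K J ≃ₗ[ℤ]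
      mixedEmbedding.idealLattice K (toPrincipalIdeal (𝓞 K) K β * J) :=
  LinearEquiv.ofBijective
    ((LinearMap.mulLeft ℤ (mixedEmbedding K (β : K))).restrict (by
      intro x hx
      obtain ⟨y, hy, rfl⟩ := (mem_idealLattice K _).mp hx
      refine (mem_idealLattice K _).mpr ⟨(β : K) * y, mem_toPrincipalIdeal_mul.mpr hy, ?_⟩
      rw [_root_.map_mul]; rfl)) (by
    constructor
    · intro x y hxy
      apply Subtype.ext
      have h1 := congrArg Subtype.val hxy
      have h2 : mixedEmbedding K (β : K) * (x : mixedSpace K) =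
        mixedEmbedding K (β : K) * (y : mixedSpace K) := h1
      have h3 : mixedEmbedding K ((β⁻¹ : Kˣ) : K) * mixedEmbedding K (β : K) = 1 := by
        rw [← _root_.map_mul, Units.inv_mul, _root_.map_one]
      have h4 := congrArg (fun z => mixedEmbedding K ((β⁻¹ : Kˣ) : K) * z) h2
      simp only [← mul_assoc, h3, one_mul] at h4
      exact h4
    · rintro ⟨x, hx⟩
      obtain ⟨y, hy, rfl⟩ := (mem_idealLattice K _).mp hx
      have hy2 : (β : K) * (((β⁻¹ : Kˣ) : K) * y) = y := by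
        rw [← mul_assoc, Units.mul_inv, one_mul]
      refine ⟨⟨mixedEmbedding K (((β⁻¹ : Kˣ) : K) * y), (mem_idealLattice K _).mpr ⟨_, ?_, rfl⟩⟩, ?_⟩
      · have h5 : y ∈ ((toPrincipalIdeal (𝓞 K) K β * J : (FractionalIdeal (𝓞 K)⁰ K)ˣ) :
          FractionalIdeal (𝓞 K)⁰ K) := hy
        rw [← hy2] at h5
        exact mem_toPrincipalIdeal_mul.mp h5
      · apply Subtype.ext
        show mixedEmbedding K (β : K) * mixedEmbedding K (((β⁻¹ : Kˣ) : K) * y) = _
        rw [← _root_.map_mul, hy2])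

lemma mulLat_coe (J : (FractionalIdeal (𝓞 K)⁰ K)ˣ) (β : Kˣ)
    (x : mixedEmbedding.idealLattice K J) :
    (mulLat K J β x : mixedSpace K) = mixedEmbedding K (β : K) * x := rfl

theorem exists_balanced_basis : ∃ D : ℝ, 0 < D ∧ ∀ J : (FractionalIdeal (𝓞 K)⁰ K)ˣ,
    ∃ b : Basis (Free.ChooseBasisIndex ℤ (mixedEmbedding.idealLattice K
        (1 : (FractionalIdeal (𝓞 K)⁰ K)ˣ))) ℤ (mixedEmbedding.idealLattice K J),
      ∑ i, ‖(b i : mixedSpace K)‖ ≤ D * fN J ^ ((finrank ℚ K : ℝ)⁻¹) := by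
  obtain ⟨S, hS⟩ := exists_class_reps K
  obtain ⟨c, hc0, hc1, hbal⟩ := exists_unit_balance K
  set n : ℝ := (finrank ℚ K : ℝ) with hn
  have hn0 : 0 < n := by rw [hn]; exact_mod_cast finrank_pos
  -- bases of all lattices
  have hb : ∀ J : (FractionalIdeal (𝓞 K)⁰ K)ˣ, Nonempty (Basis (Free.ChooseBasisIndex ℤ
      (mixedEmbedding.idealLattice K (1 : (FractionalIdeal (𝓞 K)⁰ K)ˣ))) ℤ
      (mixedEmbedding.idealLattice K J)) := by
    intro J
    have h1 : Module.Free ℤ (mixedEmbedding.idealLattice K J) :=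
      ZLattice.module_free ℝ _
    have h2 : Module.Finite ℤ (mixedEmbedding.idealLattice K J) :=
      ZLattice.module_finite ℝ _
    have h3 : Module.Free ℤ (mixedEmbedding.idealLattice K (1 : (FractionalIdeal (𝓞 K)⁰ K)ˣ)) :=
      ZLattice.module_free ℝ _
    have h4 : Module.Finite ℤ (mixedEmbedding.idealLattice K (1 : (FractionalIdeal (𝓞 K)⁰ K)ˣ)) :=
      ZLattice.module_finite ℝ _
    have e1 : finrank ℤ (mixedEmbedding.idealLattice K J) =
        finrank ℤ (mixedEmbedding.idealLattice K (1 : (FractionalIdeal (𝓞 K)⁰ K)ˣ)) := by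
      rw [ZLattice.rank ℝ, ZLattice.rank ℝ]
    have e2 : mixedEmbedding.idealLattice K J ≃ₗ[ℤ]
        mixedEmbedding.idealLattice K (1 : (FractionalIdeal (𝓞 K)⁰ K)ˣ) :=
      LinearEquiv.ofFinrankEq _ _ e1
    exact ⟨(Free.chooseBasis ℤ _).map e2.symm⟩
  let bJ := fun J => (hb J).some
  set D : ℝ := ∑ J ∈ S, c⁻¹ * (fN J ^ n⁻¹)⁻¹ * ∑ i, ‖(bJ J i : mixedSpace K)‖ + 1 with hD
  have hterm : ∀ J : (FractionalIdeal (𝓞 K)⁰ K)ˣ,
      0 ≤ c⁻¹ * (fN J ^ n⁻¹)⁻¹ * ∑ i, ‖(bJ J i : mixedSpace K)‖ := by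
    intro J
    have := fN_pos J
    positivity
  refine ⟨D, by
    have := Finset.sum_nonneg fun J (_ : J ∈ S) => hterm J
    linarith, fun J => ?_⟩
  obtain ⟨J', hJ', x, hx⟩ := hS J
  obtain ⟨u, hu⟩ := hbal (fun w => w (x : K)) (fun w => pos_iff.mpr x.ne_zero)
  rw [prod_eq_abs_norm] at hu
  set uK : Kˣ := Units.map (algebraMap (𝓞 K) K).toMonoidHom u with huK
  have hu1 : toPrincipalIdeal (𝓞 K) K uK = 1 := by
    rw [toPrincipalIdeal_eq_iff]
    apply le_antisymm
    · rw [FractionalIdeal.spanSingleton_le_iff_mem, Units.val_one]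
      exact (FractionalIdeal.mem_one_iff (𝓞 K)⁰).mpr ⟨(u : 𝓞 K), rfl⟩
    · rw [Units.val_one, FractionalIdeal.one_le, FractionalIdeal.mem_spanSingleton]
      refine ⟨((u⁻¹ : (𝓞 K)ˣ) : 𝓞 K), ?_⟩
      rw [Algebra.smul_def]
      have : algebraMap (𝓞 K) K (((u⁻¹ : (𝓞 K)ˣ) : 𝓞 K) * (u : 𝓞 K)) = 1 := by simp
      rw [_root_.map_mul] at this
      exact this
  set β : Kˣ := (uK * x)⁻¹ with hβ
  have hJ : toPrincipalIdeal (𝓞 K) K β * J' = J := by
    rw [hβ, _root_.map_inv, _root_.map_mul, hu1, one_mul, hx, inv_mul_cancel_left]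
  have hNx : (|(Algebra.norm ℚ (x : K) : ℚ)| : ℝ) * fN J = fN J' := by
    rw [hx, fN_mul, fN_toPrincipalIdeal]
  have hJ0 := fN_pos J
  have hJ'0 := fN_pos J'
  set N : ℝ := (|(Algebra.norm ℚ (x : K) : ℚ)| : ℝ) with hN
  have hN0 : 0 < N := by
    have h1 : 0 < N * fN J := by rw [hNx]; exact hJ'0
    exact pos_of_mul_pos_left h1 hJ0.le
  have hNq : ((|Algebra.norm ℚ (x : K)| : ℚ) : ℝ) = N := by
    rw [hN]; push_cast; rfl
  rw [hNq] at hu
  have hβw : ∀ w : InfinitePlace K, w (β : K) ≤ c⁻¹ * (N ^ n⁻¹)⁻¹ := by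
    intro w
    have h1 := hu w
    have h2 : (β : K) = ((u : K) * (x : K))⁻¹ := by
      rw [hβ, Units.val_inv_eq_inv_val]; rfl
    rw [h2, map_inv₀, _root_.map_mul, ← mul_inv]
    exact inv_anti₀ (by positivity) h1
  subst hJ
  refine ⟨(bJ J').map (mulLat K J' β), ?_⟩
  have hfJ : fN (toPrincipalIdeal (𝓞 K) K β * J') ^ n⁻¹ = (N ^ n⁻¹)⁻¹ * fN J' ^ n⁻¹ := by
    rw [← hNx, Real.mul_rpow hN0.le hJ0.le, inv_mul_cancel_left₀ (by positivity)]
  rw [hfJ]
  calc ∑ i, ‖(((bJ J').map (mulLat K J' β)) i : mixedSpace K)‖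
      ≤ ∑ i, c⁻¹ * (N ^ n⁻¹)⁻¹ * ‖(bJ J' i : mixedSpace K)‖ := by
        refine Finset.sum_le_sum fun i _ => ?_
        rw [Basis.map_apply, mulLat_coe]
        exact norm_mixedEmbedding_mul_le K hβw _
    _ = (c⁻¹ * (fN J' ^ n⁻¹)⁻¹ * ∑ i, ‖(bJ J' i : mixedSpace K)‖) *
        ((N ^ n⁻¹)⁻¹ * fN J' ^ n⁻¹) := by
        rw [← Finset.mul_sum]
        have : fN J' ^ n⁻¹ ≠ 0 := by positivity
        field_simp
    _ ≤ D * ((N ^ n⁻¹)⁻¹ * fN J' ^ n⁻¹) := by
        refine mul_le_mul_of_nonneg_right ?_ (by positivity)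
        have := Finset.single_le_sum (f := fun J => c⁻¹ * (fN J ^ n⁻¹)⁻¹ *
          ∑ i, ‖(bJ J i : mixedSpace K)‖) (fun J _ => hterm J) hJ'
        linarith

end Fermat.Agent.LT.H.LatG
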