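import Mathlib
import Fermat.Agent.EXT.ConeSum
import Fermat.Agent.LT.H.LatG

/-!
# The cone function for exponents up to `4`, and its sums over cosets of fractional ideals
-/

set_option autoImplicit false
set_option linter.unusedSectionVars false

open NumberField NumberField.mixedEmbedding NumberField.InfinitePlace NumberField.Units
  NumberField.Units.dirichletUnitTheorem Module MeasureTheory nonZeroDivisors

noncomputable section

namespace Fermat.Agent.LT.H.ConeM

open EXT.ConeWeight EXT.ConeFunction EXT.ConeSum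

open scoped Classical

variable (K : Type*) [Field K] [NumberField K]

lemma exists_lipschitz4_aux {c : ℝ} (hc0 : 0 < c) (hc1 : c ≤ 1)
    (hc : ∀ x : mixedSpace K, mixedEmbedding.norm x ≠ 0 → coneWeight K x ≠ 0 →
      ∀ w, c * ‖x‖ ≤ normAtPlace w x) (D : ℝ) (hD : 0 ≤ D) :
    ∃ R C : ℝ, 1 ≤ R ∧ D ≤ R ∧ 0 ≤ C ∧ ∀ s : ℝ, 1 ≤ s → s ≤ 4 → ∀ x y : mixedSpace K,
      R ≤ ‖x‖ → ‖y‖ ≤ D → mixedEmbedding.norm x ≠ 0 → coneWeight K x ≠ 0 →
      |coneFun K s (x + y) - coneFun K s x| ≤ C / ‖x‖ ^ (finrank ℚ K + 1) := by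
  obtain ⟨M, hM0, hM⟩ := exists_coord_bound K
  set n := finrank ℚ K with hn
  have hn1 : (1 : ℝ) ≤ n := by exact_mod_cast Nat.one_le_iff_ne_zero.mpr finrank_pos.ne'
  set r := rank K with hr
  refine ⟨(1 + 8 * n * D) / c, (12 * r * M + 8 * n) * (2 * D) / c ^ (n + 1), ?_, ?_, by positivity,
    ?_⟩
  · rw [le_div_iff₀ hc0, one_mul]
    nlinarith [mul_nonneg (by linarith : (0 : ℝ) ≤ n) hD]
  · rw [le_div_iff₀ hc0]
    nlinarith [mul_nonneg (by linarith : (0 : ℝ) ≤ (n : ℝ) - 1) hD]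
  intro s hs1 hs2 x y hxR hyD hx hw
  have hcx : 1 + 8 * n * D ≤ c * ‖x‖ := by
    rw [div_le_iff₀ hc0] at hxR
    linarith
  have hnD : D ≤ n * D := le_mul_of_one_le_left hD hn1
  have hcx0 : 0 < c * ‖x‖ := by nlinarith
  have hxpos : 0 < ‖x‖ := pos_of_mul_pos_right hcx0 hc0.le
  set m := c * ‖x‖ / 2 with hm
  have hm0 : 0 < m := by positivity
  have hDm : D ≤ m := by
    rw [hm]; linarith
  have hxw : ∀ w, c * ‖x‖ ≤ normAtPlace w x := hc x hx hw
  have hxm : ∀ w, m ≤ normAtPlace w x := fun w => (by rw [hm]; linarith [hxw w])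
  have hx'm : ∀ w, m ≤ normAtPlace w (x + y) := fun w => by
    have h1 := (abs_le.mp (abs_normAtPlace_add_sub_le K w x y)).1
    have h2 := hxw w
    rw [hm] at hDm ⊢
    linarith
  set δ := D / m with hδ
  have hδ0 : 0 ≤ δ := div_nonneg hD hm0.le
  have hlogw : ∀ w, |Real.log (normAtPlace w (x + y)) - Real.log (normAtPlace w x)| ≤ δ :=
    fun w => abs_log_sub_log_le hm0 (hx'm w) (hxm w)
      ((abs_normAtPlace_add_sub_le K w x y).trans hyD)
  have hx' : mixedEmbedding.norm (x + y) ≠ 0 :=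
    (mixedEmbedding.norm_ne_zero_iff).mpr fun w => (hm0.trans_le (hx'm w)).ne'
  have hNpos : 0 < mixedEmbedding.norm x := lt_of_le_of_ne (mixedEmbedding.norm_nonneg _) hx.symm
  have hN'pos : 0 < mixedEmbedding.norm (x + y) :=
    lt_of_le_of_ne (mixedEmbedding.norm_nonneg _) hx'.symm
  set u := Real.log (mixedEmbedding.norm (x + y)) - Real.log (mixedEmbedding.norm x) with hu
  have hsumm : ∑ w : InfinitePlace K, (mult w : ℝ) = (n : ℝ) := by
    exact_mod_cast sum_mult_eq (K := K)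
  have hu_le : |u| ≤ n * δ := by
    rw [hu, log_norm_eq K hx', log_norm_eq K hx, ← Finset.sum_sub_distrib]
    refine (Finset.abs_sum_le_sum_abs _ _).trans ?_
    rw [← hsumm, Finset.sum_mul]
    refine Finset.sum_le_sum fun w _ => ?_
    rw [← mul_sub, abs_mul, abs_of_nonneg (show (0 : ℝ) ≤ (mult w : ℝ) from Nat.cast_nonneg _)]
    exact mul_le_mul_of_nonneg_left (hlogw w) (Nat.cast_nonneg _)
  have hlm : ‖logMap (x + y) - logMap x‖ ≤ 4 * δ := by
    rw [pi_norm_le_iff_of_nonneg (by positivity)]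
    intro w
    have e : (logMap (x + y) - logMap x) w = (mult w.1 : ℝ) *
        ((Real.log (normAtPlace w.1 (x + y)) - Real.log (normAtPlace w.1 x)) - u * (n : ℝ)⁻¹) := by
      rw [Pi.sub_apply, logMap_apply, logMap_apply, hu]
      ring
    rw [e, norm_mul, Real.norm_eq_abs, Real.norm_eq_abs,
      abs_of_nonneg (show (0 : ℝ) ≤ (mult w.1 : ℝ) from Nat.cast_nonneg _)]
    have h1 : |(Real.log (normAtPlace w.1 (x + y)) - Real.log (normAtPlace w.1 x)) -
        u * (n : ℝ)⁻¹| ≤ δ + δ := by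
      refine (abs_sub _ _).trans (add_le_add (hlogw w.1) ?_)
      rw [abs_mul, abs_of_nonneg (by positivity : (0 : ℝ) ≤ (n : ℝ)⁻¹)]
      rw [← div_eq_mul_inv, div_le_iff₀ (by linarith)]
      linarith
    have h2 : (mult w.1 : ℝ) ≤ 2 := by
      have : mult w.1 ≤ 2 := by unfold InfinitePlace.mult; split_ifs <;> norm_num
      exact_mod_cast this
    calc (mult w.1 : ℝ) * _ ≤ 2 * (δ + δ) := mul_le_mul h2 h1 (abs_nonneg _) (by norm_num)
      _ = 4 * δ := by ring
  have hW : |coneWeight K (x + y) - coneWeight K x| ≤ 4 * r * M * δ := by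
    unfold coneWeight
    refine (abs_prod_tent_sub_le _ _ _).trans ?_
    calc ∑ i, |logCoord K (x + y) i - logCoord K x i|
        ≤ ∑ _i : Fin (rank K), M * (4 * δ) :=
          Finset.sum_le_sum fun i _ => (hM _ _ i).trans (mul_le_mul_of_nonneg_left hlm hM0)
      _ = 4 * r * M * δ := by
          rw [Finset.sum_const, Finset.card_univ, Fintype.card_fin, nsmul_eq_mul]
          ring
  have hsu : |(-s) * u| ≤ 1 := by
    rw [abs_mul, abs_neg, abs_of_nonneg (by linarith : (0 : ℝ) ≤ s)]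
    calc s * |u| ≤ 4 * (n * δ) := mul_le_mul hs2 hu_le (abs_nonneg _) (by norm_num)
      _ = 8 * n * D / (c * ‖x‖) := by rw [hδ, hm]; field_simp; ring
      _ ≤ 1 := by
          rw [div_le_one hcx0]; linarith
  have hE : mixedEmbedding.norm (x + y) ^ (-s) =
      mixedEmbedding.norm x ^ (-s) * Real.exp ((-s) * u) := by
    rw [Real.rpow_def_of_pos hN'pos, Real.rpow_def_of_pos hNpos, ← Real.exp_add, hu]
    congr 1
    ring
  have hE3 : Real.exp ((-s) * u) ≤ 3 := by
    calc Real.exp ((-s) * u) ≤ Real.exp 1 := Real.exp_le_exp.mpr ((le_abs_self _).trans hsu)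
      _ ≤ 3 := by linarith [Real.exp_one_lt_d9]
  have hNs : mixedEmbedding.norm x ^ (-s) ≤ ((c * ‖x‖) ^ n)⁻¹ := by
    have h1 : (c * ‖x‖) ^ n ≤ mixedEmbedding.norm x := pow_le_norm_of_forall K hcx0.le hxw
    have h2 : (1 : ℝ) ≤ (c * ‖x‖) ^ n := one_le_pow₀ (by nlinarith)
    calc mixedEmbedding.norm x ^ (-s) ≤ mixedEmbedding.norm x ^ (-1 : ℝ) :=
          Real.rpow_le_rpow_of_exponent_le (h2.trans h1) (by linarith)
      _ = (mixedEmbedding.norm x)⁻¹ := Real.rpow_neg_one _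
      _ ≤ ((c * ‖x‖) ^ n)⁻¹ := inv_anti₀ (by linarith) h1
  have hNs0 : 0 ≤ mixedEmbedding.norm x ^ (-s) := Real.rpow_nonneg hNpos.le _
  have hmain : |coneFun K s (x + y) - coneFun K s x| ≤
      mixedEmbedding.norm x ^ (-s) * (12 * r * M * δ + 8 * n * δ) := by
    unfold coneFun
    rw [hE]
    have e : coneWeight K (x + y) * (mixedEmbedding.norm x ^ (-s) * Real.exp ((-s) * u)) -
        coneWeight K x * mixedEmbedding.norm x ^ (-s) =
        mixedEmbedding.norm x ^ (-s) * ((coneWeight K (x + y) - coneWeight K x) *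
          Real.exp ((-s) * u) + coneWeight K x * (Real.exp ((-s) * u) - 1)) := by ring
    rw [e, abs_mul, abs_of_nonneg hNs0]
    refine mul_le_mul_of_nonneg_left ((abs_add_le _ _).trans (add_le_add ?_ ?_)) hNs0
    · rw [abs_mul, abs_of_nonneg (Real.exp_pos _).le]
      calc |coneWeight K (x + y) - coneWeight K x| * Real.exp ((-s) * u)
          ≤ (4 * r * M * δ) * 3 := mul_le_mul hW hE3 (Real.exp_pos _).le (by positivity)
        _ = 12 * r * M * δ := by ring
    · rw [abs_mul, abs_of_nonneg (coneWeight_nonneg K x)]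
      calc coneWeight K x * |Real.exp ((-s) * u) - 1|
          ≤ 1 * (2 * |(-s) * u|) := mul_le_mul (coneWeight_le_one K x)
            (Real.abs_exp_sub_one_le hsu) (abs_nonneg _) zero_le_one
        _ ≤ 8 * n * δ := by
          rw [one_mul, abs_mul, abs_neg, abs_of_nonneg (by linarith : (0 : ℝ) ≤ s)]
          have : s * |u| ≤ 4 * (n * δ) := mul_le_mul hs2 hu_le (abs_nonneg _) (by norm_num)
          linarith
  refine hmain.trans ?_
  calc mixedEmbedding.norm x ^ (-s) * (12 * r * M * δ + 8 * n * δ)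
      ≤ ((c * ‖x‖) ^ n)⁻¹ * (12 * r * M * δ + 8 * n * δ) :=
        mul_le_mul_of_nonneg_right hNs (by positivity)
    _ = (12 * r * M + 8 * n) * (2 * D) / c ^ (n + 1) / ‖x‖ ^ (n + 1) := by
        rw [hδ, hm]
        field_simp
        ring

lemma exists_lipschitz4 (D : ℝ) (hD : 0 ≤ D) :
    ∃ R C : ℝ, 1 ≤ R ∧ D ≤ R ∧ 0 ≤ C ∧ ∀ s : ℝ, 1 ≤ s → s ≤ 4 → ∀ x y : mixedSpace K,
      R ≤ ‖x‖ → ‖y‖ ≤ D →
      |coneFun K s (x + y) - coneFun K s x| ≤ C / ‖x‖ ^ (finrank ℚ K + 1) := by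
  obtain ⟨c, hc0, hc1, hc⟩ := exists_cone_const K
  obtain ⟨R, C, hR1, hDR, hC0, h⟩ := exists_lipschitz4_aux K hc0 hc1 hc D hD
  set n := finrank ℚ K with hn
  refine ⟨2 * R, 2 ^ (n + 1) * C, by linarith, by linarith, by positivity, ?_⟩
  intro s hs1 hs2 x y hx hy
  have hxpos : 0 < ‖x‖ := by linarith
  have hpow : (1 : ℝ) ≤ 2 ^ (n + 1) := one_le_pow₀ (by norm_num)
  by_cases h1 : mixedEmbedding.norm x ≠ 0 ∧ coneWeight K x ≠ 0
  · refine (h s hs1 hs2 x y (by linarith) hy h1.1 h1.2).trans ?_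
    apply div_le_div_of_nonneg_right _ (by positivity)
    exact le_mul_of_one_le_left hC0 hpow
  · have hzero : ∀ z : mixedSpace K, ¬ (mixedEmbedding.norm z ≠ 0 ∧ coneWeight K z ≠ 0) →
        coneFun K s z = 0 := by
      intro z hz
      by_cases hz1 : mixedEmbedding.norm z = 0
      · exact coneFun_of_norm_eq_zero K (by linarith) hz1
      · refine coneFun_of_coneWeight_eq_zero K s ?_
        by_contra hz2
        exact hz ⟨hz1, hz2⟩
    by_cases h2 : mixedEmbedding.norm (x + y) ≠ 0 ∧ coneWeight K (x + y) ≠ 0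
    · have h3 : ‖x‖ / 2 ≤ ‖x + y‖ := by
        have := norm_sub_le (x + y) y
        rw [add_sub_cancel_right] at this
        linarith
      have h4 := h s hs1 hs2 (x + y) (-y) (by linarith) (by rwa [norm_neg]) h2.1 h2.2
      rw [add_neg_cancel_right, abs_sub_comm] at h4
      refine h4.trans ?_
      calc C / ‖x + y‖ ^ (n + 1) ≤ C / (‖x‖ / 2) ^ (n + 1) := by
            apply div_le_div_of_nonneg_left hC0 (by positivity)
            exact pow_le_pow_left₀ (by positivity) h3 _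
        _ = 2 ^ (n + 1) * C / ‖x‖ ^ (n + 1) := by
            rw [div_pow]; field_simp
    · rw [hzero x h1, hzero _ h2, sub_zero, abs_zero]
      positivity

/-- Uniform bound away from the origin. -/
lemma exists_coneFun_bound4 (ρ : ℝ) (hρ : 0 < ρ) : ∃ B : ℝ, 0 ≤ B ∧ ∀ s : ℝ, 1 ≤ s → s ≤ 4 →
    ∀ x : mixedSpace K, ρ ≤ ‖x‖ → coneFun K s x ≤ B := by
  obtain ⟨c, hc0, hc1, hc⟩ := exists_coneFun_le K
  set n := finrank ℚ K with hn
  refine ⟨max 1 ((((c * ρ) ^ n)⁻¹) ^ 4), le_max_of_le_left zero_le_one, ?_⟩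
  intro s hs1 hs2 x hx
  have hxpos : 0 < ‖x‖ := lt_of_lt_of_le hρ hx
  have hx0 : x ≠ 0 := norm_pos_iff.mp hxpos
  refine (hc s (by linarith) x hx0).trans ?_
  have hpos : 0 < (c * ρ) ^ n := by positivity
  have h1 : (c * ρ) ^ n ≤ (c * ‖x‖) ^ n :=
    pow_le_pow_left₀ (by positivity) (mul_le_mul_of_nonneg_left hx hc0.le) _
  calc ((c * ‖x‖) ^ n) ^ (-s) ≤ ((c * ρ) ^ n) ^ (-s) :=
        Real.rpow_le_rpow_of_nonpos hpos h1 (by linarith)
    _ = (((c * ρ) ^ n)⁻¹) ^ s := by rw [Real.rpow_neg hpos.le, Real.inv_rpow hpos.le]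
    _ ≤ max 1 ((((c * ρ) ^ n)⁻¹) ^ 4) := by
        rcases le_total 1 (((c * ρ) ^ n)⁻¹) with h | h
        · refine le_max_of_le_right ?_
          calc (((c * ρ) ^ n)⁻¹) ^ s ≤ (((c * ρ) ^ n)⁻¹) ^ (4 : ℝ) :=
                Real.rpow_le_rpow_of_exponent_le h hs2
            _ = _ := by norm_cast
        · refine le_max_of_le_left ?_
          exact Real.rpow_le_one (by positivity) h (by linarith)

lemma exists_integral_truncFun_sub_le4 (ρ₁ ρ₂ : ℝ) (h1 : 0 < ρ₁) (h2 : 0 < ρ₂) :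
    ∃ B : ℝ, ∀ s : ℝ, 1 < s → s ≤ 4 →
      |(∫ x : mixedSpace K, truncFun K s ρ₁ x) - ∫ x : mixedSpace K, truncFun K s ρ₂ x| ≤ B := by
  wlog h : ρ₁ ≤ ρ₂ generalizing ρ₁ ρ₂
  · obtain ⟨B, hB⟩ := this ρ₂ ρ₁ h2 h1 (le_of_not_ge h)
    exact ⟨B, fun s hs1 hs2 => by rw [abs_sub_comm]; exact hB s hs1 hs2⟩
  obtain ⟨B, hB0, hB⟩ := exists_coneFun_bound4 K ρ₁ h1
  refine ⟨B * (volume : Measure (mixedSpace K)).real (Metric.closedBall 0 ρ₂), ?_⟩
  intro s hs1 hs2
  rw [← integral_sub (integrable_truncFun K s ρ₁ hs1 h1) (integrable_truncFun K s ρ₂ hs1 h2)]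
  have hsupp : ∀ x : mixedSpace K, x ∉ Metric.closedBall (0 : mixedSpace K) ρ₂ →
      truncFun K s ρ₁ x - truncFun K s ρ₂ x = 0 := by
    intro x hx
    rw [mem_closedBall_zero_iff, not_le] at hx
    unfold truncFun
    rw [if_pos (h.trans hx.le), if_pos hx.le, sub_self]
  rw [← setIntegral_eq_integral_of_forall_compl_eq_zero hsupp, ← Real.norm_eq_abs]
  refine norm_setIntegral_le_of_norm_le_const
    (isCompact_closedBall (0 : mixedSpace K) ρ₂).measure_lt_top ?_
  intro x _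
  rw [Real.norm_eq_abs, abs_le]
  have h3 : ∀ ρ, ρ₁ ≤ ρ → truncFun K s ρ x ≤ B := by
    intro ρ hρ
    unfold truncFun
    split_ifs with hx
    · exact hB s hs1.le hs2 x (hρ.trans hx)
    · exact hB0
  constructor
  · linarith [truncFun_nonneg K s ρ₁ x, h3 ρ₂ h]
  · linarith [truncFun_nonneg K s ρ₂ x, h3 ρ₁ le_rfl]


/-- oscillation of the truncated function -/
lemma exists_trunc_osc (D : ℝ) (hD : 0 ≤ D) : ∃ R A : ℝ, 1 ≤ R ∧ 0 ≤ A ∧ ∀ s : ℝ, 1 < s → s ≤ 4 →
    ∀ x z : mixedSpace K, ‖x - z‖ ≤ D → |truncFun K s R x - truncFun K s R z| ≤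
      A * (1 + ‖z‖) ^ (-((finrank ℚ K : ℝ) + 1)) := by
  obtain ⟨R, C₁, hR1, hDR, hC₁, hlip⟩ := exists_lipschitz4 K D hD
  obtain ⟨B, hB0, hB⟩ := exists_coneFun_bound4 K R (by linarith)
  set n := finrank ℚ K with hn
  set A : ℝ := C₁ * 2 ^ (n + 1) + B * (1 + 2 * R) ^ (n + 1) with hA
  have hA0 : 0 ≤ A := by positivity
  refine ⟨R, A, hR1, by positivity, ?_⟩
  intro s hs1 hs2 x' x hy'
  obtain ⟨y, rfl⟩ : ∃ y, x' = x + y := ⟨x' - x, by abel⟩
  have hy : ‖y‖ ≤ D := by simpa using hy'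
  have e : (1 + ‖x‖) ^ (-((n : ℝ) + 1)) = ((1 + ‖x‖) ^ (n + 1))⁻¹ := by
    rw [Real.rpow_neg (by positivity)]
    congr 1
    rw [← Real.rpow_natCast]
    push_cast
    rfl
  rw [e, ← div_eq_mul_inv]
  have hp : 0 < (1 + ‖x‖) ^ (n + 1) := by positivity
  have htB : ∀ z : mixedSpace K, truncFun K s R z ≤ B := by
    intro z
    unfold truncFun
    split_ifs with hz
    · exact hB s hs1.le hs2 z hz
    · exact hB0
  by_cases hx : 2 * R ≤ ‖x‖
  · have h1 : R ≤ ‖x‖ := by linarith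
    have h2 : R ≤ ‖x + y‖ := by
      have := norm_sub_le (x + y) y
      rw [add_sub_cancel_right] at this
      linarith
    have h3 : |truncFun K s R (x + y) - truncFun K s R x| ≤ C₁ / ‖x‖ ^ (n + 1) := by
      unfold truncFun
      rw [if_pos h1, if_pos h2]
      exact hlip s hs1.le hs2 x y h1 hy
    refine h3.trans ?_
    have hxpos : 0 < ‖x‖ := by linarith
    rw [div_le_div_iff₀ (by positivity) hp]
    have h4 : (1 + ‖x‖) ^ (n + 1) ≤ 2 ^ (n + 1) * ‖x‖ ^ (n + 1) := by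
      rw [← mul_pow]
      exact pow_le_pow_left₀ (by positivity) (by linarith) _
    calc C₁ * (1 + ‖x‖) ^ (n + 1) ≤ C₁ * (2 ^ (n + 1) * ‖x‖ ^ (n + 1)) :=
          mul_le_mul_of_nonneg_left h4 hC₁
      _ = (C₁ * 2 ^ (n + 1)) * ‖x‖ ^ (n + 1) := by ring
      _ ≤ A * ‖x‖ ^ (n + 1) := by
          apply mul_le_mul_of_nonneg_right _ (by positivity)
          rw [hA]
          have : 0 ≤ B * (1 + 2 * R) ^ (n + 1) := by positivity
          linarith
  · rw [not_le] at hx
    have h3 : |truncFun K s R (x + y) - truncFun K s R x| ≤ B := by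
      rw [abs_le]
      constructor
      · linarith [truncFun_nonneg K s R (x + y), htB x]
      · linarith [truncFun_nonneg K s R x, htB (x + y)]
    refine h3.trans ?_
    rw [le_div_iff₀ hp]
    have h4 : (1 + ‖x‖) ^ (n + 1) ≤ (1 + 2 * R) ^ (n + 1) :=
      pow_le_pow_left₀ (by positivity) (by linarith) _
    calc B * (1 + ‖x‖) ^ (n + 1) ≤ B * (1 + 2 * R) ^ (n + 1) := mul_le_mul_of_nonneg_left h4 hB0
      _ ≤ A := by
          rw [hA]
          have : 0 ≤ C₁ * 2 ^ (n + 1) := by positivity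
          linarith

lemma bump_osc {E : Type*} [NormedAddCommGroup E] {D r : ℝ} (hD : 0 ≤ D) (hr : 0 ≤ r) (x z : E)
    (h : ‖x - z‖ ≤ D) : |(1 + ‖x‖) ^ (-r) - (1 + ‖z‖) ^ (-r)| ≤
      (1 + D) ^ r * (1 + ‖z‖) ^ (-r) := by
  have hx : 0 < 1 + ‖x‖ := by positivity
  have hz : 0 < 1 + ‖z‖ := by positivity
  have h1 : 1 + ‖z‖ ≤ (1 + D) * (1 + ‖x‖) := by
    have h2 : ‖z‖ ≤ ‖x‖ + D := by
      have := norm_sub_norm_le z x
      rw [norm_sub_rev] at this
      linarith
    nlinarith [mul_nonneg hD (norm_nonneg x)]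
  have h2 : (1 + ‖x‖) ^ (-r) ≤ (1 + D) ^ r * (1 + ‖z‖) ^ (-r) := by
    have h3 : (1 + ‖z‖) ^ r ≤ (1 + D) ^ r * (1 + ‖x‖) ^ r := by
      rw [← Real.mul_rpow (by positivity) hx.le]
      exact Real.rpow_le_rpow hz.le h1 hr
    rw [Real.rpow_neg hx.le, Real.rpow_neg hz.le, ← div_eq_mul_inv,
      le_div_iff₀ (Real.rpow_pos_of_pos hz _), inv_mul_le_iff₀ (Real.rpow_pos_of_pos hx _)]
    linarith
  have h3 : (1 + ‖z‖) ^ (-r) ≤ (1 + D) ^ r * (1 + ‖z‖) ^ (-r) := by
    refine le_mul_of_one_le_left (Real.rpow_nonneg hz.le _) ?_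
    exact Real.one_le_rpow (by linarith) hr
  have h4 : 0 ≤ (1 + ‖x‖) ^ (-r) := Real.rpow_nonneg hx.le _
  have h5 : 0 ≤ (1 + ‖z‖) ^ (-r) := Real.rpow_nonneg hz.le _
  rw [abs_le]
  constructor <;> linarith

/-- scaled and shifted integrals -/
lemma integral_scaled {g : mixedSpace K → ℝ} {a : ℝ} (ha : 0 < a) (c : mixedSpace K) :
    ∫ x, g (a⁻¹ • (x + c)) = a ^ finrank ℚ K * ∫ x, g x := by
  have hfr : finrank ℝ (mixedSpace K) = finrank ℚ K := mixedEmbedding.finrank K
  have h1 := integral_add_right_eq_self (μ := (volume : Measure (mixedSpace K)))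
    (fun x => g (a⁻¹ • x)) c
  rw [h1, Measure.integral_comp_smul, hfr, smul_eq_mul, inv_pow, inv_inv,
    abs_of_pos (by positivity)]

lemma integrable_scaled {g : mixedSpace K → ℝ} (hg : Integrable g) {a : ℝ} (ha : 0 < a)
    (c : mixedSpace K) : Integrable fun x => g (a⁻¹ • (x + c)) := by
  have h1 := hg.comp_smul (inv_ne_zero ha.ne')
  exact h1.comp_add_right c

/-- Uniform lattice sum for all (shifted) fractional ideals. -/
theorem exists_uniform_sum : ∃ D : ℝ, 0 ≤ D ∧ ∀ (J : (FractionalIdeal (𝓞 K)⁰ K)ˣ)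
    (c : mixedSpace K) (g G : mixedSpace K → ℝ), Integrable g → Integrable G →
    (∀ x z : mixedSpace K, ‖x - z‖ ≤ D → |g x - g z| ≤ G z) →
    (Summable fun l : mixedEmbedding.idealLattice K J =>
      g ((Eis.fN J ^ ((finrank ℚ K : ℝ)⁻¹))⁻¹ • ((l : mixedSpace K) + c))) ∧
    |∑' l : mixedEmbedding.idealLattice K J,
      g ((Eis.fN J ^ ((finrank ℚ K : ℝ)⁻¹))⁻¹ • ((l : mixedSpace K) + c)) -
        (EXT.PartialZeta.vK K)⁻¹ * ∫ x, g x| ≤ (EXT.PartialZeta.vK K)⁻¹ * ∫ x, G x := by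
  obtain ⟨D, hD0, hD⟩ := LatG.exists_balanced_basis K
  have hn0 : (finrank ℚ K : ℝ) ≠ 0 := by exact_mod_cast finrank_pos.ne'
  refine ⟨D, hD0.le, fun J c g G hg hG h => ?_⟩
  obtain ⟨b, hb⟩ := hD J
  have hN := Eis.fN_pos J
  set a : ℝ := Eis.fN J ^ ((finrank ℚ K : ℝ)⁻¹) with ha
  have ha0 : 0 < a := by positivity
  have han : a ^ finrank ℚ K = Eis.fN J := by
    rw [ha, ← Real.rpow_natCast, ← Real.rpow_mul hN.le, inv_mul_cancel₀ hn0, Real.rpow_one]
  have h1 := LatG.sum_sub_integral_G (mixedEmbedding.idealLattice K J)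
    (volume : Measure (mixedSpace K)) b (D * a) hb (fun x => g (a⁻¹ • (x + c)))
    (fun x => G (a⁻¹ • (x + c))) (integrable_scaled K hg ha0 c) (integrable_scaled K hG ha0 c) (by
      intro x z hxz
      refine h _ _ ?_
      rw [← smul_sub, add_sub_add_right_eq_sub, _root_.norm_smul, Real.norm_eq_abs,
        abs_of_pos (inv_pos.mpr ha0), inv_mul_le_iff₀ ha0, mul_comm]
      exact hxz)
  rw [integral_scaled K ha0, integral_scaled K ha0, han, Eis.covolume_eq] at h1
  have hv := EXT.PartialZeta.vK_pos K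
  have e : ∀ t : ℝ, (Eis.fN J * EXT.PartialZeta.vK K)⁻¹ * (Eis.fN J * t) =
      (EXT.PartialZeta.vK K)⁻¹ * t := by
    intro t; field_simp
  rw [e, e] at h1
  exact h1

/-- **Coset sums of the cone function**, uniformly in all fractional ideals. -/
theorem exists_coset_cone (δ : ℝ) (hδ : 0 < δ) : ∃ C : ℝ, 0 ≤ C ∧
    ∀ (J : (FractionalIdeal (𝓞 K)⁰ K)ˣ) (c : mixedSpace K),
      (∀ l ∈ mixedEmbedding.idealLattice K J, mixedEmbedding.norm (l + c) ≠ 0 →
        δ * Eis.fN J ≤ mixedEmbedding.norm (l + c)) →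
      ∀ s : ℝ, 1 < s → s ≤ 4 →
        (Summable fun l : mixedEmbedding.idealLattice K J =>
          coneFun K s ((l : mixedSpace K) + c)) ∧
        |Eis.fN J ^ s * ∑' l : mixedEmbedding.idealLattice K J,
            coneFun K s ((l : mixedSpace K) + c) -
          (EXT.PartialZeta.vK K)⁻¹ * ∫ x, truncFun K s 1 x| ≤ C := by
  obtain ⟨D, hD0, hU⟩ := exists_uniform_sum K
  obtain ⟨R, A, hR1, hA0, hosc⟩ := exists_trunc_osc K D hD0
  obtain ⟨B, hB⟩ := exists_integral_truncFun_sub_le4 K R 1 (by linarith) one_pos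
  have hfr : finrank ℝ (mixedSpace K) = finrank ℚ K := mixedEmbedding.finrank K
  set n := finrank ℚ K with hn
  have hn0 : (n : ℝ) ≠ 0 := by exact_mod_cast finrank_pos.ne'
  have hv := EXT.PartialZeta.vK_pos K
  set v := EXT.PartialZeta.vK K with hvd
  set r : ℝ := (n : ℝ) + 1 with hr
  have hr0 : 0 ≤ r := by positivity
  have hbump : Integrable fun x : mixedSpace K => (1 + ‖x‖) ^ (-r) :=
    integrable_one_add_norm (by rw [hfr, hr]; linarith)
  set I0 : ℝ := ∫ x : mixedSpace K, (1 + ‖x‖) ^ (-r) with hI0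
  have hI00 : 0 ≤ I0 := integral_nonneg fun x => by positivity
  set M : ℝ := 1 + (δ⁻¹) ^ 4 with hM
  have hM0 : 0 ≤ M := by positivity
  set C2 : ℝ := v⁻¹ * I0 + v⁻¹ * ((1 + D) ^ r * I0) with hC2
  have hC20 : 0 ≤ C2 := by positivity
  refine ⟨v⁻¹ * (A * I0) + M * (1 + R) ^ r * C2 + v⁻¹ * |B|, by positivity, ?_⟩
  intro J c hJ s hs1 hs4
  have hs0 : 0 < s := by linarith
  have hN := Eis.fN_pos J
  set N := Eis.fN J with hNd
  set a : ℝ := N ^ ((n : ℝ)⁻¹) with ha
  have ha0 : 0 < a := by positivity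
  have han : a ^ n = N := by
    rw [ha, ← Real.rpow_natCast, ← Real.rpow_mul hN.le, inv_mul_cancel₀ hn0, Real.rpow_one]
  -- the three sums
  obtain ⟨hS1, hE1⟩ := hU J c (truncFun K s R) (fun x => A * (1 + ‖x‖) ^ (-r))
    (integrable_truncFun K s R hs1 (by linarith)) (hbump.const_mul A)
    (fun x z hxz => hosc s hs1 hs4 x z hxz)
  obtain ⟨hS2, hE2⟩ := hU J c (fun x => (1 + ‖x‖) ^ (-r))
    (fun x => (1 + D) ^ r * (1 + ‖x‖) ^ (-r)) hbump (hbump.const_mul _)
    (fun x z hxz => bump_osc hD0 hr0 x z hxz)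
  rw [integral_const_mul, ← hI0] at hE1 hE2
  rw [← hNd, ← ha] at hS1 hE1 hS2 hE2
  have hscale : ∀ x : mixedSpace K, coneFun K s (a⁻¹ • x) = N ^ s * coneFun K s x := by
    intro x
    rw [coneFun_smul K hs0 (inv_pos.mpr ha0), ← hn, inv_pow, han, Real.inv_rpow hN.le,
      Real.rpow_neg hN.le, inv_inv]
  -- the small part
  set sm : mixedEmbedding.idealLattice K J → ℝ := fun l =>
    coneFun K s (a⁻¹ • ((l : mixedSpace K) + c)) - truncFun K s R (a⁻¹ • ((l : mixedSpace K) + c))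
    with hsm
  have hsm0 : ∀ l, 0 ≤ sm l := by
    intro l
    simp only [hsm]
    unfold truncFun
    split_ifs
    · simp
    · rw [sub_zero]; exact coneFun_nonneg K s _
  have hsm1 : ∀ l, sm l ≤ M * (1 + R) ^ r * (1 + ‖a⁻¹ • ((l : mixedSpace K) + c)‖) ^ (-r) := by
    intro l
    simp only [hsm]
    unfold truncFun
    set x := a⁻¹ • ((l : mixedSpace K) + c) with hx
    have hbp : 0 ≤ M * (1 + R) ^ r * (1 + ‖x‖) ^ (-r) := by positivity
    split_ifs with h1
    · rw [sub_self]; exact hbp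
    · rw [not_le] at h1
      rw [sub_zero]
      have h2 : coneFun K s x ≤ M := by
        by_cases h0 : mixedEmbedding.norm x = 0
        · rw [coneFun_of_norm_eq_zero K hs0 h0]; exact hM0
        · have h3 : mixedEmbedding.norm x = N⁻¹ * mixedEmbedding.norm ((l : mixedSpace K) + c) := by
            rw [hx, mixedEmbedding.norm_smul, abs_of_pos (inv_pos.mpr ha0), ← hn, inv_pow, han]
          have h4 : mixedEmbedding.norm ((l : mixedSpace K) + c) ≠ 0 := by
            intro h5; apply h0; rw [h3, h5, mul_zero]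
          have h5 := hJ l l.2 h4
          have h6 : δ ≤ mixedEmbedding.norm x := by
            rw [h3, le_inv_mul_iff₀ hN, mul_comm]; exact h5
          have h7 : mixedEmbedding.norm x ^ (-s) ≤ M := by
            have h8 : mixedEmbedding.norm x ^ (-s) ≤ δ ^ (-s) :=
              Real.rpow_le_rpow_of_nonpos hδ h6 (by linarith)
            refine h8.trans ?_
            rw [Real.rpow_neg hδ.le, ← Real.inv_rpow hδ.le, hM]
            rcases le_total 1 δ⁻¹ with h9 | h9
            · have h10 : δ⁻¹ ^ s ≤ δ⁻¹ ^ (4 : ℝ) := Real.rpow_le_rpow_of_exponent_le h9 hs4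
              have h11 : δ⁻¹ ^ (4 : ℝ) = δ⁻¹ ^ 4 := by norm_cast
              rw [h11] at h10
              linarith
            · have h10 : δ⁻¹ ^ s ≤ 1 := Real.rpow_le_one (by positivity) h9 hs0.le
              have : 0 ≤ δ⁻¹ ^ 4 := by positivity
              linarith
          unfold coneFun
          calc EXT.ConeWeight.coneWeight K x * mixedEmbedding.norm x ^ (-s) ≤ 1 * M :=
                mul_le_mul (coneWeight_le_one K x) h7
                  (Real.rpow_nonneg (mixedEmbedding.norm_nonneg _) _) zero_le_one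
            _ = M := one_mul _
      refine h2.trans ?_
      have h3 : 1 ≤ (1 + R) ^ r * (1 + ‖x‖) ^ (-r) := by
        rw [Real.rpow_neg (by positivity), ← div_eq_mul_inv,
          one_le_div (Real.rpow_pos_of_pos (by positivity) _)]
        exact Real.rpow_le_rpow (by positivity) (by linarith) hr0
      calc M = M * 1 := (mul_one _).symm
        _ ≤ M * ((1 + R) ^ r * (1 + ‖x‖) ^ (-r)) := mul_le_mul_of_nonneg_left h3 hM0
        _ = _ := by ring
  have hsmS : Summable sm :=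
    Summable.of_nonneg_of_le hsm0 hsm1 (hS2.mul_left (M * (1 + R) ^ r))
  have hbumple : ∑' l : mixedEmbedding.idealLattice K J,
      (1 + ‖a⁻¹ • ((l : mixedSpace K) + c)‖) ^ (-r) ≤ C2 := by
    have := (abs_le.mp hE2).2
    rw [hC2]; linarith
  have hsmle : ∑' l, sm l ≤ M * (1 + R) ^ r * C2 := by
    calc ∑' l, sm l ≤ ∑' l : mixedEmbedding.idealLattice K J,
          M * (1 + R) ^ r * (1 + ‖a⁻¹ • ((l : mixedSpace K) + c)‖) ^ (-r) :=
          Summable.tsum_le_tsum hsm1 hsmS (hS2.mul_left _)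
      _ = M * (1 + R) ^ r * ∑' l : mixedEmbedding.idealLattice K J,
          (1 + ‖a⁻¹ • ((l : mixedSpace K) + c)‖) ^ (-r) := tsum_mul_left
      _ ≤ _ := mul_le_mul_of_nonneg_left hbumple (by positivity)
  have hsmge : 0 ≤ ∑' l, sm l := tsum_nonneg hsm0
  -- total
  have hS3 : Summable fun l : mixedEmbedding.idealLattice K J =>
      coneFun K s (a⁻¹ • ((l : mixedSpace K) + c)) := by
    refine (hsmS.add hS1).congr fun l => ?_
    simp only [hsm]; ring
  have hS4 : Summable fun l : mixedEmbedding.idealLattice K J =>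
      coneFun K s ((l : mixedSpace K) + c) := by
    simp_rw [hscale] at hS3
    exact (summable_mul_left_iff (Real.rpow_pos_of_pos hN _).ne').mp hS3
  refine ⟨hS4, ?_⟩
  have e1 : N ^ s * ∑' l : mixedEmbedding.idealLattice K J,
      coneFun K s ((l : mixedSpace K) + c) = ∑' l : mixedEmbedding.idealLattice K J,
      coneFun K s (a⁻¹ • ((l : mixedSpace K) + c)) := by
    rw [← tsum_mul_left]
    exact tsum_congr fun l => (hscale _).symm
  have e2 : ∑' l : mixedEmbedding.idealLattice K J,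
      coneFun K s (a⁻¹ • ((l : mixedSpace K) + c)) = ∑' l, sm l +
      ∑' l : mixedEmbedding.idealLattice K J,
        truncFun K s R (a⁻¹ • ((l : mixedSpace K) + c)) := by
    rw [← Summable.tsum_add hsmS hS1]
    refine tsum_congr fun l => ?_
    simp only [hsm]; ring
  rw [e1, e2]
  have hB' := hB s hs1 hs4
  have hE3 : |v⁻¹ * (∫ x, truncFun K s R x) - v⁻¹ * (∫ x, truncFun K s 1 x)| ≤ v⁻¹ * |B| := by
    rw [← mul_sub, abs_mul, abs_of_pos (inv_pos.mpr hv)]
    exact mul_le_mul_of_nonneg_left (hB'.trans (le_abs_self _)) (inv_pos.mpr hv).le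
  rw [abs_le] at hE1 hE3 ⊢
  constructor <;> linarith [hE1.1, hE1.2, hE3.1, hE3.2]

/-- the main term of the coset sums -/
def mC (s : ℝ) : ℝ := (EXT.PartialZeta.vK K)⁻¹ * ∫ x, truncFun K s 1 x

lemma mC_nonneg (s : ℝ) : 0 ≤ mC K s :=
  mul_nonneg (inv_pos.mpr (EXT.PartialZeta.vK_pos K)).le
    (integral_nonneg fun x => truncFun_nonneg K s 1 x)

lemma exists_mC_le : ∃ B : ℝ, 0 < B ∧ ∀ s : ℝ, 1 < s → s ≤ 4 → mC K s ≤ B / (s - 1) := by
  obtain ⟨B, hB⟩ := exists_integral_truncFun_sub_le4 K 1 2 one_pos two_pos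
  have hv := EXT.PartialZeta.vK_pos K
  set n := finrank ℚ K with hn
  have hn0 : (0 : ℝ) < n := by exact_mod_cast finrank_pos
  have hl2 : 0 < Real.log 2 := Real.log_pos one_lt_two
  set k : ℝ := n * Real.log 2 with hk
  have hk0 : 0 < k := by positivity
  have hB0 : 0 ≤ B := (abs_nonneg _).trans (hB 2 one_lt_two (by norm_num))
  refine ⟨(EXT.PartialZeta.vK K)⁻¹ * ((B + 1) * (Real.exp (3 * k) / k)), by positivity, ?_⟩
  intro s hs1 hs4
  have hs0 : 0 < s - 1 := by linarith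
  have h1 := hB s hs1 hs4
  have h2 := integral_truncFun_scale K s 2 2 (by linarith) two_pos
  rw [div_self two_ne_zero, ← hn] at h2
  set I := ∫ x : mixedSpace K, truncFun K s 1 x with hI
  have hI0 : 0 ≤ I := integral_nonneg fun x => truncFun_nonneg K s 1 x
  have h3 : (2 : ℝ) ^ n * ((2 : ℝ) ^ n) ^ (-s) = Real.exp (-((s - 1) * k)) := by
    have h2n : (0 : ℝ) < 2 ^ n := by positivity
    have h4 : (2 : ℝ) ^ n = Real.exp k := by
      rw [hk, mul_comm, Real.exp_mul, Real.exp_log two_pos, Real.rpow_natCast]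
    rw [Real.rpow_def_of_pos h2n, h4, Real.log_exp, ← Real.exp_add]
    congr 1; ring
  rw [h3] at h2
  rw [h2] at h1
  set u : ℝ := (s - 1) * k with hu
  have hu0 : 0 < u := by positivity
  have hu3 : u ≤ 3 * k := by rw [hu]; nlinarith
  have h5 : u * Real.exp (-(3 * k)) ≤ 1 - Real.exp (-u) := by
    have h6 := Real.add_one_le_exp u
    have h7 : Real.exp (-u) * Real.exp u = 1 := by rw [← Real.exp_add]; simp
    have h8 : u * Real.exp (-u) ≤ 1 - Real.exp (-u) := by
      have := mul_le_mul_of_nonneg_left h6 (Real.exp_pos (-u)).le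
      rw [h7] at this
      nlinarith
    have h9 : Real.exp (-(3 * k)) ≤ Real.exp (-u) := Real.exp_le_exp.mpr (by linarith)
    exact (mul_le_mul_of_nonneg_left h9 hu0.le).trans h8
  have h6 : (1 - Real.exp (-u)) * I ≤ B := by
    have := (abs_le.mp h1).2
    linarith
  have h7 : u * Real.exp (-(3 * k)) * I ≤ B := (mul_le_mul_of_nonneg_right h5 hI0).trans h6
  have h8 : I ≤ (B + 1) * (Real.exp (3 * k) / k) / (s - 1) := by
    rw [le_div_iff₀ hs0]
    have h9 : I * (s - 1) = (u * Real.exp (-(3 * k)) * I) * (Real.exp (3 * k) / k) := by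
      have h10 : Real.exp (-(3 * k)) * Real.exp (3 * k) = 1 := by rw [← Real.exp_add]; simp
      have h11 : u * Real.exp (-(3 * k)) * I * (Real.exp (3 * k) / k) =
        u * I * (Real.exp (-(3 * k)) * Real.exp (3 * k)) / k := by ring
      rw [h11, h10, hu]
      field_simp
    rw [h9]
    exact mul_le_mul_of_nonneg_right (by linarith) (by positivity)
  unfold mC
  rw [← hI, mul_div_assoc]
  exact mul_le_mul_of_nonneg_left h8 (inv_pos.mpr hv).le

end Fermat.Agent.LT.H.ConeM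

end
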