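import Fermat.Agent.LT.H.Jk

/-!
# LT, piece H: combinatorics of the torus in `Y`
-/

set_option autoImplicit false
set_option linter.unusedSectionVars false

open NumberField IsDedekindDomain Matrix MeasureTheory Module Set
open scoped ComplexConjugate ENNReal Real

namespace Fermat.Agent.LT.H

open Fermat.LT Fermat.Agent.LT.I Fermat.Agent.LT.B
open Fermat.Agent.LT.CTree (unif lv av_unif)

variable {F : Type} [Field F] [NumberField F]

section a

variable {U : Level F}

theorem hY_dg (w : Pl F) (a : Fˣ) (z : Yl U w) : hY w e1 (dg a • z) = av w (a : F) * hY w e1 z := by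
  have h1 := hY_equiv w (dg a) (e1 : Fin 2 → F) z
  have h2 : (dg a).1.det = a := by simp [dg_val]
  have h3 : 0 < av w (a : F) := (av w).pos a.ne_zero
  rw [dg_mulVec_e1, hY_smul, h2] at h1
  have h4 : hY w e1 (dg a • z) = av w (a : F) ^ 2 * ((av w (a : F) ^ 2)⁻¹ * hY w e1 (dg a • z)) := by
    field_simp
  rw [h4, h1]
  field_simp

theorem hY_un (w : Pl F) (b : F) (z : Yl U w) : hY w e1 (un b • z) = hY w e1 z := by
  have h1 := hY_equiv w (un b) (e1 : Fin 2 → F) z
  have h2 : (un b).1.det = 1 := by simp [un_val]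
  rw [un_mulVec_e1, h2, map_one, inv_one, one_mul] at h1
  exact h1

theorem av_unif_zpow (w : Pl F) (k : ℤ) : av w ((unif w ^ k : Fˣ) : F) = qv w ^ (-k) := by
  rw [Units.val_zpow_eq_zpow_val, map_zpow₀, av_unif, _root_.inv_zpow, _root_.zpow_neg]

theorem hY_tg (w : Pl F) (k : Pl F →₀ ℤ) (y : Y U) :
    hY w e1 ((tg k • y) w) = qv w ^ (-k w) * hY w e1 (y w) := by
  rw [tg_smul_apply, hY_dg, av_unif_zpow]

/-- (a) the height of a torus translate -/
theorem hfin_tg (k : Pl F →₀ ℤ) (y : Y U) :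
    hfin e1 (tg k • y) = (∏ w ∈ k.support, qv w ^ (-k w)) * hfin e1 y := by
  have h1 : ∏ w ∈ k.support, qv w ^ (-k w) = ∏ᶠ w, qv w ^ (-k w) := by
    symm
    apply finprod_eq_prod_of_mulSupport_subset
    intro w hw
    by_contra hc
    apply hw
    rw [Finset.mem_coe, Finsupp.mem_support_iff, not_not] at hc
    simp only [hc, neg_zero, zpow_zero]
  rw [h1, hfin, hfin, ← finprod_mul_distrib _ (hY_finite e1_ne y)]
  · exact finprod_congr fun w => hY_tg w k y
  · refine k.hasFiniteSupport.subset fun w hw hk => hw ?_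
    simp only [hk, neg_zero, zpow_zero]

theorem hfin_un (b : F) (y : Y U) : hfin e1 (un b • y) = hfin e1 y := by
  rw [hfin, hfin]
  exact finprod_congr fun w => hY_un w b (y w)

/-- (b) the torus acts freely on `N(F) \ Y` -/
theorem tg_inj {y : Y U} {k l : Pl F →₀ ℤ} (h : ybk (tg k • y) = ybk (tg l • y)) : k = l := by
  obtain ⟨b, hb⟩ := ybk_eq_iff.mp h
  ext w
  have h1 : hY w e1 ((un b • tg k • y) w) = hY w e1 ((tg l • y) w) := by rw [hb]
  rw [G2_smul_apply, hY_un, hY_tg, hY_tg] at h1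
  have h2 := mul_right_cancel₀ (hY_pos w e1_ne (y w)).ne' h1
  have := zpow_right_injective₀ (qv_pos w) (one_lt_qv w).ne' h2
  simpa using this

/-- (c) -/
theorem phC_un (S : Set (Pl F)) (s : ℝ) (b : F) (y : Y U) : phC S s (un b • y) = phC S s y := by
  unfold phC
  have h2 : (∀ w ∈ S, InC w ((un b • y) w)) ↔ ∀ w ∈ S, InC w (y w) :=
    forall₂_congr fun w _ => by
      have := InC_smul_iff (w := w) (z := y w) 1 b
      rwa [H.dg_one, mul_one] at this
  rw [hfin_un]
  by_cases h : ∀ w ∈ S, InC w (y w)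
  · rw [if_pos h, if_pos (h2.mpr h)]
  · rw [if_neg h, if_neg (fun h' => h (h2.mp h'))]

theorem phC_ybk (S : Set (Pl F)) (s : ℝ) (y : Y U) : phC S s (yout (ybk y)) = phC S s y := by
  obtain ⟨b, hb⟩ := exists_un_yout y
  rw [← hb, phC_un]

theorem IsWY.enorm_un {A : Arch F} {a : Y U → ℂ} (h : IsWY A a) (b : F) (y : Y U) :
    ‖a (un b • y)‖ₑ = ‖a y‖ₑ := by
  rw [h, enorm_mul]
  have : ‖psF A b‖ₑ = 1 := by rw [← ofReal_norm, norm_psF, ENNReal.ofReal_one]
  rw [this, one_mul]

theorem IsWY.enorm_ybk {A : Arch F} {a : Y U → ℂ} (h : IsWY A a) (y : Y U) :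
    ‖a (yout (ybk y))‖ₑ = ‖a y‖ₑ := by
  obtain ⟨b, hb⟩ := exists_un_yout y
  rw [← hb, h.enorm_un]

end a

section c

variable {D : Datum F}

theorem covY_ybk (y : Y D.toLevel) : covY (ybk y) = volume (bx D.toArch (bY y)) := by
  obtain ⟨b, hb⟩ := exists_un_yout y
  rw [covY, ← hb, bY_un]

/-- covolumes of the ideal lattices -/
theorem vol_Jk {A : Arch F} (m : Pl F →₀ ℤ) : ∀ k : Pl F → ℤ, {w | k w ≠ 0}.Finite →
      volume (bx A (Jk (fun w => k w + m w))) =
        ENNReal.ofReal (∏ w ∈ m.support, qv w ^ (m w)) * volume (bx A (Jk k)) := by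
  classical
  have hprod : ∀ m : Pl F →₀ ℤ, ∏ w ∈ m.support, qv w ^ (m w) = m.prod fun w n => qv w ^ n :=
    fun m => rfl
  have hfin : ∀ (k : Pl F → ℤ) (m : Pl F →₀ ℤ), {w | k w ≠ 0}.Finite →
      {w | k w + m w ≠ 0}.Finite := by
    intro k m hk
    refine (hk.union m.hasFiniteSupport).subset fun w hw => ?_
    by_contra hc
    simp only [Set.mem_union, Set.mem_ofPred_eq, not_or, not_not, Function.mem_support] at hc
    exact hw (by rw [hc.1, hc.2, add_zero])
  have hpos : ∀ m : Pl F →₀ ℤ, 0 ≤ m.prod fun w n => qv w ^ n := fun m =>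
    Finset.prod_nonneg fun w _ => zpow_nonneg (qv_pos w).le _
  induction m using Finsupp.induction_linear with
  | zero =>
    intro k _
    simp
  | add f g hf hg =>
    intro k hk
    have h1 := hg (fun w => k w + f w) (hfin k f hk)
    have h2 := hf k hk
    have h3 : (fun w => k w + (f + g) w) = fun w => k w + f w + g w := by
      funext w; rw [Finsupp.add_apply, add_assoc]
    rw [h3, h1, h2, ← mul_assoc, ← ENNReal.ofReal_mul (by rw [hprod]; exact hpos g)]
    congr 2
    rw [hprod, hprod, hprod, Finsupp.prod_add_index', mul_comm]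
    · intro w; exact zpow_zero _
    · intro w a b; exact zpow_add₀ (qv_pos w).ne' a b
  | single w n =>
    have key : ∀ (n : ℤ) (k : Pl F → ℤ), {w | k w ≠ 0}.Finite →
        volume (bx A (Jk (fun v => k v + Finsupp.single w (n + 1) v))) =
          ENNReal.ofReal (qv w) * volume (bx A (Jk (fun v => k v + Finsupp.single w n v))) := by
      intro n k hk
      have h1 := volume_bx_update A (k := fun v => k v + Finsupp.single w n v) (hfin k _ hk) w
      rw [← h1]
      congr 3
      funext v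
      by_cases hv : v = w
      · subst hv
        rw [Function.update_self, Finsupp.single_eq_same, Finsupp.single_eq_same]
        ring
      · rw [Function.update_of_ne hv, Finsupp.single_eq_of_ne hv, Finsupp.single_eq_of_ne hv]
    intro k hk
    rw [hprod, Finsupp.prod_single_index (zpow_zero _)]
    have hq : ENNReal.ofReal (qv w) ≠ 0 := by
      rw [Ne, ENNReal.ofReal_eq_zero, not_le]; exact qv_pos w
    induction n using Int.induction_on with
    | zero => simp
    | succ n ih =>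
      rw [key _ _ hk, ih, ← mul_assoc, ← ENNReal.ofReal_mul (qv_pos w).le]
      congr 2
      rw [zpow_add₀ (qv_pos w).ne', zpow_one, mul_comm]
    | pred n ih =>
      have h1 := key (-(n : ℤ) - 1) k hk
      rw [sub_add_cancel, ih] at h1
      have h2 : ENNReal.ofReal (qv w ^ (-(n : ℤ))) =
          ENNReal.ofReal (qv w) * ENNReal.ofReal (qv w ^ (-(n : ℤ) - 1)) := by
        rw [← ENNReal.ofReal_mul (qv_pos w).le]
        congr 1
        rw [zpow_sub₀ (qv_pos w).ne', zpow_one]
        have := (qv_pos w).ne'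
        field_simp
      rw [h2, mul_assoc] at h1
      exact ((ENNReal.mul_right_inj hq ENNReal.ofReal_ne_top).mp h1).symm

theorem covY_tor {e : Pl F → ℕ} (hU : UnLev D.toLevel e) {y : Y D.toLevel} {k : Pl F → ℤ} (hy : IsTor e y k)
    (hk : {w | k w ≠ 0}.Finite) (m : Pl F →₀ ℤ) :
    covY (ybk (tg m • y)) =
      ENNReal.ofReal (∏ w ∈ m.support, qv w ^ (m w)) * covY (ybk y) := by
  rw [covY_ybk, covY_ybk, (hy.tg_smul m).bY_eq hU, hy.bY_eq hU, vol_Jk m k hk]

end c

section d

variable {U : Level F}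

theorem hloc_e1_one (w : Pl F) : hloc w (e1 : Fin 2 → F) 1 = 1 := by
  rw [hloc]
  simp [nv, e1]

/-- torus points from units -/
theorem exists_tg_eq (hdg : ∀ (w : Pl F) (u : Fˣ), av w (u : F) = 1 → dg u ∈ U.H w)
    {y y' : Y U} (hy : ∀ w, ∃ a : Fˣ, y w = ((dg a : G2 F) : Yl U w))
    (hy' : ∀ w, InC w (y' w)) : ∃ (m : Pl F →₀ ℤ), ybk y' = ybk (tg m • y) := by
  classical
  choose a ha using hy
  choose a' b' ha' using hy'
  -- exponents
  have hex : ∀ w, ∃ m : ℤ, av w ((a' w * (a w)⁻¹ : Fˣ) : F) = qv w ^ (-m) := by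
    intro w
    refine ⟨Fermat.Agent.MW.Selmer.cnt w (a' w * (a w)⁻¹), ?_⟩
    exact av_eq_zpow w _
  choose m hm using hex
  have hval : ∀ w, hY w e1 (y w) = av w (a w : F) := by
    intro w
    rw [ha w, hY_mk]
    have := hY_dg (U := U) w (a w) ((1 : G2 F) : Yl U w)
    change hY w e1 ((dg (a w) * 1 : G2 F) : Yl U w) = _ at this
    rw [mul_one, hY_mk, hY_mk] at this
    rw [this]
    rw [hloc_e1_one, mul_one]
  have hval' : ∀ w, hY w e1 (y' w) = av w (a' w : F) := by
    intro w
    rw [ha' w]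
    have := hY_un (U := U) w (b' w) ((dg (a' w) : G2 F) : Yl U w)
    change hY w e1 ((un (b' w) * dg (a' w) : G2 F) : Yl U w) = _ at this
    rw [this, hY_mk]
    have := hY_dg (U := U) w (a' w) ((1 : G2 F) : Yl U w)
    change hY w e1 ((dg (a' w) * 1 : G2 F) : Yl U w) = _ at this
    rw [mul_one, hY_mk, hY_mk] at this
    rw [this]
    rw [hloc_e1_one, mul_one]
  have hfin : {w | m w ≠ 0}.Finite := by
    refine ((hY_finite e1_ne y).union (hY_finite e1_ne y')).subset fun w hw => ?_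
    by_contra hc
    simp only [Set.mem_union, Set.mem_ofPred_eq, not_or, not_not] at hc
    apply hw
    have h1 := hm w
    rw [Units.val_mul, Units.val_inv_eq_inv_val, map_mul, map_inv₀, ← hval, ← hval', hc.1, hc.2,
      inv_one, mul_one] at h1
    have h2 := zpow_right_injective₀ (qv_pos w) (one_lt_qv w).ne'
      (h1.symm.trans (zpow_zero (qv w)).symm)
    simpa using h2
  refine ⟨Finsupp.ofSupportFinite m hfin, ?_⟩
  obtain ⟨β, hβ⟩ := exists_un_eq (tg (Finsupp.ofSupportFinite m hfin) • y) y' (fun w => by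
    refine ⟨b' w, ?_⟩
    rw [tg_smul_apply, ha w, ha' w]
    change _ = ((un (b' w) * (dg (unif w ^ m w) * dg (a w)) : G2 F) : Yl U w)
    rw [← H.dg_mul, QuotientGroup.eq]
    have e1' : (un (b' w) * dg (a' w))⁻¹ * (un (b' w) * dg (unif w ^ m w * a w)) =
        dg ((a' w)⁻¹ * (unif w ^ m w * a w)) := by
      rw [_root_.mul_inv_rev, mul_assoc, inv_mul_cancel_left, Fermat.LT.dg_inv, ← H.dg_mul]
    rw [e1']
    apply hdg
    have h1 := hm w
    have h2 := (av w).pos (a w).ne_zero
    have h3 := (av w).pos (a' w).ne_zero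
    rw [Units.val_mul, Units.val_inv_eq_inv_val, map_mul, map_inv₀] at h1
    rw [Units.val_mul, Units.val_mul, Units.val_inv_eq_inv_val, map_mul, map_mul, map_inv₀,
      av_unif_zpow, ← h1]
    field_simp)
  rw [hβ, ybk_un]

theorem InC_of_zero {w : Pl F} (hw : U.n w = 0) (z : Yl U w) : InC w z := by
  obtain ⟨a, b, h⟩ := CTree.exists_tri_rep hw z
  exact ⟨a, b, h⟩

/-- (d) -/
theorem tsum_cell (hdg : ∀ (w : Pl F) (u : Fˣ), av w (u : F) = 1 → dg u ∈ U.H w)
    {S : Set (Pl F)} (hS : ∀ w, U.n w ≠ 0 → w ∈ S) {y : Y U}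
    (hy : ∀ w, ∃ a : Fˣ, y w = ((dg a : G2 F) : Yl U w)) (f : Yb U → ℝ≥0∞) :
    open Classical in
    ∑' q : Yb U, (if ∀ w ∈ S, InC w (yout q w) then f q else 0) =
      ∑' m : Pl F →₀ ℤ, f (ybk (tg m • y)) := by
  classical
  have hinj : Function.Injective fun m : Pl F →₀ ℤ => ybk (tg m • y) := fun k l h => tg_inj h
  have hcell : ∀ (q : Yb U), (∀ w ∈ S, InC w (yout q w)) ↔ ∀ w, InC w (yout q w) := by
    intro q
    refine ⟨fun h w => ?_, fun h w _ => h w⟩
    by_cases hw : U.n w = 0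
    · exact InC_of_zero hw _
    · exact h w (hS w hw)
  have hsupp : Function.support (fun q : Yb U =>
      if ∀ w ∈ S, InC w (yout q w) then f q else 0) ⊆
      Set.range fun m : Pl F →₀ ℤ => ybk (tg m • y) := by
    intro q hq
    have h1 : ∀ w ∈ S, InC w (yout q w) := by
      by_contra hc
      exact hq (if_neg hc)
    obtain ⟨m, hm⟩ := exists_tg_eq hdg hy ((hcell q).mp h1)
    exact ⟨m, hm.symm.trans (ybk_yout q)⟩
  rw [← hinj.tsum_eq hsupp]
  refine tsum_congr fun m => ?_
  rw [if_pos]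
  intro w _
  obtain ⟨b, hb⟩ := exists_un_yout (tg m • y)
  have h1 : InC w ((tg m • y) w) := by
    obtain ⟨α, hα⟩ := hy w
    refine ⟨unif w ^ m w * α, 0, ?_⟩
    rw [tg_smul_apply, hα, un_zero, one_mul, H.dg_mul]
    rfl
  rw [← hb, G2_smul_apply]
  have := InC_smul_iff (w := w) (z := (tg m • y) w) 1 b
  rw [H.dg_one, mul_one] at this
  exact this.mpr h1

end d

end Fermat.Agent.LT.H
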