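import Fermat.Agent.LT.H.Whit
import Fermat.Agent.LT.H.Jk
import Fermat.Agent.LT.H.Tor

/-!
# Values of Whittaker functions of eigenforms on the torus
-/

set_option autoImplicit false
set_option linter.unusedSectionVars false

open NumberField IsDedekindDomain Matrix MeasureTheory Module Set
open scoped ComplexConjugate ENNReal Real

namespace Fermat.Agent.LT.H

open Fermat.LT Fermat.Agent.LT.I Fermat.Agent.LT.B Fermat.Agent.LT.CArch
open Fermat.Agent.LT.CTree (sq Tl Tl_fun_smul unif)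
open Fermat.Agent.LT.H.Bessel (Wh Wh_pos)
open Fermat.Agent.LT.Top (EForm goodPl)
open Fermat.Agent.LT.H.Local (U U_zero U_one U_add_two)
open Fermat.Agent.LT.H.Euler (mulF)

variable {F : Type} [Field F] [NumberField F]

/-- level conditions: `S` is the set of bad places -/
structure ULev (D : Datum F) (e : Pl F → ℕ) (S : Finset (Pl F)) : Prop where
  mem : ∀ w, D.n w ≠ 0 ↔ w ∈ S
  ulev : UnLev D.toLevel e
  efin : {w | e w ≠ 0}.Finite
  dlev : ∀ (w : Pl F) (u : Fˣ), av w (u : F) = 1 → dg u ∈ D.H w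
  cell : ∀ w ∈ S, congGL w (D.n w) ≤ D.H w ∧ ∀ h ∈ D.H w, ∃ (c a : Fˣ) (b : F),
    ∃ k ∈ congGL w (D.n w), h = sc c * (un b * dg a * k)

/-- the set of Whittaker functions with given Hecke eigenvalues and the Kirillov condition -/
structure WData (D : Datum F) (e : Pl F → ℕ) (S : Finset (Pl F)) (lam : Pl F → ℝ)
    (a : Y D.toLevel → ℂ) : Prop where
  wy : IsWY D.toArch a
  hecke : ∀ w, w ∉ S → ∀ y, TY w a y = (sq w : ℂ) * lam w * a y
  kir : ∀ w ∈ S, ∀ (y : Y D.toLevel) (k : Pl F → ℤ), {w | k w ≠ 0}.Finite → IsTor e y k →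
    (∀ v, -dExp v ≤ k v) → -dExp w < k w → a y = 0

variable {D : Datum F} {e : Pl F → ℕ} {S : Finset (Pl F)} {lam : Pl F → ℝ}
  {a a' : Y D.toLevel → ℂ}

theorem isDiff_dExp (A : Arch F) : IsDiff A (dExp (F := F)) := fun _ hk => one_mem_dualOf_Jk hk A

theorem TY_add {w : Pl F} (hw : D.n w = 0) (a a' : Y D.toLevel → ℂ) (y : Y D.toLevel) :
    TY w (fun y => a y + a' y) y = TY w a y + TY w a' y := by
  rw [TY_eq_sum hw, TY_eq_sum hw, TY_eq_sum hw, Finset.sum_add_distrib]

theorem WData.add (hS : ∀ w, D.n w ≠ 0 ↔ w ∈ S) (h : WData D e S lam a)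
    (h' : WData D e S lam a') : WData D e S lam (fun y => a y + a' y) where
  wy := h.wy.add h'.wy
  hecke w hw y := by
    have hn : D.n w = 0 := by
      by_contra hc
      exact hw ((hS w).mp hc)
    rw [TY_add hn, h.hecke w hw, h'.hecke w hw]
    ring
  kir w hw y k hk hy h1 h2 := by
    rw [h.kir w hw y k hk hy h1 h2, h'.kir w hw y k hk hy h1 h2, add_zero]

theorem WData.smul (h : WData D e S lam a) (c : ℂ) : WData D e S lam (fun y => c * a y) where
  wy b y := by
    change c * a (un b • y) = psF D.toArch b * (c * a y)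
    rw [h.wy]
    ring
  hecke w hw y := by
    have h1 : (fun y => c * a y) = fun y => a y * c := by
      funext y; ring
    rw [h1, TY_smul, h.hecke w hw]
    ring
  kir w hw y k hk hy h1 h2 := by
    rw [h.kir w hw y k hk hy h1 h2, mul_zero]

/-- the base point -/
theorem exists_base (D : Datum F) {e : Pl F → ℕ} (he : {w | e w ≠ 0}.Finite) :
    ∃ y₁ : Y D.toLevel, IsTor e y₁ (fun w => -dExp w) := by
  let m₁ : Pl F →₀ ℤ := Finsupp.ofSupportFinite (fun w => -dExp w - e w) (by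
    refine (dExp_finite.union he).subset fun w hw => ?_
    by_contra hc
    simp only [Set.mem_union, Set.mem_ofPred_eq, not_or, not_not] at hc
    apply hw
    change -dExp w - (e w : ℤ) = 0
    rw [hc.1, hc.2]; simp)
  have h := (isTor_one (U := D.toLevel) e).tg_smul m₁
  have h2 : (fun w => (e w : ℤ) + m₁ w) = fun w => -dExp w := by
    funext w
    change (e w : ℤ) + (-dExp w - (e w : ℤ)) = _
    ring
  rw [h2] at h
  exact ⟨_, h⟩

theorem neg_dExp_finite : {w : Pl F | -dExp w ≠ 0}.Finite := by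
  refine dExp_finite.subset fun w hw h => hw ?_
  rw [h, neg_zero]

/-- support on the torus -/
theorem WData.supp (h : WData D e S lam a) (hD : ULev D e S) {y₁ : Y D.toLevel}
    (hy₁ : IsTor e y₁ (fun w => -dExp w)) (m : Pl F →₀ ℤ) (hm : a (tg m • y₁) ≠ 0) :
    (∀ w, 0 ≤ m w) ∧ ∀ w ∈ S, m w = 0 := by
  have ht := hy₁.tg_smul m
  have hfin := fin_add neg_dExp_finite m
  have h1 : ∀ w, 0 ≤ m w := by
    intro w
    by_contra hc
    apply hm
    refine h.wy.eq_zero_of_lt hD.ulev (isDiff_dExp D.toArch) hfin ht (w := w) ?_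
    linarith [not_le.mp hc]
  refine ⟨h1, fun w hw => ?_⟩
  by_contra hc
  apply hm
  refine h.kir w hw _ _ hfin ht (fun v => ?_) ?_
  · linarith [h1 v]
  · have := lt_of_le_of_ne (h1 w) (fun h => hc h.symm)
    linarith

/-- the embedding of exponents -/
noncomputable def emS (S : Finset (Pl F)) (k : {w : Pl F // w ∉ S} →₀ ℕ) : Pl F →₀ ℕ :=
  k.embDomain ⟨Subtype.val, Subtype.val_injective⟩

theorem emS_apply_mem {k : {w : Pl F // w ∉ S} →₀ ℕ} {w : Pl F} (hw : w ∈ S) : emS S k w = 0 := by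
  classical
  refine Finsupp.embDomain_of_notMem_range _ _ _ ?_
  rintro ⟨v, hv⟩
  have : v.1 = w := hv
  exact v.2 (this ▸ hw)

theorem emS_apply {k : {w : Pl F // w ∉ S} →₀ ℕ} (w : {w : Pl F // w ∉ S}) :
    emS S k w.1 = k w := by
  classical
  exact Finsupp.embDomain_apply_self _ _ _

theorem mulF_emS {𝕜 : Type*} [CommMonoid 𝕜] (f : Pl F → ℕ → 𝕜)
    (k : {w : Pl F // w ∉ S} →₀ ℕ) : (emS S k).prod f = k.prod fun w n => f w.1 n := by
  rw [emS, Finsupp.prod_embDomain]; rfl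

theorem exists_emS {m : Pl F →₀ ℤ} (h1 : ∀ w, 0 ≤ m w) (h2 : ∀ w ∈ S, m w = 0) :
    ∃ k : {w : Pl F // w ∉ S} →₀ ℕ, nz (emS S k) = m := by
  classical
  refine ⟨(m.comapDomain Subtype.val Subtype.val_injective.injOn).mapRange Int.toNat rfl, ?_⟩
  ext w
  rw [nz_apply]
  by_cases hw : w ∈ S
  · rw [emS_apply_mem hw, h2 w hw]; rfl
  · rw [emS_apply ⟨w, hw⟩]
    exact Int.toNat_of_nonneg (h1 w)

/-- values on the torus -/
theorem WData.val (h : WData D e S lam a) (hD : ULev D e S) {y₁ : Y D.toLevel}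
    (hy₁ : IsTor e y₁ (fun w => -dExp w)) (k : {w : Pl F // w ∉ S} →₀ ℕ) :
    a (tg (nz (emS S k)) • y₁) =
      ((mulF (fun (w : {w : Pl F // w ∉ S}) n => (sq w.1)⁻¹ ^ n * U (lam w.1) n) k : ℝ) : ℂ) *
        a y₁ := by
  have h1 := h.wy.rec_U hD.ulev (isDiff_dExp D.toArch) neg_dExp_finite hy₁ (fun w => le_rfl)
    (P := {w | w ∉ S}) (fun w hw => ⟨by
      by_contra hc
      exact hw ((hD.mem w).mp hc), rfl⟩) (fun w hw => h.hecke w hw) (emS S k) (fun w hw => by
      intro hS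
      exact hw (emS_apply_mem hS))
  rw [h1]
  congr 2
  exact mulF_emS _ k

/-- vanishing on the cell -/
theorem WData.eq_zero (h : WData D e S lam a) (hD : ULev D e S) {y₁ : Y D.toLevel}
    (hy₁ : IsTor e y₁ (fun w => -dExp w)) (h0 : a y₁ = 0) {y : Y D.toLevel}
    (hy : ∀ w, InC w (y w)) : a y = 0 := by
  obtain ⟨m, hm⟩ := exists_tg_eq hD.dlev (y := y₁) (fun w => by
    obtain ⟨α, h1, -⟩ := hy₁ w
    exact ⟨α, h1⟩) hy
  have h1 := h.wy.enorm_ybk y
  rw [hm, h.wy.enorm_ybk] at h1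
  have h2 : a (tg m • y₁) = 0 := by
    by_contra hne
    obtain ⟨h3, h4⟩ := h.supp hD hy₁ m hne
    obtain ⟨k, rfl⟩ := exists_emS h3 h4
    rw [h.val hD hy₁, h0, mul_zero] at hne
    exact hne rfl
  rw [h2, enorm_zero] at h1
  exact enorm_eq_zero.mp h1.symm

end Fermat.Agent.LT.H
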