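import Fermat.Agent.LT.H.TorDef
import Fermat.Agent.LT.H.WhitEigen

/-!
# Linear combinations of cusp forms and of their Fourier coefficients
-/

set_option autoImplicit false
set_option linter.unusedSectionVars false

open NumberField IsDedekindDomain Matrix MeasureTheory Module Set
open scoped ComplexConjugate ENNReal Real

namespace Fermat.Agent.LT.H

open Fermat.LT Fermat.Agent.LT.I Fermat.Agent.LT.B

variable {F : Type} [Field F] [NumberField F] {D : Datum F} {φ φ' : X D → ℂ}

theorem continuous_trX_pt {φ : X D → ℂ} (hφ : Continuous φ) (x : X D) :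
    Continuous fun u : D.I → ℂ => φ (trX u x) :=
  hφ.comp (continuous_trX.comp (by fun_prop : Continuous fun u => ((u, x) : (D.I → ℂ) × X D)))

theorem cusp_add (h : IsCusp φ) (h' : IsCusp φ') : IsCusp (fun x => φ x + φ' x) where
  cont := h.cont.add h'.cont
  inv γ x := by rw [h.inv, h'.inv]
  decay M := by
    obtain ⟨C, hC⟩ := h.decay M
    obtain ⟨C', hC'⟩ := h'.decay M
    refine ⟨C + C', fun x v hv => ?_⟩
    have h1 := hC x v hv
    have h2 := hC' x v hv
    have h3 : 0 ≤ ht v x ^ M := pow_nonneg (ht_pos hv x).le M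
    calc ‖φ x + φ' x‖ * ht v x ^ M ≤ (‖φ x‖ + ‖φ' x‖) * ht v x ^ M :=
          mul_le_mul_of_nonneg_right (norm_add_le _ _) h3
      _ ≤ C + C' := by rw [add_mul]; linarith
  mean x n b hb := by
    have h1 := h.mean x n b hb
    have h2 := h'.mean x n b hb
    unfold boxMean at h1 h2 ⊢
    rw [integral_add (integrableOn_box b (continuous_trX_pt h.cont x) 0)
      (integrableOn_box b (continuous_trX_pt h'.cont x) 0), h1, h2, add_zero]

theorem cusp_smul (h : IsCusp φ) (c : ℂ) : IsCusp (fun x => c * φ x) where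
  cont := continuous_const.mul h.cont
  inv γ x := by rw [h.inv]
  decay M := by
    obtain ⟨C, hC⟩ := h.decay M
    refine ⟨‖c‖ * C, fun x v hv => ?_⟩
    rw [norm_mul, mul_assoc]
    exact mul_le_mul_of_nonneg_left (hC x v hv) (norm_nonneg _)
  mean x n b hb := by
    have h1 := h.mean x n b hb
    unfold boxMean at h1 ⊢
    rw [integral_const_mul, h1, mul_zero]

theorem integrableOn_eC {A : Arch F} {s : Set (A.I → ℂ)} (hm : MeasurableSet s)
    (hs : volume s ≠ ⊤) (ν : F) {f : (A.I → ℂ) → ℂ} (hf : Continuous f)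
    (hb : ∃ C : ℝ, ∀ u, ‖f u‖ ≤ C) : IntegrableOn (fun u => eC A ν u * f u) s := by
  obtain ⟨C, hC⟩ := hb
  refine Measure.integrableOn_of_bounded hs
    (((continuous_eC A ν).mul hf).aestronglyMeasurable) (M := C) ?_
  refine Filter.Eventually.of_forall fun u => ?_
  rw [norm_mul, norm_eC, one_mul]
  exact hC u

theorem cW_add (hc : Continuous φ) (hb : ∃ C : ℝ, ∀ x, ‖φ x‖ ≤ C) (hc' : Continuous φ')
    (hb' : ∃ C : ℝ, ∀ x, ‖φ' x‖ ≤ C) (ν : F) (x : D.I → ℝ) (y : Y D.toLevel) :
    cW (fun p => φ p + φ' p) ν x y = cW φ ν x y + cW φ' ν x y := by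
  classical
  have hbox := isBox_bx D.toArch (isLat_bY y)
  unfold cW
  by_cases hν : ν ∈ dualOf D.toArch (bY y)
  · rw [if_pos hν, if_pos hν, if_pos hν, fcoef, fcoef, fcoef, ← smul_add, ← integral_add]
    · congr 1
      refine integral_congr_ae (Filter.Eventually.of_forall fun u => ?_)
      simp only
      ring
    · exact integrableOn_eC hbox.meas hbox.fin _ (hc.comp (continuous_pt_z x y))
        (by obtain ⟨C, hC⟩ := hb; exact ⟨C, fun u => hC _⟩)
    · exact integrableOn_eC hbox.meas hbox.fin _ (hc'.comp (continuous_pt_z x y))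
        (by obtain ⟨C, hC⟩ := hb'; exact ⟨C, fun u => hC _⟩)
  · rw [if_neg hν, if_neg hν, if_neg hν, add_zero]

theorem cW_smul (c : ℂ) (ν : F) (x : D.I → ℝ) (y : Y D.toLevel) :
    cW (fun p => c * φ p) ν x y = c * cW φ ν x y := by
  classical
  unfold cW
  by_cases hν : ν ∈ dualOf D.toArch (bY y)
  · rw [if_pos hν, if_pos hν, fcoef, fcoef, mul_smul_comm, ← integral_const_mul]
    congr 1
    refine integral_congr_ae (Filter.Eventually.of_forall fun u => ?_)
    simp only
    ring
  · rw [if_neg hν, if_neg hν, mul_zero]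

end Fermat.Agent.LT.H
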