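import Mathlib
import Fermat.Agent.EXT.PartialZeta

/-!
# Bounds for the Dedekind zeta series near `s = 1`
-/

set_option autoImplicit false
set_option linter.unusedSectionVars false

open Module NumberField nonZeroDivisors Filter Topology

namespace Fermat.Agent.LT.H.Eis

variable (K : Type*) [Field K] [NumberField K]

/-- the Dedekind zeta series -/
noncomputable def Zs (s : ℝ) : ℝ := ∑' I : (Ideal (𝓞 K))⁰, (Ideal.absNorm (I : Ideal (𝓞 K)) : ℝ) ^ (-s)

variable {K}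

lemma one_le_absNorm (I : (Ideal (𝓞 K))⁰) : (1 : ℝ) ≤ Ideal.absNorm (I : Ideal (𝓞 K)) := by
  exact_mod_cast Nat.one_le_iff_ne_zero.mpr (Ideal.absNorm_ne_zero_of_nonZeroDivisors I)

lemma one_le_Zs {s : ℝ} (hs : 1 < s) : 1 ≤ Zs K s := by
  have h1 := EXT.summable_absNorm_rpow K hs
  have h2 := h1.le_tsum (1 : (Ideal (𝓞 K))⁰) (fun j _ => Real.rpow_nonneg (Nat.cast_nonneg _) _)
  refine le_trans (le_of_eq ?_) h2
  simp

lemma Zs_anti {s t : ℝ} (hs : 1 < s) (hst : s ≤ t) : Zs K t ≤ Zs K s := by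
  refine Summable.tsum_le_tsum (fun I => ?_) (EXT.summable_absNorm_rpow K (lt_of_lt_of_le hs hst))
    (EXT.summable_absNorm_rpow K hs)
  exact Real.rpow_le_rpow_of_exponent_le (one_le_absNorm I) (by linarith)

lemma ofReal_Zs {s : ℝ} (hs : 1 < s) : ((Zs K s : ℝ) : ℂ) = dedekindZeta K s := by
  have h1 := EXT.summable_absNorm_rpow K hs
  set f : (Ideal (𝓞 K))⁰ → ℕ := fun I => Ideal.absNorm (I : Ideal (𝓞 K)) with hf
  have h2 : Summable fun p : (Σ n : ℕ, {I : (Ideal (𝓞 K))⁰ // f I = n}) =>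
      (f p.2.1 : ℝ) ^ (-s) := (Equiv.sigmaFiberEquiv f).summable_iff.mpr h1
  have h3 : Zs K s = ∑' n : ℕ, ∑' I : {I : (Ideal (𝓞 K))⁰ // f I = n}, (f I.1 : ℝ) ^ (-s) := by
    unfold Zs
    rw [← (Equiv.sigmaFiberEquiv f).tsum_eq]
    exact Summable.tsum_sigma h2
  rw [h3, Complex.ofReal_tsum]
  unfold dedekindZeta LSeries
  refine tsum_congr fun n => ?_
  have h4 : ∀ I : {I : (Ideal (𝓞 K))⁰ // f I = n}, (f I.1 : ℝ) ^ (-s) = (n : ℝ) ^ (-s) := by
    intro I; rw [I.2]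
  rw [tsum_congr h4, tsum_const, nsmul_eq_mul]
  rcases Nat.eq_zero_or_pos n with rfl | hn
  · rw [LSeries.term_zero]
    have : IsEmpty {I : (Ideal (𝓞 K))⁰ // f I = 0} := by
      refine ⟨fun I => ?_⟩
      exact Ideal.absNorm_ne_zero_of_nonZeroDivisors I.1 I.2
    rw [Nat.card_of_isEmpty]
    simp
  · rw [LSeries.term_of_ne_zero hn.ne']
    have hcard : Nat.card {I : (Ideal (𝓞 K))⁰ // f I = n} =
        Nat.card {I : Ideal (𝓞 K) // Ideal.absNorm I = n} := by
      refine Nat.card_congr ?_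
      refine ⟨fun I => ⟨I.1.1, I.2⟩, fun I => ⟨⟨I.1, ?_⟩, I.2⟩, fun I => rfl, fun I => rfl⟩
      refine mem_nonZeroDivisors_of_ne_zero ?_
      intro h0
      have h5 := I.2
      rw [h0] at h5
      simp at h5
      omega
    rw [hcard, Real.rpow_neg (Nat.cast_nonneg _), Complex.ofReal_mul, Complex.ofReal_inv,
      Complex.ofReal_cpow (Nat.cast_nonneg _), div_eq_mul_inv]
    simp

variable (K)

theorem exists_Zs_bounds : ∃ A B : ℝ, 0 < A ∧ 0 < B ∧ ∀ s : ℝ, 1 < s → s ≤ 3 →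
    A / (s - 1) ≤ Zs K s ∧ Zs K s ≤ B / (s - 1) := by
  have h1 : Tendsto (fun s : ℝ => (s - 1) * Zs K s) (𝓝[>] 1) (𝓝 (dedekindZeta_residue K)) := by
    have h2 := (Complex.continuous_re.tendsto _).comp (tendsto_sub_one_mul_dedekindZeta_nhdsGT K)
    rw [Complex.ofReal_re] at h2
    refine h2.congr' ?_
    filter_upwards [self_mem_nhdsWithin] with s hs
    have hs' : (1 : ℝ) < s := hs
    rw [Function.comp_apply, ← ofReal_Zs hs']
    have : ((s : ℂ) - 1) = ((s - 1 : ℝ) : ℂ) := by push_cast; rfl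
    rw [this, ← Complex.ofReal_mul, Complex.ofReal_re]
  set ρ := dedekindZeta_residue K with hρ
  have hρ0 : 0 < ρ := dedekindZeta_residue_pos K
  have h2 : ∀ᶠ s in 𝓝[>] (1 : ℝ), (s - 1) * Zs K s ∈ Set.Icc (ρ / 2) (2 * ρ) :=
    h1 (Icc_mem_nhds (by linarith) (by linarith))
  rw [eventually_nhdsWithin_iff, Metric.eventually_nhds_iff] at h2
  obtain ⟨δ, hδ, h3⟩ := h2
  have hZ := one_le_Zs (K := K) (s := 1 + δ / 2) (by linarith)
  refine ⟨min (ρ / 2) (δ / 2), max (2 * ρ) (2 * Zs K (1 + δ / 2)), by positivity,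
    lt_max_of_lt_left (by positivity), ?_⟩
  intro s hs1 hs3
  have hs0 : 0 < s - 1 := by linarith
  rw [div_le_iff₀ hs0, le_div_iff₀ hs0]
  rcases lt_or_ge s (1 + δ / 2) with h | h
  · have h4 := h3 (y := s) (by rw [Real.dist_eq, abs_of_pos hs0]; linarith) hs1
    rw [Set.mem_Icc] at h4
    rw [mul_comm (Zs K s)]
    exact ⟨(min_le_left _ _).trans h4.1, h4.2.trans (le_max_left _ _)⟩
  · have h5 := one_le_Zs (K := K) hs1
    have h6 := Zs_anti (K := K) (show 1 < 1 + δ / 2 by linarith) h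
    constructor
    · refine (min_le_right _ _).trans ?_
      nlinarith
    · refine le_trans ?_ (le_max_right _ _)
      nlinarith

end Fermat.Agent.LT.H.Eis
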