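import Mathlib
import Fermat.Agent.LT.H.EisSum
import Fermat.Agent.LT.H.ZetaBd

/-!
# The Eisenstein series near `s = 1`
-/

set_option autoImplicit false
set_option linter.unusedSectionVars false
set_option maxSynthPendingDepth 3

open MeasureTheory Module NumberField NumberField.InfinitePlace NumberField.mixedEmbedding
  nonZeroDivisors

namespace Fermat.Agent.LT.H.Eis

open scoped Classical

variable {K : Type*} [Field K] [NumberField K]

/-- the ideal `{a ∈ 𝓞 : a t ∈ c}` -/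
def den (c : (FractionalIdeal (𝓞 K)⁰ K)ˣ) (t : K) : Ideal (𝓞 K) where
  carrier := {a | (a : K) * t ∈ (c : FractionalIdeal (𝓞 K)⁰ K)}
  add_mem' := by
    intro a b ha hb
    simp only [Set.mem_ofPred_eq] at ha hb ⊢
    have e : ((a + b : 𝓞 K) : K) = (a : K) + (b : K) := rfl
    rw [e, add_mul]
    exact (c : FractionalIdeal (𝓞 K)⁰ K).coeToSubmodule.add_mem ha hb
  zero_mem' := by
    simp only [Set.mem_ofPred_eq, _root_.map_zero, zero_mul]
    exact (c : FractionalIdeal (𝓞 K)⁰ K).coeToSubmodule.zero_mem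
  smul_mem' := by
    intro a b hb
    simp only [Set.mem_ofPred_eq, smul_eq_mul] at hb ⊢
    have e : ((a * b : 𝓞 K) : K) = (a : K) * (b : K) := rfl
    rw [e, mul_assoc, ← Algebra.smul_def]
    exact (c : FractionalIdeal (𝓞 K)⁰ K).coeToSubmodule.smul_mem a hb

lemma mem_den {c : (FractionalIdeal (𝓞 K)⁰ K)ˣ} {t : K} {a : 𝓞 K} :
    a ∈ den c t ↔ (a : K) * t ∈ (c : FractionalIdeal (𝓞 K)⁰ K) := Iff.rfl

lemma den_ne_bot (c : (FractionalIdeal (𝓞 K)⁰ K)ˣ) (t : K) : den c t ≠ ⊥ := by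
  by_cases ht : t = 0
  · intro h
    have h1 : (1 : 𝓞 K) ∈ den c t := by
      rw [mem_den, ht, mul_zero]
      exact (c : FractionalIdeal (𝓞 K)⁰ K).coeToSubmodule.zero_mem
    rw [h, Ideal.mem_bot] at h1
    exact one_ne_zero h1
  obtain ⟨y, hy0, hy⟩ := FractionalIdeal.exists_ne_zero_mem_isInteger (c.ne_zero)
  obtain ⟨a, b, hb, hab⟩ := IsFractionRing.div_surjective (A := 𝓞 K) (t / algebraMap (𝓞 K) K y)
  have hyK : algebraMap (𝓞 K) K y ≠ 0 := by
    rw [Ne, FaithfulSMul.algebraMap_eq_zero_iff]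
    exact hy0
  have hbK : algebraMap (𝓞 K) K b ≠ 0 := by
    rw [Ne, FaithfulSMul.algebraMap_eq_zero_iff]
    exact nonZeroDivisors.ne_zero hb
  have h1 : algebraMap (𝓞 K) K b * t = algebraMap (𝓞 K) K a * algebraMap (𝓞 K) K y := by
    field_simp at hab
    rw [← hab]
  intro h
  have h2 : b ∈ den c t := by
    rw [mem_den]
    show algebraMap (𝓞 K) K b * t ∈ _
    rw [h1, ← Algebra.smul_def]
    exact (c : FractionalIdeal (𝓞 K)⁰ K).coeToSubmodule.smul_mem a hy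
  rw [h, Ideal.mem_bot] at h2
  exact nonZeroDivisors.ne_zero hb h2

/-- `den` as a nonzero ideal -/
noncomputable def den' (c : (FractionalIdeal (𝓞 K)⁰ K)ˣ) (t : K) : (Ideal (𝓞 K))⁰ :=
  ⟨den c t, mem_nonZeroDivisors_of_ne_zero (den_ne_bot c t)⟩

/-- `N(a_t)` -/
noncomputable def nd (c : (FractionalIdeal (𝓞 K)⁰ K)ˣ) (t : K) : ℝ :=
  (Ideal.absNorm (den c t) : ℝ)

lemma one_le_nd (c : (FractionalIdeal (𝓞 K)⁰ K)ˣ) (t : K) : 1 ≤ nd c t :=
  one_le_absNorm (den' c t)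

lemma mem_inv_mul_iff (c : (FractionalIdeal (𝓞 K)⁰ K)ˣ) (I : (Ideal (𝓞 K))⁰) (t : K) :
    t ∈ (((FractionalIdeal.mk0 K I)⁻¹ * c : (FractionalIdeal (𝓞 K)⁰ K)ˣ) :
      FractionalIdeal (𝓞 K)⁰ K) ↔ (I : Ideal (𝓞 K)) ≤ den c t := by
  have h1 : t ∈ (((FractionalIdeal.mk0 K I)⁻¹ * c : (FractionalIdeal (𝓞 K)⁰ K)ˣ) :
      FractionalIdeal (𝓞 K)⁰ K) ↔
      FractionalIdeal.spanSingleton (𝓞 K)⁰ t ≤
        (((FractionalIdeal.mk0 K I)⁻¹ * c : (FractionalIdeal (𝓞 K)⁰ K)ˣ) :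
          FractionalIdeal (𝓞 K)⁰ K) := FractionalIdeal.spanSingleton_le_iff_mem.symm
  have h2 : FractionalIdeal.spanSingleton (𝓞 K)⁰ t ≤
        (((FractionalIdeal.mk0 K I)⁻¹ * c : (FractionalIdeal (𝓞 K)⁰ K)ˣ) :
          FractionalIdeal (𝓞 K)⁰ K) ↔
      (FractionalIdeal.mk0 K I : FractionalIdeal (𝓞 K)⁰ K) *
        FractionalIdeal.spanSingleton (𝓞 K)⁰ t ≤ c := by
    constructor
    · intro h
      have h3 := mul_le_mul_right h (FractionalIdeal.mk0 K I : FractionalIdeal (𝓞 K)⁰ K)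
      rw [← Units.val_mul, mul_inv_cancel_left] at h3
      exact h3
    · intro h
      have h3 := mul_le_mul_right h
        (((FractionalIdeal.mk0 K I)⁻¹ : (FractionalIdeal (𝓞 K)⁰ K)ˣ) : FractionalIdeal (𝓞 K)⁰ K)
      rw [← mul_assoc, ← Units.val_mul, inv_mul_cancel, Units.val_one, one_mul,
        ← Units.val_mul] at h3
      exact h3
  rw [h1, h2, FractionalIdeal.coe_mk0, FractionalIdeal.mul_le]
  constructor
  · intro h a ha
    rw [mem_den]
    exact h _ ((FractionalIdeal.mem_coeIdeal _).mpr ⟨a, ha, rfl⟩) t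
      (FractionalIdeal.mem_spanSingleton_self _ t)
  · intro h i hi j hj
    obtain ⟨a, ha, rfl⟩ := (FractionalIdeal.mem_coeIdeal _).mp hi
    obtain ⟨b, rfl⟩ := (FractionalIdeal.mem_spanSingleton _).mp hj
    rw [mul_smul_comm]
    exact (c : FractionalIdeal (𝓞 K)⁰ K).coeToSubmodule.smul_mem b (mem_den.mp (h ha))

lemma coe_mul_ideal (D J : (Ideal (𝓞 K))⁰) :
    ((D * J : (Ideal (𝓞 K))⁰) : Ideal (𝓞 K)) = (D : Ideal (𝓞 K)) * (J : Ideal (𝓞 K)) := rfl

lemma mul_le_left_ideal (D J : (Ideal (𝓞 K))⁰) :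
    ((D * J : (Ideal (𝓞 K))⁰) : Ideal (𝓞 K)) ≤ (D : Ideal (𝓞 K)) := by
  rw [coe_mul_ideal]
  exact Ideal.mul_le_left (I := (D : Ideal (𝓞 K))) (J := (J : Ideal (𝓞 K)))

/-- multiples of an ideal -/
noncomputable def multEquiv (D : (Ideal (𝓞 K))⁰) :
    (Ideal (𝓞 K))⁰ ≃ {I : (Ideal (𝓞 K))⁰ // (I : Ideal (𝓞 K)) ≤ (D : Ideal (𝓞 K))} :=
  Equiv.ofBijective (fun J => ⟨D * J, mul_le_left_ideal D J⟩) (by
    constructor
    · intro J J' h
      have h1 : D * J = D * J' := congrArg Subtype.val h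
      exact mul_left_cancel h1
    · rintro ⟨I, hI⟩
      obtain ⟨J, hJ⟩ := Ideal.dvd_iff_le.mpr hI
      have hJ0 : J ≠ 0 := by
        rintro rfl
        rw [mul_zero] at hJ
        exact nonZeroDivisors.ne_zero I.2 hJ
      refine ⟨⟨J, mem_nonZeroDivisors_of_ne_zero hJ0⟩, ?_⟩
      apply Subtype.ext
      apply Subtype.ext
      rw [coe_mul_ideal]
      exact hJ.symm)

lemma multEquiv_coe (D J : (Ideal (𝓞 K))⁰) : ((multEquiv D J).1 : (Ideal (𝓞 K))⁰) = D * J := rfl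

lemma hasSum_multiples (D : (Ideal (𝓞 K))⁰) {s : ℝ} (hs : 1 < s) :
    HasSum (fun I : (Ideal (𝓞 K))⁰ => if (I : Ideal (𝓞 K)) ≤ (D : Ideal (𝓞 K)) then
      (Ideal.absNorm (I : Ideal (𝓞 K)) : ℝ) ^ (-s) else 0)
      ((Ideal.absNorm (D : Ideal (𝓞 K)) : ℝ) ^ (-s) * Zs K s) := by
  have h1 : HasSum (fun J : (Ideal (𝓞 K))⁰ => (Ideal.absNorm (D : Ideal (𝓞 K)) : ℝ) ^ (-s) *
      (Ideal.absNorm (J : Ideal (𝓞 K)) : ℝ) ^ (-s))
      ((Ideal.absNorm (D : Ideal (𝓞 K)) : ℝ) ^ (-s) * Zs K s) :=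
    (EXT.summable_absNorm_rpow K hs).hasSum.mul_left _
  have h2 : HasSum (fun I : {I : (Ideal (𝓞 K))⁰ // (I : Ideal (𝓞 K)) ≤ (D : Ideal (𝓞 K))} =>
      (Ideal.absNorm (I.1 : Ideal (𝓞 K)) : ℝ) ^ (-s))
      ((Ideal.absNorm (D : Ideal (𝓞 K)) : ℝ) ^ (-s) * Zs K s) := by
    rw [← (multEquiv D).hasSum_iff]
    convert h1 using 1
    funext J
    rw [Function.comp_apply, multEquiv_coe, coe_mul_ideal, _root_.map_mul]
    push_cast
    rw [Real.mul_rpow (Nat.cast_nonneg _) (Nat.cast_nonneg _)]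
  have h3 := (hasSum_subtype_iff_indicator (f := fun I : (Ideal (𝓞 K))⁰ =>
    (Ideal.absNorm (I : Ideal (𝓞 K)) : ℝ) ^ (-s))
    (s := {I : (Ideal (𝓞 K))⁰ | (I : Ideal (𝓞 K)) ≤ (D : Ideal (𝓞 K))})).mp h2
  convert h3 using 1
  funext I
  simp only [Set.indicator, Set.mem_ofPred_eq]

/-- a term of the Eisenstein series (without the factors depending only on the point) -/
noncomputable def eisTerm (c : (FractionalIdeal (𝓞 K)⁰ K)ˣ) (Y : InfinitePlace K → ℝ) (s : ℝ)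
    (x : mixedSpace K) (t : K) : ℝ := nd c t ^ (-(2 * s)) * QF K Y s (mixedEmbedding K t - x)

lemma eisTerm_nonneg (c : (FractionalIdeal (𝓞 K)⁰ K)ˣ) (Y : InfinitePlace K → ℝ) (s : ℝ)
    (x : mixedSpace K) (t : K) : 0 ≤ eisTerm c Y s x t :=
  mul_nonneg (Real.rpow_nonneg (zero_le_one.trans (one_le_nd c t)) _) (QF_nonneg _ _ _)

lemma fN_inv_mul (c : (FractionalIdeal (𝓞 K)⁰ K)ˣ) (I : (Ideal (𝓞 K))⁰) :
    fN ((FractionalIdeal.mk0 K I)⁻¹ * c) = fN c / (Ideal.absNorm (I : Ideal (𝓞 K)) : ℝ) := by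
  have h1 : fN (FractionalIdeal.mk0 K I * ((FractionalIdeal.mk0 K I)⁻¹ * c)) = fN c := by
    rw [mul_inv_cancel_left]
  have h2 : fN (FractionalIdeal.mk0 K I) = (Ideal.absNorm (I : Ideal (𝓞 K)) : ℝ) := by
    rw [fN, FractionalIdeal.coe_mk0, FractionalIdeal.coeIdeal_absNorm]
    push_cast
    rfl
  rw [fN_mul, h2] at h1
  have h3 := one_le_absNorm I
  rw [eq_div_iff (by linarith), mul_comm]
  exact h1

lemma mT_inv_mul (c : (FractionalIdeal (𝓞 K)⁰ K)ˣ) (I : (Ideal (𝓞 K))⁰) (Y : InfinitePlace K → ℝ)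
    (s : ℝ) : mT ((FractionalIdeal.mk0 K I)⁻¹ * c) Y s =
      (Ideal.absNorm (I : Ideal (𝓞 K)) : ℝ) * mT c Y s := by
  unfold mT
  rw [fN_inv_mul]
  have h3 := one_le_absNorm I
  have h4 := fN_pos c
  have h5 := EXT.PartialZeta.vK_pos K
  field_simp

variable (K)

theorem eis_sum_aux (c0 : ℝ) (hc0 : 0 < c0) : ∃ C : ℝ, 0 ≤ C ∧
    ∀ (c : (FractionalIdeal (𝓞 K)⁰ K)ˣ) (Y : InfinitePlace K → ℝ), (∀ w, 0 < Y w) →
      c0 ≤ (∏ w, Y w ^ mult w) / fN c → ∀ s : ℝ, 1 < s → s ≤ 2 → ∀ x : mixedSpace K,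
      Summable (eisTerm c Y s x) ∧
      |Zs K (2 * s) * ∑' t, eisTerm c Y s x t - mT c Y s * Zs K (2 * s - 1)| ≤
        C * ((∏ w, Y w ^ mult w) / fN c) ^ (-(finrank ℚ K : ℝ)⁻¹) * mT c Y s := by
  obtain ⟨C, hC0, hC⟩ := exists_frac_sum K c0 hc0
  set n : ℝ := (finrank ℚ K : ℝ) with hn
  have hn0 : 0 < n := by rw [hn]; exact_mod_cast finrank_pos
  have hn' : 0 < n⁻¹ := inv_pos.mpr hn0
  have hZn : 0 ≤ Zs K (1 + n⁻¹) := zero_le_one.trans (one_le_Zs (by linarith))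
  refine ⟨C * Zs K (1 + n⁻¹), by positivity, ?_⟩
  intro c Y hY hc s hs1 hs2 x
  set P : ℝ := (∏ w, Y w ^ mult w) / fN c with hP
  have hP0 : 0 < P := lt_of_lt_of_le hc0 hc
  have hM := mT_pos c hY hs1.le
  set M := mT c Y s with hMd
  set N : (Ideal (𝓞 K))⁰ → ℝ := fun I => (Ideal.absNorm (I : Ideal (𝓞 K)) : ℝ) with hN
  have hN1 : ∀ I, 1 ≤ N I := fun I => one_le_absNorm I
  have hN0 : ∀ I, 0 < N I := fun I => lt_of_lt_of_le one_pos (hN1 I)
  set S : (Ideal (𝓞 K))⁰ → ℝ := fun I =>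
    ∑' t : {t : K // t ∈ (((FractionalIdeal.mk0 K I)⁻¹ * c : (FractionalIdeal (𝓞 K)⁰ K)ˣ) :
      FractionalIdeal (𝓞 K)⁰ K)}, QF K Y s (mixedEmbedding K (t : K) - x) with hS
  -- estimates for every ideal
  have hI : ∀ I, Summable (fun t : {t : K // t ∈ (((FractionalIdeal.mk0 K I)⁻¹ * c :
      (FractionalIdeal (𝓞 K)⁰ K)ˣ) : FractionalIdeal (𝓞 K)⁰ K)} =>
        QF K Y s (mixedEmbedding K (t : K) - x)) ∧
      |S I - N I * M| ≤ C * (N I * P) ^ (-n⁻¹) * (N I * M) := by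
    intro I
    have h1 : (∏ w, Y w ^ mult w) / fN ((FractionalIdeal.mk0 K I)⁻¹ * c) = N I * P := by
      rw [fN_inv_mul, hP]
      have h3 := hN0 I
      have h4 := fN_pos c
      show _ / (fN c / N I) = _
      field_simp
    have h2 := hC ((FractionalIdeal.mk0 K I)⁻¹ * c) Y hY (by
      rw [h1]
      have := hN1 I
      nlinarith) s hs1.le hs2 x
    rw [h1, mT_inv_mul] at h2
    exact h2
  set F : (Ideal (𝓞 K))⁰ × K → ℝ := fun p =>
    if (p.1 : Ideal (𝓞 K)) ≤ den c p.2 then N p.1 ^ (-(2 * s)) *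
      QF K Y s (mixedEmbedding K p.2 - x) else 0 with hF
  have hF0 : 0 ≤ F := by
    intro p
    simp only [hF, Pi.zero_apply]
    split_ifs
    · exact mul_nonneg (Real.rpow_nonneg (hN0 _).le _) (QF_nonneg _ _ _)
    · exact le_rfl
  have hF1 : ∀ I, HasSum (fun t => F (I, t)) (N I ^ (-(2 * s)) * S I) := by
    intro I
    have h1 := ((hI I).1.hasSum).mul_left (N I ^ (-(2 * s)))
    have h2 := (hasSum_subtype_iff_indicator (f := fun t : K => N I ^ (-(2 * s)) *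
      QF K Y s (mixedEmbedding K t - x)) (s := {t : K | t ∈ (((FractionalIdeal.mk0 K I)⁻¹ * c :
      (FractionalIdeal (𝓞 K)⁰ K)ˣ) : FractionalIdeal (𝓞 K)⁰ K)})).mp h1
    convert h2 using 1
    funext t
    simp only [Set.indicator, Set.mem_ofPred_eq, hF, mem_inv_mul_iff]
  have hF2 : ∀ t, HasSum (fun I => F (I, t)) (eisTerm c Y s x t * Zs K (2 * s)) := by
    intro t
    have h1 := (hasSum_multiples (den' c t) (s := 2 * s) (by linarith)).mul_right
      (QF K Y s (mixedEmbedding K t - x))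
    have e1 : (fun I => F (I, t)) = fun I : (Ideal (𝓞 K))⁰ =>
        (if (I : Ideal (𝓞 K)) ≤ (den' c t : Ideal (𝓞 K)) then
          (Ideal.absNorm (I : Ideal (𝓞 K)) : ℝ) ^ (-(2 * s)) else 0) *
          QF K Y s (mixedEmbedding K t - x) := by
      funext I
      simp only [hF, den', ite_mul, zero_mul]
      rfl
    have e2 : eisTerm c Y s x t * Zs K (2 * s) =
        (Ideal.absNorm (den' c t : Ideal (𝓞 K)) : ℝ) ^ (-(2 * s)) * Zs K (2 * s) *
          QF K Y s (mixedEmbedding K t - x) := by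
      unfold eisTerm nd den'
      ring
    rw [e1, e2]
    exact h1
  -- summability
  have hsumN : ∀ r : ℝ, 1 < r → Summable fun I => N I ^ (-r) :=
    fun r hr => EXT.summable_absNorm_rpow K hr
  have hSle : ∀ I, S I ≤ N I * M * (1 + C * c0 ^ (-n⁻¹)) := by
    intro I
    have h1 := (abs_le.mp (hI I).2).2
    have h2 : (N I * P) ^ (-n⁻¹) ≤ c0 ^ (-n⁻¹) := by
      refine Real.rpow_le_rpow_of_nonpos hc0 ?_ (by linarith)
      have := hN1 I
      nlinarith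
    have h3 : C * (N I * P) ^ (-n⁻¹) * (N I * M) ≤ C * c0 ^ (-n⁻¹) * (N I * M) := by
      refine mul_le_mul_of_nonneg_right (mul_le_mul_of_nonneg_left h2 hC0) ?_
      have := hN0 I
      positivity
    nlinarith
  have hFS : Summable F := by
    rw [summable_prod_of_nonneg hF0]
    refine ⟨fun I => (hF1 I).summable, ?_⟩
    have h1 : ∀ I, ∑' t, F (I, t) = N I ^ (-(2 * s)) * S I := fun I => (hF1 I).tsum_eq
    simp_rw [h1]
    refine Summable.of_nonneg_of_le (fun I => ?_) (fun I => ?_)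
      ((hsumN (2 * s - 1) (by linarith)).mul_right (M * (1 + C * c0 ^ (-n⁻¹))))
    · exact mul_nonneg (Real.rpow_nonneg (hN0 _).le _) (tsum_nonneg fun t => QF_nonneg _ _ _)
    · have h2 : N I ^ (-(2 * s - 1)) = N I ^ (-(2 * s)) * N I := by
        have : -(2 * s - 1) = -(2 * s) + 1 := by ring
        rw [this, Real.rpow_add (hN0 I), Real.rpow_one]
      rw [h2]
      calc N I ^ (-(2 * s)) * S I ≤ N I ^ (-(2 * s)) * (N I * M * (1 + C * c0 ^ (-n⁻¹))) :=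
            mul_le_mul_of_nonneg_left (hSle I) (Real.rpow_nonneg (hN0 I).le _)
        _ = _ := by ring
  have hZ2 : 1 ≤ Zs K (2 * s) := one_le_Zs (by linarith)
  have hcomm : ∑' I, ∑' t, F (I, t) = ∑' t, ∑' I, F (I, t) :=
    (Summable.tsum_comm (f := fun I t => F (I, t)) hFS).symm
  have hES : Summable fun t => eisTerm c Y s x t * Zs K (2 * s) := by
    have h1 : Summable fun p : K × (Ideal (𝓞 K))⁰ => F (p.2, p.1) :=
      ((Equiv.prodComm _ _).summable_iff (f := F)).mpr hFS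
    have h2 := (summable_prod_of_nonneg (f := fun p : K × (Ideal (𝓞 K))⁰ => F (p.2, p.1))
      (fun p => hF0 _)).mp h1
    refine h2.2.congr fun t => ?_
    exact (hF2 t).tsum_eq
  have hE : Summable (eisTerm c Y s x) := (summable_mul_right_iff (by linarith)).mp hES
  refine ⟨hE, ?_⟩
  have e1 : Zs K (2 * s) * ∑' t, eisTerm c Y s x t = ∑' I, N I ^ (-(2 * s)) * S I := by
    rw [mul_comm, ← tsum_mul_right]
    have h1 : ∀ t, eisTerm c Y s x t * Zs K (2 * s) = ∑' I, F (I, t) :=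
      fun t => (hF2 t).tsum_eq.symm
    have h2 : ∀ I, N I ^ (-(2 * s)) * S I = ∑' t, F (I, t) := fun I => (hF1 I).tsum_eq.symm
    rw [tsum_congr h1, tsum_congr h2]
    exact hcomm.symm
  have hpow : ∀ I, N I ^ (-(2 * s - 1)) = N I ^ (-(2 * s)) * N I := by
    intro I
    have : -(2 * s - 1) = -(2 * s) + 1 := by ring
    rw [this, Real.rpow_add (hN0 I), Real.rpow_one]
  have e2 : M * Zs K (2 * s - 1) = ∑' I, N I ^ (-(2 * s)) * (N I * M) := by
    unfold Zs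
    rw [← tsum_mul_left]
    refine tsum_congr fun I => ?_
    have := hpow I
    simp only [hN] at this ⊢
    rw [this]
    ring
  have hs1' : Summable fun I => N I ^ (-(2 * s)) * S I := by
    have h2 := ((summable_prod_of_nonneg hF0).mp hFS).2
    refine h2.congr fun I => (hF1 I).tsum_eq
  have hs2' : Summable fun I => N I ^ (-(2 * s)) * (N I * M) := by
    refine ((hsumN (2 * s - 1) (by linarith)).mul_right M).congr fun I => ?_
    rw [hpow I]; ring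
  rw [e1, e2, ← Summable.tsum_sub hs1' hs2']
  have hle : ∀ I, |N I ^ (-(2 * s)) * S I - N I ^ (-(2 * s)) * (N I * M)| ≤
      N I ^ (-(1 + n⁻¹)) * (C * P ^ (-n⁻¹) * M) := by
    intro I
    rw [← mul_sub, abs_mul, abs_of_nonneg (Real.rpow_nonneg (hN0 I).le _)]
    refine (mul_le_mul_of_nonneg_left (hI I).2 (Real.rpow_nonneg (hN0 I).le _)).trans ?_
    rw [Real.mul_rpow (hN0 I).le hP0.le]
    have h1 : N I ^ (-(2 * s)) * (C * (N I ^ (-n⁻¹) * P ^ (-n⁻¹)) * (N I * M)) =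
        (N I ^ (-(2 * s)) * N I ^ (-n⁻¹) * N I) * (C * P ^ (-n⁻¹) * M) := by ring
    rw [h1]
    refine mul_le_mul_of_nonneg_right ?_ (by positivity)
    have h2 : N I ^ (-(2 * s)) * N I ^ (-n⁻¹) * N I = N I ^ (-(2 * s) + -n⁻¹ + 1) := by
      rw [Real.rpow_add (hN0 I), Real.rpow_add (hN0 I), Real.rpow_one]
    rw [h2]
    exact Real.rpow_le_rpow_of_exponent_le (hN1 I) (by linarith)
  have hs3 : Summable fun I => N I ^ (-(1 + n⁻¹)) * (C * P ^ (-n⁻¹) * M) :=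
    (hsumN (1 + n⁻¹) (by linarith)).mul_right _
  have hs4 : Summable fun I => |N I ^ (-(2 * s)) * S I - N I ^ (-(2 * s)) * (N I * M)| :=
    Summable.of_nonneg_of_le (fun I => abs_nonneg _) hle hs3
  calc |∑' I, (N I ^ (-(2 * s)) * S I - N I ^ (-(2 * s)) * (N I * M))|
      ≤ ∑' I, |N I ^ (-(2 * s)) * S I - N I ^ (-(2 * s)) * (N I * M)| := by
        have := norm_tsum_le_tsum_norm (f := fun I =>
          N I ^ (-(2 * s)) * S I - N I ^ (-(2 * s)) * (N I * M)) hs4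
        exact this
    _ ≤ ∑' I, N I ^ (-(1 + n⁻¹)) * (C * P ^ (-n⁻¹) * M) := Summable.tsum_le_tsum hle hs4 hs3
    _ = C * Zs K (1 + n⁻¹) * P ^ (-n⁻¹) * M := by
        rw [tsum_mul_right]
        unfold Zs
        ring

end Fermat.Agent.LT.H.Eis
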