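import Mathlib
import Fermat.Agent.LT.H.EisMain

/-!
# The Eisenstein series near `s = 1`: final estimate
-/

set_option autoImplicit false
set_option linter.unusedSectionVars false
set_option maxSynthPendingDepth 3

open MeasureTheory Module NumberField NumberField.InfinitePlace NumberField.mixedEmbedding
  nonZeroDivisors

namespace Fermat.Agent.LT.H.Eis

open scoped Classical

section aux

lemma J_anti {E : Type*} [NormedAddCommGroup E] [NormedSpace ℝ E] [FiniteDimensional ℝ E]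
    [MeasureSpace E] [BorelSpace E] [(volume : Measure E).IsAddHaarMeasure]
    {d s t : ℝ} (hd : 0 ≤ d) (hs : (finrank ℝ E : ℝ) < 2 * (d * s)) (hst : s ≤ t) :
    J E d t ≤ J E d s := by
  have hst' : d * s ≤ d * t := mul_le_mul_of_nonneg_left hst hd
  refine integral_mono (integrable_J (by linarith)) (integrable_J hs) fun x => ?_
  refine Real.rpow_le_rpow_of_exponent_le (by nlinarith [sq_nonneg ‖x‖]) (by linarith)

lemma rpow_le_sq {c0 h p : ℝ} (hc0 : 0 < c0) (hh : c0 ≤ h) (hp : 0 ≤ p) (hp2 : p ≤ 2) :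
    h ^ p ≤ (1 + (c0 ^ 2)⁻¹) * h ^ 2 := by
  have h0 : 0 < h := lt_of_lt_of_le hc0 hh
  rcases le_total 1 h with h1 | h1
  · have h2 : h ^ p ≤ h ^ (2 : ℝ) := Real.rpow_le_rpow_of_exponent_le h1 hp2
    rw [Real.rpow_two] at h2
    have h3 : 0 ≤ (c0 ^ 2)⁻¹ * h ^ 2 := by positivity
    linarith
  · have h2 : h ^ p ≤ 1 := Real.rpow_le_one h0.le h1 hp
    have h3 : 1 ≤ (c0 ^ 2)⁻¹ * h ^ 2 := by
      rw [← div_eq_inv_mul, one_le_div (by positivity)]
      exact pow_le_pow_left₀ hc0.le hh 2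
    nlinarith [sq_nonneg h]

lemma rpow_neg_le {c0 h q : ℝ} (hc0 : 0 < c0) (hh : c0 ≤ h) (hq : 0 ≤ q) (hq2 : q ≤ 2) :
    h ^ (-q) ≤ 1 + (c0 ^ 2)⁻¹ := by
  have h0 : 0 < h := lt_of_lt_of_le hc0 hh
  rcases le_total 1 c0 with h1 | h1
  · have h2 : h ^ (-q) ≤ 1 := Real.rpow_le_one_of_one_le_of_nonpos (h1.trans hh) (by linarith)
    have : 0 ≤ (c0 ^ 2)⁻¹ := by positivity
    linarith
  · have h2 : h ^ (-q) ≤ c0 ^ (-q) := Real.rpow_le_rpow_of_nonpos hc0 hh (by linarith)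
    have h3 : c0 ^ (-q) ≤ c0 ^ (-2 : ℝ) := Real.rpow_le_rpow_of_exponent_ge hc0 h1 (by linarith)
    have h4 : c0 ^ (-2 : ℝ) = (c0 ^ 2)⁻¹ := by rw [Real.rpow_neg hc0.le, Real.rpow_two]
    rw [h4] at h3
    linarith

lemma abs_rpow_sub_one_le {c0 h s : ℝ} (hc0 : 0 < c0) (hh : c0 ≤ h) (hs : 1 ≤ s) (hs2 : s ≤ 2) :
    |h ^ (1 - s) - 1| ≤ (s - 1) * (h + |Real.log c0| * Real.exp |Real.log c0|) := by
  have h0 : 0 < h := lt_of_lt_of_le hc0 hh
  rw [Real.rpow_def_of_pos h0]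
  have hs0 : 0 ≤ s - 1 := by linarith
  have hL : 0 ≤ |Real.log c0| * Real.exp |Real.log c0| := by positivity
  rcases le_total 1 h with h1 | h1
  · have h2 : 0 ≤ Real.log h := Real.log_nonneg h1
    have h3 : Real.log h ≤ h := (Real.log_le_sub_one_of_pos h0).trans (by linarith)
    have h4 : Real.exp (Real.log h * (1 - s)) ≤ 1 := Real.exp_le_one_iff.mpr (by nlinarith)
    have h5 := Real.add_one_le_exp (Real.log h * (1 - s))
    rw [abs_of_nonpos (by linarith)]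
    nlinarith [mul_le_mul_of_nonneg_left h3 hs0, mul_nonneg hs0 hL]
  · have h2 : Real.log h ≤ 0 := Real.log_nonpos h0.le h1
    have h3 : Real.log c0 ≤ Real.log h := Real.log_le_log hc0 hh
    have h4 : |Real.log h| ≤ |Real.log c0| := by
      rw [abs_of_nonpos h2, abs_of_nonpos (h3.trans h2)]; linarith
    have h5 : |Real.log h * (1 - s)| ≤ (s - 1) * |Real.log c0| := by
      rw [abs_mul, abs_sub_comm, abs_of_nonneg hs0, mul_comm]
      exact mul_le_mul_of_nonneg_left h4 hs0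
    refine (exp_sub_one_le h5).trans ?_
    have h6 : Real.exp ((s - 1) * |Real.log c0|) ≤ Real.exp |Real.log c0| :=
      Real.exp_le_exp.mpr (by nlinarith [abs_nonneg (Real.log c0)])
    have h7 : 0 ≤ (s - 1) * |Real.log c0| := by positivity
    have h8 := mul_le_mul_of_nonneg_left h6 h7
    nlinarith [mul_nonneg hs0 h0.le]

end aux

variable {K : Type*} [Field K] [NumberField K]

lemma Ic_le {s : ℝ} (hs : 1 ≤ s) : Ic K s ≤ Ic K 1 := by
  have h1 : J ℝ 1 s ≤ J ℝ 1 1 := J_anti zero_le_one (by rw [finrank_self]; push_cast; linarith) hs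
  have h2 : J ℂ 2 s ≤ J ℂ 2 1 :=
    J_anti zero_le_two (by rw [Complex.finrank_real_complex]; push_cast; linarith) hs
  have h3 : 0 < J ℝ 1 s := J_pos (by rw [finrank_self]; push_cast; linarith)
  have h4 : 0 < J ℂ 2 s := J_pos (by rw [Complex.finrank_real_complex]; push_cast; linarith)
  unfold Ic
  have h5 := h3.trans_le h1
  gcongr

lemma Ic_ge {s : ℝ} (hs : 1 ≤ s) (hs2 : s ≤ 2) : Ic K 2 ≤ Ic K s := by
  have h1 : J ℝ 1 2 ≤ J ℝ 1 s := J_anti zero_le_one (by rw [finrank_self]; push_cast; linarith) hs2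
  have h2 : J ℂ 2 2 ≤ J ℂ 2 s :=
    J_anti zero_le_two (by rw [Complex.finrank_real_complex]; push_cast; linarith) hs2
  have h3 : 0 < J ℝ 1 2 := J_pos (by rw [finrank_self]; push_cast; linarith)
  have h4 : 0 < J ℂ 2 2 := J_pos (by rw [Complex.finrank_real_complex]; push_cast; linarith)
  unfold Ic
  have h5 := h3.trans_le h1
  gcongr

variable (K) in
/-- the scattering function -/
noncomputable def scat (s : ℝ) : ℝ := (EXT.PartialZeta.vK K)⁻¹ * Ic K s * Zs K (2 * s - 1) / Zs K (2 * s)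

/-- the height of the cusp at infinity of the point `(x, Y)`, lattice `c ⊕ 𝓞` -/
noncomputable def hInf (c : (FractionalIdeal (𝓞 K)⁰ K)ˣ) (Y : InfinitePlace K → ℝ) : ℝ :=
  (∏ w, Y w ^ mult w) / fN c

/-- The Eisenstein series at the point `(x, Y)`, lattice `c ⊕ 𝓞`. -/
noncomputable def eisE (c : (FractionalIdeal (𝓞 K)⁰ K)ˣ) (Y : InfinitePlace K → ℝ) (s : ℝ)
    (x : mixedSpace K) : ℝ :=
  hInf c Y ^ s + (fN c * ∏ w, Y w ^ mult w) ^ s * ∑' t, eisTerm c Y s x t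

variable (K)

lemma scat_bounds : ∃ A B : ℝ, 0 < A ∧ 0 < B ∧ ∀ s : ℝ, 1 < s → s ≤ 2 →
    A / (s - 1) ≤ scat K s ∧ scat K s ≤ B / (s - 1) := by
  obtain ⟨A, B, hA, hB, hAB⟩ := exists_Zs_bounds K
  have hv := EXT.PartialZeta.vK_pos K
  set v := EXT.PartialZeta.vK K with hvd
  have hI2 : 0 < Ic K 2 := Ic_pos one_le_two
  have hI1 : 0 < Ic K 1 := Ic_pos le_rfl
  have hZ2 : 1 ≤ Zs K 2 := one_le_Zs one_lt_two
  refine ⟨v⁻¹ * Ic K 2 * (A / 2) / Zs K 2, v⁻¹ * Ic K 1 * (B / 2), by positivity, by positivity, ?_⟩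
  intro s hs1 hs2
  have hs0 : 0 < s - 1 := by linarith
  obtain ⟨h1, h2⟩ := hAB (2 * s - 1) (by linarith) (by linarith)
  have e : 2 * s - 1 - 1 = 2 * (s - 1) := by ring
  rw [e] at h1 h2
  have h3 : 1 ≤ Zs K (2 * s) := one_le_Zs (by linarith)
  have h4 : Zs K (2 * s) ≤ Zs K 2 := Zs_anti one_lt_two (by linarith)
  have h5 := Ic_ge (K := K) hs1.le hs2
  have h6 := Ic_le (K := K) hs1.le
  have h7 : 0 < Ic K s := Ic_pos hs1.le
  have h8 : 1 ≤ Zs K (2 * s - 1) := one_le_Zs (by linarith)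
  have hA2 : 0 < A / (2 * (s - 1)) := by positivity
  unfold scat
  rw [← hvd]
  constructor
  · calc v⁻¹ * Ic K 2 * (A / 2) / Zs K 2 / (s - 1)
        = v⁻¹ * Ic K 2 * (A / (2 * (s - 1))) / Zs K 2 := by field_simp
      _ ≤ v⁻¹ * Ic K s * Zs K (2 * s - 1) / Zs K (2 * s) := by gcongr
  · calc v⁻¹ * Ic K s * Zs K (2 * s - 1) / Zs K (2 * s)
        ≤ v⁻¹ * Ic K 1 * (B / (2 * (s - 1))) / 1 := by gcongr
      _ = v⁻¹ * Ic K 1 * (B / 2) / (s - 1) := by field_simp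

variable {K} in
lemma pow_mul_mT (c : (FractionalIdeal (𝓞 K)⁰ K)ˣ) {Y : InfinitePlace K → ℝ} (hY : ∀ w, 0 < Y w)
    (s : ℝ) : (fN c * ∏ w, Y w ^ mult w) ^ s * mT c Y s =
      (EXT.PartialZeta.vK K)⁻¹ * Ic K s * hInf c Y ^ (1 - s) := by
  unfold mT hInf
  have h1 := fN_pos c
  have h2 := EXT.PartialZeta.vK_pos K
  have h4 : 0 < ∏ w : InfinitePlace K, Y w ^ mult w := Finset.prod_pos fun w _ => pow_pos (hY w) _
  set P := ∏ w : InfinitePlace K, Y w ^ mult w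
  set N := fN c
  rw [Real.mul_rpow h1.le h4.le, Real.div_rpow h4.le h1.le]
  have e1 : P ^ (1 - 2 * s) = P ^ (1 - s) * (P ^ s)⁻¹ := by
    rw [← Real.rpow_neg h4.le, ← Real.rpow_add h4]; congr 1; ring
  have e2 : N ^ (1 - s) = N * (N ^ s)⁻¹ := by
    rw [← Real.rpow_neg h1.le]
    nth_rewrite 2 [← Real.rpow_one N]
    rw [← Real.rpow_add h1]; congr 1
  rw [e1, e2]
  have h5 : 0 < P ^ s := Real.rpow_pos_of_pos h4 _
  have h6 : 0 < N ^ s := Real.rpow_pos_of_pos h1 _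
  field_simp

/-- The behaviour of the Eisenstein series near `s = 1`. -/
theorem eis_final (c0 : ℝ) (hc0 : 0 < c0) : ∃ C : ℝ, 0 ≤ C ∧
    ∀ (c : (FractionalIdeal (𝓞 K)⁰ K)ˣ) (Y : InfinitePlace K → ℝ), (∀ w, 0 < Y w) →
      c0 ≤ hInf c Y → ∀ s : ℝ, 1 < s → s ≤ 2 → ∀ x : mixedSpace K,
      Summable (eisTerm c Y s x) ∧ |eisE c Y s x - scat K s| ≤ C * hInf c Y ^ 2 := by
  obtain ⟨C, hC0, hC⟩ := eis_sum_aux K c0 hc0
  obtain ⟨A, B, hA, hB, hAB⟩ := scat_bounds K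
  set n : ℝ := (finrank ℚ K : ℝ) with hn
  have hn1 : 1 ≤ n := by rw [hn]; exact_mod_cast Nat.one_le_iff_ne_zero.mpr finrank_pos.ne'
  have hn0 : 0 < n⁻¹ := inv_pos.mpr (by linarith)
  have hn1' : n⁻¹ ≤ 1 := inv_le_one_of_one_le₀ hn1
  have hv := EXT.PartialZeta.vK_pos K
  set v := EXT.PartialZeta.vK K with hvd
  have hI1 : 0 < Ic K 1 := Ic_pos le_rfl
  set D : ℝ := 1 + (c0 ^ 2)⁻¹ with hD
  have hD0 : 0 < D := by positivity
  set L : ℝ := |Real.log c0| * Real.exp |Real.log c0| with hL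
  have hL0 : 0 ≤ L := by positivity
  refine ⟨D + C * (v⁻¹ * Ic K 1) * D * D + B * (D + L * D), by positivity, ?_⟩
  intro c Y hY hc s hs1 hs2 x
  obtain ⟨hS, hE⟩ := hC c Y hY hc s hs1 hs2 x
  refine ⟨hS, ?_⟩
  set h := hInf c Y with hh
  have h0 : 0 < h := lt_of_lt_of_le hc0 hc
  have hE' : |Zs K (2 * s) * ∑' t, eisTerm c Y s x t - mT c Y s * Zs K (2 * s - 1)| ≤
      C * h ^ (-n⁻¹) * mT c Y s := hE
  have hP : 0 < ∏ w : InfinitePlace K, Y w ^ mult w := Finset.prod_pos fun w _ => pow_pos (hY w) _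
  set P := ∏ w : InfinitePlace K, Y w ^ mult w with hPd
  have hN := fN_pos c
  have hQ : 0 < (fN c * P) ^ s := by positivity
  have hZ : 1 ≤ Zs K (2 * s) := one_le_Zs (by linarith)
  have hZ0 : 0 < Zs K (2 * s) := by linarith
  have hI : 0 < Ic K s := Ic_pos hs1.le
  have hpm := pow_mul_mT c hY s
  rw [← hPd, ← hvd, ← hh] at hpm
  set T := ∑' t, eisTerm c Y s x t with hT
  -- second estimate
  have h2 : |(fN c * P) ^ s * T - scat K s * h ^ (1 - s)| ≤ C * (v⁻¹ * Ic K 1) * D := by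
    have e1 : (fN c * P) ^ s * T - scat K s * h ^ (1 - s) =
        (Zs K (2 * s))⁻¹ * ((fN c * P) ^ s * (Zs K (2 * s) * T - mT c Y s * Zs K (2 * s - 1))) := by
      have e2 : scat K s * h ^ (1 - s) = (Zs K (2 * s))⁻¹ * (((fN c * P) ^ s * mT c Y s) *
          Zs K (2 * s - 1)) := by
        rw [hpm, scat, ← hvd]
        field_simp
      rw [e2]
      field_simp
    rw [e1, abs_mul, abs_mul, abs_of_pos (inv_pos.mpr hZ0), abs_of_pos hQ]
    have h3 : (Zs K (2 * s))⁻¹ ≤ 1 := inv_le_one_of_one_le₀ hZ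
    have h4 : (fN c * P) ^ s * |Zs K (2 * s) * T - mT c Y s * Zs K (2 * s - 1)| ≤
        C * (v⁻¹ * Ic K 1) * D := by
      calc (fN c * P) ^ s * |Zs K (2 * s) * T - mT c Y s * Zs K (2 * s - 1)|
          ≤ (fN c * P) ^ s * (C * h ^ (-n⁻¹) * mT c Y s) := mul_le_mul_of_nonneg_left hE' hQ.le
        _ = C * h ^ (-n⁻¹) * ((fN c * P) ^ s * mT c Y s) := by ring
        _ = C * (v⁻¹ * Ic K s) * h ^ (-(n⁻¹ + (s - 1))) := by
            rw [hpm]
            have : -(n⁻¹ + (s - 1)) = -n⁻¹ + (1 - s) := by ring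
            rw [this, Real.rpow_add h0]
            ring
        _ ≤ C * (v⁻¹ * Ic K 1) * D := by
            have h5 := rpow_neg_le (q := n⁻¹ + (s - 1)) hc0 hc (by linarith) (by linarith)
            have h6 := Ic_le (K := K) hs1.le
            gcongr
    calc (Zs K (2 * s))⁻¹ * ((fN c * P) ^ s *
          |Zs K (2 * s) * T - mT c Y s * Zs K (2 * s - 1)|)
        ≤ 1 * (C * (v⁻¹ * Ic K 1) * D) := by gcongr
      _ = _ := one_mul _
  have hsc := (hAB s hs1 hs2).2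
  have hsc0 : 0 < scat K s := lt_of_lt_of_le (by have : 0 < s - 1 := by linarith
                                                 positivity) (hAB s hs1 hs2).1
  have h3 : |scat K s * h ^ (1 - s) - scat K s| ≤ B * (h + L) := by
    have e1 : scat K s * h ^ (1 - s) - scat K s = scat K s * (h ^ (1 - s) - 1) := by ring
    rw [e1, abs_mul, abs_of_pos hsc0]
    have h4 := abs_rpow_sub_one_le hc0 hc hs1.le hs2
    have hs0 : 0 < s - 1 := by linarith
    calc scat K s * |h ^ (1 - s) - 1| ≤ B / (s - 1) * ((s - 1) * (h + L)) := by gcongr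
      _ = B * (h + L) := by field_simp
  have h4 : h ^ s ≤ D * h ^ 2 := rpow_le_sq hc0 hc (by linarith) hs2
  have h5 : (1 : ℝ) ≤ D * h ^ 2 := by
    have := rpow_le_sq (p := 0) hc0 hc le_rfl (by norm_num)
    rwa [Real.rpow_zero] at this
  have h6 : h ≤ D * h ^ 2 := by
    have := rpow_le_sq (p := 1) hc0 hc (by norm_num) (by norm_num)
    rwa [Real.rpow_one] at this
  have h7 : |eisE c Y s x - scat K s| ≤ h ^ s + C * (v⁻¹ * Ic K 1) * D + B * (h + L) := by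
    have e1 : eisE c Y s x - scat K s = h ^ s + ((fN c * P) ^ s * T - scat K s * h ^ (1 - s)) +
        (scat K s * h ^ (1 - s) - scat K s) := by
      unfold eisE
      rw [← hh, ← hT, ← hPd]
      ring
    rw [e1]
    refine (abs_add_three _ _ _).trans ?_
    have : |h ^ s| = h ^ s := abs_of_nonneg (Real.rpow_nonneg h0.le _)
    rw [this]
    linarith
  refine h7.trans ?_
  have h8 : C * (v⁻¹ * Ic K 1) * D ≤ C * (v⁻¹ * Ic K 1) * D * (D * h ^ 2) :=
    le_mul_of_one_le_right (by positivity) h5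
  have h9 : B * (h + L) ≤ B * (D * h ^ 2 + L * (D * h ^ 2)) := by
    refine mul_le_mul_of_nonneg_left ?_ hB.le
    have := le_mul_of_one_le_right hL0 h5
    linarith
  calc h ^ s + C * (v⁻¹ * Ic K 1) * D + B * (h + L)
      ≤ D * h ^ 2 + C * (v⁻¹ * Ic K 1) * D * (D * h ^ 2) + B * (D * h ^ 2 + L * (D * h ^ 2)) := by
        linarith
    _ = _ := by ring

end Fermat.Agent.LT.H.Eis
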