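import Fermat.Agent.LT.H.H1Cell

/-!
# H1: the behaviour of the Eisenstein series of principal level near `s = 1`
-/

open NumberField IsDedekindDomain Matrix MeasureTheory
open scoped ENNReal LinearAlgebra.Projectivization

namespace Fermat.Agent.LT.H.H1

open Fermat.LT Fermat.Agent.LT.CTree Fermat.Agent.LT.H.Line Fermat.Agent.LT.H.Cell

variable {F : Type} [Field F] [NumberField F] {n : Pl F → ℕ} {hn : {w | n w ≠ 0}.Finite}

/-- local representatives -/
noncomputable def rp (y : Y (princ n hn)) (w : Pl F) : G2 F := Quotient.out (y w)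

theorem rp_spec (y : Y (princ n hn)) (w : Pl F) :
    ((rp y w : G2 F) : Yl (princ n hn) w) = y w := Quotient.out_eq' _

variable (n) in
/-- exponents -/
noncomputable def jT (T : Finset (Pl F)) (w : Pl F) : ℕ :=
  open Classical in if w ∈ T then n w - 1 else n w

theorem jT_le (T : Finset (Pl F)) (w : Pl F) : jT n T w ≤ n w := by
  unfold jT; split_ifs <;> omega

theorem jT_zero (T : Finset (Pl F)) {w : Pl F} (hw : n w = 0) : jT n T w = 0 :=
  Nat.le_zero.mp (hw ▸ jT_le T w)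

theorem one_class {w : Pl F} {g : G2 F}
    (h : (g : Yl (princ n hn) w) = ((1 : G2 F) : Yl (princ n hn) w)) :
    ((g : G2 F) : Yl (Level.one F) w) = ((1 : G2 F) : Yl (Level.one F) w) := by
  rw [QuotientGroup.eq] at h ⊢
  exact (princ n hn).le_std w h

/-- the level one points -/
noncomputable def yT (y : Y (princ n hn)) (T : Finset (Pl F)) : Y (Level.one F) where
  val w := ((gd w (rp y w) (jT n T w) : G2 F) : Yl (Level.one F) w)
  fin := by
    refine (y.fin.union hn).subset fun w hw => ?_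
    by_contra hc
    simp only [Set.mem_union, Set.mem_ofPred_eq, not_or, not_not] at hc
    apply hw
    change ((gd w (rp y w) (jT n T w) : G2 F) : Yl (Level.one F) w) = _
    rw [jT_zero T hc.2, gd_zero]
    exact one_class (hn := hn) (by rw [rp_spec]; exact hc.1)

theorem yT_apply (y : Y (princ n hn)) (T : Finset (Pl F)) (w : Pl F) :
    (yT y T) w = ((gd w (rp y w) (jT n T w) : G2 F) : Yl (Level.one F) w) := rfl

/-- ratios -/
noncomputable def rT (y : Y (princ n hn)) (v : Fin 2 → F) (T : Finset (Pl F)) (w : Pl F) : ℝ :=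
  hloc w v (gd w (rp y w) (jT n T w)) / hloc w v (rp y w)

theorem rT_pos (y : Y (princ n hn)) {v : Fin 2 → F} (hv : v ≠ 0) (T : Finset (Pl F)) (w : Pl F) :
    0 < rT y v T w := div_pos (hloc_pos w hv _) (hloc_pos w hv _)

theorem rT_eq_one (y : Y (princ n hn)) {v : Fin 2 → F} (hv : v ≠ 0) (T : Finset (Pl F)) {w : Pl F}
    (hw : n w = 0) : rT y v T w = 1 := by
  rw [rT, jT_zero T hw, gd_zero, div_self (hloc_pos w hv _).ne']

theorem rT_ge (y : Y (princ n hn)) {v : Fin 2 → F} (hv : v ≠ 0) (T : Finset (Pl F)) (w : Pl F) :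
    (qv w ^ n w)⁻¹ ≤ rT y v T w := by
  rw [rT, le_div_iff₀ (hloc_pos w hv _)]
  refine le_trans ?_ (hloc_gd_ge w hv (rp y w) (jT n T w))
  refine mul_le_mul_of_nonneg_right ?_ (hloc_pos w hv _).le
  rw [← inv_pow]
  exact pow_le_pow_of_le_one (inv_nonneg.mpr (qv_pos w).le)
    (inv_le_one_of_one_le₀ (one_lt_qv w).le) (jT_le T w)

theorem rT_le (y : Y (princ n hn)) {v : Fin 2 → F} (hv : v ≠ 0) (T : Finset (Pl F)) (w : Pl F) :
    rT y v T w ≤ qv w ^ n w := by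
  rw [rT, div_le_iff₀ (hloc_pos w hv _)]
  refine (hloc_gd_le w hv (rp y w) (jT n T w)).trans ?_
  refine mul_le_mul_of_nonneg_right ?_ (hloc_pos w hv _).le
  exact pow_le_pow_right₀ (one_lt_qv w).le (jT_le T w)

theorem hfin_yT (y : Y (princ n hn)) {v : Fin 2 → F} (hv : v ≠ 0) (T : Finset (Pl F)) :
    hfin v (yT y T) = hfin v y * ∏ w ∈ hn.toFinset, rT y v T w := by
  have h1 : ∏ w ∈ hn.toFinset, rT y v T w = ∏ᶠ w, rT y v T w := by
    symm
    apply finprod_eq_prod_of_mulSupport_subset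
    intro w hw
    by_contra hc
    apply hw
    apply rT_eq_one y hv T
    by_contra h
    exact hc (by simpa using h)
  have hfin1 : (Function.mulSupport fun w => rT y v T w).Finite := by
    refine hn.subset fun w hw => ?_
    by_contra hc
    apply hw
    apply rT_eq_one y hv T
    simpa using hc
  rw [h1, hfin, hfin, ← finprod_mul_distrib (hY_finite hv y) hfin1]
  refine finprod_congr fun w => ?_
  have h2 := hloc_pos w hv (rp y w)
  rw [yT_apply, ← rp_spec y w, hY_mk, hY_mk, rT]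
  field_simp

/-- the points of level one -/
noncomputable def xT {Ar : Arch F} (x : X (⟨Ar, princ n hn⟩ : Datum F)) (T : Finset (Pl F)) :
    X (⟨Ar, Level.one F⟩ : Datum F) := (x.1, yT x.2 T)

theorem ht_xT {Ar : Arch F} (x : X (⟨Ar, princ n hn⟩ : Datum F)) {v : Fin 2 → F} (hv : v ≠ 0)
    (T : Finset (Pl F)) : ht v (xT x T) = ht v x * ∏ w ∈ hn.toFinset, rT x.2 v T w := by
  rw [ht, ht, xT]
  have := hfin_yT x.2 hv T
  rw [mul_assoc, ← this]

/-- all the places of `S` are in the cell -/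
def AllCell (y : Y (princ n hn)) (v : Fin 2 → F) : Prop :=
  ∀ w ∈ hn.toFinset, ∃ α : Fˣ, InCell n w v (rp y w) α

open Classical in
theorem clY_one (G : Type) [CommGroup G] (y : Y (princ n hn)) (v : Fin 2 → F) (w : Pl F) :
    clY (HChar.one n G) w v (y w) =
      if ∃ α : Fˣ, InCell n w v (rp y w) α then 1 else 0 := by
  rw [← rp_spec y w, clY_mk]
  split_ifs with h
  · obtain ⟨α, hα⟩ := h
    rw [cl_of_inCell _ hα]
    simp [HChar.one]
  · exact (cl_eq_zero_iff _).mpr h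

theorem cls_one_iff (G : Type) [CommGroup G] (y : Y (princ n hn)) {v : Fin 2 → F} (hv : v ≠ 0) :
    cls (HChar.one n G) v y = ((1 : G) : WithZero G) ↔ AllCell y v := by
  constructor
  · intro h w hw
    by_contra hc
    have h0 : clY (HChar.one n G) w v (y w) = 0 := by rw [clY_one, if_neg hc]
    have h1 : cls (HChar.one n G) v y = 0 := by
      rw [cls, finprod_eq_prod (fun w => clY (HChar.one n G) w v (y w)) (clY_mulSupport _ hv y)]
      refine Finset.prod_eq_zero (i := w) ?_ h0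
      rw [Set.Finite.mem_toFinset, Function.mem_mulSupport, h0]
      exact zero_ne_one
    rw [h1] at h
    exact WithZero.coe_ne_zero h.symm
  · intro h
    rw [cls, WithZero.coe_one]
    apply finprod_eq_one_of_forall_eq_one
    intro w
    rw [clY_one, if_pos]
    by_cases hw : n w = 0
    · exact exists_inCell_zero hw hv _
    · exact h w (by simpa using hw)

/-- `p^(n s)` -/
noncomputable def Aw (n : Pl F → ℕ) (w : Pl F) (s : ℝ) : ℝ := ((qv w)⁻¹ ^ n w) ^ s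

/-- the second coefficient -/
noncomputable def Bw (n : Pl F → ℕ) (w : Pl F) (s : ℝ) : ℝ :=
  (qv w)⁻¹ ^ (2 * s) * ((qv w)⁻¹ ^ (n w - 1)) ^ s

/-- coefficients -/
noncomputable def kT (hn : {w | n w ≠ 0}.Finite) (T : Finset (Pl F)) (s : ℝ) : ℝ :=
  open Classical in
  (∏ w ∈ T, (-Bw n w s)) * ∏ w ∈ hn.toFinset \ T, Aw n w s

/-- the denominator -/
noncomputable def Pw (hn : {w | n w ≠ 0}.Finite) (s : ℝ) : ℝ :=
  ∏ w ∈ hn.toFinset, (1 - (qv w)⁻¹ ^ (2 * s))

theorem ratio_local (y : Y (princ n hn)) {v : Fin 2 → F} (hv : v ≠ 0) {w : Pl F} (hw : n w ≠ 0)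
    (s : ℝ) :
    open Classical in
    (if ∃ α : Fˣ, InCell n w v (rp y w) α then (1 : ℝ) else 0) * (1 - (qv w)⁻¹ ^ (2 * s)) =
      -(Bw n w s * (hloc w v (gd w (rp y w) (n w - 1)) / hloc w v (rp y w)) ^ s) +
      Aw n w s * (hloc w v (gd w (rp y w) (n w)) / hloc w v (rp y w)) ^ s := by
  classical
  have h := cell_local hw hv (rp y w) s
  have h0 := hloc_pos w hv (rp y w)
  have h1 := hloc_pos w hv (gd w (rp y w) (n w))
  have h2 := hloc_pos w hv (gd w (rp y w) (n w - 1))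
  have h3 : 0 < hloc w v (rp y w) ^ s := Real.rpow_pos_of_pos h0 _
  rw [Real.div_rpow h1.le h0.le, Real.div_rpow h2.le h0.le, Aw, Bw]
  have h4 : (if ∃ α : Fˣ, InCell n w v (rp y w) α then (1 : ℝ) else 0) =
      (if ∃ α : Fˣ, InCell n w v (rp y w) α then hloc w v (rp y w) ^ s else 0) /
        hloc w v (rp y w) ^ s := by
    split_ifs
    · rw [div_self h3.ne']
    · rw [zero_div]
  rw [h4, div_mul_eq_mul_div, h]
  field_simp
  ring

theorem main_id (y : Y (princ n hn)) {v : Fin 2 → F} (hv : v ≠ 0) (s : ℝ) :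
    open Classical in
    (if AllCell y v then (1 : ℝ) else 0) * Pw hn s =
      ∑ T ∈ hn.toFinset.powerset, kT hn T s * (∏ w ∈ hn.toFinset, rT y v T w) ^ s := by
  classical
  have h1 : (if AllCell y v then (1 : ℝ) else 0) =
      ∏ w ∈ hn.toFinset, (if ∃ α : Fˣ, InCell n w v (rp y w) α then (1 : ℝ) else 0) := by
    split_ifs with h
    · symm
      apply Finset.prod_eq_one
      intro w hw
      rw [if_pos (h w hw)]
    · rw [AllCell] at h
      push Not at h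
      obtain ⟨w, hw, hw2⟩ := h
      symm
      apply Finset.prod_eq_zero hw
      rw [if_neg]
      push Not
      exact hw2
  rw [h1, Pw, ← Finset.prod_mul_distrib]
  have h2 : ∀ w ∈ hn.toFinset,
      (if ∃ α : Fˣ, InCell n w v (rp y w) α then (1 : ℝ) else 0) * (1 - (qv w)⁻¹ ^ (2 * s)) =
      -(Bw n w s * (hloc w v (gd w (rp y w) (n w - 1)) / hloc w v (rp y w)) ^ s) +
      Aw n w s * (hloc w v (gd w (rp y w) (n w)) / hloc w v (rp y w)) ^ s := by
    intro w hw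
    have hw' : n w ≠ 0 := by simpa using hw
    convert ratio_local y hv hw' s
  rw [Finset.prod_congr rfl h2, Finset.prod_add]
  refine Finset.sum_congr rfl fun T hT => ?_
  have hTS := Finset.mem_powerset.mp hT
  rw [← Real.finsetProd_rpow _ _ (fun w _ => (rT_pos y hv T w).le),
    ← Finset.prod_sdiff hTS, kT]
  have h3 : ∏ w ∈ T, -(Bw n w s * (hloc w v (gd w (rp y w) (n w - 1)) / hloc w v (rp y w)) ^ s) =
      (∏ w ∈ T, -Bw n w s) * ∏ w ∈ T, rT y v T w ^ s := by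
    rw [← Finset.prod_mul_distrib]
    refine Finset.prod_congr rfl fun w hw => ?_
    rw [rT, jT, if_pos hw]
    ring
  have h4 : ∏ w ∈ hn.toFinset \ T,
      Aw n w s * (hloc w v (gd w (rp y w) (n w)) / hloc w v (rp y w)) ^ s =
      (∏ w ∈ hn.toFinset \ T, Aw n w s) * ∏ w ∈ hn.toFinset \ T, rT y v T w ^ s := by
    rw [← Finset.prod_mul_distrib]
    refine Finset.prod_congr rfl fun w hw => ?_
    rw [rT, jT, if_neg (Finset.mem_sdiff.mp hw).2]
  rw [h3, h4]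
  have h5 : (∏ w ∈ hn.toFinset \ T, Aw n w s) = ∏ w ∈ hn.toFinset \ T, Aw n w s := rfl
  ring_nf

theorem qinv_lt (w : Pl F) : (qv w)⁻¹ < 1 := inv_lt_one_of_one_lt₀ (one_lt_qv w)
theorem qinv_pos (w : Pl F) : 0 < (qv w)⁻¹ := inv_pos.mpr (qv_pos w)

theorem Aw_pos (w : Pl F) (s : ℝ) : 0 < Aw n w s :=
  Real.rpow_pos_of_pos (pow_pos (qinv_pos w) _) _

theorem Bw_pos (w : Pl F) (s : ℝ) : 0 < Bw n w s :=
  mul_pos (Real.rpow_pos_of_pos (qinv_pos w) _) (Real.rpow_pos_of_pos (pow_pos (qinv_pos w) _) _)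

theorem Aw_le (w : Pl F) {s : ℝ} (hs : 0 ≤ s) : Aw n w s ≤ 1 :=
  Real.rpow_le_one (pow_pos (qinv_pos w) _).le (pow_le_one₀ (qinv_pos w).le (qinv_lt w).le) hs

theorem Bw_le (w : Pl F) {s : ℝ} (hs : 0 ≤ s) : Bw n w s ≤ 1 :=
  mul_le_one₀ (Real.rpow_le_one (qinv_pos w).le (qinv_lt w).le (by linarith))
    (Real.rpow_nonneg (pow_pos (qinv_pos w) _).le _)
    (Real.rpow_le_one (pow_pos (qinv_pos w) _).le (pow_le_one₀ (qinv_pos w).le (qinv_lt w).le) hs)

theorem abs_kT_le (T : Finset (Pl F)) {s : ℝ} (hs : 0 ≤ s) : |kT hn T s| ≤ 1 := by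
  classical
  rw [kT, abs_mul, Finset.abs_prod, Finset.abs_prod]
  refine mul_le_one₀ (Finset.prod_le_one (fun w _ => abs_nonneg _) fun w _ => ?_)
    (Finset.prod_nonneg fun w _ => abs_nonneg _)
    (Finset.prod_le_one (fun w _ => abs_nonneg _) fun w _ => ?_)
  · rw [abs_neg, abs_of_pos (Bw_pos w s)]; exact Bw_le w hs
  · rw [abs_of_pos (Aw_pos w s)]; exact Aw_le w hs

theorem sum_kT (s : ℝ) : ∑ T ∈ hn.toFinset.powerset, kT hn T s =
    ∏ w ∈ hn.toFinset, (Aw n w s - Bw n w s) := by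
  classical
  have : ∀ w ∈ hn.toFinset, Aw n w s - Bw n w s = -Bw n w s + Aw n w s := fun w _ => by ring
  rw [Finset.prod_congr rfl this, Finset.prod_add]
  refine Finset.sum_congr rfl fun T _ => ?_
  rw [kT]

theorem factor_eq {w : Pl F} (hw : n w ≠ 0) {s : ℝ} :
    Aw n w s - Bw n w s = Aw n w s * (1 - (qv w)⁻¹ ^ s) := by
  have hp := qinv_pos w
  have h1 : Bw n w s = Aw n w s * (qv w)⁻¹ ^ s := by
    rw [Aw, Bw]
    have e1 : (qv w)⁻¹ ^ (2 * s) = ((qv w)⁻¹ ^ 2) ^ s := by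
      rw [Real.rpow_mul hp.le]; norm_cast
    rw [e1, ← Real.mul_rpow (by positivity) (by positivity),
      ← Real.mul_rpow (by positivity) (by positivity), ← pow_add, ← pow_succ]
    congr 2; omega
  rw [h1]; ring

/-- the ratio between the constant term in level `n` and level one -/
noncomputable def fac (hn : {w | n w ≠ 0}.Finite) (s : ℝ) : ℝ :=
  (Pw hn s)⁻¹ * ∏ w ∈ hn.toFinset, (Aw n w s - Bw n w s)

theorem fac_eq {s : ℝ} (hs : 0 < s) :
    fac hn s = ∏ w ∈ hn.toFinset, Aw n w s * (1 + (qv w)⁻¹ ^ s)⁻¹ := by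
  rw [fac, Pw, ← Finset.prod_inv_distrib, ← Finset.prod_mul_distrib]
  refine Finset.prod_congr rfl fun w hw => ?_
  have hw' : n w ≠ 0 := by simpa using hw
  have hp := qinv_pos w
  have h1 : (qv w)⁻¹ ^ (2 * s) = ((qv w)⁻¹ ^ s) ^ 2 := by
    rw [two_mul, Real.rpow_add hp]; ring
  rw [factor_eq hw', h1]
  have h2 : (qv w)⁻¹ ^ s < 1 := Real.rpow_lt_one hp.le (qinv_lt w) hs
  have h3 : 0 < (qv w)⁻¹ ^ s := Real.rpow_pos_of_pos hp _
  set t := (qv w)⁻¹ ^ s
  have h4 : 1 - t ≠ 0 := by linarith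
  have h5 : 1 + t ≠ 0 := by linarith
  have h6 : 1 - t ^ 2 = (1 - t) * (1 + t) := by ring
  rw [h6]
  field_simp

theorem fac_bounds (hn : {w | n w ≠ 0}.Finite) : ∃ f0 : ℝ, 0 < f0 ∧ ∀ s : ℝ, 1 < s → s ≤ 2 →
    f0 ≤ fac hn s ∧ fac hn s ≤ 1 := by
  refine ⟨∏ w ∈ hn.toFinset, ((qv w)⁻¹ ^ n w) ^ (2 : ℝ) * (1 + 1)⁻¹,
    Finset.prod_pos fun w _ => ?_, fun s hs1 hs2 => ?_⟩
  · have := pow_pos (qinv_pos w) (n w)
    positivity
  rw [fac_eq (by linarith)]
  have hA : ∀ w : Pl F, 0 < (qv w)⁻¹ ^ n w := fun w => pow_pos (qinv_pos w) (n w)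
  constructor
  · refine Finset.prod_le_prod (fun w _ => by have := hA w; positivity) fun w _ => ?_
    have h1 := hA w
    have h2 : (qv w)⁻¹ ^ s ≤ 1 := Real.rpow_le_one (qinv_pos w).le (qinv_lt w).le (by linarith)
    have h3 : 0 < (qv w)⁻¹ ^ s := Real.rpow_pos_of_pos (qinv_pos w) _
    refine mul_le_mul ?_ ?_ (by positivity) (Aw_pos w s).le
    · exact Real.rpow_le_rpow_of_exponent_ge h1
        (pow_le_one₀ (qinv_pos w).le (qinv_lt w).le) hs2
    · exact inv_anti₀ (by linarith) (by linarith)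
  · refine Finset.prod_le_one (fun w _ => ?_) fun w _ => ?_
    · have h3 : 0 < (qv w)⁻¹ ^ s := Real.rpow_pos_of_pos (qinv_pos w) _
      have := (Aw_pos (n := n) w s).le
      positivity
    · have h3 : 0 < (qv w)⁻¹ ^ s := Real.rpow_pos_of_pos (qinv_pos w) _
      refine mul_le_one₀ (Aw_le w (by linarith)) (by positivity) ?_
      exact inv_le_one_of_one_le₀ (by linarith)

theorem Pw_bounds (hn : {w | n w ≠ 0}.Finite) : ∃ p0 : ℝ, 0 < p0 ∧ ∀ s : ℝ, 1 < s → s ≤ 2 →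
    0 < Pw hn s ∧ (Pw hn s)⁻¹ ≤ p0 := by
  have h2 : ∀ w : Pl F, (qv w)⁻¹ ^ (2 : ℝ) < 1 := fun w =>
    Real.rpow_lt_one (qinv_pos w).le (qinv_lt w) (by norm_num)
  have h0 : 0 < ∏ w ∈ hn.toFinset, (1 - (qv w)⁻¹ ^ (2 : ℝ)) :=
    Finset.prod_pos fun w _ => by have := h2 w; linarith
  refine ⟨(∏ w ∈ hn.toFinset, (1 - (qv w)⁻¹ ^ (2 : ℝ)))⁻¹, inv_pos.mpr h0, fun s hs1 hs2 => ?_⟩
  have h3 : ∏ w ∈ hn.toFinset, (1 - (qv w)⁻¹ ^ (2 : ℝ)) ≤ Pw hn s := by
    refine Finset.prod_le_prod (fun w _ => by have := h2 w; linarith) fun w _ => ?_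
    have : (qv w)⁻¹ ^ (2 * s) ≤ (qv w)⁻¹ ^ (2 : ℝ) :=
      Real.rpow_le_rpow_of_exponent_ge (qinv_pos w) (qinv_lt w).le (by linarith)
    linarith
  exact ⟨h0.trans_le h3, inv_anti₀ h0 h3⟩

variable (n hn) in
/-- **H1** -/
theorem eis_H1 (Ar : Arch F) (G : Type) [CommGroup G] : ∃ (c : ℝ → ℝ) (A B : ℝ), 0 < A ∧ 0 < B ∧
    (∀ s : ℝ, 1 < s → s ≤ 2 → A / (s - 1) ≤ c s ∧ c s ≤ B / (s - 1)) ∧
    ∀ c0 : ℝ, 0 < c0 → ∃ C : ℝ, 0 ≤ C ∧ ∀ s : ℝ, 1 < s → s ≤ 2 →
      ∀ (x : X (⟨Ar, princ n hn⟩ : Datum F)) (v : Fin 2 → F), v ≠ 0 → c0 ≤ ht v x →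
        Eis (HChar.one n G) Ar (1 : G) s x ≠ ⊤ ∧
        |(Eis (HChar.one n G) Ar (1 : G) s x).toReal - c s| ≤ C * ht v x ^ 2 := by
  classical
  obtain ⟨A, B, hA, hB, hAB⟩ := Eis.scat_bounds F
  obtain ⟨f0, hf0, hf⟩ := fac_bounds hn
  obtain ⟨p0, hp0, hp⟩ := Pw_bounds hn
  refine ⟨fun s => Eis.scat F s * fac hn s, A * f0, B, by positivity, hB, ?_, ?_⟩
  · intro s hs1 hs2
    obtain ⟨h1, h2⟩ := hAB s hs1 hs2
    obtain ⟨h3, h4⟩ := hf s hs1 hs2
    have hs : 0 < s - 1 := by linarith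
    have h0 : 0 < A / (s - 1) := by positivity
    constructor
    · calc A * f0 / (s - 1) = A / (s - 1) * f0 := by ring
        _ ≤ Eis.scat F s * fac hn s := mul_le_mul h1 h3 hf0.le (h0.le.trans h1)
    · calc Eis.scat F s * fac hn s ≤ Eis.scat F s * 1 :=
          mul_le_mul_of_nonneg_left h4 (h0.le.trans h1)
        _ ≤ B / (s - 1) := by rw [mul_one]; exact h2
  intro c0 hc0
  set Q : ℝ := ∏ w ∈ hn.toFinset, qv w ^ n w with hQ
  have hQ0 : 0 < Q := Finset.prod_pos fun w _ => pow_pos (qv_pos w) _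
  obtain ⟨C, hC0, hC⟩ := One.level_one Ar (c0 * Q⁻¹) (by positivity)
  refine ⟨p0 * ((hn.toFinset.powerset.card : ℝ) * (C * Q ^ 2)), by positivity, ?_⟩
  intro s hs1 hs2 x v hv hx
  obtain ⟨hP0, hPp⟩ := hp s hs1 hs2
  have hR1 : ∀ (T : Finset (Pl F)) (v : Fin 2 → F), v ≠ 0 →
      Q⁻¹ ≤ ∏ w ∈ hn.toFinset, rT x.2 v T w := by
    intro T v hv
    rw [hQ, ← Finset.prod_inv_distrib]
    exact Finset.prod_le_prod (fun w _ => by have := qv_pos w; positivity) fun w _ => rT_ge x.2 hv T w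
  have hR2 : ∀ (T : Finset (Pl F)) (v : Fin 2 → F), v ≠ 0 →
      ∏ w ∈ hn.toFinset, rT x.2 v T w ≤ Q := by
    intro T v hv
    exact Finset.prod_le_prod (fun w _ => (rT_pos x.2 hv T w).le) fun w _ => rT_le x.2 hv T w
  have hht := ht_pos hv x
  have hT : ∀ T, ∑' ξ : ℙ F (Fin 2 → F), ENNReal.ofReal (ht ξ.rep (xT x T) ^ s) ≠ ⊤ ∧
        |(∑' ξ : ℙ F (Fin 2 → F), ENNReal.ofReal (ht ξ.rep (xT x T) ^ s)).toReal - Eis.scat F s| ≤
          C * ht v (xT x T) ^ 2 := by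
    intro T
    apply hC s hs1 hs2 (xT x T) v hv
    rw [ht_xT x hv T]
    exact mul_le_mul hx (hR1 T v hv) (by positivity) hht.le
  -- the real functions
  set g : Finset (Pl F) → ℙ F (Fin 2 → F) → ℝ := fun T ξ => ht ξ.rep (xT x T) ^ s with hg
  have hg0 : ∀ T ξ, 0 ≤ g T ξ := fun T ξ => Real.rpow_nonneg (ht_pos ξ.rep_nonzero _).le _
  have hgsum : ∀ T, Summable (g T) := by
    intro T
    have := ENNReal.summable_toReal (hT T).1
    refine this.congr fun ξ => ?_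
    exact ENNReal.toReal_ofReal (hg0 T ξ)
  have hgt : ∀ T, (∑' ξ : ℙ F (Fin 2 → F), ENNReal.ofReal (ht ξ.rep (xT x T) ^ s)).toReal =
      ∑' ξ, g T ξ := by
    intro T
    rw [ENNReal.tsum_toReal_eq (fun ξ => ENNReal.ofReal_ne_top)]
    exact tsum_congr fun ξ => ENNReal.toReal_ofReal (hg0 T ξ)
  set f : ℙ F (Fin 2 → F) → ℝ := fun ξ => if AllCell x.2 ξ.rep then ht ξ.rep x ^ s else 0 with hf'
  have hf0' : ∀ ξ, 0 ≤ f ξ := by
    intro ξ
    simp only [hf']
    split_ifs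
    · exact Real.rpow_nonneg (ht_pos ξ.rep_nonzero _).le _
    · exact le_rfl
  have hfg : ∀ ξ, f ξ = (Pw hn s)⁻¹ * ∑ T ∈ hn.toFinset.powerset, kT hn T s * g T ξ := by
    intro ξ
    have h1 := main_id x.2 ξ.rep_nonzero s
    have h2 := ht_pos ξ.rep_nonzero x
    have h3 : ∀ T, g T ξ = ht ξ.rep x ^ s * (∏ w ∈ hn.toFinset, rT x.2 ξ.rep T w) ^ s := by
      intro T
      simp only [hg]
      rw [ht_xT x ξ.rep_nonzero T, Real.mul_rpow h2.le
        (Finset.prod_nonneg fun w _ => (rT_pos x.2 ξ.rep_nonzero T w).le)]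
    have h4 : ∑ T ∈ hn.toFinset.powerset, kT hn T s * g T ξ =
        ht ξ.rep x ^ s * ((if AllCell x.2 ξ.rep then (1 : ℝ) else 0) * Pw hn s) := by
      rw [h1, Finset.mul_sum]
      refine Finset.sum_congr rfl fun T _ => ?_
      rw [h3]; ring
    rw [h4]
    simp only [hf']
    split_ifs
    · field_simp
    · simp
  have hEis : Eis (HChar.one n G) Ar (1 : G) s x = ∑' ξ, ENNReal.ofReal (f ξ) := by
    rw [H.Eis]
    refine tsum_congr fun ξ => ?_
    simp only [hf', cls_one_iff G x.2 ξ.rep_nonzero]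
    split_ifs
    · rfl
    · rw [ENNReal.ofReal_zero]
  have hfsum : Summable f := by
    have h1 : Summable fun ξ => (Pw hn s)⁻¹ * ∑ T ∈ hn.toFinset.powerset, kT hn T s * g T ξ :=
      (summable_sum fun T _ => (hgsum T).mul_left _).mul_left _
    exact h1.congr fun ξ => (hfg ξ).symm
  have hftsum : ∑' ξ, f ξ = (Pw hn s)⁻¹ * ∑ T ∈ hn.toFinset.powerset, kT hn T s * ∑' ξ, g T ξ := by
    rw [tsum_congr hfg, tsum_mul_left, Summable.tsum_finsetSum fun T _ => (hgsum T).mul_left _]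
    congr 1
    refine Finset.sum_congr rfl fun T _ => ?_
    rw [tsum_mul_left]
  rw [hEis, ← ENNReal.ofReal_tsum_of_nonneg hf0' hfsum]
  refine ⟨ENNReal.ofReal_ne_top, ?_⟩
  rw [ENNReal.toReal_ofReal (tsum_nonneg hf0'), hftsum]
  have h5 : Eis.scat F s * fac hn s =
      (Pw hn s)⁻¹ * ∑ T ∈ hn.toFinset.powerset, kT hn T s * Eis.scat F s := by
    rw [← Finset.sum_mul, sum_kT, fac]; ring
  beta_reduce
  rw [h5, ← mul_sub, ← Finset.sum_sub_distrib, abs_mul, abs_of_pos (inv_pos.mpr hP0), mul_assoc]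
  refine mul_le_mul hPp ?_ (abs_nonneg _) hp0.le
  refine (Finset.abs_sum_le_sum_abs _ _).trans ?_
  have h6 : ∀ T ∈ hn.toFinset.powerset, |kT hn T s * ∑' ξ, g T ξ - kT hn T s * Eis.scat F s| ≤
      C * Q ^ 2 * ht v x ^ 2 := by
    intro T _
    rw [← mul_sub, abs_mul, ← hgt T]
    calc |kT hn T s| * _ ≤ 1 * (C * ht v (xT x T) ^ 2) :=
          mul_le_mul (abs_kT_le T (by linarith)) (hT T).2 (abs_nonneg _) zero_le_one
      _ ≤ C * Q ^ 2 * ht v x ^ 2 := by
          rw [one_mul, mul_assoc, ← mul_pow]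
          refine mul_le_mul_of_nonneg_left ?_ hC0
          refine pow_le_pow_left₀ (ht_pos hv _).le ?_ 2
          rw [ht_xT x hv T, mul_comm Q]
          exact mul_le_mul_of_nonneg_left (hR2 T v hv) hht.le
  refine (Finset.sum_le_card_nsmul _ _ _ h6).trans ?_
  rw [nsmul_eq_mul]
  apply le_of_eq
  ring

end Fermat.Agent.LT.H.H1
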