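import Fermat.Agent.LT.H.CellR
import Fermat.Agent.LT.H.Defs
import Fermat.Agent.LT.H.H1
import Fermat.Agent.LT.B.Cusp
import Fermat.Agent.LT.A.Covol
import Fermat.Agent.LT.A.Stab

/-!
# The Eisenstein series with cell condition near `s = 1`

* `EC_bound` : transfer of the classical statement `H1Stmt` (for the series `Eis` of the principal
  level) to the series `EC` on `X D`;
* `RS_int` : the Rankin–Selberg integral `∫ ‖φ‖² EC` near `s = 1`.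
-/

set_option autoImplicit false
set_option linter.unusedSectionVars false

open NumberField IsDedekindDomain Matrix MeasureTheory Module Set
open scoped ComplexConjugate ENNReal Real LinearAlgebra.Projectivization

namespace Fermat.Agent.LT.H

open Fermat.LT Fermat.Agent.LT.I Fermat.Agent.LT.B

variable {F : Type} [Field F] [NumberField F]

section level

variable {U : Level F}

open Classical in
/-- representatives, equal to `1` wherever possible -/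
noncomputable def rp (y : Y U) (w : Pl F) : G2 F :=
  if y w = ((1 : G2 F) : Yl U w) then 1 else (y w).out

theorem rp_mk (y : Y U) (w : Pl F) : ((rp y w : G2 F) : Yl U w) = y w := by
  unfold rp
  split_ifs with h
  · exact h.symm
  · exact QuotientGroup.out_eq' _

/-- change of level -/
noncomputable def chY (V : Level F) (y : Y U) : Y V where
  val w := ((rp y w : G2 F) : Yl V w)
  fin := y.fin.subset fun w hw h => hw (by
    have h1 : rp y w = 1 := if_pos h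
    rw [h1])

theorem chY_apply (V : Level F) (y : Y U) (w : Pl F) : chY V y w = ((rp y w : G2 F) : Yl V w) := rfl

theorem hfin_chY (V : Level F) (v : Fin 2 → F) (y : Y U) : hfin v (chY V y) = hfin v y := by
  unfold hfin
  refine finprod_congr fun w => ?_
  rw [chY_apply, hY_mk]
  conv_rhs => rw [← rp_mk y w, hY_mk]

/-- change of level on `X` -/
noncomputable def chX {D : Datum F} (V : Level F) (x : X D) : X (⟨D.toArch, V⟩ : Datum F) :=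
  (x.1, chY V x.2)

theorem ht_chX {D : Datum F} (V : Level F) (v : Fin 2 → F) (x : X D) :
    ht v (chX V x) = ht v x := by
  unfold ht
  congr 1
  exact hfin_chY V v x.2

omit [NumberField F] in
/-- upper triangular matrices -/
theorem exists_borel {m : G2 F} (h : m 1 0 = 0) : ∃ (c a : Fˣ) (b : F),
    m = sc c * (un b * dg a) := by
  have hd : m.1.det ≠ 0 := ((Matrix.isUnit_iff_isUnit_det _).mp m.isUnit).ne_zero
  have h' : m.1 1 0 = 0 := h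
  rw [Matrix.det_fin_two, h', mul_zero, sub_zero] at hd
  have h0 : m.1 0 0 ≠ 0 := left_ne_zero_of_mul hd
  have h1 : m.1 1 1 ≠ 0 := right_ne_zero_of_mul hd
  refine ⟨Units.mk0 (m.1 1 1) h1, Units.mk0 (m.1 0 0 / m.1 1 1) (div_ne_zero h0 h1),
    m.1 0 1 / m.1 1 1, ?_⟩
  apply Units.ext
  rw [sc_mul_val, Units.val_mul, un_val, dg_val]
  ext i j
  fin_cases i <;> fin_cases j
  · simp [Units.val_mk0]
    field_simp
  · simp [Units.val_mk0]
    field_simp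
  · simpa [Units.val_mk0] using h'
  · simp [Units.val_mk0]

omit [NumberField F] in
theorem borel_mulVec_e1 (c a : Fˣ) (b : F) :
    (sc c * (un b * dg a)).1 *ᵥ (e1 : Fin 2 → F) = ((c * a : Fˣ) : F) • e1 := by
  rw [sc_mul_val, Units.val_mul, un_val, dg_val]
  ext i
  fin_cases i <;> simp [e1, Matrix.mulVec, dotProduct, Fin.sum_univ_two]

/-- The cell condition, unfolded. -/
theorem inC_iff {w : Pl F} {N : ℕ} (h1 : congGL w N ≤ U.H w)
    (h2 : ∀ h ∈ U.H w, ∃ (c a : Fˣ) (b : F), ∃ k ∈ congGL w N, h = sc c * (un b * dg a * k))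
    (g : G2 F) : InC w ((g : G2 F) : Yl U w) ↔
      ∃ (c a : Fˣ) (b : F), ∃ k ∈ congGL w N, g = sc c * (un b * dg a) * k := by
  constructor
  · rintro ⟨a, b, hab⟩
    have h3 : (un b * dg a)⁻¹ * g ∈ U.H w := by
      rw [← QuotientGroup.eq]; exact hab.symm
    obtain ⟨c, a', b', k, hk, e⟩ := h2 _ h3
    refine ⟨c, a * a', b + a * b', k, hk, ?_⟩
    rw [← un_dg_mul, ← mul_inv_cancel_left (un b * dg a) g, e]
    rw [← mul_assoc (un b * dg a) (sc c), ← sc_comm c (un b * dg a)]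
    simp only [mul_assoc]
  · rintro ⟨c, a, b, k, hk, e⟩
    refine ⟨a, b, ?_⟩
    rw [e, sc_comm, mul_assoc]
    rw [eq_comm, QuotientGroup.eq, inv_mul_cancel_left]
    exact mul_mem (U.scal_le w (sc_mem c)) (h1 hk)

theorem inCell_iff {n : Pl F → ℕ} {w : Pl F} (g₀ g : G2 F) :
    (∃ α : Fˣ, InCell n w ((g₀⁻¹).1 *ᵥ e1) g α) ↔
      ∃ (c a : Fˣ) (b : F), ∃ k ∈ congGL w (n w), g₀ * g = sc c * (un b * dg a) * k := by
  constructor
  · rintro ⟨α, k, hk, e⟩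
    have h1 : (g₀ * g * k).1 *ᵥ (e1 : Fin 2 → F) = ((α⁻¹ : Fˣ) : F) • e1 := by
      have h2 : ((g₀ * g)⁻¹).1 *ᵥ (e1 : Fin 2 → F) = (α : F) • (k.1 *ᵥ e1) := by
        rw [_root_.mul_inv_rev, Units.val_mul, ← Matrix.mulVec_mulVec, e]
      have h3 : (e1 : Fin 2 → F) = (α : F) • ((g₀ * g * k).1 *ᵥ e1) := by
        rw [Units.val_mul (g₀ * g) k, ← Matrix.mulVec_mulVec, ← Matrix.mulVec_smul, ← h2,
          Matrix.mulVec_mulVec, ← Units.val_mul, mul_inv_cancel, Units.val_one, one_mulVec]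
      conv_rhs => rw [h3]
      rw [smul_smul, Units.inv_mul, one_smul]
    have h4 : (g₀ * g * k) 1 0 = 0 := by
      have := congrFun h1 1
      rw [mulVec_e1] at this
      simpa [e1] using this
    obtain ⟨c, a, b, e2⟩ := exists_borel h4
    exact ⟨c, a, b, k⁻¹, inv_mem hk, by rw [← e2, mul_inv_cancel_right]⟩
  · rintro ⟨c, a, b, k, hk, e⟩
    refine ⟨(c * a)⁻¹, k⁻¹, inv_mem hk, ?_⟩
    have h1 : ((c * a : Fˣ) : F) • (((g₀ * g)⁻¹).1 *ᵥ (e1 : Fin 2 → F)) = (k⁻¹).1 *ᵥ e1 := by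
      rw [← Matrix.mulVec_smul, ← borel_mulVec_e1 c a b, Matrix.mulVec_mulVec, ← Units.val_mul, e,
        _root_.mul_inv_rev, inv_mul_cancel_right]
    rw [_root_.mul_inv_rev g₀ g, Units.val_mul g⁻¹, ← Matrix.mulVec_mulVec] at h1
    rw [← h1, smul_smul, Units.inv_mul, one_smul]

end level

section cls

variable {n : Pl F → ℕ} {hn : {w | n w ≠ 0}.Finite}

/-- at an unramified place every line is in the cell -/
theorem exists_inCell_of_eq_zero {w : Pl F} (hw : n w = 0) {v : Fin 2 → F} (hv : v ≠ 0) (g : G2 F) :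
    ∃ α : Fˣ, InCell n w v g α := by
  have h0 : (g⁻¹).1 *ᵥ v ≠ 0 := inv_mulVec_ne hv g
  have hpos := nv_pos w h0
  rcases max_choice (av w (((g⁻¹).1 *ᵥ v) 0)) (av w (((g⁻¹).1 *ᵥ v) 1)) with h | h
  · have h1 : nv w ((g⁻¹).1 *ᵥ v) = av w (((g⁻¹).1 *ᵥ v) 0) := h
    have h2 : ((g⁻¹).1 *ᵥ v) 0 ≠ 0 := by
      intro h3; rw [h1, h3, map_zero] at hpos; exact lt_irrefl _ hpos
    exact ⟨Units.mk0 _ h2, inCell_of_nv_eq hw h1⟩
  · have h1 : nv w ((g⁻¹).1 *ᵥ v) = av w (((g⁻¹).1 *ᵥ v) 1) := h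
    have h2 : ((g⁻¹).1 *ᵥ v) 1 ≠ 0 := by
      intro h3; rw [h1, h3, map_zero] at hpos; exact lt_irrefl _ hpos
    exact ⟨Units.mk0 _ h2, inCell_of_nv_eq hw h1⟩

theorem cls_eq_one_iff (κ : HChar F n Unit) {v : Fin 2 → F} (hv : v ≠ 0) (y : Y (princ n hn))
    (g : Pl F → G2 F) (hg : ∀ w, y w = ((g w : G2 F) : Yl (princ n hn) w)) :
    cls κ v y = ((1 : Unit) : WithZero Unit) ↔ ∀ w, ∃ α : Fˣ, InCell n w v (g w) α := by
  constructor
  · intro h w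
    by_contra hcon
    have h1 : clY κ w v (y w) = 0 := by
      rw [hg w, clY_mk, cl_eq_zero_iff]; exact hcon
    have h2 : cls κ v y = 0 := finprod_eq_zero _ w h1 (clY_mulSupport κ hv y)
    rw [h2] at h
    exact WithZero.coe_ne_zero h.symm
  · intro h
    have h1 : ∀ w, clY κ w v (y w) = 1 := by
      intro w
      obtain ⟨α, hα⟩ := h w
      rw [hg w, clY_mk, cl_of_inCell κ hα]
      rfl
    unfold cls
    rw [finprod_congr h1, finprod_one]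
    rfl

end cls

section lines

theorem mem_Bs_of_e1 {m : G2 F} {c : F} (h : m.1 *ᵥ (e1 : Fin 2 → F) = c • e1) : pmk m ∈ Bs F := by
  have h4 : m 1 0 = 0 := by
    have := congrFun h 1
    rw [mulVec_e1] at this
    simpa [e1] using this
  obtain ⟨c', a, b, e2⟩ := exists_borel h4
  refine ⟨a, b, ?_⟩
  rw [eq_comm, pmk_eq_iff]
  exact ⟨c', e2⟩

/-- The line `γ⁻¹ e₁`. -/
noncomputable def ln (g : G2 F) : ℙ F (Fin 2 → F) :=
  Projectivization.mk F ((g⁻¹).1 *ᵥ e1) (inv_mulVec_ne e1_ne g)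

/-- representative in `GL₂(F)` -/
noncomputable def gq (q : Quotient (QuotientGroup.rightRel (Bs F))) : G2 F :=
  (Matrix.ProjGenLinGroup.mk_surjective q.out).choose

theorem pmk_gq (q : Quotient (QuotientGroup.rightRel (Bs F))) : pmk (gq q) = q.out :=
  (Matrix.ProjGenLinGroup.mk_surjective q.out).choose_spec

theorem ln_bijective : Function.Bijective fun q : Quotient (QuotientGroup.rightRel (Bs F)) =>
    ln (gq q) := by
  constructor
  · intro q q' h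
    obtain ⟨c, hc⟩ := (Projectivization.mk_eq_mk_iff' F _ _ _ _).mp h
    rw [← Quotient.out_equiv_out]
    refine QuotientGroup.rightRel_apply.mpr ?_
    rw [← pmk_gq q, ← pmk_gq q', ← map_inv, ← map_mul]
    refine mem_Bs_of_e1 (c := c) ?_
    rw [Units.val_mul, ← Matrix.mulVec_mulVec, ← hc, Matrix.mulVec_smul, Matrix.mulVec_mulVec,
      ← Units.val_mul, mul_inv_cancel, Units.val_one, one_mulVec]
  · intro ξ
    obtain ⟨g, hg⟩ := exists_mulVec_eq_e1 ξ.rep_nonzero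
    refine ⟨Quotient.mk _ (pmk g), ?_⟩
    set q : Quotient (QuotientGroup.rightRel (Bs F)) := Quotient.mk _ (pmk g) with hq
    have h1 : (QuotientGroup.rightRel (Bs F)) q.out (pmk g) := Quotient.mk_out (pmk g)
    have h2 : pmk g * (q.out)⁻¹ ∈ Bs F := QuotientGroup.rightRel_apply.mp h1
    obtain ⟨a, b, hab⟩ := h2
    rw [← pmk_gq q, ← map_inv, ← map_mul, pmk_eq_iff] at hab
    obtain ⟨c, hc⟩ := hab
    -- `un b * dg a = sc c * (g * (gq q)⁻¹)`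
    have h3 : ((gq q)⁻¹).1 *ᵥ (e1 : Fin 2 → F) = ((c⁻¹ * a : Fˣ) : F) • ((g⁻¹).1 *ᵥ e1) := by
      have h4 : (gq q)⁻¹ = g⁻¹ * (sc c⁻¹ * (un b * dg a)) := by
        rw [hc, ← mul_assoc (sc c⁻¹), ← sc_inv, inv_mul_cancel, one_mul, inv_mul_cancel_left]
      rw [h4, Units.val_mul, ← Matrix.mulVec_mulVec, borel_mulVec_e1, Matrix.mulVec_smul]
    have h5 : (g⁻¹).1 *ᵥ (e1 : Fin 2 → F) = ξ.rep := by
      rw [← hg, Matrix.mulVec_mulVec, ← Units.val_mul, inv_mul_cancel, Units.val_one, one_mulVec]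
    change Projectivization.mk F _ _ = ξ
    rw [← ξ.mk_rep]
    rw [Projectivization.mk_eq_mk_iff']
    exact ⟨_, by rw [h3, h5]⟩

end lines

section main

/-- a point of `X D` -/
noncomputable def pt0 (D : Datum F) : X D :=
  (default, ⟨fun w => ((1 : G2 F) : Yl D.toLevel w), by simp⟩)

variable {D : Datum F}

/-- **`EC` is the Eisenstein series of principal level.** -/
theorem EC_eq (S : Set (Pl F)) (n : Pl F → ℕ) (hnf : {w | n w ≠ 0}.Finite)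
    (hn : ∀ w, n w ≠ 0 ↔ w ∈ S)
    (hcell : ∀ w ∈ S, congGL w (n w) ≤ D.H w ∧ ∀ h ∈ D.H w, ∃ (c a : Fˣ) (b : F),
      ∃ k ∈ congGL w (n w), h = sc c * (un b * dg a * k)) (s : ℝ) (x : X D) :
    EC S s x = Eis (hn := hnf) (HChar.one n Unit) D.toArch 1 s (chX (princ n hnf) x) := by
  classical
  unfold EC Eis
  rw [← (Equiv.ofBijective _ (ln_bijective (F := F))).tsum_eq]
  refine tsum_congr fun q => ?_
  rw [Equiv.ofBijective_apply]
  set g := gq q with hg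
  obtain ⟨c, hc⟩ := Projectivization.exists_smul_eq_mk_rep F ((g⁻¹).1 *ᵥ (e1 : Fin 2 → F))
    (inv_mulVec_ne e1_ne g)
  have hc' : (ln g).rep = (c : F) • ((g⁻¹).1 *ᵥ (e1 : Fin 2 → F)) := hc.symm
  have hv := inv_mulVec_ne (e1_ne (F := F)) g
  have hx : q.out • x = g • x := by rw [← pmk_gq q]; rfl
  unfold PhiC
  rw [hx, ht_smul_eq g e1_ne, hc', ht_smul c.ne_zero hv, ht_chX, cls_smul _ hv]
  have hiff : (∀ w ∈ S, InC w ((g • x).2 w)) ↔
      cls (HChar.one n Unit) ((g⁻¹).1 *ᵥ e1) (chX (princ n hnf) x).2 =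
        ((1 : Unit) : WithZero Unit) := by
    rw [cls_eq_one_iff _ hv (chX (princ n hnf) x).2 (rp x.2) fun w => rfl]
    constructor
    · intro h w
      by_cases hw : w ∈ S
      · rw [inCell_iff]
        have h1 := h w hw
        have h2 : (g • x).2 w = ((g * rp x.2 w : G2 F) : Yl D.toLevel w) := by
          change g • (x.2 w) = _
          rw [← rp_mk x.2 w]; rfl
        rw [h2, inC_iff (hcell w hw).1 (hcell w hw).2] at h1
        exact h1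
      · have h0 : n w = 0 := by
          by_contra hne; exact hw ((hn w).mp hne)
        exact exists_inCell_of_eq_zero h0 hv _
    · intro h w hw
      have h1 := h w
      rw [inCell_iff] at h1
      have h2 : (g • x).2 w = ((g * rp x.2 w : G2 F) : Yl D.toLevel w) := by
        change g • (x.2 w) = _
        rw [← rp_mk x.2 w]; rfl
      rw [h2, inC_iff (hcell w hw).1 (hcell w hw).2]
      exact h1
  by_cases h : ∀ w ∈ S, InC w ((g • x).2 w)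
  · rw [if_pos h, if_pos (hiff.mp h)]
  · rw [if_neg h, if_neg fun h' => h (hiff.mpr h')]

/-- The statement of H1 (behaviour of the Eisenstein series of principal level near `s = 1`). -/
def H1Stmt (Ar : Arch F) (n : Pl F → ℕ) (hn : {w | n w ≠ 0}.Finite) : Prop :=
  ∃ (c : ℝ → ℝ) (A B : ℝ), 0 < A ∧ 0 < B ∧
    (∀ s ∈ Set.Ioc (1 : ℝ) 2, A / (s - 1) ≤ c s ∧ c s ≤ B / (s - 1)) ∧
    ∀ c0 > 0, ∃ C : ℝ, 0 ≤ C ∧ ∀ s ∈ Set.Ioc (1 : ℝ) 2,
      ∀ (x : X (⟨Ar, princ n hn⟩ : Datum F)) (v : Fin 2 → F), v ≠ 0 → c0 ≤ ht v x →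
        Eis (HChar.one n Unit) Ar 1 s x ≠ ⊤ ∧
        |(Eis (HChar.one n Unit) Ar 1 s x).toReal - c s| ≤ C * ht v x ^ 2

/-- **The Eisenstein series with cell condition near `s = 1`.** -/
theorem EC_bound_of (D : Datum F) (S : Set (Pl F)) (hS : S.Finite) (n : Pl F → ℕ)
    (hn : ∀ w, n w ≠ 0 ↔ w ∈ S)
    (hcell : ∀ w ∈ S, congGL w (n w) ≤ D.H w ∧ ∀ h ∈ D.H w, ∃ (c a : Fˣ) (b : F),
      ∃ k ∈ congGL w (n w), h = sc c * (un b * dg a * k))
    (H1 : ∀ hnf, H1Stmt D.toArch n hnf) :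
    ∃ (c : ℝ → ℝ) (A B : ℝ), 0 < A ∧ 0 < B ∧
      (∀ s ∈ Set.Ioc (1 : ℝ) 2, A / (s - 1) ≤ c s ∧ c s ≤ B / (s - 1)) ∧
      ∀ c0 > 0, ∃ C : ℝ, 0 ≤ C ∧ ∀ s ∈ Set.Ioc (1 : ℝ) 2, ∀ (x : X D) (v : Fin 2 → F),
        v ≠ 0 → c0 ≤ ht v x →
        EC S s x ≠ ⊤ ∧ |(EC S s x).toReal - c s| ≤ C * ht v x ^ 2 := by
  have hnf : {w | n w ≠ 0}.Finite := hS.subset fun w hw => (hn w).mp hw
  obtain ⟨c, A, B, hA, hB, hAB, h⟩ := H1 hnf
  refine ⟨c, A, B, hA, hB, hAB, fun c0 hc0 => ?_⟩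
  obtain ⟨C, hC, h1⟩ := h c0 hc0
  refine ⟨C, hC, fun s hs x v hv hx => ?_⟩
  have h2 := h1 s hs (chX (princ n hnf) x) v hv (by rwa [ht_chX])
  rw [ht_chX, ← EC_eq S n hnf hn hcell] at h2
  exact h2

/-- **The Rankin–Selberg integral near `s = 1`.** -/
theorem RS_int_of (D : Datum F) {S : Set (Pl F)}
    (hE : ∃ (c : ℝ → ℝ) (A B : ℝ), 0 < A ∧ 0 < B ∧
      (∀ s ∈ Set.Ioc (1 : ℝ) 2, A / (s - 1) ≤ c s ∧ c s ≤ B / (s - 1)) ∧
      ∀ c0 > 0, ∃ C : ℝ, 0 ≤ C ∧ ∀ s ∈ Set.Ioc (1 : ℝ) 2, ∀ (x : X D) (v : Fin 2 → F),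
        v ≠ 0 → c0 ≤ ht v x →
        EC S s x ≠ ⊤ ∧ |(EC S s x).toReal - c s| ≤ C * ht v x ^ 2)
    {w : X D → ℝ≥0∞} (hw : IsWeight (PG F) w) :
    ∃ (c : ℝ → ℝ) (A B : ℝ), 0 < A ∧ 0 < B ∧
      (∀ s ∈ Set.Ioc (1 : ℝ) 2, A / (s - 1) ≤ c s ∧ c s ≤ B / (s - 1)) ∧
      ∀ φ : X D → ℂ, IsCusp φ → ∃ C : ℝ, ∀ s ∈ Set.Ioc (1 : ℝ) 2,
        (∫⁻ p, w p * (‖φ p‖ₑ ^ 2 * EC S s p)) ≠ ⊤ ∧
        |(∫⁻ p, w p * (‖φ p‖ₑ ^ 2 * EC S s p)).toReal -
          c s * (∫⁻ p, w p * ‖φ p‖ₑ ^ 2).toReal| ≤ C := by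
  obtain ⟨c, A, B, hA, hB, hAB, h⟩ := hE
  refine ⟨c, A, B, hA, hB, hAB, fun φ hφ => ?_⟩
  obtain ⟨c0, hc0, hc0'⟩ := exists_ht_ge' D
  obtain ⟨C, hC, hC'⟩ := h c0 hc0
  obtain ⟨C1, hC1⟩ := hφ.decay 1
  obtain ⟨C2, hC2⟩ := hφ.bounded
  have hC1p : 0 ≤ C1 := (mul_nonneg (norm_nonneg _) (pow_nonneg (ht_pos e1_ne _).le _)).trans
    (hC1 (pt0 D) e1 e1_ne)
  have hC2p : 0 ≤ C2 := (norm_nonneg _).trans (hC2 (pt0 D))
  set T : ℝ := C * C1 ^ 2 with hT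
  have hT0 : 0 ≤ T := by positivity
  have hW := covolume_lt_top hw
  -- pointwise comparison
  have hpt : ∀ s ∈ Set.Ioc (1 : ℝ) 2, ∀ x : X D,
      ‖φ x‖ₑ ^ 2 * EC S s x ≤ ENNReal.ofReal (c s) * ‖φ x‖ₑ ^ 2 + ENNReal.ofReal T ∧
      ENNReal.ofReal (c s) * ‖φ x‖ₑ ^ 2 ≤ ‖φ x‖ₑ ^ 2 * EC S s x + ENNReal.ofReal T := by
    intro s hs x
    obtain ⟨v, hv, hvx⟩ := hc0' x
    obtain ⟨h1, h2⟩ := hC' s hs x v hv hvx
    have h3 := hC1 x v hv
    rw [pow_one] at h3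
    have hht := (ht_pos hv x).le
    have h4 : ‖φ x‖ ^ 2 * (C * ht v x ^ 2) ≤ T := by
      have : ‖φ x‖ ^ 2 * (C * ht v x ^ 2) = C * (‖φ x‖ * ht v x) ^ 2 := by ring
      rw [this, hT]
      gcongr
    have hcs : 0 ≤ c s := by
      have h5 := (hAB s hs).1
      have h6 : 0 < s - 1 := by linarith [hs.1]
      exact le_trans (by positivity) h5
    have hE : EC S s x = ENNReal.ofReal (EC S s x).toReal := (ENNReal.ofReal_toReal h1).symm
    have hE0 : 0 ≤ (EC S s x).toReal := ENNReal.toReal_nonneg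
    have hn : ‖φ x‖ₑ ^ 2 = ENNReal.ofReal (‖φ x‖ ^ 2) := by
      rw [ENNReal.ofReal_pow (norm_nonneg _), ofReal_norm]
    rw [abs_le] at h2
    rw [hE, hn, ← ENNReal.ofReal_mul (by positivity), ← ENNReal.ofReal_mul hcs,
      ← ENNReal.ofReal_add (by positivity) hT0, ← ENNReal.ofReal_add (by positivity) hT0]
    have hφ2 : 0 ≤ ‖φ x‖ ^ 2 := by positivity
    constructor
    · refine ENNReal.ofReal_le_ofReal ?_
      nlinarith [mul_le_mul_of_nonneg_left h2.2 hφ2]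
    · refine ENNReal.ofReal_le_ofReal ?_
      nlinarith [mul_le_mul_of_nonneg_left h2.1 hφ2]
  refine ⟨T * (∫⁻ p, w p).toReal, fun s hs => ?_⟩
  have hcs : 0 ≤ c s := by
    have h5 := (hAB s hs).1
    have h6 : 0 < s - 1 := by linarith [hs.1]
    exact le_trans (by positivity) h5
  have hmw := hw.meas
  have hI2 : (∫⁻ p, w p * ‖φ p‖ₑ ^ 2) ≠ ⊤ := by
    have h1 : (∫⁻ p, w p * ‖φ p‖ₑ ^ 2) ≤ ∫⁻ p, w p * ENNReal.ofReal (C2 ^ 2) := by
      refine lintegral_mono fun p => ?_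
      refine mul_le_mul_right ?_ _
      rw [← ofReal_norm, ← ENNReal.ofReal_pow (norm_nonneg _)]
      refine ENNReal.ofReal_le_ofReal ?_
      have := hC2 p
      gcongr
    refine ne_top_of_le_ne_top ?_ h1
    rw [lintegral_mul_const _ hmw]
    exact ENNReal.mul_ne_top hW.ne ENNReal.ofReal_ne_top
  have hTW : (∫⁻ p, w p * ENNReal.ofReal T) = (∫⁻ p, w p) * ENNReal.ofReal T :=
    lintegral_mul_const _ hmw
  have hTW' : (∫⁻ p, w p) * ENNReal.ofReal T ≠ ⊤ := ENNReal.mul_ne_top hW.ne ENNReal.ofReal_ne_top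
  have hcI : (∫⁻ p, w p * (ENNReal.ofReal (c s) * ‖φ p‖ₑ ^ 2)) =
      ENNReal.ofReal (c s) * ∫⁻ p, w p * ‖φ p‖ₑ ^ 2 := by
    rw [← lintegral_const_mul' _ _ ENNReal.ofReal_ne_top]
    refine lintegral_congr fun p => ?_
    ring
  have hu : (∫⁻ p, w p * (‖φ p‖ₑ ^ 2 * EC S s p)) ≤
      ENNReal.ofReal (c s) * (∫⁻ p, w p * ‖φ p‖ₑ ^ 2) + (∫⁻ p, w p) * ENNReal.ofReal T := by
    rw [← hcI, ← hTW, ← lintegral_add_right _ (hmw.mul_const _)]
    refine lintegral_mono fun p => ?_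
    rw [← mul_add]
    exact mul_le_mul_right (hpt s hs p).1 _
  have hl : ENNReal.ofReal (c s) * (∫⁻ p, w p * ‖φ p‖ₑ ^ 2) ≤
      (∫⁻ p, w p * (‖φ p‖ₑ ^ 2 * EC S s p)) + (∫⁻ p, w p) * ENNReal.ofReal T := by
    rw [← hcI, ← hTW, ← lintegral_add_right _ (hmw.mul_const _)]
    refine lintegral_mono fun p => ?_
    rw [← mul_add]
    exact mul_le_mul_right (hpt s hs p).2 _
  have hcI2 : ENNReal.ofReal (c s) * (∫⁻ p, w p * ‖φ p‖ₑ ^ 2) ≠ ⊤ :=
    ENNReal.mul_ne_top ENNReal.ofReal_ne_top hI2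
  have hI1 : (∫⁻ p, w p * (‖φ p‖ₑ ^ 2 * EC S s p)) ≠ ⊤ :=
    ne_top_of_le_ne_top (ENNReal.add_ne_top.mpr ⟨hcI2, hTW'⟩) hu
  refine ⟨hI1, ?_⟩
  have hu' := ENNReal.toReal_mono (ENNReal.add_ne_top.mpr ⟨hcI2, hTW'⟩) hu
  have hl' := ENNReal.toReal_mono (ENNReal.add_ne_top.mpr ⟨hI1, hTW'⟩) hl
  rw [ENNReal.toReal_add hcI2 hTW', ENNReal.toReal_mul, ENNReal.toReal_mul,
    ENNReal.toReal_ofReal hcs, ENNReal.toReal_ofReal hT0] at hu'
  rw [ENNReal.toReal_add hI1 hTW', ENNReal.toReal_mul, ENNReal.toReal_mul,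
    ENNReal.toReal_ofReal hcs, ENNReal.toReal_ofReal hT0] at hl'
  rw [abs_le]
  constructor <;> linarith

/-- **The Eisenstein series with cell condition near `s = 1`**, unconditionally. -/
theorem EC_bound (D : Datum F) (S : Set (Pl F)) (hS : S.Finite) (n : Pl F → ℕ)
    (hn : ∀ w, n w ≠ 0 ↔ w ∈ S)
    (hcell : ∀ w ∈ S, congGL w (n w) ≤ D.H w ∧ ∀ h ∈ D.H w, ∃ (c a : Fˣ) (b : F),
      ∃ k ∈ congGL w (n w), h = sc c * (un b * dg a * k)) :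
    ∃ (c : ℝ → ℝ) (A B : ℝ), 0 < A ∧ 0 < B ∧
      (∀ s ∈ Set.Ioc (1 : ℝ) 2, A / (s - 1) ≤ c s ∧ c s ≤ B / (s - 1)) ∧
      ∀ c0 > 0, ∃ C : ℝ, 0 ≤ C ∧ ∀ s ∈ Set.Ioc (1 : ℝ) 2, ∀ (x : X D) (v : Fin 2 → F),
        v ≠ 0 → c0 ≤ ht v x →
        EC S s x ≠ ⊤ ∧ |(EC S s x).toReal - c s| ≤ C * ht v x ^ 2 := by
  refine EC_bound_of D S hS n hn hcell fun hnf => ?_
  obtain ⟨c, A, B, hA, hB, hAB, h⟩ := H1.eis_H1 n hnf D.toArch Unit
  refine ⟨c, A, B, hA, hB, fun s hs => hAB s hs.1 hs.2, fun c0 hc0 => ?_⟩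
  obtain ⟨C, hC, h1⟩ := h c0 hc0
  exact ⟨C, hC, fun s hs => h1 s hs.1 hs.2⟩

/-- **The Rankin–Selberg integral near `s = 1`**, unconditionally. -/
theorem RS_int (D : Datum F) (S : Set (Pl F)) (hS : S.Finite) (n : Pl F → ℕ)
    (hn : ∀ w, n w ≠ 0 ↔ w ∈ S)
    (hcell : ∀ w ∈ S, congGL w (n w) ≤ D.H w ∧ ∀ h ∈ D.H w, ∃ (c a : Fˣ) (b : F),
      ∃ k ∈ congGL w (n w), h = sc c * (un b * dg a * k))
    {w : X D → ℝ≥0∞} (hw : IsWeight (PG F) w) :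
    ∃ (c : ℝ → ℝ) (A B : ℝ), 0 < A ∧ 0 < B ∧
      (∀ s ∈ Set.Ioc (1 : ℝ) 2, A / (s - 1) ≤ c s ∧ c s ≤ B / (s - 1)) ∧
      ∀ φ : X D → ℂ, IsCusp φ → ∃ C : ℝ, ∀ s ∈ Set.Ioc (1 : ℝ) 2,
        (∫⁻ p, w p * (‖φ p‖ₑ ^ 2 * EC S s p)) ≠ ⊤ ∧
        |(∫⁻ p, w p * (‖φ p‖ₑ ^ 2 * EC S s p)).toReal -
          c s * (∫⁻ p, w p * ‖φ p‖ₑ ^ 2).toReal| ≤ C :=
  RS_int_of D (EC_bound D S hS n hn hcell) hw

end main

end Fermat.Agent.LT.H
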