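import Fermat.Agent.LT.H.Coef

/-!
# Integration on `X D` in the coordinates `(z, x, y)`, `t = e^x`
-/

set_option autoImplicit false
set_option linter.unusedSectionVars false

open NumberField IsDedekindDomain Matrix MeasureTheory Module Set
open scoped ComplexConjugate ENNReal Real

namespace Fermat.Agent.LT.H

open Fermat.LT Fermat.Agent.LT.I

section general

variable {ι : Type} [Fintype ι] [DecidableEq ι] {α : ι → Type} [∀ i, MeasurableSpace (α i)]
  (μ : ∀ i, Measure (α i)) [∀ i, SigmaFinite (μ i)]

theorem lmarginal_prod {f : ∀ i, α i → ℝ≥0∞} (hf : ∀ i, Measurable (f i)) (s : Finset ι)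
    (x : ∀ i, α i) :
    (∫⋯∫⁻_s, (fun x => ∏ i, f i (x i)) ∂μ) x =
      (∏ i ∈ s, ∫⁻ t, f i t ∂μ i) * ∏ i ∈ sᶜ, f i (x i) := by
  have hm : Measurable fun x : (∀ i, α i) => ∏ i, f i (x i) :=
    Finset.measurable_prod _ fun i _ => (hf i).comp (measurable_pi_apply i)
  induction s using Finset.induction_on generalizing x with
  | empty => simp [lmarginal_empty]
  | insert i s hi ih =>
    rw [lmarginal_insert _ hm hi]
    simp_rw [ih]
    have h1 : ∀ t, ∏ j ∈ sᶜ, f j (Function.update x i t j) =
        f i t * ∏ j ∈ (insert i s)ᶜ, f j (x j) := by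
      intro t
      have h2 : sᶜ = insert i (insert i s)ᶜ := by
        ext j
        simp only [Finset.mem_compl, Finset.mem_insert, not_or]
        by_cases hj : j = i
        · subst hj; simp [hi]
        · simp [hj]
      rw [h2, Finset.prod_insert (by simp)]
      rw [Function.update_self]
      congr 1
      refine Finset.prod_congr rfl fun j hj => ?_
      have : j ≠ i := by
        rintro rfl
        simp at hj
      rw [Function.update_of_ne this]
    simp_rw [h1]
    rw [lintegral_const_mul _ ((hf i).mul_const _), lintegral_mul_const _ (hf i),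
      Finset.prod_insert hi]
    ring

theorem lintegral_pi_prod {f : ∀ i, α i → ℝ≥0∞} (hf : ∀ i, Measurable (f i)) :
    ∫⁻ x, ∏ i, f i (x i) ∂Measure.pi μ = ∏ i, ∫⁻ t, f i t ∂μ i := by
  classical
  rcases isEmpty_or_nonempty (∀ i, α i) with h | ⟨⟨x⟩⟩
  · have h1 : ∃ i, IsEmpty (α i) := by
      by_contra hc
      push Not at hc
      have : ∀ i, Nonempty (α i) := fun i => by simpa using hc i
      exact h.false fun i => (this i).some
    obtain ⟨i, hi⟩ := h1
    rw [lintegral_of_isEmpty]
    rw [Finset.prod_eq_zero (Finset.mem_univ i)]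
    exact lintegral_of_isEmpty _ _
  · have := lmarginal_prod μ hf Finset.univ x
    rw [lmarginal_univ] at this
    refine this.trans ?_
    simp

theorem pi_withDensity {f : ∀ i, α i → ℝ≥0∞} (hf : ∀ i, Measurable (f i))
    [∀ i, SigmaFinite ((μ i).withDensity (f i))] :
    Measure.pi (fun i => (μ i).withDensity (f i)) =
      (Measure.pi μ).withDensity fun x => ∏ i, f i (x i) := by
  refine Measure.pi_eq fun s hs => ?_
  rw [withDensity_apply _ (MeasurableSet.univ_pi hs), ← lintegral_indicator (MeasurableSet.univ_pi hs)]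
  have h1 : ∀ x : (∀ i, α i), (Set.pi univ s).indicator (fun x => ∏ i, f i (x i)) x =
      ∏ i, (s i).indicator (f i) (x i) := by
    intro x
    by_cases hx : x ∈ Set.pi univ s
    · rw [indicator_of_mem hx]
      refine Finset.prod_congr rfl fun i _ => ?_
      rw [indicator_of_mem (hx i trivial)]
    · rw [indicator_of_notMem hx]
      have : ∃ i, x i ∉ s i := by
        by_contra hc
        push Not at hc
        exact hx fun i _ => hc i
      obtain ⟨i, hi⟩ := this
      rw [Finset.prod_eq_zero (Finset.mem_univ i)]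
      rw [indicator_of_notMem hi]
  simp_rw [h1]
  rw [lintegral_pi_prod μ fun i => (hf i).indicator (hs i)]
  refine Finset.prod_congr rfl fun i _ => ?_
  rw [lintegral_indicator (hs i), withDensity_apply _ (hs i)]

end general

/-- the coordinates `(z, x) ↦ (z, e^x)` of `H3` -/
noncomputable def kap (p : ℂ × ℝ) : H3 := H3.mk p.1 (Real.exp p.2) (Real.exp_pos _)

theorem continuous_kap : Continuous kap := by
  rw [H3.continuous_iff]
  exact ⟨continuous_fst, Real.continuous_exp.comp continuous_snd⟩

/-- the density -/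
noncomputable def dn (x : ℝ) : ℝ≥0∞ := ENNReal.ofReal (Real.exp (-2 * x))

theorem measurable_dn : Measurable dn := by
  unfold dn
  exact (Real.continuous_exp.measurable.comp (measurable_const_mul _)).ennreal_ofReal

theorem lintegral_exp_Ioi {g : ℝ → ℝ≥0∞} :
    ∫⁻ t in Ioi (0 : ℝ), g t = ∫⁻ x : ℝ, ENNReal.ofReal (Real.exp x) * g (Real.exp x) := by
  have h := lintegral_image_eq_lintegral_abs_deriv_mul (s := univ) MeasurableSet.univ
    (f := Real.exp) (f' := Real.exp) (fun x _ => (Real.hasDerivAt_exp x).hasDerivWithinAt)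
    Real.exp_injective.injOn g
  rw [image_univ, Real.range_exp, Measure.restrict_univ] at h
  rw [h]
  refine lintegral_congr fun x => ?_
  rw [abs_of_pos (Real.exp_pos x)]

theorem lintegral_kap {f : H3 → ℝ≥0∞} (hf : Measurable f) :
    ∫⁻ P, f P = ∫⁻ p : ℂ × ℝ, f (kap p) ∂((volume : Measure ℂ).prod (volume.withDensity dn)) := by
  classical
  let f' : ℂ × ℝ → ℝ≥0∞ := fun p => if h : 0 < p.2 then f (H3.mk p.1 p.2 h) else 0
  have hf' : Measurable f' := by
    refine Measurable.dite (s := {p : ℂ × ℝ | 0 < p.2}) ?_ measurable_const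
      (measurableSet_lt measurable_const measurable_snd)
    refine hf.comp ?_
    have : Continuous fun p : {p : ℂ × ℝ // 0 < p.2} => H3.mk p.1.1 p.1.2 p.2 := by
      rw [H3.continuous_iff]
      exact ⟨continuous_fst.comp continuous_subtype_val, continuous_snd.comp continuous_subtype_val⟩
    exact this.measurable
  have h1 : ∫⁻ P, f P = ∫⁻ P : H3, f' (P.z, P.t) := by
    refine lintegral_congr fun P => ?_
    change f P = if h : 0 < P.t then f (H3.mk P.z P.t h) else 0
    rw [dif_pos P.t_pos]
    rfl
  have hm : Measurable fun p : ℂ × ℝ => f (kap p) := hf.comp continuous_kap.measurable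
  rw [h1, H3.lintegral_eq f' hf', lintegral_exp_Ioi, lintegral_prod_symm' _ hm]
  rw [lintegral_withDensity_eq_lintegral_mul _ measurable_dn]
  · refine lintegral_congr fun x => ?_
    rw [Pi.mul_apply, ← mul_assoc]
    congr 1
    · rw [dn, ← ENNReal.ofReal_mul (Real.exp_pos x).le, inv_pow, ← Real.exp_nat_mul, ← Real.exp_neg,
        ← Real.exp_add]
      congr 2
      push_cast
      ring
    · refine lintegral_congr fun z => ?_
      change (if h : 0 < Real.exp x then f (H3.mk z (Real.exp x) h) else 0) = _
      rw [dif_pos (Real.exp_pos x)]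
      rfl
  · exact hm.lintegral_prod_left'

theorem measurePreserving_kap :
    MeasurePreserving kap ((volume : Measure ℂ).prod (volume.withDensity dn)) volume := by
  refine ⟨continuous_kap.measurable, ?_⟩
  refine Measure.ext_of_lintegral _ fun f hf => ?_
  rw [lintegral_map hf continuous_kap.measurable, ← lintegral_kap hf]

variable {F : Type} [Field F] [NumberField F] {D : Datum F}

/-- product density -/
noncomputable def dI {ι : Type} [Fintype ι] (x : ι → ℝ) : ℝ≥0∞ := ∏ i, dn (x i)

theorem measurable_dI {ι : Type} [Fintype ι] : Measurable (dI : (ι → ℝ) → ℝ≥0∞) :=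
  Finset.measurable_prod _ fun i _ => measurable_dn.comp (measurable_pi_apply i)

instance : SigmaFinite ((volume : Measure ℝ).withDensity dn) :=
  SigmaFinite.withDensity_of_ne_top (Filter.Eventually.of_forall fun _ => ENNReal.ofReal_ne_top)

theorem lintegral_XI {A : Arch F} {f : XI A → ℝ≥0∞} (hf : Measurable f) :
    ∫⁻ p, f p = ∫⁻ x : A.I → ℝ, dI x * ∫⁻ z : A.I → ℂ,
      f (fun i => H3.mk (z i) (Real.exp (x i)) (Real.exp_pos _)) := by
  have h1 := measurePreserving_pi
    (fun _ : A.I => (volume : Measure ℂ).prod ((volume : Measure ℝ).withDensity dn))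
    (fun _ : A.I => (volume : Measure H3)) (f := fun _ => kap) fun _ => measurePreserving_kap
  have h2 := measurePreserving_arrowProdEquivProdArrow ℂ ℝ A.I (fun _ => (volume : Measure ℂ))
    (fun _ => (volume : Measure ℝ).withDensity dn)
  have h3 := pi_withDensity (fun _ : A.I => (volume : Measure ℝ)) (f := fun _ => dn)
    fun _ => measurable_dn
  have h0 : ∫⁻ p : XI A, f p =
      ∫⁻ a : A.I → ℂ × ℝ, f (fun i => kap (a i)) ∂Measure.pi fun _ : A.I =>
        (volume : Measure ℂ).prod ((volume : Measure ℝ).withDensity dn) :=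
    (h1.lintegral_comp (f := (f : (A.I → H3) → ℝ≥0∞)) hf).symm
  rw [h0]
  have hg : Measurable fun a : A.I → ℂ × ℝ => f fun i => kap (a i) := hf.comp h1.measurable
  have h4 := (h2.symm _).lintegral_comp hg
  rw [← h4, h3]
  have hg2 : Measurable fun p : (A.I → ℂ) × (A.I → ℝ) => f fun i => kap (p.1 i, p.2 i) := by
    refine hf.comp ?_
    refine measurable_pi_iff.mpr fun i => ?_
    exact continuous_kap.measurable.comp
      (((measurable_pi_apply i).comp measurable_fst).prodMk
        ((measurable_pi_apply i).comp measurable_snd))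
  rw [lintegral_prod_symm']
  · refine (lintegral_withDensity_eq_lintegral_mul (Measure.pi fun _ : A.I => (volume : Measure ℝ))
      measurable_dI ?_).trans ?_
    · exact hg2.lintegral_prod_left'
    · rfl
  · exact hg2

/-- Integration on `X D` in coordinates. -/
theorem lintegral_X {f : X D → ℝ≥0∞} (hf : Measurable f) :
    ∫⁻ p, f p = ∑' y : Y D.toLevel, ∫⁻ x : D.I → ℝ, dI x * ∫⁻ z : D.I → ℂ, f (pt z x y) := by
  rw [X_volume, lintegral_prod_symm' _ hf]
  have : (volume : Measure (Y D.toLevel)) = Measure.count := rfl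
  rw [this, lintegral_count]
  refine tsum_congr fun y => ?_
  have hm : Measurable fun x : XI D.toArch => f (x, y) :=
    hf.comp (measurable_id.prodMk measurable_const)
  rw [lintegral_XI hm]
  rfl

end Fermat.Agent.LT.H
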