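import Fermat.Agent.LT.H.Whittaker
import Fermat.Agent.LT.H.XInt

/-!
# Bounds for the archimedean factor `∫ e^{2sx} K₀(4π e^x)² dx`, `1 ≤ s ≤ 2`
-/

set_option autoImplicit false

open MeasureTheory Set Filter Topology
open scoped ENNReal Real

namespace Fermat.Agent.LT.H

open Fermat.Agent.LT.H.Bessel

theorem continuous_Wh_exp {c : ℝ} (hc : 0 < c) : Continuous fun x : ℝ => Wh c (Real.exp x) := by
  rw [continuous_iff_continuousAt]
  intro x
  exact ContinuousAt.comp (f := Real.exp) (g := Wh c)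
    (hasDerivAt_Wh hc (Real.exp_pos x)).continuousAt Real.continuous_exp.continuousAt

theorem measurable_Wh_exp {c : ℝ} (hc : 0 < c) : Measurable fun x : ℝ => Wh c (Real.exp x) :=
  (continuous_Wh_exp hc).measurable

/-- the integrand -/
theorem gam_integrand (c s x : ℝ) :
    dn x * (ENNReal.ofReal (Real.exp (2 * s * x)) * ‖Wh c (Real.exp x)‖ₑ ^ 2) =
      ENNReal.ofReal (Real.exp (2 * s * x) * K0 (c * Real.exp x) ^ 2) := by
  have h1 : ‖Wh c (Real.exp x)‖ₑ ^ 2 = ENNReal.ofReal (Wh c (Real.exp x) ^ 2) := by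
    rw [← ofReal_norm, ← ENNReal.ofReal_pow (norm_nonneg _), Real.norm_eq_abs, sq_abs]
  rw [h1, dn, ← ENNReal.ofReal_mul (Real.exp_pos _).le, ← ENNReal.ofReal_mul (Real.exp_pos _).le]
  congr 1
  unfold Wh
  have h2 : Real.exp (-2 * x) * Real.exp x ^ 2 = 1 := by
    rw [← Real.exp_nat_mul, ← Real.exp_add]
    have : -2 * x + ((2 : ℕ) : ℝ) * x = 0 := by push_cast; ring
    rw [this, Real.exp_zero]
  calc Real.exp (-2 * x) * (Real.exp (2 * s * x) * (Real.exp x * K0 (c * Real.exp x)) ^ 2)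
      = (Real.exp (-2 * x) * Real.exp x ^ 2) *
        (Real.exp (2 * s * x) * K0 (c * Real.exp x) ^ 2) := by ring
    _ = _ := by rw [h2, one_mul]

/-- pointwise upper bound -/
theorem exists_gam_le {c : ℝ} (hc : 0 < c) : ∃ C : ℝ, 0 < C ∧ ∀ s ∈ Icc (1 : ℝ) 2, ∀ x : ℝ,
    Real.exp (2 * s * x) * K0 (c * Real.exp x) ^ 2 ≤ C * Real.exp (-|x|) := by
  obtain ⟨C1, hC1, h1⟩ := exists_K0_le (ε := 1 / 2) (by norm_num)
  obtain ⟨C2, hC2, h2⟩ := exists_K0_le (ε := 3) (by norm_num)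
  refine ⟨(C1 * c ^ (-(1 / 2 : ℝ))) ^ 2 + (C2 * c ^ (-(3 : ℝ))) ^ 2, by positivity,
    fun s hs x => ?_⟩
  have hcx : 0 < c * Real.exp x := mul_pos hc (Real.exp_pos x)
  have hK : 0 ≤ K0 (c * Real.exp x) := (K0_pos hcx).le
  have hsq : ∀ (A ε : ℝ), 0 ≤ A → K0 (c * Real.exp x) ≤ A * (c * Real.exp x) ^ (-ε) →
      K0 (c * Real.exp x) ^ 2 ≤ (A * c ^ (-ε)) ^ 2 * Real.exp (-2 * ε * x) := by
    intro A ε _ h
    calc K0 (c * Real.exp x) ^ 2 ≤ (A * (c * Real.exp x) ^ (-ε)) ^ 2 :=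
          pow_le_pow_left₀ hK h 2
      _ = (A * c ^ (-ε)) ^ 2 * Real.exp (-2 * ε * x) := by
          rw [Real.mul_rpow hc.le (Real.exp_pos x).le, ← Real.exp_mul, ← mul_assoc, mul_pow,
            ← Real.exp_nat_mul]
          congr 2
          push_cast; ring
  rcases le_total x 0 with hx | hx
  · rw [abs_of_nonpos hx, neg_neg]
    have e1 := hsq C1 (1 / 2) hC1.le (h1 _ hcx)
    have e2 : Real.exp (2 * s * x) ≤ Real.exp (2 * x) := Real.exp_le_exp.mpr (by nlinarith [hs.1])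
    have e3 : Real.exp (2 * x) * Real.exp (-2 * (1 / 2) * x) = Real.exp x := by
      rw [← Real.exp_add]; congr 1; ring
    calc Real.exp (2 * s * x) * K0 (c * Real.exp x) ^ 2
        ≤ Real.exp (2 * x) * ((C1 * c ^ (-(1 / 2 : ℝ))) ^ 2 * Real.exp (-2 * (1 / 2) * x)) :=
          mul_le_mul e2 e1 (sq_nonneg _) (Real.exp_pos _).le
      _ = (C1 * c ^ (-(1 / 2 : ℝ))) ^ 2 * (Real.exp (2 * x) * Real.exp (-2 * (1 / 2) * x)) := by ring
      _ = (C1 * c ^ (-(1 / 2 : ℝ))) ^ 2 * Real.exp x := by rw [e3]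
      _ ≤ _ := mul_le_mul_of_nonneg_right (le_add_of_nonneg_right (sq_nonneg _)) (Real.exp_pos _).le
  · rw [abs_of_nonneg hx]
    have e1 := hsq C2 3 hC2.le (h2 _ hcx)
    have e2 : Real.exp (2 * s * x) ≤ Real.exp (4 * x) := Real.exp_le_exp.mpr (by nlinarith [hs.2])
    have e3 : Real.exp (4 * x) * Real.exp (-2 * 3 * x) ≤ Real.exp (-x) := by
      rw [← Real.exp_add]; exact Real.exp_le_exp.mpr (by linarith)
    calc Real.exp (2 * s * x) * K0 (c * Real.exp x) ^ 2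
        ≤ Real.exp (4 * x) * ((C2 * c ^ (-(3 : ℝ))) ^ 2 * Real.exp (-2 * 3 * x)) :=
          mul_le_mul e2 e1 (sq_nonneg _) (Real.exp_pos _).le
      _ = (C2 * c ^ (-(3 : ℝ))) ^ 2 * (Real.exp (4 * x) * Real.exp (-2 * 3 * x)) := by ring
      _ ≤ (C2 * c ^ (-(3 : ℝ))) ^ 2 * Real.exp (-x) :=
          mul_le_mul_of_nonneg_left e3 (sq_nonneg _)
      _ ≤ _ := mul_le_mul_of_nonneg_right (le_add_of_nonneg_left (sq_nonneg _)) (Real.exp_pos _).le

theorem integrable_exp_neg_abs' : Integrable fun x : ℝ => Real.exp (-|x|) := by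
  have h1 : IntegrableOn (fun x : ℝ => Real.exp (-|x|)) (Iic 0) :=
    (integrableOn_exp_Iic 0).congr_fun (fun x hx => by
      rw [abs_of_nonpos hx, neg_neg]) measurableSet_Iic
  have h2 : IntegrableOn (fun x : ℝ => Real.exp (-|x|)) (Ioi 0) :=
    (exp_neg_integrableOn_Ioi 0 one_pos).congr_fun (fun x hx => by
      have : (0:ℝ) < x := hx
      simp only; rw [abs_of_pos this]; congr 1; ring) measurableSet_Ioi
  have h3 := h1.union h2
  rwa [Iic_union_Ioi, integrableOn_univ] at h3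

/-- **Bounds for the archimedean factor.** -/
theorem gam_bounds : ∃ c C : ℝ, 0 < c ∧ 0 < C ∧ ∀ s ∈ Set.Icc (1:ℝ) 2,
    ENNReal.ofReal c ≤ (∫⁻ x : ℝ, dn x * (ENNReal.ofReal (Real.exp (2*s*x)) *
      ‖Bessel.Wh (4*π) (Real.exp x)‖ₑ^2)) ∧
    (∫⁻ x : ℝ, dn x * (ENNReal.ofReal (Real.exp (2*s*x)) *
      ‖Bessel.Wh (4*π) (Real.exp x)‖ₑ^2)) ≤ ENNReal.ofReal C := by
  have hc : 0 < 4 * π := by positivity
  obtain ⟨C, hC, hle⟩ := exists_gam_le hc
  set I : ℝ := ∫ x : ℝ, Real.exp (-|x|) with hI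
  have hI0 : 0 ≤ I := integral_nonneg fun x => (Real.exp_pos _).le
  set c0 : ℝ := Real.exp (-(4 * π * Real.exp 1 * Real.cosh 1)) ^ 2 with hc0
  refine ⟨c0, C * I + 1, by positivity, by positivity, fun s hs => ?_⟩
  simp only [gam_integrand]
  constructor
  · have h1 : ∀ x ∈ Icc (0:ℝ) 1, ENNReal.ofReal c0 ≤
        ENNReal.ofReal (Real.exp (2 * s * x) * K0 (4 * π * Real.exp x) ^ 2) := by
      intro x hx
      refine ENNReal.ofReal_le_ofReal ?_
      have e0 : 0 < 4 * π * Real.exp x := mul_pos hc (Real.exp_pos x)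
      have e1 : Real.exp (-(4 * π * Real.exp 1 * Real.cosh 1)) ≤ K0 (4 * π * Real.exp x) := by
        refine le_trans (Real.exp_le_exp.mpr ?_) (exp_le_K0 e0)
        have e2 : Real.exp x ≤ Real.exp 1 := Real.exp_le_exp.mpr hx.2
        have e3 := Real.cosh_pos (1:ℝ)
        have : 4 * π * Real.exp x * Real.cosh 1 ≤ 4 * π * Real.exp 1 * Real.cosh 1 := by gcongr
        linarith
      have e2 : 1 ≤ Real.exp (2 * s * x) := by
        apply Real.one_le_exp
        have := hs.1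
        have := hx.1
        positivity
      calc c0 = 1 * c0 := (one_mul _).symm
        _ ≤ Real.exp (2 * s * x) * K0 (4 * π * Real.exp x) ^ 2 :=
          mul_le_mul e2 (pow_le_pow_left₀ (Real.exp_pos _).le e1 2) (by positivity)
            (Real.exp_pos _).le
    calc ENNReal.ofReal c0 = ∫⁻ _x in Icc (0:ℝ) 1, ENNReal.ofReal c0 := by
          rw [setLIntegral_const, Real.volume_Icc]; simp
      _ ≤ ∫⁻ x in Icc (0:ℝ) 1,
          ENNReal.ofReal (Real.exp (2 * s * x) * K0 (4 * π * Real.exp x) ^ 2) :=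
          setLIntegral_mono_ae' measurableSet_Icc (Eventually.of_forall h1)
      _ ≤ _ := setLIntegral_le_lintegral _ _
  · calc ∫⁻ x : ℝ, ENNReal.ofReal (Real.exp (2 * s * x) * K0 (4 * π * Real.exp x) ^ 2)
        ≤ ∫⁻ x : ℝ, ENNReal.ofReal (C * Real.exp (-|x|)) :=
          lintegral_mono fun x => ENNReal.ofReal_le_ofReal (hle s hs x)
      _ = ENNReal.ofReal (∫ x : ℝ, C * Real.exp (-|x|)) := by
          rw [ofReal_integral_eq_lintegral_ofReal (integrable_exp_neg_abs'.const_mul C)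
            (Eventually.of_forall fun x => by positivity)]
      _ ≤ ENNReal.ofReal (C * I + 1) := by
          rw [integral_const_mul]
          exact ENNReal.ofReal_le_ofReal (by linarith)

end Fermat.Agent.LT.H
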