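import Fermat.Agent.LT.H.One
import Fermat.Agent.LT.CTree.Val

/-!
# The cell as a combination of level one heights
-/

open NumberField IsDedekindDomain Matrix MeasureTheory
open scoped ENNReal LinearAlgebra.Projectivization

namespace Fermat.Agent.LT.H.Cell

open Fermat.LT Fermat.Agent.LT.CTree Fermat.Agent.LT.H.Line

theorem cell_real {D a b p : ℝ} (hD : 0 < D) (ha : 0 ≤ a) (hb : 0 ≤ b) (hab : 0 < a ∨ 0 < b)
    (hp : 0 < p) (hp1 : p < 1) (n : ℕ) (hn : n ≠ 0) (hdisc : p ^ n * a < b → p ^ (n - 1) * a ≤ b)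
    (s : ℝ) :
    (if b ≤ p ^ n * a then (D⁻¹ * (max a b ^ 2)⁻¹) ^ s else 0) * (1 - p ^ (2 * s)) =
      (p ^ n) ^ s * (D⁻¹ * p ^ n * (max (p ^ n * a) b ^ 2)⁻¹) ^ s -
      p ^ (2 * s) * (p ^ (n - 1)) ^ s *
        (D⁻¹ * p ^ (n - 1) * (max (p ^ (n - 1) * a) b ^ 2)⁻¹) ^ s := by
  have hpn : p ^ n = p ^ (n - 1) * p := by
    rw [← pow_succ]; congr 1; omega
  have hpm : 0 < p ^ (n - 1) := by positivity
  have hpn0 : 0 < p ^ n := by positivity
  have h2 : p ^ (2 * s) = (p ^ 2) ^ s := by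
    rw [Real.rpow_mul hp.le]; norm_cast
  split_ifs with h
  · have ha0 : 0 < a := by
      rcases hab with h' | h'
      · exact h'
      · by_contra hc
        have : a = 0 := le_antisymm (not_lt.mp hc) ha
        rw [this, mul_zero] at h
        linarith
    have hle : p ^ n ≤ 1 := pow_le_one₀ hp.le hp1.le
    have hle2 : p ^ n ≤ p ^ (n - 1) := by rw [hpn]; exact mul_le_of_le_one_right hpm.le hp1.le
    rw [max_eq_left (h.trans (mul_le_of_le_one_left ha hle)), max_eq_left h,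
      max_eq_left (h.trans (mul_le_mul_of_nonneg_right hle2 ha))]
    have e1 : p ^ n * (D⁻¹ * p ^ n * ((p ^ n * a) ^ 2)⁻¹) = D⁻¹ * (a ^ 2)⁻¹ := by
      field_simp
    have e2 : p ^ (n - 1) * (D⁻¹ * p ^ (n - 1) * ((p ^ (n - 1) * a) ^ 2)⁻¹) =
        D⁻¹ * (a ^ 2)⁻¹ := by
      field_simp
    rw [← Real.mul_rpow hpn0.le (by positivity), e1, mul_assoc,
      ← Real.mul_rpow hpm.le (by positivity), e2]
    ring
  · rw [not_le] at h
    have hb0 : 0 < b := lt_of_le_of_lt (by positivity) h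
    rw [max_eq_right h.le, max_eq_right (hdisc h), zero_mul, h2]
    have e1 : p ^ n * (D⁻¹ * p ^ n * (b ^ 2)⁻¹) =
        p ^ 2 * (p ^ (n - 1) * (D⁻¹ * p ^ (n - 1) * (b ^ 2)⁻¹)) := by
      rw [hpn]; ring
    rw [← Real.mul_rpow hpn0.le (by positivity), e1, mul_assoc ((p ^ 2) ^ s),
      ← Real.mul_rpow hpm.le (by positivity), ← Real.mul_rpow (by positivity) (by positivity),
      sub_self]

variable {F : Type} [Field F] [NumberField F]

/-- the modified point -/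
noncomputable def gd (w : Pl F) (g : G2 F) (j : ℕ) : G2 F := g * dg ((unif w) ^ j)⁻¹

theorem hloc_gd (w : Pl F) (v : Fin 2 → F) (g : G2 F) (j : ℕ) : hloc w v (gd w g j) =
    (av w g.1.det)⁻¹ * (qv w)⁻¹ ^ j * (max ((qv w)⁻¹ ^ j * av w (((g⁻¹).1 *ᵥ v) 0))
      (av w (((g⁻¹).1 *ᵥ v) 1)) ^ 2)⁻¹ := by
  have hu : av w ((unif w ^ j : Fˣ) : F) = (qv w)⁻¹ ^ j := by
    rw [Units.val_pow_eq_pow_val, map_pow, av_unif]
  have h1 : ((gd w g j)⁻¹).1 *ᵥ v = ![((unif w ^ j : Fˣ) : F) * ((g⁻¹).1 *ᵥ v) 0,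
      ((g⁻¹).1 *ᵥ v) 1] := by
    rw [gd, _root_.mul_inv_rev, dg_inv, inv_inv, Units.val_mul, ← Matrix.mulVec_mulVec, dg_val]
    ext i; fin_cases i <;> simp [Matrix.mulVec, dotProduct, Fin.sum_univ_two]
  have h2 : (gd w g j).1.det = g.1.det * (((unif w ^ j)⁻¹ : Fˣ) : F) := by
    rw [gd, Units.val_mul, Matrix.det_mul, dg_val]
    simp
  rw [hloc, h1, h2, map_mul, Units.val_inv_eq_inv_val, map_inv₀, hu, mul_inv, inv_inv, nv]
  have e0 : (![((unif w ^ j : Fˣ) : F) * ((g⁻¹).1 *ᵥ v) 0, ((g⁻¹).1 *ᵥ v) 1] : Fin 2 → F) 0 =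
      ((unif w ^ j : Fˣ) : F) * ((g⁻¹).1 *ᵥ v) 0 := rfl
  have e1' : (![((unif w ^ j : Fˣ) : F) * ((g⁻¹).1 *ᵥ v) 0, ((g⁻¹).1 *ᵥ v) 1] : Fin 2 → F) 1 =
      ((g⁻¹).1 *ᵥ v) 1 := rfl
  rw [e0, e1', map_mul, hu]

theorem gd_zero (w : Pl F) (g : G2 F) : gd w g 0 = g := by
  rw [gd, pow_zero, inv_one, dg_one, mul_one]

theorem hloc_gd_ge (w : Pl F) {v : Fin 2 → F} (hv : v ≠ 0) (g : G2 F) (j : ℕ) :
    (qv w)⁻¹ ^ j * hloc w v g ≤ hloc w v (gd w g j) := by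
  have h0 := hloc_gd w v g 0
  rw [gd_zero, pow_zero, one_mul, mul_one] at h0
  rw [h0, hloc_gd]
  have hq : 0 < (qv w)⁻¹ ^ j := pow_pos (inv_pos.mpr (qv_pos w)) j
  have hq1 : (qv w)⁻¹ ^ j ≤ 1 := qpow_le_one w j
  have hd : 0 < av w g.1.det :=
    (av w).pos ((Matrix.isUnit_iff_isUnit_det _).mp g.isUnit).ne_zero
  have hu := nv_pos w (inv_mulVec_ne hv g)
  rw [nv] at hu
  set a := av w (((g⁻¹).1 *ᵥ v) 0)
  set b := av w (((g⁻¹).1 *ᵥ v) 1)
  have ha : 0 ≤ a := (av w).nonneg _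
  have hb : 0 ≤ b := (av w).nonneg _
  have h1 : max ((qv w)⁻¹ ^ j * a) b ≤ max a b :=
    max_le_max (mul_le_of_le_one_left ha hq1) le_rfl
  have h2 : 0 < max ((qv w)⁻¹ ^ j * a) b := by
    rcases lt_max_iff.mp hu with h | h
    · exact lt_max_of_lt_left (mul_pos hq h)
    · exact lt_max_of_lt_right h
  have h3 : (max a b ^ 2)⁻¹ ≤ (max ((qv w)⁻¹ ^ j * a) b ^ 2)⁻¹ :=
    inv_anti₀ (by positivity) (pow_le_pow_left₀ h2.le h1 2)
  calc (qv w)⁻¹ ^ j * ((av w g.1.det)⁻¹ * (max a b ^ 2)⁻¹)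
      = (av w g.1.det)⁻¹ * (qv w)⁻¹ ^ j * (max a b ^ 2)⁻¹ := by ring
    _ ≤ _ := mul_le_mul_of_nonneg_left h3 (by positivity)

theorem hloc_gd_le (w : Pl F) {v : Fin 2 → F} (hv : v ≠ 0) (g : G2 F) (j : ℕ) :
    hloc w v (gd w g j) ≤ qv w ^ j * hloc w v g := by
  have h0 := hloc_gd w v g 0
  rw [gd_zero, pow_zero, one_mul, mul_one] at h0
  rw [h0, hloc_gd]
  have hq : 0 < (qv w)⁻¹ ^ j := pow_pos (inv_pos.mpr (qv_pos w)) j
  have hq1 : (qv w)⁻¹ ^ j ≤ 1 := qpow_le_one w j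
  have hd : 0 < av w g.1.det :=
    (av w).pos ((Matrix.isUnit_iff_isUnit_det _).mp g.isUnit).ne_zero
  have hu := nv_pos w (inv_mulVec_ne hv g)
  rw [nv] at hu
  set a := av w (((g⁻¹).1 *ᵥ v) 0)
  set b := av w (((g⁻¹).1 *ᵥ v) 1)
  have ha : 0 ≤ a := (av w).nonneg _
  have hb : 0 ≤ b := (av w).nonneg _
  have h1 : (qv w)⁻¹ ^ j * max a b ≤ max ((qv w)⁻¹ ^ j * a) b := by
    rw [mul_max_of_nonneg _ _ hq.le]
    exact max_le_max le_rfl (mul_le_of_le_one_left hb hq1)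
  have h3 : (max ((qv w)⁻¹ ^ j * a) b ^ 2)⁻¹ ≤ (((qv w)⁻¹ ^ j * max a b) ^ 2)⁻¹ :=
    inv_anti₀ (by positivity) (pow_le_pow_left₀ (by positivity) h1 2)
  have hqp := qv_pos w
  calc (av w g.1.det)⁻¹ * (qv w)⁻¹ ^ j * (max ((qv w)⁻¹ ^ j * a) b ^ 2)⁻¹
      ≤ (av w g.1.det)⁻¹ * (qv w)⁻¹ ^ j * (((qv w)⁻¹ ^ j * max a b) ^ 2)⁻¹ :=
        mul_le_mul_of_nonneg_left h3 (by positivity)
    _ = qv w ^ j * ((av w g.1.det)⁻¹ * (max a b ^ 2)⁻¹) := by
        rw [inv_pow]; field_simp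

variable {n : Pl F → ℕ}

theorem exists_inCell_zero {w : Pl F} (hw : n w = 0) {v : Fin 2 → F} (hv : v ≠ 0) (g : G2 F) :
    ∃ α : Fˣ, InCell n w v g α := by
  have hu := inv_mulVec_ne hv g
  have hp := nv_pos w hu
  rcases max_choice (av w (((g⁻¹).1 *ᵥ v) 0)) (av w (((g⁻¹).1 *ᵥ v) 1)) with h | h
  · rw [nv, h] at hp
    have h0 : ((g⁻¹).1 *ᵥ v) 0 ≠ 0 := by
      intro h0; rw [h0, map_zero] at hp; exact lt_irrefl _ hp
    exact ⟨Units.mk0 _ h0, inCell_of_nv_eq hw h⟩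
  · rw [nv, h] at hp
    have h0 : ((g⁻¹).1 *ᵥ v) 1 ≠ 0 := by
      intro h0; rw [h0, map_zero] at hp; exact lt_irrefl _ hp
    exact ⟨Units.mk0 _ h0, inCell_of_nv_eq hw h⟩

theorem exists_inCell_iff {w : Pl F} (hw : n w ≠ 0) {v : Fin 2 → F} (hv : v ≠ 0) (g : G2 F) :
    (∃ α : Fˣ, InCell n w v g α) ↔
      av w (((g⁻¹).1 *ᵥ v) 1) ≤ (qv w)⁻¹ ^ n w * av w (((g⁻¹).1 *ᵥ v) 0) := by
  have hq1 : (qv w)⁻¹ ^ n w < 1 := pow_lt_one₀ (inv_nonneg.mpr (qv_pos w).le)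
    (inv_lt_one_of_one_lt₀ (one_lt_qv w)) hw
  constructor
  · rintro ⟨α, k, hk, h⟩
    obtain ⟨h1, h2⟩ := congGL_entry hk
    have h3 : av w (k 0 0) = 1 := by
      have hlt : av w (k 0 0 - 1) < 1 := h1.trans_lt hq1
      apply le_antisymm
      · have := av_add_le w (k 0 0 - 1) 1
        rw [sub_add_cancel, map_one] at this
        exact this.trans (max_le hlt.le le_rfl)
      · have := av_add_le w (k 0 0) (-(k 0 0 - 1))
        rw [(av w).map_neg, neg_sub, add_sub_cancel, map_one] at this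
        rcases le_max_iff.mp this with h' | h'
        · exact h'
        · exact absurd hlt (not_lt.mpr h')
    rw [mulVec_e1] at h
    have e0 : ((g⁻¹).1 *ᵥ v) 0 = α * k.1 0 0 := by rw [h]; rfl
    have e1' : ((g⁻¹).1 *ᵥ v) 1 = α * k.1 1 0 := by rw [h]; rfl
    rw [e0, e1', map_mul, map_mul]
    have hα := (av w).nonneg (α : F)
    rw [show av w (k.1 0 0) = 1 from h3, mul_one, mul_comm _ (av w (α : F))]
    exact mul_le_mul_of_nonneg_left h2 hα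
  · intro h
    have h0 : ((g⁻¹).1 *ᵥ v) 0 ≠ 0 := by
      intro h0
      rw [h0, map_zero, mul_zero] at h
      have h1 : ((g⁻¹).1 *ᵥ v) 1 = 0 := (av w).eq_zero.mp (le_antisymm h ((av w).nonneg _))
      apply inv_mulVec_ne hv g
      ext i; fin_cases i
      exacts [h0, h1]
    set u := (g⁻¹).1 *ᵥ v with hu
    have hd : (!![1, 0; u 1 / u 0, 1] : Matrix (Fin 2) (Fin 2) F).det ≠ 0 := by simp
    have hle : av w (u 1 / u 0) ≤ (qv w)⁻¹ ^ n w := by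
      rw [map_div₀, div_le_iff₀ ((av w).pos h0)]; exact h
    refine ⟨Units.mk0 _ h0, Matrix.GeneralLinearGroup.mkOfDetNeZero _ hd, ⟨⟨?_, ?_⟩, ?_⟩, ?_⟩
    · refine (nm_le_iff w _ _).mpr fun i j => ?_
      have := hle.trans hq1.le
      fin_cases i <;> fin_cases j <;>
        simp [Matrix.GeneralLinearGroup.mkOfDetNeZero, -map_div₀, this]
    · have hinv : ((Matrix.GeneralLinearGroup.mkOfDetNeZero
          (!![1, 0; u 1 / u 0, 1] : Matrix (Fin 2) (Fin 2) F) hd)⁻¹).1 =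
          !![1, 0; -(u 1 / u 0), 1] := by
        rw [Matrix.GeneralLinearGroup.coe_inv]
        change (!![1, 0; u 1 / u 0, 1] : Matrix (Fin 2) (Fin 2) F)⁻¹ = _
        rw [Matrix.inv_def, Matrix.adjugate_fin_two_of, Matrix.det_fin_two_of]
        simp
      rw [hinv]
      refine (nm_le_iff w _ _).mpr fun i j => ?_
      have := hle.trans hq1.le
      fin_cases i <;> fin_cases j <;>
        simp [-map_div₀, (av w).map_neg, this]
    · refine (nm_le_iff w _ _).mpr fun i j => ?_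
      have hq : 0 ≤ (qv w)⁻¹ ^ n w := by have := qv_pos w; positivity
      rw [Matrix.sub_apply]
      fin_cases i <;> fin_cases j
      · simpa [Matrix.GeneralLinearGroup.mkOfDetNeZero] using hq
      · simpa [Matrix.GeneralLinearGroup.mkOfDetNeZero] using hq
      · simpa [Matrix.GeneralLinearGroup.mkOfDetNeZero, -map_div₀] using hle
      · simpa [Matrix.GeneralLinearGroup.mkOfDetNeZero] using hq
    · rw [← hu, mulVec_e1, Units.val_mk0]
      ext i; fin_cases i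
      · simp [Matrix.GeneralLinearGroup.mkOfDetNeZero]
      · simp [Matrix.GeneralLinearGroup.mkOfDetNeZero]
        field_simp

open Classical in
/-- the cell as a combination of two level one terms -/
theorem cell_local {w : Pl F} (hw : n w ≠ 0) {v : Fin 2 → F} (hv : v ≠ 0) (g : G2 F) (s : ℝ) :
    (if ∃ α : Fˣ, InCell n w v g α then hloc w v g ^ s else 0) * (1 - (qv w)⁻¹ ^ (2 * s)) =
      ((qv w)⁻¹ ^ n w) ^ s * hloc w v (gd w g (n w)) ^ s -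
      (qv w)⁻¹ ^ (2 * s) * ((qv w)⁻¹ ^ (n w - 1)) ^ s * hloc w v (gd w g (n w - 1)) ^ s := by
  have h0 := hloc_gd w v g 0
  rw [gd_zero, pow_zero, one_mul, mul_one] at h0
  have hd : 0 < av w g.1.det :=
    (av w).pos ((Matrix.isUnit_iff_isUnit_det _).mp g.isUnit).ne_zero
  have hu := nv_pos w (inv_mulVec_ne hv g)
  rw [nv] at hu
  have hr := cell_real hd ((av w).nonneg (((g⁻¹).1 *ᵥ v) 0)) ((av w).nonneg (((g⁻¹).1 *ᵥ v) 1))
    (lt_max_iff.mp hu) (inv_pos.mpr (qv_pos w)) (inv_lt_one_of_one_lt₀ (one_lt_qv w)) (n w) hw (by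
      intro h
      have hb : 0 < av w (((g⁻¹).1 *ᵥ v) 1) := by
        refine lt_of_le_of_lt ?_ h
        exact mul_nonneg (pow_nonneg (inv_nonneg.mpr (qv_pos w).le) _) ((av w).nonneg _)
      have h1 : av w ((unif w : F) ^ n w * ((g⁻¹).1 *ᵥ v) 0 / ((g⁻¹).1 *ᵥ v) 1) < 1 := by
        rw [map_div₀, map_mul, map_pow, av_unif, div_lt_one hb]; exact h
      rw [av_lt_one_iff_le, map_div₀, map_mul, map_pow, av_unif, div_le_iff₀ hb] at h1
      have hq := inv_pos.mpr (qv_pos w)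
      have hpn : (qv w)⁻¹ ^ n w = (qv w)⁻¹ ^ (n w - 1) * (qv w)⁻¹ := by
        rw [← pow_succ]; congr 1; omega
      rw [hpn] at h1
      have h2 : (qv w)⁻¹ * ((qv w)⁻¹ ^ (n w - 1) * av w (((g⁻¹).1 *ᵥ v) 0)) ≤
          (qv w)⁻¹ * av w (((g⁻¹).1 *ᵥ v) 1) := by
        calc _ = (qv w)⁻¹ ^ (n w - 1) * (qv w)⁻¹ * av w (((g⁻¹).1 *ᵥ v) 0) := by ring
          _ ≤ _ := h1
      exact le_of_mul_le_mul_left h2 hq) s
  rw [hloc_gd, hloc_gd, ← hr, h0]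
  congr 1
  by_cases h : ∃ α : Fˣ, InCell n w v g α
  · rw [if_pos h, if_pos ((exists_inCell_iff hw hv g).mp h)]
  · rw [if_neg h, if_neg fun h' => h ((exists_inCell_iff hw hv g).mpr h')]

end Fermat.Agent.LT.H.Cell
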