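import Fermat.Agent.LT.H.Line
import Fermat.Agent.LT.H.EisFinal
import Fermat.Agent.LT.A.Mixed

/-!
# Fractional ideals of idele families
-/

open NumberField IsDedekindDomain Matrix MeasureTheory
open scoped ENNReal nonZeroDivisors

namespace Fermat.Agent.LT.H.One

open Fermat.LT Fermat.Agent.MW.Selmer

variable {F : Type} [Field F] [NumberField F]

theorem qv_zpow_le_iff (w : Pl F) (a b : ℤ) : qv w ^ (-a) ≤ qv w ^ (-b) ↔ b ≤ a := by
  rw [zpow_le_zpow_iff_right₀ (one_lt_qv w)]
  omega

theorem fracIdeal_le_one {J : FractionalIdeal (𝓞 F)⁰ F} (hJ : J ≠ 0)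
    (h : ∀ w : Pl F, 0 ≤ FractionalIdeal.count F w J) : J ≤ 1 := by
  rw [← FractionalIdeal.finprod_heightOneSpectrum_factorization' F hJ]
  refine finprod_induction (p := fun I : FractionalIdeal (𝓞 F)⁰ F => I ≤ 1) le_rfl ?_ ?_
  · intro I I' hI hI'
    calc I * I' ≤ 1 * 1 := mul_le_mul' hI hI'
      _ = 1 := one_mul 1
  · intro w
    obtain ⟨m, hm⟩ := Int.eq_ofNat_of_zero_le (h w)
    rw [hm, zpow_natCast, ← FractionalIdeal.coeIdeal_pow]
    exact FractionalIdeal.coeIdeal_le_one

theorem mem_idealOf (α : IdeleFam F) (x : F) :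
    x ∈ idealOf α ↔ ∀ w, av w x ≤ av w (α.1 w : F) := by
  by_cases hx : x = 0
  · subst hx
    constructor
    · intro _ w
      rw [map_zero]
      exact (av w).nonneg _
    · intro _
      exact (idealOf α).coeToSubmodule.zero_mem
  set X : Fˣ := Units.mk0 x hx with hX
  have hspan : FractionalIdeal.spanSingleton (𝓞 F)⁰ x ≠ 0 := by
    rw [Ne, FractionalIdeal.spanSingleton_eq_zero_iff]; exact hx
  have hcx : ∀ w, FractionalIdeal.count F w (FractionalIdeal.spanSingleton (𝓞 F)⁰ x) = cnt w X :=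
    fun w => rfl
  have key : x ∈ idealOf α ↔ ∀ w, cnt w (α.1 w) ≤ cnt w X := by
    rw [← FractionalIdeal.spanSingleton_le_iff_mem]
    constructor
    · intro h w
      have := FractionalIdeal.count_mono F w hspan h
      rw [count_idealOf, hcx] at this
      exact this
    · intro h
      have h1 : FractionalIdeal.spanSingleton (𝓞 F)⁰ x * (idealOf α)⁻¹ ≤ 1 := by
        refine fracIdeal_le_one (mul_ne_zero hspan (inv_ne_zero (idealOf_ne_zero α))) fun w => ?_
        rw [FractionalIdeal.count_mul F w hspan (inv_ne_zero (idealOf_ne_zero α)),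
          FractionalIdeal.count_inv, count_idealOf, hcx]
        have := h w
        omega
      have h2 : FractionalIdeal.spanSingleton (𝓞 F)⁰ x =
          (FractionalIdeal.spanSingleton (𝓞 F)⁰ x * (idealOf α)⁻¹) * idealOf α := by
        rw [mul_assoc, inv_mul_cancel₀ (idealOf_ne_zero α), mul_one]
      rw [h2]
      calc (FractionalIdeal.spanSingleton (𝓞 F)⁰ x * (idealOf α)⁻¹) * idealOf α
          ≤ 1 * idealOf α := mul_le_mul' h1 le_rfl
        _ = idealOf α := one_mul _
  rw [key]
  refine forall_congr' fun w => ?_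
  have e : av w x = av w (X : F) := rfl
  rw [e, av_eq_zpow, av_eq_zpow, qv_zpow_le_iff]

theorem absNorm_idealOf (α : IdeleFam F) :
    ((FractionalIdeal.absNorm (idealOf α) : ℚ) : ℝ) = (∏ᶠ w, av w (α.1 w : F))⁻¹ := by
  have hfin : (Function.mulSupport fun w : Pl F =>
      (w.asIdeal : FractionalIdeal (𝓞 F)⁰ F) ^ (cnt w (α.1 w))).Finite := by
    refine α.2.subset fun w hw h => hw ?_
    simp only [(cnt_eq_zero_iff w _).mpr h, zpow_zero]
  have h1 := map_finprod (((Rat.castHom ℝ).toMonoidHom.comp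
    (FractionalIdeal.absNorm (R := 𝓞 F) (K := F)).toMonoidHom)) hfin
  have h2 : (((Rat.castHom ℝ).toMonoidHom.comp
    (FractionalIdeal.absNorm (R := 𝓞 F) (K := F)).toMonoidHom)) (idealOf α) =
    ((FractionalIdeal.absNorm (idealOf α) : ℚ) : ℝ) := rfl
  rw [← h2, idealOf, h1, ← finprod_inv_distrib]
  refine finprod_congr fun w => ?_
  have h3 : (((Rat.castHom ℝ).toMonoidHom.comp
    (FractionalIdeal.absNorm (R := 𝓞 F) (K := F)).toMonoidHom))
      ((w.asIdeal : FractionalIdeal (𝓞 F)⁰ F) ^ (cnt w (α.1 w))) =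
      (((FractionalIdeal.absNorm ((w.asIdeal : FractionalIdeal (𝓞 F)⁰ F) ^ (cnt w (α.1 w))) : ℚ)) : ℝ)
      := rfl
  rw [h3, map_zpow₀, FractionalIdeal.coeIdeal_absNorm, av_eq_zpow, _root_.zpow_neg, inv_inv, qv]
  push_cast
  rfl

/-- the fractional ideal of an idele family, as a unit -/
noncomputable def idU (α : IdeleFam F) : (FractionalIdeal (𝓞 F)⁰ F)ˣ :=
  Units.mk0 (idealOf α) (idealOf_ne_zero α)

theorem fN_idU (α : IdeleFam F) : Eis.fN (idU α) = (∏ᶠ w, av w (α.1 w : F))⁻¹ :=
  absNorm_idealOf α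

open Classical in
/-- the denominators of `t` -/
noncomputable def betaFun (α : Pl F → Fˣ) (t : F) (w : Pl F) : Fˣ :=
  if h : av w (α w : F) < av w t then α w * (Units.mk0 t (by
      rintro rfl
      rw [map_zero] at h
      exact absurd h (not_lt.mpr ((av w).nonneg _))))⁻¹ else 1

theorem av_betaFun (α : Pl F → Fˣ) (t : F) (w : Pl F) :
    av w (betaFun α t w : F) = (max (av w t / av w (α w : F)) 1)⁻¹ := by
  have hα := (av w).pos (α w).ne_zero
  unfold betaFun
  split_ifs with h
  · rw [Units.val_mul, Units.val_inv_eq_inv_val, Units.val_mk0, map_mul, map_inv₀, max_eq_left,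
      inv_div, div_eq_mul_inv]
    rw [one_le_div hα]; exact h.le
  · rw [Units.val_one, map_one, max_eq_right, inv_one]
    rw [div_le_one hα]; exact not_lt.mp h

theorem betaFun_finite (α : IdeleFam F) (t : F) : {w | av w (betaFun α.1 t w : F) ≠ 1}.Finite := by
  by_cases ht : t = 0
  · subst ht
    convert Set.finite_empty
    ext w
    simp only [Set.mem_ofPred_eq, Set.mem_empty_iff_false, iff_false, not_not]
    rw [av_betaFun, map_zero, zero_div, max_eq_right zero_le_one, inv_one]
  · refine (α.2.union (av_finite ht)).subset fun w hw => ?_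
    by_contra hc
    simp only [Set.mem_union, Set.mem_ofPred_eq, not_or, not_not] at hc
    apply hw
    rw [av_betaFun, hc.1, hc.2, div_one, max_self, inv_one]

/-- the denominators of `t` -/
noncomputable def betaFam (α : IdeleFam F) (t : F) : IdeleFam F :=
  ⟨betaFun α.1 t, betaFun_finite α t⟩

theorem av_betaFam (α : IdeleFam F) (t : F) (w : Pl F) :
    av w ((betaFam α t).1 w : F) = (max (av w t / av w (α.1 w : F)) 1)⁻¹ :=
  av_betaFun α.1 t w

theorem den_eq (α : IdeleFam F) (t : F) :
    ((Eis.den (idU α) t : Ideal (𝓞 F)) : FractionalIdeal (𝓞 F)⁰ F) = idealOf (betaFam α t) := by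
  ext x
  rw [mem_idealOf]
  have hβ : ∀ w, av w x ≤ av w ((betaFam α t).1 w : F) ↔
      av w x ≤ 1 ∧ av w (x * t) ≤ av w (α.1 w : F) := by
    intro w
    have hα := (av w).pos (α.1 w).ne_zero
    rw [av_betaFam, map_mul]
    have hm : 0 < max (av w t / av w (α.1 w : F)) 1 := lt_max_of_lt_right one_pos
    rw [← one_div, le_div_iff₀ hm]
    have h0 := (av w).nonneg x
    have h0' := (av w).nonneg t
    constructor
    · intro h
      constructor
      · calc av w x = av w x * 1 := (mul_one _).symm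
          _ ≤ av w x * max (av w t / av w (α.1 w : F)) 1 :=
            mul_le_mul_of_nonneg_left (le_max_right _ _) h0
          _ ≤ 1 := h
      · rw [← div_le_one hα]
        calc av w x * av w t / av w (α.1 w : F) = av w x * (av w t / av w (α.1 w : F)) := by ring
          _ ≤ av w x * max (av w t / av w (α.1 w : F)) 1 :=
            mul_le_mul_of_nonneg_left (le_max_left _ _) h0
          _ ≤ 1 := h
    · rintro ⟨h1, h2⟩
      rcases max_choice (av w t / av w (α.1 w : F)) 1 with h' | h'
      · rw [h', ← mul_div_assoc, div_le_one hα]; exact h2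
      · rw [h', mul_one]; exact h1
  rw [forall_congr' hβ]
  rw [FractionalIdeal.mem_coeIdeal]
  constructor
  · rintro ⟨a, ha, rfl⟩ w
    refine ⟨?_, ?_⟩
    · rw [av_eq_finitePlace, FinitePlace.mk_apply]
      exact NumberField.FinitePlace.norm_le_one F w a
    · exact (mem_idealOf α _).mp (Eis.mem_den.mp ha) w
  · intro h
    obtain ⟨r, hr⟩ := exists_int_of_av_le fun w => (h w).1
    refine ⟨r, ?_, hr⟩
    rw [Eis.mem_den]
    refine (mem_idealOf α _).mpr fun w => ?_
    rw [hr]
    exact (h w).2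

theorem nd_idU (α : IdeleFam F) (t : F) :
    Eis.nd (idU α) t = ∏ᶠ w, max (av w t / av w (α.1 w : F)) 1 := by
  have h1 := absNorm_idealOf (betaFam α t)
  rw [← den_eq, FractionalIdeal.coeIdeal_absNorm, ← finprod_inv_distrib] at h1
  rw [Eis.nd]
  have h2 : ((Ideal.absNorm (Eis.den (idU α) t) : ℚ) : ℝ) =
      (Ideal.absNorm (Eis.den (idU α) t) : ℝ) := by push_cast; rfl
  rw [← h2, h1]
  refine finprod_congr fun w => ?_
  rw [av_betaFam, inv_inv]

end Fermat.Agent.LT.H.One
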