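import Fermat.Agent.LT.H.Defs
import Fermat.Agent.LT.A.Borel
import Fermat.Agent.LT.A.Siegel

/-!
# Sums over the projective line
-/

open NumberField IsDedekindDomain Matrix MeasureTheory
open scoped ENNReal LinearAlgebra.Projectivization

namespace Fermat.Agent.LT.H.Line

open Fermat.LT

section general

variable {F : Type} [Field F]

theorem vec_ne (t : F) : (![t, 1] : Fin 2 → F) ≠ 0 := by
  intro h
  have := congrFun h 1
  simp at this

theorem e1_ne' : (e1 : Fin 2 → F) ≠ 0 := by
  intro h
  have := congrFun h 0
  simp [e1] at this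

/-- parametrisation of the projective line -/
noncomputable def lineEquiv : Option F ≃ ℙ F (Fin 2 → F) :=
  Equiv.ofBijective (fun o => match o with
    | none => Projectivization.mk F e1 e1_ne'
    | some t => Projectivization.mk F ![t, 1] (vec_ne t)) (by
    constructor
    · intro a b h
      match a, b with
      | none, none => rfl
      | none, some t =>
        obtain ⟨c, hc⟩ := (Projectivization.mk_eq_mk_iff' F _ _ _ _).mp h
        have h1 := congrFun hc 1
        have h0 := congrFun hc 0
        simp [e1] at h1 h0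
        rw [h1, zero_mul] at h0
        exact absurd h0 zero_ne_one
      | some t, none =>
        obtain ⟨c, hc⟩ := (Projectivization.mk_eq_mk_iff' F _ _ _ _).mp h
        have h1 := congrFun hc 1
        simp [e1] at h1
      | some t, some t' =>
        obtain ⟨c, hc⟩ := (Projectivization.mk_eq_mk_iff' F _ _ _ _).mp h
        have h1 := congrFun hc 1
        have h0 := congrFun hc 0
        simp at h1 h0
        rw [h1, one_mul] at h0
        rw [h0]
    · intro p
      induction p using Projectivization.ind with
      | h v hv =>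
        by_cases h1 : v 1 = 0
        · refine ⟨none, ?_⟩
          refine (Projectivization.mk_eq_mk_iff' F _ _ _ _).mpr ?_
          have h0 : v 0 ≠ 0 := by
            intro h0; apply hv; ext i; fin_cases i <;> simp [h0, h1]
          refine ⟨(v 0)⁻¹, ?_⟩
          ext i; fin_cases i
          · simp [e1, h0]
          · simp [e1, h1]
        · refine ⟨some (v 0 / v 1), ?_⟩
          refine (Projectivization.mk_eq_mk_iff' F _ _ _ _).mpr ?_
          refine ⟨(v 1)⁻¹, ?_⟩
          ext i; fin_cases i
          · simp; field_simp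
          · simp [h1])

theorem lineEquiv_none : lineEquiv (none : Option F) = Projectivization.mk F e1 e1_ne' := rfl
theorem lineEquiv_some (t : F) :
    lineEquiv (some t) = Projectivization.mk F ![t, 1] (vec_ne t) := rfl

/-- homogeneous functions of vectors -/
def Hom0 {α : Type*} (f : (Fin 2 → F) → α) : Prop := ∀ (c : Fˣ) (v : Fin 2 → F), v ≠ 0 →
  f ((c : F) • v) = f v

theorem Hom0.rep {α : Type*} {f : (Fin 2 → F) → α} (hf : Hom0 f) (v : Fin 2 → F) (hv : v ≠ 0) :
    f (Projectivization.mk F v hv).rep = f v := by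
  obtain ⟨a, ha⟩ := Projectivization.exists_smul_eq_mk_rep F v hv
  rw [← ha]
  exact hf a v hv

theorem tsum_line (f : (Fin 2 → F) → ℝ≥0∞) (hf : Hom0 f) :
    ∑' ξ : ℙ F (Fin 2 → F), f ξ.rep = f e1 + ∑' t : F, f ![t, 1] := by
  rw [← lineEquiv.tsum_eq, ← (Equiv.optionEquivSumPUnit.{0} F).symm.tsum_eq,
    ENNReal.summable.tsum_sum ENNReal.summable, add_comm]
  congr 1
  · rw [tsum_fintype, Finset.univ_unique, Finset.sum_singleton]
    exact hf.rep e1 e1_ne'
  · refine tsum_congr fun t => ?_
    exact hf.rep _ (vec_ne t)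

/-- the action of a matrix on the projective line -/
noncomputable def actEquiv (γ : G2 F) : ℙ F (Fin 2 → F) ≃ ℙ F (Fin 2 → F) :=
  Equiv.ofBijective (Projectivization.map (Matrix.mulVecLin γ.1) (by
    intro v v' h
    have h1 := congrArg (fun u => (γ⁻¹).1 *ᵥ u) h
    simpa only [Matrix.mulVecLin_apply, Matrix.mulVec_mulVec, ← Units.val_mul, inv_mul_cancel,
      Units.val_one, one_mulVec] using h1)) (by
    constructor
    · exact Projectivization.map_injective (τ := RingHom.id F) _ _
    · intro p
      induction p using Projectivization.ind with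
      | h v hv =>
        have hv' : (γ⁻¹).1 *ᵥ v ≠ 0 := by
          intro h
          apply hv
          have := congrArg (fun u => γ.1 *ᵥ u) h
          simpa only [Matrix.mulVec_mulVec, ← Units.val_mul, mul_inv_cancel, Units.val_one,
            one_mulVec, Matrix.mulVec_zero] using this
        refine ⟨Projectivization.mk F _ hv', ?_⟩
        rw [Projectivization.map_mk]
        congr 1
        rw [Matrix.mulVecLin_apply, Matrix.mulVec_mulVec, ← Units.val_mul, mul_inv_cancel,
          Units.val_one, one_mulVec])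

theorem mulVec_ne' (γ : G2 F) {v : Fin 2 → F} (hv : v ≠ 0) : γ.1 *ᵥ v ≠ 0 := by
  intro h
  apply hv
  have := congrArg (fun u => (γ⁻¹).1 *ᵥ u) h
  simpa only [Matrix.mulVec_mulVec, ← Units.val_mul, inv_mul_cancel, Units.val_one, one_mulVec,
    Matrix.mulVec_zero] using this

theorem tsum_act (γ : G2 F) (f : (Fin 2 → F) → ℝ≥0∞) (hf : Hom0 f) :
    ∑' ξ : ℙ F (Fin 2 → F), f (γ.1 *ᵥ ξ.rep) = ∑' ξ : ℙ F (Fin 2 → F), f ξ.rep := by
  rw [← (actEquiv γ).tsum_eq (fun ξ : ℙ F (Fin 2 → F) => f ξ.rep)]
  refine tsum_congr fun ξ => ?_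
  have h1 : actEquiv γ ξ = Projectivization.mk F (γ.1 *ᵥ ξ.rep) (mulVec_ne' γ ξ.rep_nonzero) := by
    conv_lhs => rw [← ξ.mk_rep]
    rfl
  rw [h1, hf.rep]

end general

end Fermat.Agent.LT.H.Line
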