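import Fermat.Agent.LT.H.PullLev
import Fermat.Agent.LT.H.Tor
import Fermat.Agent.LT.J.CoefHecke
import Fermat.Agent.LT.I.Ext

/-!
# The Whittaker function of an eigenform on `Y`, and its non-vanishing at a torus point
-/

set_option autoImplicit false
set_option linter.unusedSectionVars false

open NumberField IsDedekindDomain Matrix MeasureTheory Module Set
open scoped ComplexConjugate ENNReal Real

namespace Fermat.Agent.LT.H

open Fermat.LT Fermat.Agent.LT.I Fermat.Agent.LT.B Fermat.Agent.LT.Top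
open Fermat.Agent.LT.CTree (nb nu qn sq Tl_one)
open Fermat.Agent.LT.CArch (hat IsTest)
open Fermat.Agent.LT.H.Bessel (Wh K0 K0_pos)

variable {F : Type} [Field F] [NumberField F] {D : Datum F}

/-- `W` is the Whittaker product with Whittaker function `a` on `Y` -/
def HasWY (φ : X D → ℂ) (a : Y D.toLevel → ℂ) : Prop :=
  ∀ x y, cW φ 1 x y = a y * ∏ i, (Wh (4 * π) (Real.exp (x i)) : ℂ)

theorem Wh_pos {c t : ℝ} (hc : 0 < c) (ht : 0 < t) : 0 < Wh c t :=
  mul_pos ht (K0_pos (mul_pos hc ht))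

theorem prod_Wh_ne (x : D.I → ℝ) : (∏ i, (Wh (4 * π) (Real.exp (x i)) : ℂ)) ≠ 0 := by
  rw [Finset.prod_ne_zero_iff]
  intro i _
  exact_mod_cast (Wh_pos (by positivity) (Real.exp_pos _)).ne'

theorem HasWY.isWY {φ : X D → ℂ} {a : Y D.toLevel → ℂ} (hW : HasWY φ a)
    (hinv : ∀ (g : G2 F) x, φ (g • x) = φ x) : IsWY D.toArch a := by
  intro b y
  have h1 := cW_un hinv 1 b 0 y
  rw [hW, hW] at h1
  have h2 := prod_Wh_ne (D := D) 0
  apply mul_right_cancel₀ h2
  rw [h1, psF]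
  ring

theorem HasWY.hecke {φ : X D → ℂ} {a : Y D.toLevel → ℂ} (hW : HasWY φ a) (hc : Continuous φ)
    (hinv : ∀ (g : G2 F) x, φ (g • x) = φ x) {w : Pl F} (hw : D.n w = 0) {μ : ℂ}
    (h : ∀ p, TX w φ p = μ * φ p) (y : Y D.toLevel) : TY w a y = μ * a y := by
  have h1 := J.CH.TY_cW hc hinv hw h 1 0 y
  obtain ⟨g, hg⟩ := QuotientGroup.mk_surjective (y w)
  rw [J.CH.TY_eq_sum hw _ y hg.symm] at h1 ⊢
  have h2 := prod_Wh_ne (D := D) 0
  apply mul_right_cancel₀ h2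
  rw [Finset.sum_mul, mul_assoc, ← hW, ← h1]
  exact Finset.sum_congr rfl fun o _ => (hW _ _).symm

theorem exists_hasWY {φ : X D → ℂ} (hφ : IsCusp φ)
    (h0 : ∀ (i : D.I) (g : ℝ → ℂ), IsTest g → ∀ x, B.RX i g φ x = hat g 0 * φ x) :
    ∃ a : Y D.toLevel → ℂ, HasWY φ a := by
  have hinv : ∀ (g : G2 F) x, φ (g • x) = φ x := fun g x => hφ.inv (pmk g) x
  choose a ha using fun y => cW_eq_Wh hφ.cont hinv hφ.bounded h0 y
  exact ⟨a, fun x y => ha y x⟩

/-- An eigenform has a Whittaker function on `Y`. -/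
theorem exists_aY {lam : Pl F → ℝ} {φ : X D → ℂ} (h : EForm D lam φ) :
    ∃ a : Y D.toLevel → ℂ, HasWY φ a ∧ IsWY D.toArch a ∧
      ∀ w, D.n w = 0 → ∀ y, TY w a y = (sq w : ℂ) * lam w * a y := by
  have hinv : ∀ (g : G2 F) x, φ (g • x) = φ x := fun g x => h.cusp.inv (pmk g) x
  obtain ⟨a, ha⟩ := exists_hasWY h.cusp fun i g hg x => by
    have := h.eig.arch i g hg x
    simpa using this
  exact ⟨a, ha, ha.isWY hinv, fun w hw y => ha.hecke h.cusp.cont hinv hw (h.eig.hecke w hw) y⟩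

section torus

variable {n : Pl F → ℕ} {hn : {w | n w ≠ 0}.Finite} {A : Arch F}

/-- a point all of whose components are in the cell is a translate of a torus point -/
theorem exists_tor_of_inC {U : Level F} (y : Y U) (hy : ∀ w, InC w (y w)) :
    ∃ (y₀ : Y U) (β : F), y = un β • y₀ ∧ (∀ w, ∃ α : Fˣ, y₀ w = ((dg α : G2 F) : Yl U w)) ∧
      ∀ w, hY w e1 (y₀ w) = hY w e1 (y w) := by
  choose α b hαb using hy
  have hval : ∀ w, hY w e1 (y w) = av w (α w : F) := by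
    intro w
    rw [hαb w]
    have := hY_un (U := U) w (b w) ((dg (α w) : G2 F) : Yl U w)
    change hY w e1 ((un (b w) * dg (α w) : G2 F) : Yl U w) = _ at this
    rw [this, hY_mk]
    have := hY_dg (U := U) w (α w) ((1 : G2 F) : Yl U w)
    change hY w e1 ((dg (α w) * 1 : G2 F) : Yl U w) = _ at this
    rw [mul_one, hY_mk, hY_mk] at this
    rw [this, hloc_e1_one, mul_one]
  set y₀ : Y U := ⟨fun w => ((dg (α w) : G2 F) : Yl U w), by
    refine ((y.fin.union U.n_fin)).subset fun w hw => ?_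
    by_contra hc
    simp only [Set.mem_union, Set.mem_ofPred_eq, not_or, not_not] at hc
    apply hw
    have h1 := hval w
    rw [hc.1, hY_mk, hloc_e1_one] at h1
    rw [QuotientGroup.eq, mul_one, U.H_eq hc.2]
    exact inv_mem (intGL_le_stdH w (dg_mem_intGL w h1.symm))⟩ with hy₀
  obtain ⟨β, hβ⟩ := exists_un_eq y₀ y (fun w => ⟨b w, hαb w⟩)
  refine ⟨y₀, β, hβ, fun w => ⟨α w, rfl⟩, fun w => ?_⟩
  rw [hβ, G2_smul_apply, hY_un]

theorem isTor_of {U : Level F} (e : Pl F → ℕ) (he : {w | e w ≠ 0}.Finite) (y₀ : Y U)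
    (hy₀ : ∀ w, ∃ α : Fˣ, y₀ w = ((dg α : G2 F) : Yl U w)) :
    ∃ k₀ : Pl F → ℤ, {w | k₀ w ≠ 0}.Finite ∧ IsTor e y₀ k₀ := by
  choose α hα using hy₀
  have hval : ∀ w, hY w e1 (y₀ w) = av w (α w : F) := by
    intro w
    rw [hα w]
    have := hY_dg (U := U) w (α w) ((1 : G2 F) : Yl U w)
    change hY w e1 ((dg (α w) * 1 : G2 F) : Yl U w) = _ at this
    rw [mul_one, hY_mk, hY_mk] at this
    rw [hY_mk, this, hloc_e1_one, mul_one]
  refine ⟨fun w => (e w : ℤ) + Fermat.Agent.MW.Selmer.cnt w (α w), ?_, fun w => ⟨α w, hα w, ?_⟩⟩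
  · refine (he.union (hY_finite e1_ne y₀)).subset fun w hw => ?_
    by_contra hc
    simp only [Set.mem_union, Set.mem_ofPred_eq, not_or, not_not] at hc
    apply hw
    change (e w : ℤ) + Fermat.Agent.MW.Selmer.cnt w (α w) = 0
    rw [hc.1, (cnt_eq_zero_iff w _).mpr (by rw [← hval]; exact hc.2)]
    rfl
  · rw [Fermat.LT.av_eq_zpow]
    congr 1
    ring

/-- **Non-vanishing** of the Whittaker function at a torus point. -/
theorem exists_torus_ne {φ : X (⟨A, princ n hn⟩ : Datum F) → ℂ} (hφ : IsCusp φ) (h0 : φ ≠ 0)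
    {a : Y (princ n hn) → ℂ} (hW : HasWY φ a) :
    ∃ (y₀ : Y (princ n hn)) (k₀ : Pl F → ℤ), {w | k₀ w ≠ 0}.Finite ∧ IsTor n y₀ k₀ ∧
      a y₀ ≠ 0 := by
  have hinv : ∀ (g : G2 F) x, φ (g • x) = φ x := fun g x => hφ.inv (pmk g) x
  have hwy := hW.isWY hinv
  obtain ⟨p, hp⟩ : ∃ p, φ p ≠ 0 := by
    by_contra hc
    push Not at hc
    exact h0 (funext hc)
  obtain ⟨γ, hγ⟩ := Ext.exists_gamma (S := hn.toFinset) (hn := hn) (fun w hw => by
    have : n w ≠ 0 := by simpa using hw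
    omega) p.2
  obtain ⟨z, x, y, hzxy⟩ := exists_pt (γ⁻¹ • p)
  have hy : ∀ w ∈ hn.toFinset, y w = ((1 : G2 F) : Yl (princ n hn) w) := by
    intro w hw
    have h1 : (γ⁻¹ • p).2 = y := by rw [hzxy]; rfl
    rw [← h1]
    exact hγ w hw
  have hφ1 : φ (pt z x y) ≠ 0 := by rw [← hzxy, hinv]; exact hp
  -- a non-zero Fourier coefficient
  obtain ⟨ν, hν⟩ : ∃ ν : F, cW φ ν x y ≠ 0 := by
    by_contra hc
    push Not at hc
    exact hφ1 (J.CH.eq_zero_of_cW hφ.cont hinv x y hc z)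
  have hν0 : ν ≠ 0 := by
    rintro rfl
    exact hν (cW_zero_eq_zero hφ.mean hinv x y)
  set u : Fˣ := Units.mk0 ν hν0 with hu
  have h2 : cW φ 1 (la A u + x) (dg u • y) ≠ 0 := by
    have := cW_dg hinv 1 u x y
    rw [one_mul] at this
    rw [this]
    exact hν
  have h3 : a (dg u • y) ≠ 0 := by
    intro h3
    rw [hW, h3, zero_mul] at h2
    exact h2 rfl
  have hcell : ∀ w, InC w ((dg u • y) w) := by
    intro w
    by_cases hw : n w = 0
    · exact InC_of_zero hw _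
    · have h4 := hy w (by simpa using hw)
      refine ⟨u, 0, ?_⟩
      rw [G2_smul_apply, h4, un_zero, one_mul]
      change ((dg u * 1 : G2 F) : Yl (princ n hn) w) = _
      rw [mul_one]
  obtain ⟨y₀, β, hβ, htor, -⟩ := exists_tor_of_inC _ hcell
  obtain ⟨k₀, hk₀, hk⟩ := isTor_of n hn y₀ htor
  refine ⟨y₀, k₀, hk₀, hk, fun h5 => h3 ?_⟩
  rw [hβ, hwy, h5, mul_zero]

end torus

end Fermat.Agent.LT.H
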