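import Fermat.Agent.LT.H.IdF

/-!
# The level one Eisenstein series
-/

open NumberField NumberField.InfinitePlace NumberField.mixedEmbedding IsDedekindDomain Matrix
  MeasureTheory
open scoped ENNReal nonZeroDivisors LinearAlgebra.Projectivization

namespace Fermat.Agent.LT.H.One

open Fermat.LT Fermat.Agent.MW.Selmer Fermat.Agent.LT.H.Line

variable {F : Type} [Field F] [NumberField F]

theorem hloc_e1_dg (w : Pl F) (a : Fˣ) : hloc w e1 (dg a) = av w (a : F) := by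
  have h1 : ((dg a)⁻¹).1 *ᵥ (e1 : Fin 2 → F) = ((a⁻¹ : Fˣ) : F) • e1 := by
    rw [dg_inv, dg_mulVec_e1]
  have h2 : (dg a).1.det = a := by simp [dg_val]
  have ha := (av w).pos a.ne_zero
  rw [hloc, h1, nv_smul, nv_e1, h2, Units.val_inv_eq_inv_val, map_inv₀]
  field_simp

theorem hloc_t_dg (w : Pl F) (a : Fˣ) (t : F) : hloc w ![t, 1] (dg a) =
    (av w (a : F))⁻¹ * (max (av w t / av w (a : F)) 1 ^ 2)⁻¹ := by
  have h1 : ((dg a)⁻¹).1 *ᵥ (![t, 1] : Fin 2 → F) = ![((a⁻¹ : Fˣ) : F) * t, 1] := by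
    rw [dg_inv, dg_val]
    ext j; fin_cases j <;> simp [Matrix.mulVec, dotProduct, Fin.sum_univ_two]
  have h2 : (dg a).1.det = a := by simp [dg_val]
  rw [hloc, h1, h2, nv]
  have h3 : av w ((![((a⁻¹ : Fˣ) : F) * t, 1] : Fin 2 → F) 0) = av w t / av w (a : F) := by
    rw [Matrix.cons_val_zero, map_mul, Units.val_inv_eq_inv_val, map_inv₀, div_eq_inv_mul]
  have h4 : av w ((![((a⁻¹ : Fˣ) : F) * t, 1] : Fin 2 → F) 1) = 1 := by
    rw [Matrix.cons_val_one, Matrix.cons_val_fin_one, map_one]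
  rw [h3, h4]

section one

variable {U : Level F}

theorem hfin_e1_eq {y : Y U} {α : IdeleFam F} (hy : ∀ w, y w = ((dg (α.1 w) : G2 F) : Yl U w)) :
    hfin e1 y = (Eis.fN (idU α))⁻¹ := by
  rw [fN_idU, inv_inv, hfin]
  refine finprod_congr fun w => ?_
  rw [hy w, hY_mk, hloc_e1_dg]

theorem hfin_t_eq {y : Y U} {α : IdeleFam F} (hy : ∀ w, y w = ((dg (α.1 w) : G2 F) : Yl U w))
    (t : F) : hfin ![t, 1] y = Eis.fN (idU α) * (Eis.nd (idU α) t ^ 2)⁻¹ := by
  have hmf : {w : Pl F | max (av w t / av w (α.1 w : F)) 1 ≠ 1}.Finite := by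
    refine (betaFun_finite α t).subset fun w hw h => hw ?_
    rw [av_betaFun] at h
    exact inv_eq_one.mp h
  have e0 : (∏ᶠ w : Pl F, max (av w t / av w (α.1 w : F)) 1) ^ 2 =
      ∏ᶠ w : Pl F, max (av w t / av w (α.1 w : F)) 1 ^ 2 :=
    finprod_pow (f := fun w : Pl F => max (av w t / av w (α.1 w : F)) 1) hmf 2
  rw [fN_idU, nd_idU, e0, ← finprod_inv_distrib, ← finprod_inv_distrib, hfin,
    ← finprod_mul_distrib]
  · refine finprod_congr fun w => ?_
    rw [hy w, hY_mk, hloc_t_dg]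
  · refine α.2.subset fun w hw h => hw ?_
    change (av w (α.1 w : F))⁻¹ = 1
    rw [h, inv_one]
  · refine hmf.subset fun w hw h => hw ?_
    change (max (av w t / av w (α.1 w : F)) 1 ^ 2)⁻¹ = 1
    rw [h, one_pow, inv_one]

end one

section arch

variable {A : Arch F}

/-- the heights -/
noncomputable def Yv (x : XI A) (w : InfinitePlace F) : ℝ := (x (A.equiv.symm w)).t

/-- the complex coordinates -/
noncomputable def zm (x : XI A) : mixedSpace F := (eqI A).symm fun i => (x i).z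

theorem Yv_pos (x : XI A) (w : InfinitePlace F) : 0 < Yv x w := H3.t_pos _

theorem Yv_pl (x : XI A) (i : A.I) : Yv x (A.pl i) = (x i).t := by
  rw [Yv]
  have : A.equiv.symm (A.pl i) = i := A.equiv.symm_apply_apply i
  rw [this]

theorem mult_pl (i : A.I) : mult (A.pl i) = 2 := by
  rw [mult, if_neg]
  rw [not_isReal_iff_isComplex]
  exact A.isComplex i

theorem prod_pl (f : InfinitePlace F → ℝ) : ∏ w, f w = ∏ i, f (A.pl i) :=
  (Equiv.prod_comp A.equiv f).symm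

theorem norm_cj (i : A.I) (z : ℂ) : ‖A.cjL i z‖ = ‖z‖ := by
  rw [Arch.cjL]
  split_ifs
  · rfl
  · exact Complex.norm_conj z

theorem normAtPlace_pl (i : A.I) (y : mixedSpace F) :
    normAtPlace (A.pl i) y = ‖eqI A y i‖ := by
  rw [normAtPlace_apply_of_isComplex (A.isComplex i)]
  change _ = ‖A.cjL i (y.2 (A.equivC i))‖
  rw [norm_cj]
  rfl

theorem prod_Yv (x : XI A) : ∏ w, Yv x w ^ mult w = hinf e1 x := by
  rw [hinf_e1, prod_pl (A := A)]
  refine Finset.prod_congr rfl fun i _ => ?_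
  rw [Yv_pl, mult_pl]

theorem hinf_t (x : XI A) (t : F) (s : ℝ) :
    hinf ![t, 1] x ^ s = (∏ w, Yv x w ^ mult w) ^ s *
      Eis.QF F (Yv x) s (mixedEmbedding F t - zm x) := by
  have hnn : ∀ i : A.I, 0 < normAtPlace (A.pl i) (mixedEmbedding F t - zm x) ^ 2 +
      Yv x (A.pl i) ^ 2 := by
    intro i
    have := Yv_pos x (A.pl i)
    positivity
  have h1 : ∀ i : A.I, ((x i).Q (A.emb i ((![t, 1] : Fin 2 → F) 0))
      (A.emb i ((![t, 1] : Fin 2 → F) 1)) ^ 2)⁻¹ =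
      Yv x (A.pl i) ^ 2 * (normAtPlace (A.pl i) (mixedEmbedding F t - zm x) ^ 2 +
        Yv x (A.pl i) ^ 2) ^ (-2 : ℝ) := by
    intro i
    have e0 : (![t, 1] : Fin 2 → F) 0 = t := rfl
    have e1' : (![t, 1] : Fin 2 → F) 1 = 1 := rfl
    have e2 : eqI A (mixedEmbedding F t - zm x) i = A.emb i t - (x i).z := by
      rw [map_sub, Pi.sub_apply, eqI_mixed, zm, LinearEquiv.apply_symm_apply]
      rfl
    rw [e0, e1', map_one, H3.Q, mul_one, Complex.normSq_one, mul_one, Complex.normSq_eq_norm_sq,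
      normAtPlace_pl, e2, Yv_pl, div_pow, inv_div]
    have hp : 0 < ‖A.emb i t - (x i).z‖ ^ 2 + (x i).t ^ 2 := by
      have := (x i).t_pos
      positivity
    rw [Real.rpow_neg hp.le]
    norm_cast
  rw [hinf, Finset.prod_congr rfl fun i _ => h1 i, Finset.prod_mul_distrib, Real.mul_rpow,
    Eis.QF, prod_pl (A := A), prod_pl (A := A) (fun w => (_ : ℝ) ^ (-(mult w : ℝ) * s))]
  · congr 1
    · congr 1
      refine Finset.prod_congr rfl fun i _ => ?_
      rw [mult_pl]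
    · rw [← Real.finsetProd_rpow]
      · refine Finset.prod_congr rfl fun i _ => ?_
        rw [← Real.rpow_mul (hnn i).le, mult_pl]
        norm_num
      · intro i _
        exact Real.rpow_nonneg (hnn i).le _
  · refine Finset.prod_nonneg fun i _ => ?_
    positivity
  · refine Finset.prod_nonneg fun i _ => ?_
    exact Real.rpow_nonneg (hnn i).le _

end arch

section

variable {D : Datum F}

theorem ht_e1_eq {x : X D} {α : IdeleFam F}
    (hy : ∀ w, x.2 w = ((dg (α.1 w) : G2 F) : Yl D.toLevel w)) :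
    ht e1 x = Eis.hInf (idU α) (Yv x.1) := by
  rw [ht, hfin_e1_eq hy, Eis.hInf, prod_Yv, div_eq_mul_inv]

theorem ht_t_eq {x : X D} {α : IdeleFam F}
    (hy : ∀ w, x.2 w = ((dg (α.1 w) : G2 F) : Yl D.toLevel w)) (t : F) (s : ℝ) :
    ht ![t, 1] x ^ s = (Eis.fN (idU α) * ∏ w, Yv x.1 w ^ mult w) ^ s *
      Eis.eisTerm (idU α) (Yv x.1) s (zm x.1) t := by
  have h0 := Eis.fN_pos (idU α)
  have h1 : (0 : ℝ) < Eis.nd (idU α) t := one_pos.trans_le (Eis.one_le_nd _ _)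
  have h2 : 0 ≤ hinf ![t, 1] x.1 := (hinf_pos (vec_ne t) x.1).le
  have h3 : 0 ≤ ∏ w, Yv x.1 w ^ mult w := Finset.prod_nonneg fun w _ => (pow_pos (Yv_pos _ _) _).le
  rw [ht, hfin_t_eq hy, Real.mul_rpow h2 (by positivity), hinf_t, Real.mul_rpow h0.le (by positivity),
    Real.mul_rpow h0.le h3, Eis.eisTerm, Real.inv_rpow (by positivity), ← Real.rpow_natCast,
    ← Real.rpow_mul h1.le, ← Real.rpow_neg h1.le]
  push_cast
  ring

theorem hom_ht (x : X D) (s : ℝ) : Hom0 fun v : Fin 2 → F => ENNReal.ofReal (ht v x ^ s) := by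
  intro c v hv
  simp only [ht_smul c.ne_zero hv]

theorem tsum_ht_dg {x : X D} {α : IdeleFam F}
    (hy : ∀ w, x.2 w = ((dg (α.1 w) : G2 F) : Yl D.toLevel w)) {s : ℝ}
    (hS : Summable (Eis.eisTerm (idU α) (Yv x.1) s (zm x.1))) :
    ∑' ξ : ℙ F (Fin 2 → F), ENNReal.ofReal (ht ξ.rep x ^ s) =
      ENNReal.ofReal (Eis.eisE (idU α) (Yv x.1) s (zm x.1)) := by
  have h0 := Eis.fN_pos (idU α)
  have h3 : 0 ≤ ∏ w, Yv x.1 w ^ mult w := Finset.prod_nonneg fun w _ => (pow_pos (Yv_pos _ _) _).le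
  have h4 : 0 ≤ (Eis.fN (idU α) * ∏ w, Yv x.1 w ^ mult w) ^ s :=
    Real.rpow_nonneg (mul_nonneg h0.le h3) _
  rw [tsum_line _ (hom_ht x s), ht_e1_eq hy, Eis.eisE, ENNReal.ofReal_add, ENNReal.ofReal_mul h4,
    ENNReal.ofReal_tsum_of_nonneg (fun t => Eis.eisTerm_nonneg _ _ _ _ _) hS,
    ← ENNReal.tsum_mul_left]
  · congr 1
    refine tsum_congr fun t => ?_
    rw [ht_t_eq hy, ENNReal.ofReal_mul h4]
  · rw [← ht_e1_eq hy]
    exact Real.rpow_nonneg (ht_pos e1_ne x).le _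
  · exact mul_nonneg h4 (tsum_nonneg fun t => Eis.eisTerm_nonneg _ _ _ _ _)

/-- moving a point by a matrix does not change the Eisenstein series -/
theorem tsum_ht_act (γ : G2 F) (x : X D) (s : ℝ) :
    ∑' ξ : ℙ F (Fin 2 → F), ENNReal.ofReal (ht ξ.rep (γ • x) ^ s) =
      ∑' ξ : ℙ F (Fin 2 → F), ENNReal.ofReal (ht ξ.rep x ^ s) := by
  rw [← tsum_act γ _ (hom_ht (γ • x) s)]
  refine tsum_congr fun ξ => ?_
  rw [ht_equiv γ ξ.rep_nonzero]

end

/-- normal form in level one -/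
theorem exists_dg (y : Y (Level.one F)) : ∃ (b : F) (α : IdeleFam F),
    ∀ w, (un b • y) w = ((dg (α.1 w) : G2 F) : Yl (Level.one F) w) := by
  classical
  set T : Finset (Pl F) := y.fin.toFinset with hT
  have hloc : ∀ w : Pl F, ∃ (a : Fˣ) (b : F) (k : G2 F), k ∈ intGL w ∧
      ((un b * dg a * k : G2 F) : Yl (Level.one F) w) = y w ∧ (w ∉ T → a = 1 ∧ b = 0 ∧ k = 1) := by
    intro w
    by_cases hw : w ∈ T
    · obtain ⟨g, hg⟩ := QuotientGroup.mk_surjective (y w)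
      obtain ⟨c, a, b, k, hk, hgk⟩ := iwasawa w g
      refine ⟨a, b, k, hk, ?_, fun h => absurd hw h⟩
      rw [← hg]
      change ((un b * dg a * k : G2 F) : Yl (Level.one F) w) = (g : Yl (Level.one F) w)
      rw [QuotientGroup.eq, hgk]
      rw [sc_comm, ← mul_assoc, inv_mul_cancel, one_mul]
      exact (Level.one F).scal_le w (sc_mem c)
    · refine ⟨1, 0, 1, one_mem _, ?_, fun _ => ⟨rfl, rfl, rfl⟩⟩
      have h1 : y w = ((1 : G2 F) : Yl (Level.one F) w) := by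
        by_contra h
        exact hw ((Set.Finite.mem_toFinset _).mpr h)
      rw [h1, un_zero, dg_one, one_mul, one_mul]
  choose a b k hk hyw htriv using hloc
  obtain ⟨b0, hb0, hb0'⟩ := strong_approx T (fun w => - b w)
    (fun w => av w (a w : F)) (fun w => (av w).pos (a w).ne_zero)
  have hαfin : {w | av w (a w : F) ≠ 1}.Finite := by
    refine T.finite_toSet.subset fun w hw => ?_
    by_contra h
    apply hw
    rw [(htriv w h).1, Units.val_one, map_one]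
  refine ⟨b0, ⟨a, hαfin⟩, fun w => ?_⟩
  rw [G2_smul_apply, ← hyw w]
  change ((un b0 * (un (b w) * dg (a w) * k w) : G2 F) : Yl (Level.one F) w) = _
  have e1 : un b0 * (un (b w) * dg (a w) * k w) =
      dg (a w) * (un (((a w)⁻¹ : Fˣ) * (b0 + b w)) * k w) := by
    have : un b0 * un (b w) * dg (a w) = dg (a w) * un (((a w)⁻¹ : Fˣ) * (b0 + b w)) := by
      rw [← un_add, dg_mul_un]
      congr 2
      rw [Units.mul_inv_cancel_left]
    calc un b0 * (un (b w) * dg (a w) * k w) = un b0 * un (b w) * dg (a w) * k w := by group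
      _ = dg (a w) * un (((a w)⁻¹ : Fˣ) * (b0 + b w)) * k w := by rw [this]
      _ = _ := by group
  rw [e1]
  symm
  rw [QuotientGroup.eq, inv_mul_cancel_left]
  change _ ∈ stdH w
  refine mul_mem (intGL_le_stdH w ?_) (intGL_le_stdH w (hk w))
  rw [← congGL_zero]
  apply un_mem_congGL
  rw [map_mul, Units.val_inv_eq_inv_val, map_inv₀, pow_zero]
  have hap := (av w).pos (a w).ne_zero
  rw [inv_mul_le_iff₀ hap, mul_one]
  by_cases hw : w ∈ T
  · have := hb0 w hw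
    rwa [sub_neg_eq_add] at this
  · obtain ⟨ha1, hb1, -⟩ := htriv w hw
    rw [ha1, hb1, add_zero, Units.val_one, map_one]
    exact hb0' w hw

/-- **Level one.** -/
theorem level_one (A : Arch F) (c0 : ℝ) (hc0 : 0 < c0) : ∃ C : ℝ, 0 ≤ C ∧
    ∀ s : ℝ, 1 < s → s ≤ 2 → ∀ (x : X (⟨A, Level.one F⟩ : Datum F)) (v : Fin 2 → F), v ≠ 0 →
      c0 ≤ ht v x → ∑' ξ : ℙ F (Fin 2 → F), ENNReal.ofReal (ht ξ.rep x ^ s) ≠ ⊤ ∧
        |(∑' ξ : ℙ F (Fin 2 → F), ENNReal.ofReal (ht ξ.rep x ^ s)).toReal - Eis.scat F s| ≤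
          C * ht v x ^ 2 := by
  obtain ⟨C, hC0, hC⟩ := Eis.eis_final F c0 hc0
  refine ⟨C, hC0, fun s hs1 hs2 x v hv hx => ?_⟩
  obtain ⟨γ, hγ⟩ := exists_mulVec_eq_e1 hv
  obtain ⟨b, α, hα⟩ := exists_dg (γ • x).2
  set x' : X (⟨A, Level.one F⟩ : Datum F) := un b • γ • x with hx'
  have hx'2 : ∀ w, x'.2 w = ((dg (α.1 w) : G2 F) : Yl (Level.one F) w) := hα
  have h1 : ht e1 x' = ht v x := by
    rw [hx', ht_e1_un, ← hγ, ht_equiv γ hv]
  have h2 := ht_e1_eq (D := ⟨A, Level.one F⟩) hx'2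
  rw [h1] at h2
  obtain ⟨hS, hE⟩ := hC (idU α) (Yv x'.1) (Yv_pos _) (h2 ▸ hx) s hs1 hs2 (zm x'.1)
  have h3 := tsum_ht_dg (D := ⟨A, Level.one F⟩) hx'2 hS
  rw [hx', tsum_ht_act, tsum_ht_act] at h3
  rw [h3]
  refine ⟨ENNReal.ofReal_ne_top, ?_⟩
  have h0 := Eis.fN_pos (idU α)
  have h5 : 0 ≤ ∏ w, Yv x'.1 w ^ mult w := Finset.prod_nonneg fun w _ => (pow_pos (Yv_pos _ _) _).le
  have h4 : 0 ≤ Eis.eisE (idU α) (Yv x'.1) s (zm x'.1) := by
    rw [Eis.eisE, ← h2]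
    have := (ht_pos hv x).le
    refine add_nonneg (Real.rpow_nonneg this _) (mul_nonneg (Real.rpow_nonneg ?_ _)
      (tsum_nonneg fun t => Eis.eisTerm_nonneg _ _ _ _ _))
    exact mul_nonneg h0.le h5
  rw [ENNReal.toReal_ofReal h4, h2]
  exact hE

end Fermat.Agent.LT.H.One
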