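import Fermat.Agent.LT.B.SelfAdj
import Fermat.Agent.LT.A.Covol

/-!
LT piece H (helper30 for helper81): Hecke eigenforms with different real eigenvalues at one good
place are orthogonal, in the form `‖φ + φ'‖² = ‖φ - φ'‖²`.
-/

set_option linter.unusedSectionVars false

open NumberField Matrix Fermat.LT MeasureTheory Set Filter Topology ProbabilityTheory
open Fermat.Agent.LT.CTree Fermat.Agent.LT.CArch Fermat.Agent.LT.B
open scoped ENNReal NNReal ComplexConjugate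

namespace Fermat.Agent.LT.H

section abs

variable {Γ X : Type*} [Group Γ] [MulAction Γ X] [MeasurableSpace X]
variable [Countable Γ] [MeasurableConstSMul Γ X] {μ : Measure X} [SMulInvariantMeasure Γ X μ]
  [SFinite μ] {w : X → ℝ≥0∞} {κ : Kernel X X} [IsSFiniteKernel κ] {c : X → X → ℂ}

/-- Adjointness, for two bounded eigenfunctions of a self-adjoint operator. -/
theorem inner_of_rev (h : IsRev Γ μ κ) (hw : IsWeight Γ w) [IsFiniteMeasure (qMeas Γ μ w)]
    (hm : StronglyMeasurable (Function.uncurry c))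
    (hinv : ∀ (γ : Γ) x y, c (γ • x) (γ • y) = c x y)
    (hsym : ∀ x y, c y x = conj (c x y)) {A : ℝ≥0} (hA : ∀ x, ∫⁻ y, ‖c x y‖ₑ ∂κ x ≤ A)
    {φ φ' : X → ℂ} (hφm : StronglyMeasurable φ) (hφm' : StronglyMeasurable φ')
    (hφi : ∀ (γ : Γ) x, φ (γ • x) = φ x) (hφi' : ∀ (γ : Γ) x, φ' (γ • x) = φ' x)
    {B B' : ℝ≥0} (hφb : ∀ x, ‖φ x‖ₑ ≤ B) (hφb' : ∀ x, ‖φ' x‖ₑ ≤ B') {a a' : ℂ}
    (heig : ∀ x, ∫ y, c x y * φ y ∂κ x = a * φ x)
    (heig' : ∀ x, ∫ y, c x y * φ' y ∂κ x = a' * φ' x) :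
    a * ∫ x, (w x).toReal • (φ x * conj (φ' x)) ∂μ
      = conj a' * ∫ x, (w x).toReal • (φ x * conj (φ' x)) ∂μ := by
  have hfin : ∫⁻ x, w x * ∫⁻ y, ‖c x y * φ y * conj (φ' x)‖ₑ ∂κ x ∂μ ≠ ∞ := by
    have h1 : ∀ x, ∫⁻ y, ‖c x y * φ y * conj (φ' x)‖ₑ ∂κ x ≤ A * (B * B') := by
      intro x
      calc ∫⁻ y, ‖c x y * φ y * conj (φ' x)‖ₑ ∂κ x
          ≤ ∫⁻ y, ‖c x y‖ₑ * (B * B') ∂κ x := by
            refine lintegral_mono fun y => ?_
            have hc : ‖(starRingEnd ℂ) (φ' x)‖ₑ = ‖φ' x‖ₑ := by simp [enorm_eq_nnnorm]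
            rw [enorm_mul, enorm_mul, mul_assoc, hc]
            gcongr
            · exact hφb y
            · exact hφb' x
        _ = (∫⁻ y, ‖c x y‖ₑ ∂κ x) * (B * B') := by
            rw [lintegral_mul_const]
            exact (hm.comp_measurable measurable_prodMk_left).enorm
        _ ≤ A * (B * B') := by gcongr; exact hA x
    refine ((lintegral_mono fun x => mul_le_mul_right (h1 x) (w x)).trans_lt ?_).ne
    rw [lintegral_mul_const _ hw.meas]
    exact ENNReal.mul_lt_top (lintegral_weight_lt_top hw)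
      (ENNReal.mul_lt_top ENNReal.coe_lt_top (ENNReal.mul_lt_top ENNReal.coe_lt_top
        ENNReal.coe_lt_top))
  have key := h.mtp_integral hw (Ψ := fun x y => c x y * φ y * conj (φ' x))
    ((hm.mul (hφm.comp_measurable measurable_snd)).mul
      (Complex.continuous_conj.comp_stronglyMeasurable (hφm'.comp_measurable measurable_fst)))
    (fun γ x y => by rw [hinv, hφi, hφi']) hfin
  have e1 : ∀ x, ∫ y, c x y * φ y * conj (φ' x) ∂κ x = a * (φ x * conj (φ' x)) := by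
    intro x
    rw [integral_mul_const, heig]
    ring
  have e2 : ∀ x, ∫ y, c y x * φ x * conj (φ' y) ∂κ x = conj a' * (φ x * conj (φ' x)) := by
    intro x
    have : (fun y => c y x * φ x * conj (φ' y)) = fun y => conj (c x y * φ' y * conj (φ x)) := by
      funext y
      rw [hsym x y, map_mul, map_mul, Complex.conj_conj]
      ring
    have e3 : ∫ y, c x y * φ' y * conj (φ x) ∂κ x = a' * (φ' x * conj (φ x)) := by
      rw [integral_mul_const, heig']
      ring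
    rw [this, integral_conj, e3, map_mul, map_mul, Complex.conj_conj]
    ring
  simp only [e1, e2] at key
  have e3 : ∀ b : ℂ, ∫ x, (w x).toReal • (b * (φ x * conj (φ' x))) ∂μ
      = b * ∫ x, (w x).toReal • (φ x * conj (φ' x)) ∂μ := by
    intro b
    rw [← integral_const_mul]
    refine integral_congr_ae (Eventually.of_forall fun x => ?_)
    simp only [Complex.real_smul]
    ring
  rw [e3, e3] at key
  exact key

/-- polarisation of `‖·‖²` -/
theorem lintegral_sq_add_eq_sub (hw : IsWeight Γ w) [IsFiniteMeasure (qMeas Γ μ w)]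
    {φ φ' : X → ℂ} (hφm : StronglyMeasurable φ) (hφm' : StronglyMeasurable φ')
    {B B' : ℝ≥0} (hφb : ∀ x, ‖φ x‖ₑ ≤ B) (hφb' : ∀ x, ‖φ' x‖ₑ ≤ B')
    (h0 : ∫ x, (w x).toReal • (φ x * conj (φ' x)) ∂μ = 0) :
    ∫⁻ x, w x * ‖φ x + φ' x‖ₑ ^ 2 ∂μ = ∫⁻ x, w x * ‖φ x - φ' x‖ₑ ^ 2 ∂μ := by
  have hwt : ∫⁻ x, w x ∂μ < ∞ := lintegral_weight_lt_top hw
  have hwr : StronglyMeasurable (fun x => (w x).toReal) :=
    hw.meas.ennreal_toReal.stronglyMeasurable
  have hen : ∀ x, ‖(w x).toReal‖ₑ = w x := fun x => by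
    rw [Real.enorm_eq_ofReal ENNReal.toReal_nonneg, ENNReal.ofReal_toReal (hw.ne_top x)]
  -- integrability
  have hint : ∀ {f : X → ℝ} (hf : StronglyMeasurable f) {C : ℝ≥0} (hC : ∀ x, ‖f x‖ₑ ≤ C),
      Integrable (fun x => (w x).toReal * f x) μ := by
    intro f hf C hC
    refine ⟨(hwr.mul hf).aestronglyMeasurable, ?_⟩
    unfold HasFiniteIntegral
    have h5 : ∀ x, ‖(w x).toReal * f x‖ₑ ≤ w x * C := by
      intro x
      rw [enorm_mul, hen]
      gcongr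
      exact hC x
    refine (lintegral_mono h5).trans_lt ?_
    rw [lintegral_mul_const _ hw.meas]
    exact ENNReal.mul_lt_top hwt ENNReal.coe_lt_top
  have hsum : ∀ x, ‖φ x + φ' x‖ₑ ≤ ((B + B' : ℝ≥0) : ℝ≥0∞) := fun x =>
    (enorm_add_le _ _).trans (by push_cast; exact add_le_add (hφb x) (hφb' x))
  have hsub : ∀ x, ‖φ x - φ' x‖ₑ ≤ ((B + B' : ℝ≥0) : ℝ≥0∞) := fun x =>
    (enorm_sub_le).trans (by push_cast; exact add_le_add (hφb x) (hφb' x))
  have hn2 : ∀ z : ℂ, ‖‖z‖ ^ 2‖ₑ = ‖z‖ₑ ^ 2 := fun z => by rw [enorm_pow, enorm_norm]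
  have conv : ∀ {g : X → ℂ} (hg : StronglyMeasurable g) {C : ℝ≥0} (hC : ∀ x, ‖g x‖ₑ ≤ C),
      ∫⁻ x, w x * ‖g x‖ₑ ^ 2 ∂μ = ENNReal.ofReal (∫ x, (w x).toReal * ‖g x‖ ^ 2 ∂μ) := by
    intro g hg C hC
    have hi : Integrable (fun x => (w x).toReal * ‖g x‖ ^ 2) μ := hint (f := fun x => ‖g x‖ ^ 2)
      (hg.norm.pow 2) (C := C ^ 2) (fun x => by
      rw [hn2]
      push_cast
      gcongr
      exact hC x)
    rw [ofReal_integral_eq_lintegral_ofReal hi
      (Eventually.of_forall fun x => by positivity)]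
    refine lintegral_congr fun x => ?_
    rw [ENNReal.ofReal_mul ENNReal.toReal_nonneg, ENNReal.ofReal_toReal (hw.ne_top x), ← hn2,
      Real.enorm_eq_ofReal (by positivity)]
  refine (conv (hφm.add hφm') hsum).trans (Eq.trans ?_ (conv (hφm.sub hφm') hsub).symm)
  congr 1
  have hi1 : Integrable (fun x => (w x).toReal * ‖(φ + φ') x‖ ^ 2) μ :=
    hint (f := fun x => ‖(φ + φ') x‖ ^ 2) ((hφm.add hφm').norm.pow 2) (C := (B + B') ^ 2)
    (fun x => by
      rw [hn2]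
      push_cast
      gcongr
      have := hsum x
      push_cast at this
      exact this)
  have hi2 : Integrable (fun x => (w x).toReal * ‖(φ - φ') x‖ ^ 2) μ :=
    hint (f := fun x => ‖(φ - φ') x‖ ^ 2) ((hφm.sub hφm').norm.pow 2) (C := (B + B') ^ 2)
    (fun x => by
      rw [hn2]
      push_cast
      gcongr
      have := hsub x
      push_cast at this
      exact this)
  rw [← sub_eq_zero]
  have e1 := integral_sub hi1 hi2
  refine (show _ = _ from e1.symm).trans ?_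
  have e2 : ∀ x, (w x).toReal * ‖(φ + φ') x‖ ^ 2 - (w x).toReal * ‖(φ - φ') x‖ ^ 2
      = 4 * ((w x).toReal • (φ x * conj (φ' x))).re := by
    intro x
    rw [Complex.real_smul, Complex.re_ofReal_mul, Pi.add_apply, Pi.sub_apply,
      ← Complex.normSq_eq_norm_sq, ← Complex.normSq_eq_norm_sq, Complex.normSq_add,
      Complex.normSq_sub]
    ring
  have e3 : ∫ x, ((w x).toReal * ‖(φ + φ') x‖ ^ 2 - (w x).toReal * ‖(φ - φ') x‖ ^ 2) ∂μ
      = ∫ x, 4 * ((w x).toReal • (φ x * conj (φ' x))).re ∂μ :=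
    integral_congr_ae (Eventually.of_forall e2)
  refine (show _ = _ from e3).trans ?_
  rw [integral_const_mul]
  have hci : Integrable (fun x => (w x).toReal • (φ x * conj (φ' x))) μ := by
    refine ⟨(hwr.smul (hφm.mul
      (Complex.continuous_conj.comp_stronglyMeasurable hφm'))).aestronglyMeasurable, ?_⟩
    unfold HasFiniteIntegral
    have h5 : ∀ x, ‖(w x).toReal • (φ x * conj (φ' x))‖ₑ ≤ w x * ((B : ℝ≥0∞) * B') := by
      intro x
      have hc : ‖(starRingEnd ℂ) (φ' x)‖ₑ = ‖φ' x‖ₑ := by simp [enorm_eq_nnnorm]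
      rw [enorm_smul, hen, enorm_mul, hc]
      gcongr
      · exact hφb x
      · exact hφb' x
    refine (lintegral_mono h5).trans_lt ?_
    rw [lintegral_mul_const _ hw.meas]
    exact ENNReal.mul_lt_top hwt (ENNReal.mul_lt_top ENNReal.coe_lt_top ENNReal.coe_lt_top)
  have e4 : ∫ x, ((w x).toReal • (φ x * conj (φ' x))).re ∂μ = 0 := by
    have h6 : ∫ x, RCLike.re ((w x).toReal • (φ x * conj (φ' x))) ∂μ
        = RCLike.re (∫ x, (w x).toReal • (φ x * conj (φ' x)) ∂μ) := integral_re hci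
    rw [h0] at h6
    simpa using h6
  rw [e4, mul_zero]

end abs

variable {F : Type} [Field F] [NumberField F] {D : Datum F}

/-- Adjointness for finite kernel operators on `X D`. -/
theorem inner_of_ka {w : X D → ℝ≥0∞} (hw : IsWeight (PG F) w) {φ φ' : X D → ℂ}
    (hφ : IsAut φ) (hφ' : IsAut φ') (hb : ∃ B : ℝ, ∀ x, ‖φ x‖ ≤ B)
    (hb' : ∃ B : ℝ, ∀ x, ‖φ' x‖ ≤ B)
    {κ : Y D.toLevel → Y D.toLevel → ℂ} (hκ : IsFinTest κ) (hsym : ∀ y z, κ z y = conj (κ y z))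
    {a a' : ℂ} (h : ∀ x : X D, ka κ (fun y => φ (x.1, y)) x.2 = a * φ x)
    (h' : ∀ x : X D, ka κ (fun y => φ' (x.1, y)) x.2 = a' * φ' x) :
    a * ∫ x, (w x).toReal • (φ x * conj (φ' x))
      = conj a' * ∫ x, (w x).toReal • (φ x * conj (φ' x)) := by
  classical
  obtain ⟨B, hB⟩ := hb
  obtain ⟨B', hB'⟩ := hb'
  have hfm := isFiniteMeasure_qMeas_XD hw
  obtain ⟨n, hn⟩ := hκ.exists_ncard_le
  obtain ⟨A, hA⟩ := hκ.bdd
  have hrev : IsRev (PG F) (volume : Measure (X D)) (finK (XI D.toArch) (Y D.toLevel)) :=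
    isRev_finK (Γ := PG F) (Z := XI D.toArch) (Y := Y D.toLevel) (ν := volume)
  have hAn : ∀ y : Y D.toLevel, ∑' y', ‖κ y y'‖ₑ ≤ ((n * A.toNNReal : ℝ≥0) : ℝ≥0∞) := by
    intro y
    have h1 : ∑' y', ‖κ y y'‖ₑ = ∑ y' ∈ (hκ.fin y).toFinset, ‖κ y y'‖ₑ := by
      refine tsum_eq_sum fun y' hy' => ?_
      simp only [Finite.mem_toFinset, mem_ofPred_eq, not_not] at hy'
      rw [hy', enorm_zero]
    rw [h1]
    calc ∑ y' ∈ (hκ.fin y).toFinset, ‖κ y y'‖ₑ
        ≤ ∑ _y' ∈ (hκ.fin y).toFinset, (A.toNNReal : ℝ≥0∞) := by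
          refine Finset.sum_le_sum fun y' _ => ?_
          rw [← ofReal_norm]
          exact ENNReal.ofReal_le_ofReal (hA y y')
      _ = ((hκ.fin y).toFinset.card : ℝ≥0∞) * A.toNNReal := by
          rw [Finset.sum_const, nsmul_eq_mul]
      _ ≤ ((n * A.toNNReal : ℝ≥0) : ℝ≥0∞) := by
          have h2 : (hκ.fin y).toFinset.card ≤ n := by
            rw [← Set.ncard_eq_toFinset_card _ (hκ.fin y)]
            exact hn y
          push_cast
          gcongr
  have hmeas : Measurable (Function.uncurry fun (x y : X D) => κ x.2 y.2) := by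
    have h1 : Measurable (Function.uncurry κ) := measurable_from_prod_countable_right fun y =>
      measurable_of_countable _
    exact h1.comp ((measurable_snd.comp measurable_fst).prodMk
      (measurable_snd.comp measurable_snd))
  have hE : ∀ {ψ : X D → ℂ} (_ : IsAut ψ) {b : ℂ}
      (_ : ∀ x : X D, ka κ (fun y => ψ (x.1, y)) x.2 = b * ψ x) (x : X D),
      ∫ y, κ x.2 y.2 * ψ y ∂(finK (XI D.toArch) (Y D.toLevel) x) = b * ψ x := by
    intro ψ hψ b hb x
    have hm : Measurable fun p' : X D => κ x.2 p'.2 * ψ p' :=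
      ((measurable_of_countable (fun y' => κ x.2 y')).comp measurable_snd).mul
        hψ.cont.measurable
    have hfin : {y' | κ x.2 y' * ψ (x.1, y') ≠ 0}.Finite :=
      (hκ.fin x.2).subset fun y' hy' => left_ne_zero_of_mul hy'
    have h3 := integral_finK_of_finite hm x.1 x.2 hfin
    show ∫ p' : X D, κ x.2 p'.2 * ψ p' ∂(finK (XI D.toArch) (Y D.toLevel) (x.1, x.2)) = _
    rw [h3, ← hb x]
    unfold ka
    rw [finsum_eq_sum_of_support_subset _ (s := hfin.toFinset)]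
    intro y' hy'
    exact (Set.Finite.mem_toFinset _).2 hy'
  have hbd : ∀ {ψ : X D → ℂ} {b : ℝ} (_ : ∀ x, ‖ψ x‖ ≤ b) (x : X D),
      ‖ψ x‖ₑ ≤ (b.toNNReal : ℝ≥0∞) := by
    intro ψ b hb x
    rw [← ofReal_norm]
    exact ENNReal.ofReal_le_ofReal (hb x)
  refine inner_of_rev hrev hw (c := fun x y : X D => κ x.2 y.2) hmeas.stronglyMeasurable
    (fun γ x y => hκ.inv γ x.2 y.2) (fun x y => hsym x.2 y.2) (A := n * A.toNNReal) (fun x => ?_)
    hφ.cont.stronglyMeasurable hφ'.cont.stronglyMeasurable hφ.inv hφ'.inv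
    (hbd hB) (hbd hB') (hE hφ h) (hE hφ' h')
  have hm : Measurable fun p' : X D => ‖κ x.2 p'.2‖ₑ :=
    (measurable_of_countable (fun y' => ‖κ x.2 y'‖ₑ)).comp measurable_snd
  have h3 := lintegral_finK hm x.1 x.2
  show ∫⁻ p' : X D, ‖κ x.2 p'.2‖ₑ ∂(finK (XI D.toArch) (Y D.toLevel) (x.1, x.2)) ≤ _
  rw [h3]
  exact hAn x.2

/-- **Orthogonality** of Hecke eigenforms with different eigenvalues (the pairing itself). -/
theorem inner_eq_zero_of_ne {w : X D → ℝ≥0∞} (hw : IsWeight (PG F) w) {φ φ' : X D → ℂ}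
    (hφ : IsAut φ) (hφ' : IsAut φ') (hb : ∃ B : ℝ, ∀ x, ‖φ x‖ ≤ B)
    (hb' : ∃ B : ℝ, ∀ x, ‖φ' x‖ ≤ B) {v : Pl F} (hv : D.n v = 0) {l l' : ℝ}
    (h : ∀ x, TX v φ x = (sq v : ℂ) * (l : ℂ) * φ x)
    (h' : ∀ x, TX v φ' x = (sq v : ℂ) * (l' : ℂ) * φ' x) (hne : l ≠ l') :
    ∫ x, (w x).toReal • (φ x * conj (φ' x)) = 0 := by
  classical
  have key := inner_of_ka hw hφ hφ' hb hb' (isFinTest_tk (U := D.toLevel) hv)
    (fun y z => by
      rw [tk_symm]
      unfold tk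
      split_ifs <;> simp) (a := (sq v : ℂ) * (l : ℂ)) (a' := (sq v : ℂ) * (l' : ℂ))
    (fun x => by rw [ka_tk hv]; exact h x) (fun x => by rw [ka_tk hv]; exact h' x)
  rw [map_mul, Complex.conj_ofReal, Complex.conj_ofReal] at key
  by_contra hN
  have h1 := mul_right_cancel₀ hN key
  have h2 : (sq v : ℂ) ≠ 0 := by exact_mod_cast (sq_pos v).ne'
  have h3 := mul_left_cancel₀ h2 h1
  exact hne (by exact_mod_cast h3)

/-- **Orthogonality** of Hecke eigenforms with different eigenvalues. -/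
theorem orth_of_ne {w : X D → ℝ≥0∞} (hw : IsWeight (PG F) w) {φ φ' : X D → ℂ}
    (hφ : IsCusp φ) (hφ' : IsCusp φ') {v : Pl F} (hv : D.n v = 0) {l l' : ℝ}
    (h : ∀ x, TX v φ x = (sq v : ℂ) * (l : ℂ) * φ x)
    (h' : ∀ x, TX v φ' x = (sq v : ℂ) * (l' : ℂ) * φ' x) (hne : l ≠ l') :
    (∫⁻ p, w p * ‖φ p + φ' p‖ₑ ^ 2) = ∫⁻ p, w p * ‖φ p - φ' p‖ₑ ^ 2 := by
  have hfm := isFiniteMeasure_qMeas_XD hw
  have hb := hφ.bounded
  have hb' := hφ'.bounded
  have h0 := inner_eq_zero_of_ne hw ⟨hφ.cont, hφ.inv⟩ ⟨hφ'.cont, hφ'.inv⟩ hb hb' hv h h' hne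
  obtain ⟨B, hB⟩ := hb
  obtain ⟨B', hB'⟩ := hb'
  refine lintegral_sq_add_eq_sub hw hφ.cont.stronglyMeasurable hφ'.cont.stronglyMeasurable
    (B := B.toNNReal) (B' := B'.toNNReal) (fun x => ?_) (fun x => ?_) h0
  · rw [← ofReal_norm]
    exact ENNReal.ofReal_le_ofReal (hB x)
  · rw [← ofReal_norm]
    exact ENNReal.ofReal_le_ofReal (hB' x)

end Fermat.Agent.LT.H
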