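import Mathlib
import Fermat.Agent.LT.I.Poisson

/-!
# Parseval's identity for functions periodic with respect to a lattice
-/

set_option autoImplicit false
set_option linter.unusedSectionVars false

open MeasureTheory UnitAddTorus Set Filter Topology Module
open scoped Real ENNReal
open Fermat.Agent.LT.I

attribute [local instance] instMeasureSpaceUnitAddCircle instIsAddHaarMeasureUnitAddCircleVolume
  instIsProbabilityMeasureUnitAddCircleVolume

namespace Fermat.Agent.LT.H

section box

variable {d : Type} [Fintype d]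

/-- A continuous `ℤ^d`-periodic function descends to the torus. -/
theorem exists_torus {g : (d → ℝ) → ℂ} (hg : Continuous g)
    (hper : ∀ (k : d → ℤ) x, g (x + zv k) = g x) :
    ∃ G : C(UnitAddTorus d, ℂ), ∀ x : d → ℝ, G (fun i => (x i : UnitAddCircle)) = g x := by
  let q : (d → ℝ) → UnitAddTorus d := Pi.map fun _ => ((↑) : ℝ → UnitAddCircle)
  have hq : IsOpenQuotientMap q :=
    IsOpenQuotientMap.piMap fun _ => QuotientAddGroup.isOpenQuotientMap_mk
  have hSper : ∀ x y, q x = q y → g x = g y := by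
    intro x y hxy
    have h1 : ∀ i, ∃ n : ℤ, y i = x i + n := by
      intro i
      have h2 : ((x i : ℝ) : UnitAddCircle) = (y i : ℝ) := congrFun hxy i
      have h3 := QuotientAddGroup.eq.mp h2
      obtain ⟨n, hn⟩ := AddSubgroup.mem_zmultiples_iff.mp h3
      refine ⟨n, ?_⟩
      rw [zsmul_eq_mul, mul_one] at hn
      linarith
    choose n hn using h1
    have h3 : y = x + zv n := funext hn
    rw [h3, hper]
  let F : UnitAddTorus d → ℂ := Function.extend q g 0
  have hFq : ∀ x, F (q x) = g x := by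
    intro x
    exact (show Function.FactorsThrough g q from fun a b h => hSper a b h).extend_apply 0 x
  have hFc : Continuous F := by
    rw [hq.continuous_comp_iff.symm]
    have : F ∘ q = g := funext hFq
    rw [this]
    exact hg
  exact ⟨⟨F, hFc⟩, hFq⟩

theorem boxset : {x : d → ℝ | ∀ i, x i ∈ Ioc ((0 : d → ℝ) i) ((0 : d → ℝ) i + 1)} =
    box (0 : d → ℤ) := by
  ext x; simp [box]

/-- Parseval on the unit box. -/
theorem tsum_box_sq {g : (d → ℝ) → ℂ} (hg : Continuous g)
    (hper : ∀ (k : d → ℤ) x, g (x + zv k) = g x) :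
    ∑' m : d → ℤ, ‖∫ x in box (0 : d → ℤ), ex (-m) x * g x‖ₑ ^ 2 =
      ∫⁻ x in box (0 : d → ℤ), ‖g x‖ₑ ^ 2 := by
  obtain ⟨G, hG⟩ := exists_torus hg hper
  have hcoef : ∀ m, mFourierCoeff G m = ∫ x in box (0 : d → ℤ), ex (-m) x * g x := by
    intro m
    rw [mFourierCoeff_eq_integral _ _ (0 : d → ℝ), boxset]
    refine integral_congr_ae (Eventually.of_forall fun x => ?_)
    change mFourier (-m) (fun i => (x i : UnitAddCircle)) • G (fun i => (x i : UnitAddCircle)) = _
    rw [mFourier_coe, hG, smul_eq_mul]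
  have h1 := hasSum_sq_mFourierCoeff (ContinuousMap.toLp (E := ℂ) 2 volume ℂ G)
  simp only [mFourierCoeff_toLp] at h1
  have h2 : ∫ t, ‖(ContinuousMap.toLp (E := ℂ) 2 volume ℂ G) t‖ ^ 2 =
      ∫ t : UnitAddTorus d, ‖G t‖ ^ 2 := by
    refine integral_congr_ae ?_
    filter_upwards [ContinuousMap.coeFn_toLp (E := ℂ) (p := 2) (𝕜 := ℂ) volume G] with t ht
    rw [ht]
  rw [h2] at h1
  have h3 : ∫⁻ x in box (0 : d → ℤ), ‖g x‖ₑ ^ 2 = ∫⁻ t : UnitAddTorus d, ‖G t‖ₑ ^ 2 := by
    rw [lintegral_preimage (fun t => ‖G t‖ₑ ^ 2) (0 : d → ℝ), boxset]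
    refine lintegral_congr fun x => ?_
    rw [hG]
  rw [h3]
  have h4 : ∀ z : ℂ, ‖z‖ₑ ^ 2 = ENNReal.ofReal (‖z‖ ^ 2) := by
    intro z
    rw [ENNReal.ofReal_pow (norm_nonneg _), ofReal_norm]
  simp_rw [h4, ← hcoef]
  rw [← ENNReal.ofReal_tsum_of_nonneg (fun m => by positivity) h1.summable, h1.tsum_eq]
  refine ofReal_integral_eq_lintegral_ofReal ?_ (Eventually.of_forall fun t => by positivity)
  have hc : Continuous fun t : UnitAddTorus d => ‖G t‖ ^ 2 := by fun_prop
  exact hc.integrable_of_hasCompactSupport (HasCompactSupport.of_compactSpace _)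

end box

section lattice

variable {V : Type} [NormedAddCommGroup V] [NormedSpace ℝ V] [FiniteDimensional ℝ V]
  [MeasurableSpace V] [BorelSpace V] {μ : Measure V} [μ.IsAddHaarMeasure]
  {d : Type} [Fintype d]

/-- the box of a basis -/
def lbox (b : Basis d ℝ V) : Set V := b.equivFunL ⁻¹' box (0 : d → ℤ)

theorem measurableSet_lbox (b : Basis d ℝ V) : MeasurableSet (lbox b) :=
  (measurableSet_box 0).preimage b.equivFunL.continuous.measurable

theorem map_equivFunL (b : Basis d ℝ V) :
    μ.map b.equivFunL = μ (lbox b) • (volume : Measure (d → ℝ)) := by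
  have h1 := Measure.isAddLeftInvariant_eq_smul (μ.map b.equivFunL) (volume : Measure (d → ℝ))
  have h2 : (μ.map b.equivFunL) (box 0) = μ (lbox b) :=
    Measure.map_apply b.equivFunL.continuous.measurable (measurableSet_box 0)
  have h3 := congrArg (fun ν : Measure (d → ℝ) => ν (box 0)) h1
  simp only [Measure.smul_apply, volume_box, h2] at h3
  rw [h3]
  refine h1.trans ?_
  generalize (μ.map b.equivFunL).addHaarScalarFactor (volume : Measure (d → ℝ)) = c
  ext s hs
  rw [Measure.smul_apply, Measure.smul_apply, ENNReal.smul_def, ENNReal.smul_def]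
  simp only [smul_eq_mul, mul_one]

theorem lbox_pos (b : Basis d ℝ V) : 0 < μ (lbox b) := by
  rw [pos_iff_ne_zero]
  intro h
  have h1 := map_equivFunL (μ := μ) b
  rw [h, zero_smul] at h1
  have h2 : (μ.map b.equivFunL) univ = 0 := by rw [h1]; simp
  rw [Measure.map_apply b.equivFunL.continuous.measurable MeasurableSet.univ, preimage_univ] at h2
  exact (Measure.measure_univ_ne_zero.mpr (NeZero.ne μ)) h2

theorem lbox_lt_top (b : Basis d ℝ V) : μ (lbox b) < ∞ := by
  have h1 : lbox b ⊆ b.equivFunL.symm '' (Set.pi univ fun _ => Icc (0 : ℝ) 1) := by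
    intro v hv
    refine ⟨b.equivFunL v, fun i _ => ?_, by simp⟩
    have := hv i
    simp only [Pi.zero_apply, Int.cast_zero, zero_add] at this
    exact Ioc_subset_Icc_self this
  exact (measure_mono h1).trans_lt
    ((isCompact_univ_pi fun i => isCompact_Icc).image b.equivFunL.symm.continuous).measure_lt_top

theorem lintegral_lbox (b : Basis d ℝ V) (f : V → ℝ≥0∞) :
    ∫⁻ v in lbox b, f v ∂μ = μ (lbox b) * ∫⁻ x in box (0 : d → ℤ), f (b.equivFunL.symm x) := by
  have e : MeasurableEquiv V (d → ℝ) := b.equivFunL.toHomeomorph.toMeasurableEquiv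
  have h1 : MeasurePreserving b.equivFunL.toHomeomorph.toMeasurableEquiv μ
      (μ (lbox b) • (volume : Measure (d → ℝ))) :=
    ⟨b.equivFunL.continuous.measurable, map_equivFunL b⟩
  have h2 := h1.setLIntegral_comp_preimage_emb
    b.equivFunL.toHomeomorph.toMeasurableEquiv.measurableEmbedding
    (fun x => f (b.equivFunL.symm x)) (box (0 : d → ℤ))
  rw [Measure.restrict_smul, lintegral_smul_measure, smul_eq_mul] at h2
  rw [← h2]
  refine lintegral_congr fun v => ?_
  congr 1
  exact (b.equivFunL.symm_apply_apply v).symm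

theorem integral_lbox {E : Type} [NormedAddCommGroup E] [NormedSpace ℝ E]
    (b : Basis d ℝ V) (f : V → E) :
    ∫ v in lbox b, f v ∂μ = (μ (lbox b)).toReal • ∫ x in box (0 : d → ℤ), f (b.equivFunL.symm x) := by
  have h1 : MeasurePreserving b.equivFunL.toHomeomorph.toMeasurableEquiv μ
      (μ (lbox b) • (volume : Measure (d → ℝ))) :=
    ⟨b.equivFunL.continuous.measurable, map_equivFunL b⟩
  have h2 := h1.setIntegral_preimage_emb
    b.equivFunL.toHomeomorph.toMeasurableEquiv.measurableEmbedding
    (fun x => f (b.equivFunL.symm x)) (box (0 : d → ℤ))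
  rw [Measure.restrict_smul, integral_smul_measure] at h2
  rw [← h2]
  refine integral_congr_ae (Eventually.of_forall fun v => ?_)
  change f v = f (b.equivFunL.symm (b.equivFunL v))
  rw [b.equivFunL.symm_apply_apply]

/-- A fundamental domain of a lattice: measurable, every orbit meets it exactly once, of finite
positive measure. -/
structure IsBox (μ : Measure V) (L : AddSubgroup V) (s : Set V) : Prop where
  meas : MeasurableSet s
  uniq : ∀ v, ∃! g : L, (g : V) + v ∈ s
  pos : μ s ≠ 0
  fin : μ s ≠ ∞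

theorem IsBox.isAddFundamentalDomain {L : AddSubgroup V} {s : Set V} (h : IsBox μ L s) :
    IsAddFundamentalDomain L s μ :=
  IsAddFundamentalDomain.mk' h.meas.nullMeasurableSet h.uniq

theorem equivFunL_sum (b : Basis d ℝ V) (k : d → ℤ) :
    b.equivFunL (∑ i, (k i : ℝ) • b i) = zv k := by
  have h := b.equivFun.apply_symm_apply (zv k)
  rw [b.equivFun_symm_apply] at h
  exact h

theorem isBox_lbox {L : AddSubgroup V} (b : Basis d ℝ V)
    (hb : ∀ v, v ∈ L ↔ ∃ k : d → ℤ, v = ∑ i, (k i : ℝ) • b i) : IsBox μ L (lbox b) where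
  meas := measurableSet_lbox b
  pos := (lbox_pos b).ne'
  fin := (lbox_lt_top b).ne
  uniq v := by
    have hx : ∃ m : d → ℤ, b.equivFunL v ∈ box m := by
      have : b.equivFunL v ∈ ⋃ m : d → ℤ, box m := by rw [iUnion_box]; trivial
      exact mem_iUnion.mp this
    obtain ⟨m, hm⟩ := hx
    have hkey : ∀ k : d → ℤ, (∑ i, (k i : ℝ) • b i) + v ∈ lbox b ↔ k = -m := by
      intro k
      change b.equivFunL (_ + v) ∈ box 0 ↔ _
      rw [map_add, equivFunL_sum, add_comm]
      constructor
      · intro h
        funext i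
        have h1 := h i
        have h2 := hm i
        simp only [Pi.add_apply, zv, Pi.zero_apply, Int.cast_zero, zero_add, mem_Ioc] at h1 h2
        have h3 : ((k i + m i : ℤ) : ℝ) < 1 := by push_cast; linarith
        have h4 : (-1 : ℝ) < ((k i + m i : ℤ) : ℝ) := by push_cast; linarith
        have h5 : k i + m i < 1 := by exact_mod_cast h3
        have h6 : -1 < k i + m i := by exact_mod_cast h4
        simp only [Pi.neg_apply]
        omega
      · rintro rfl i
        have h2 := hm i
        simp only [Pi.add_apply, zv, Pi.zero_apply, Int.cast_zero, zero_add, mem_Ioc, Pi.neg_apply,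
          Int.cast_neg] at h2 ⊢
        constructor <;> linarith
    refine ⟨⟨∑ i, ((-m) i : ℝ) • b i, (hb _).mpr ⟨-m, by simp⟩⟩, ?_, ?_⟩
    · have := (hkey (-m)).mpr rfl
      simpa using this
    · rintro ⟨g, hg⟩ hg2
      obtain ⟨k, rfl⟩ := (hb g).mp hg
      have := (hkey k).mp hg2
      subst this
      ext
      simp

end lattice

end Fermat.Agent.LT.H
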