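import Fermat.Agent.LT.H.TorDef
import Fermat.Agent.LT.H.Local
import Fermat.Agent.LT.H.Euler
import Fermat.Agent.LT.B.FinKer

/-!
# Whittaker functions on `Y`: the Hecke recursion

* `IsWY.hecke_tor` : the action of `T_w` on a Whittaker function at a torus point;
* `IsWY.rec_U` : `a (tg k • y₀) = (∏ w, √q_w ^ (-k w) U (lam w) (k w)) * a y₀`.
-/

set_option autoImplicit false
set_option linter.unusedSectionVars false

open NumberField IsDedekindDomain Matrix MeasureTheory Module Set
open scoped ComplexConjugate ENNReal Real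

namespace Fermat.Agent.LT.H

open Fermat.LT Fermat.Agent.LT.I Fermat.Agent.LT.B
open Fermat.Agent.LT.CTree (unif lv av_unif tri nb nu rep sq qn Tl_one sq_sq sq_pos)
open Fermat.Agent.LT.H.Local (U U_zero U_one U_add_two)
open Fermat.Agent.LT.H.Euler (mulF)

variable {F : Type} [Field F] [NumberField F]

theorem nm_un (w : Pl F) (b : F) : nm w (un b).1 = max 1 (av w b) := by
  simp only [nm, un_val, Matrix.of_apply, Matrix.cons_val', Matrix.cons_val_zero,
    Matrix.cons_val_one, Matrix.cons_val_fin_one, map_one, map_zero]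
  apply le_antisymm
  · refine max_le (max_le ?_ ?_) (max_le ?_ ?_)
    · exact le_max_left _ _
    · exact le_max_right _ _
    · exact zero_le_one.trans (le_max_left _ _)
    · exact le_max_left _ _
  · refine max_le ?_ ?_
    · exact (le_max_left _ _).trans (le_max_left _ _)
    · exact (le_max_right _ _).trans (le_max_left _ _)

theorem un_mem_stdH_iff (w : Pl F) (b : F) : un b ∈ stdH w ↔ av w b ≤ 1 := by
  rw [mem_stdH, ← un_neg, nm_un, nm_un, (av w).map_neg]
  constructor
  · intro h
    by_contra hc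
    push Not at hc
    have h1 : max 1 (av w b) = av w b := max_eq_right hc.le
    rw [h1] at h
    nlinarith
  · intro h
    rw [max_eq_left h, mul_one]

/-- stabiliser of a torus point at a good place -/
theorem un_smul_dg_iff' {U : Level F} {w : Pl F} (hw : U.n w = 0) (α : Fˣ) (b : F) :
    un b • ((dg α : G2 F) : Yl U w) = ((dg α : G2 F) : Yl U w) ↔ av w b ≤ av w (α : F) := by
  change ((un b * dg α : G2 F) : Yl U w) = _ ↔ _
  rw [eq_comm, QuotientGroup.eq, dg_inv_un_dg, U.H_eq hw, un_mem_stdH_iff, map_mul,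
    Units.val_inv_eq_inv_val, map_inv₀]
  have h : 0 < av w (α : F) := (av w).pos α.ne_zero
  rw [inv_mul_le_iff₀ h, mul_one]

theorem tg_single_apply {U : Level F} (w : Pl F) (n : ℤ) (y : Y U) :
    (tg (Finsupp.single w n) • y) w = dg (unif w ^ n) • y w := by
  classical
  rw [tg_smul_apply, Finsupp.single_eq_same]

theorem tg_single_apply_ne {U : Level F} {w v : Pl F} (h : v ≠ w) (n : ℤ) (y : Y U) :
    (tg (Finsupp.single w n) • y) v = y v := by
  classical
  rw [tg_smul_apply, Finsupp.single_eq_of_ne h, zpow_zero, H.dg_one, one_smul]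

/-- `tg (single w n) • y` is `y` with the component at `w` replaced -/
theorem tg_single_eq_upd {U : Level F} (w : Pl F) (n : ℤ) (y : Y U) :
    tg (Finsupp.single w n) • y = upd y w (dg (unif w ^ n) • y w) := by
  refine Y.ext' fun v => ?_
  by_cases h : v = w
  · subst h
    rw [tg_single_apply, upd_same]
  · rw [tg_single_apply_ne h, upd_ne y h]

section hecke

variable {A : Arch F} {U' : Level F} {a : Y U' → ℂ}

/-- **The Hecke operator on a Whittaker function** at a point whose component at `w` is in the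
torus. -/
theorem IsWY.hecke_tor (ha : IsWY A a) {w : Pl F} (hw : U'.n w = 0) {y : Y U'} {α : Fˣ}
    (hy : y w = ((dg α : G2 F) : Yl U' w)) (hd : (1 : F) ∈ dualOf A (bY y)) :
    TY w a y = a (tg (Finsupp.single w (-1)) • y) +
      (qn w : ℂ) * a (tg (Finsupp.single w 1) • y) := by
  rw [TY, hy, Tl_one hw, Fintype.sum_option]
  congr 1
  · congr 1
    rw [tg_single_eq_upd, hy, nb, nu]
    congr 1
    change ((dg α * tri (unif w)⁻¹ 0 : G2 F) : Yl U' w) =
      ((dg (unif w ^ (-1 : ℤ)) * dg α : G2 F) : Yl U' w)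
    rw [← Fermat.Agent.LT.CTree.dg_eq_tri, ← H.dg_mul, ← H.dg_mul, mul_comm, _root_.zpow_neg_one]
  · rw [← CTree.card_res', Fintype.card, ← nsmul_eq_mul]
    refine Finset.sum_eq_card_nsmul fun c _ => ?_
    set y1 := tg (Finsupp.single w 1) • y with hy1
    have hy1w : y1 w = ((dg (unif w * α) : G2 F) : Yl U' w) := by
      rw [hy1, tg_single_apply, hy, zpow_one]
      change ((dg (unif w) * dg α : G2 F) : Yl U' w) = _
      rw [H.dg_mul]
    have hnb : nb (U := U') w (dg α) (some c) =
        un ((α : F) * rep w c) • ((dg (unif w * α) : G2 F) : Yl U' w) := by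
      rw [nb, nu, Fermat.Agent.LT.CTree.dg_eq_tri, Fermat.Agent.LT.CTree.tri_mul]
      change _ = ((un ((α : F) * rep w c) * dg (unif w * α) : G2 F) : Yl U' w)
      rw [tri, add_zero, mul_comm α]
    set y2 := upd y w (nb w (dg α) (some c)) with hy2
    have hy2w : y2 w = un ((α : F) * rep w c) • y1 w := by
      rw [hy2, upd_same, hnb, hy1w]
    have hy12 : ∀ v, v ≠ w → y2 v = y1 v := fun v hv => by
      rw [hy2, upd_ne y hv, hy1, tg_single_apply_ne hv]
    obtain ⟨β, hβ⟩ := exists_un_eq y1 y2 (fun v => by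
      by_cases hv : v = w
      · subst hv
        exact ⟨_, hy2w⟩
      · refine ⟨0, ?_⟩
        rw [un_zero, one_smul, hy12 v hv])
    have hβv : ∀ v, un β • y1 v = y2 v := fun v => by rw [hβ]; rfl
    have hβy : un β • y = y := by
      refine Y.ext' fun v => ?_
      rw [G2_smul_apply]
      by_cases hv : v = w
      · subst hv
        rw [hy, un_smul_dg_iff' hw]
        have h1 : un (β - (α : F) * rep v c) • ((dg (unif v * α) : G2 F) : Yl U' v) =
            ((dg (unif v * α) : G2 F) : Yl U' v) := by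
          have h2 := hβv v
          rw [hy2w, hy1w] at h2
          rw [sub_eq_neg_add, un_add, mul_smul, h2, un_neg, inv_smul_smul]
        rw [un_smul_dg_iff' hw] at h1
        have h3 : av v (β - (α : F) * rep v c) ≤ av v (α : F) := by
          refine h1.trans ?_
          rw [Units.val_mul, map_mul, av_unif]
          exact mul_le_of_le_one_left ((av v).nonneg _) (inv_le_one_of_one_le₀ (one_lt_qv v).le)
        have h4 : av v ((α : F) * rep v c) ≤ av v (α : F) := by
          rw [map_mul]
          exact mul_le_of_le_one_right ((av v).nonneg _) (CTree.av_rep_le v c)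
        have h5 : β = (β - (α : F) * rep v c) + (α : F) * rep v c := by ring
        rw [h5]
        exact (av_add_le v _ _).trans (max_le h3 h4)
      · have h2 := hβv v
        rw [hy12 v hv, hy1, tg_single_apply_ne hv] at h2
        exact h2
    rw [hβ, ha, (one_mem_dualOf_iff A _).mp hd β hβy, one_mul]

/-- `δ` is the exponent of the different -/
def IsDiff (A : Arch F) (δ : Pl F → ℤ) : Prop :=
  ∀ k : Pl F → ℤ, {w | k w ≠ 0}.Finite → ((1 : F) ∈ dualOf A (Jk k) ↔ ∀ w, -δ w ≤ k w)

theorem IsWY.eq_zero_of_lt (ha : IsWY A a) {e : Pl F → ℕ} (hU : UnLev U' e) {δ : Pl F → ℤ}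
    (hδ : IsDiff A δ) {y : Y U'} {k : Pl F → ℤ} (hk : {w | k w ≠ 0}.Finite) (hy : IsTor e y k)
    {w : Pl F} (hw : k w < -δ w) : a y = 0 := by
  by_contra hne
  have h1 := ha.supp hne
  rw [hy.bY_eq hU] at h1
  exact absurd ((hδ k hk).mp h1 w) (not_le.mpr hw)

theorem fin_add {k : Pl F → ℤ} (hk : {w | k w ≠ 0}.Finite) (m : Pl F →₀ ℤ) :
    {w | k w + m w ≠ 0}.Finite := by
  refine (hk.union m.hasFiniteSupport).subset ?_
  intro w hw
  by_contra hc
  simp only [Set.mem_union, not_or, Set.mem_ofPred_eq, not_not, Function.mem_support] at hc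
  exact hw (by rw [hc.1, hc.2, add_zero])

theorem tg_single_smul (w : Pl F) (m n : ℤ) (y : Y U') :
    tg (Finsupp.single w m) • (tg (Finsupp.single w n) • y) =
      tg (Finsupp.single w (m + n)) • y := by
  rw [← mul_smul, ← tg_add, ← Finsupp.single_add]

/-- recursion at one place -/
theorem IsWY.rec_one (ha : IsWY A a) {e : Pl F → ℕ} (hU : UnLev U' e) {δ : Pl F → ℤ}
    (hδ : IsDiff A δ) {y : Y U'} {k : Pl F → ℤ} (hk : {w | k w ≠ 0}.Finite) (hy : IsTor e y k)
    (hkδ : ∀ w, -δ w ≤ k w) {w : Pl F} (hw : U'.n w = 0) (hkw : k w = -δ w) {l : ℝ}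
    (hecke : ∀ y, TY w a y = (sq w : ℂ) * l * a y) (n : ℕ) :
    a (tg (Finsupp.single w (n : ℤ)) • y) = (((sq w)⁻¹ ^ n * U l n : ℝ) : ℂ) * a y := by
  classical
  have hs : (sq w : ℂ) ≠ 0 := by exact_mod_cast (sq_pos w).ne'
  have hq : (qn w : ℂ) = (sq w : ℂ) ^ 2 := by
    have := sq_sq w
    rw [CTree.qv_eq] at this
    exact_mod_cast this.symm
  have key : ∀ n : ℕ, (sq w : ℂ) * l * a (tg (Finsupp.single w (n : ℤ)) • y) =
      a (tg (Finsupp.single w ((n : ℤ) - 1)) • y) +
        (sq w : ℂ) ^ 2 * a (tg (Finsupp.single w ((n : ℤ) + 1)) • y) := by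
    intro n
    have ht := hy.tg_smul (Finsupp.single w (n : ℤ))
    obtain ⟨α, h1, h2⟩ := ht w
    have hd : (1 : F) ∈ dualOf A (bY (tg (Finsupp.single w (n : ℤ)) • y)) := by
      rw [ht.bY_eq hU, hδ _ (fin_add hk _)]
      intro v
      have h3 : 0 ≤ (Finsupp.single w (n : ℤ)) v := by
        by_cases hv : v = w
        · subst hv; rw [Finsupp.single_eq_same]; positivity
        · rw [Finsupp.single_eq_of_ne hv]
      have := hkδ v
      linarith
    rw [← hecke, ha.hecke_tor hw h1 hd, tg_single_smul, tg_single_smul, hq]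
    rw [show (-1 : ℤ) + n = n - 1 by ring, show (1 : ℤ) + n = n + 1 by ring]
  have hzero : a (tg (Finsupp.single w (-1 : ℤ)) • y) = 0 := by
    refine ha.eq_zero_of_lt hU hδ (fin_add hk _) (hy.tg_smul _) (w := w) ?_
    rw [Finsupp.single_eq_same, hkw]
    linarith
  have h0 : tg (Finsupp.single w (0 : ℤ)) • y = y := by
    rw [Finsupp.single_zero, tg_zero, one_smul]
  have hmain : ∀ n : ℕ, a (tg (Finsupp.single w (n : ℤ)) • y) =
      (((sq w)⁻¹ ^ n * U l n : ℝ) : ℂ) * a y ∧
      a (tg (Finsupp.single w ((n : ℤ) + 1)) • y) =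
      (((sq w)⁻¹ ^ (n + 1) * U l (n + 1) : ℝ) : ℂ) * a y := by
    intro n
    induction n with
    | zero =>
      constructor
      · rw [Nat.cast_zero, h0]; simp
      · have h1 := key 0
        rw [Nat.cast_zero, zero_sub, hzero, zero_add, zero_add, h0] at h1
        rw [Nat.cast_zero, zero_add, zero_add, pow_one, U_one]
        apply mul_left_cancel₀ (pow_ne_zero 2 hs)
        rw [← h1]
        push_cast
        field_simp
    | succ n ih =>
      obtain ⟨ih1, ih2⟩ := ih
      constructor
      · push_cast at ih2 ⊢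
        exact ih2
      · have h1 := key (n + 1)
        have e1 : (((n + 1 : ℕ) : ℤ) - 1) = (n : ℤ) := by push_cast; ring
        have e2 : ((n + 1 : ℕ) : ℤ) = (n : ℤ) + 1 := by push_cast; ring
        rw [e1, e2, ih1, ih2] at h1
        rw [e2]
        apply mul_left_cancel₀ (pow_ne_zero 2 hs)
        have h3 : (sq w : ℂ) ^ 2 * a (tg (Finsupp.single w ((n : ℤ) + 1 + 1)) • y) =
            (sq w : ℂ) * l * ((((sq w)⁻¹ ^ (n + 1) * U l (n + 1) : ℝ) : ℂ) * a y) -
              (((sq w)⁻¹ ^ n * U l n : ℝ) : ℂ) * a y := by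
          rw [h1]; ring
        rw [h3, U_add_two]
        push_cast
        have hst : (sq w : ℂ) * (sq w : ℂ)⁻¹ = 1 := mul_inv_cancel₀ hs
        generalize (sq w : ℂ)⁻¹ = t at hst
        generalize (sq w : ℂ) = r at hst
        linear_combination (-(t ^ n * (r * t + 1) * a y * ((l : ℂ) * U l (n + 1) - U l n)) +
          (l : ℂ) * t ^ n * U l (n + 1) * a y) * hst
  exact (hmain n).1

/-- natural number exponents as integer exponents -/
noncomputable def nz (k : Pl F →₀ ℕ) : Pl F →₀ ℤ := k.mapRange (fun n : ℕ => (n : ℤ)) rfl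

theorem nz_apply (k : Pl F →₀ ℕ) (w : Pl F) : nz k w = k w := rfl

theorem nz_single (w : Pl F) (n : ℕ) : nz (Finsupp.single w n) = Finsupp.single w (n : ℤ) := by
  classical
  exact Finsupp.mapRange_single

theorem nz_add (k l : Pl F →₀ ℕ) : nz (k + l) = nz k + nz l := by
  ext w
  rw [nz_apply, Finsupp.add_apply, Finsupp.add_apply, nz_apply, nz_apply]
  push_cast; rfl

/-- **The Hecke recursion**, all places in `P`. -/
theorem IsWY.rec_U (ha : IsWY A a) {e : Pl F → ℕ} (hU : UnLev U' e) {δ : Pl F → ℤ}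
    (hδ : IsDiff A δ) {y₀ : Y U'} {k₀ : Pl F → ℤ} (hk₀ : {w | k₀ w ≠ 0}.Finite)
    (hy₀ : IsTor e y₀ k₀) (hkδ : ∀ w, -δ w ≤ k₀ w) {lam : Pl F → ℝ} {P : Set (Pl F)}
    (hP : ∀ w ∈ P, U'.n w = 0 ∧ k₀ w = -δ w)
    (hecke : ∀ w ∈ P, ∀ y, TY w a y = (sq w : ℂ) * lam w * a y)
    (k : Pl F →₀ ℕ) (hk : ∀ w, k w ≠ 0 → w ∈ P) :
    a (tg (nz k) • y₀) =
      ((mulF (fun w m => (sq w)⁻¹ ^ m * U (lam w) m) k : ℝ) : ℂ) * a y₀ := by
  classical
  induction k using Finsupp.induction with
  | zero =>
    have : nz (0 : Pl F →₀ ℕ) = 0 := by ext w; rfl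
    rw [this, tg_zero, one_smul, mulF, Finsupp.prod_zero_index]
    simp
  | single_add w n k hwk hn ih =>
    have hkw : k w = 0 := by simpa using hwk
    have hsum : ∀ v, (Finsupp.single w n + k) v = (if v = w then n else 0) + k v := by
      intro v
      rw [Finsupp.add_apply, Finsupp.single_apply]
      simp only [eq_comm]
    have hwP : w ∈ P := hk w (by rw [hsum, if_pos rfl, hkw, add_zero]; exact hn)
    have ih' := ih (fun v hv => hk v (by
      rw [hsum]
      omega))
    have ht := hy₀.tg_smul (nz k)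
    rw [nz_add, nz_single, tg_add, mul_smul]
    have hkδ' : ∀ v, -δ v ≤ k₀ v + (nz k) v := by
      intro v
      rw [nz_apply]
      have := hkδ v
      have h2 : (0 : ℤ) ≤ (k v : ℤ) := by positivity
      linarith
    have hkw' : k₀ w + (nz k) w = -δ w := by
      rw [nz_apply, hkw, (hP w hwP).2]
      simp
    rw [ha.rec_one hU hδ (fin_add hk₀ (nz k)) ht hkδ' (hP w hwP).1 hkw'
      (hecke w hwP) n, ih']
    · have hdis : Disjoint (Finsupp.single w n).support k.support := by
        rw [Finsupp.support_single _ hn, Finset.disjoint_singleton_left]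
        exact hwk
      rw [mulF, mulF, Finsupp.prod_add_index_of_disjoint hdis, Finsupp.prod_single_index (by simp)]
      push_cast
      ring

end hecke

end Fermat.Agent.LT.H
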