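import Fermat.Agent.LT.Geo.DeepQ
import Fermat.Agent.LT.H.WhitY
import Fermat.Agent.LT.H.Defs
import Fermat.Agent.LT.Top.Iface

/-!
# Pull-back of eigenforms to a smaller level
-/

set_option autoImplicit false
set_option linter.unusedSectionVars false

open NumberField IsDedekindDomain Matrix MeasureTheory Module Set
open scoped ComplexConjugate ENNReal Real

namespace Fermat.Agent.LT.H

open Fermat.LT Fermat.Agent.LT.I Fermat.Agent.LT.B Fermat.Agent.LT.Top
open Fermat.Agent.LT.CTree (nb nu qn sq Tl_one)

variable {F : Type} [Field F] [NumberField F] {A : Arch F} {U U' : Level F}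
  (h : ∀ w, U.H w ≤ U'.H w)

section proj

theorem proj_upd (y : Y U) (w : Pl F) (z : Yl U w) :
    Level.proj h (upd y w z) = upd (Level.proj h y) w (pq (h w) z) := by
  refine Y.ext' fun v => ?_
  by_cases hv : v = w
  · subst hv
    rw [Level.proj_apply, upd_same, upd_same]
  · rw [Level.proj_apply, upd_ne _ hv, upd_ne _ hv, Level.proj_apply]

theorem proj_surjective (y : Y U') : ∃ z : Y U, Level.proj h z = y := by
  classical
  let g : Pl F → G2 F := fun w => if y w = ((1 : G2 F) : Yl U' w) then 1 else (y w).out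
  have hg : ∀ w, ((g w : G2 F) : Yl U' w) = y w := by
    intro w
    by_cases hw : y w = ((1 : G2 F) : Yl U' w)
    · simp only [g, if_pos hw, hw]
    · simp only [g, if_neg hw]
      exact QuotientGroup.out_eq' _
  refine ⟨⟨fun w => ((g w : G2 F) : Yl U w), ?_⟩, Y.ext' hg⟩
  refine y.fin.subset fun w hw hc => hw ?_
  have hc' : y w = ((1 : G2 F) : Yl U' w) := hc
  simp only [g, if_pos hc']

theorem hfin_proj (v : Fin 2 → F) (y : Y U) : hfin v (Level.proj h y) = hfin v y := by
  rw [hfin, hfin]
  refine finprod_congr fun w => ?_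
  obtain ⟨g, hg⟩ := QuotientGroup.mk_surjective (y w)
  rw [Level.proj_apply, ← hg]
  rfl

theorem continuous_projX : Continuous (projX (A := A) h) := by
  have h1 : Continuous (Level.proj h) := continuous_of_discreteTopology
  exact continuous_fst.prodMk (h1.comp continuous_snd)

theorem projX_smul (g : G2 F) (x : X (⟨A, U⟩ : Datum F)) : projX h (g • x) = g • projX h x :=
  Prod.ext rfl (Level.proj_smul h g x.2)

theorem ht_projX (v : Fin 2 → F) (x : X (⟨A, U⟩ : Datum F)) : ht v (projX h x) = ht v x := by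
  rw [ht, ht]
  congr 1
  exact hfin_proj h v x.2

theorem bLat_proj_le (y : Y U) : bLat A y ≤ bLat A (Level.proj h y) := by
  refine AddSubgroup.map_mono ?_
  intro b hb
  change un b • Level.proj h y = Level.proj h y
  rw [← Level.proj_smul]
  congr 1

end proj

section pull

variable {φ : X (⟨A, U'⟩ : Datum F) → ℂ}

/-- the pull-back of a cusp form -/
theorem isCusp_pull (hφ : IsCusp φ) : IsCusp (D := ⟨A, U⟩) (fun x => φ (projX h x)) where
  cont := hφ.cont.comp (continuous_projX h)
  inv := by
    intro γ x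
    obtain ⟨g, rfl⟩ := Matrix.ProjGenLinGroup.mk_surjective γ
    change φ (projX h (g • x)) = _
    rw [projX_smul]
    exact hφ.inv (pmk g) _
  decay := by
    intro M
    obtain ⟨C, hC⟩ := hφ.decay M
    refine ⟨C, fun x v hv => ?_⟩
    have := hC (projX h x) v hv
    rwa [ht_projX] at this
  mean := by
    intro x n b hb
    exact hφ.mean (projX h x) n b fun l => bLat_proj_le h x.2 (hb l)

theorem TY_proj {w : Pl F} (hw : U.n w = 0) (hw' : U'.n w = 0) (ψ : Y U' → ℂ) (y : Y U) :
    TY w (fun z => ψ (Level.proj h z)) y = TY w ψ (Level.proj h y) := by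
  obtain ⟨g, hg⟩ := QuotientGroup.mk_surjective (y w)
  have hg' : (Level.proj h y) w = ((g : G2 F) : Yl U' w) := by
    rw [Level.proj_apply, ← hg]; rfl
  rw [TY, TY, hg', ← hg, Tl_one hw, Tl_one hw']
  refine Finset.sum_congr rfl fun o _ => ?_
  rw [proj_upd]
  rfl

theorem isEig_pull {P : Set (Pl F)} {lam : Pl F → ℂ} {s : A.I → ℂ}
    (hφ : IsEig (D := ⟨A, U'⟩) P lam s φ) (hP : ∀ w ∈ P, U.n w = 0 ∧ U'.n w = 0) :
    IsEig (D := ⟨A, U⟩) P lam s (fun x => φ (projX h x)) where
  hecke := by
    intro w hw x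
    have h1 := hφ.hecke w hw (projX h x)
    rw [← h1]
    exact TY_proj h (hP w hw).1 (hP w hw).2 (fun y => φ (x.1, y)) x.2
  arch := by
    intro i g hg x
    exact hφ.arch i g hg (projX h x)

theorem eForm_pull {lam : Pl F → ℝ} (hφ : EForm (⟨A, U'⟩ : Datum F) lam φ)
    (hP : ∀ w, U'.n w = 0 ↔ U.n w = 0) :
    EForm (⟨A, U⟩ : Datum F) lam (fun x => φ (projX h x)) where
  cusp := isCusp_pull h hφ.cusp
  eig := by
    have h1 : goodPl (⟨A, U⟩ : Datum F) = goodPl (⟨A, U'⟩ : Datum F) := by
      ext w
      exact (hP w).symm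
    rw [h1]
    exact isEig_pull h hφ.eig fun w hw => ⟨(hP w).mp hw, hw⟩
  ne := by
    intro h0
    apply hφ.ne
    funext x
    obtain ⟨z, hz⟩ := proj_surjective h x.2
    have h1 := congrFun h0 (x.1, z)
    simp only [Pi.zero_apply] at h1
    rw [Pi.zero_apply, ← h1, projX]
    congr 1
    exact Prod.ext rfl hz.symm

end pull

section princ

/-- the principal level below a given level -/
theorem princ_le (D : Datum F) (w : Pl F) : (princ D.n D.n_fin).H w ≤ D.H w :=
  sup_le (D.scal_le w) (D.cong_le w)

/-- an eigenform gives an eigenform of principal level -/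
theorem eForm_princ {D : Datum F} {lam : Pl F → ℝ} {φ : X D → ℂ} (hφ : EForm D lam φ) :
    EForm (⟨D.toArch, princ D.n D.n_fin⟩ : Datum F) lam (fun x => φ (projX (princ_le D) x)) :=
  eForm_pull (A := D.toArch) (U := princ D.n D.n_fin) (U' := D.toLevel) (princ_le D) hφ
    fun w => Iff.rfl

/-- the unipotent part of the principal level -/
theorem unLev_princ (n : Pl F → ℕ) (hn : {w | n w ≠ 0}.Finite) : UnLev (princ n hn) n := by
  intro w b
  constructor
  · intro hb
    obtain ⟨c, k, hk, e⟩ := mem_princ_H.mp hb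
    have e' : (un b).1 = (c : F) • k.1 := by rw [e, sc_mul_val]
    have h01 : b = c * k.1 0 1 := by
      have := congrFun (congrFun e' 0) 1
      simpa [un_val] using this
    have h00 : (1 : F) = c * k.1 0 0 := by
      have := congrFun (congrFun e' 0) 0
      simpa [un_val] using this
    have h11 : (1 : F) = c * k.1 1 1 := by
      have := congrFun (congrFun e' 1) 1
      simpa [un_val] using this
    have hk00 : av w (k.1 0 0) ≤ 1 := (av_le_nm w k.1 0 0).trans hk.1.1
    have hk11 : av w (k.1 1 1) ≤ 1 := (av_le_nm w k.1 1 1).trans hk.1.1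
    have hkc : av w (k.1 0 1) ≤ (qv w)⁻¹ ^ n w := by
      have := (av_le_nm w (k.1 - 1) 0 1).trans hk.2
      rwa [Matrix.sub_apply, Matrix.one_apply_ne (by decide), sub_zero] at this
    -- `|c| ≤ 1` : `det`
    have hdet : av w k.1.det = 1 := by
      have h1 := av_det_of_mem w (intGL_le_stdH w hk.1)
      have h2 := nm_inv_of_mem w (intGL_le_stdH w hk.1)
      have h3 := hk.1.2
      rw [h2, inv_le_one₀ (nm_pos w k)] at h3
      rw [h1, le_antisymm hk.1.1 h3, one_pow]
    have hc : av w (c : F) = 1 := by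
      have h4 : (un b).1.det = (c : F) ^ 2 * k.1.det := by
        rw [e', Matrix.det_smul]; simp
      have h5 : (un b).1.det = 1 := by simp [un_val]
      rw [h5] at h4
      have h6 := congrArg (av w) h4
      rw [map_one, map_mul, map_pow, hdet, mul_one] at h6
      nlinarith [(av w).nonneg (c : F)]
    rw [h01, map_mul, hc, one_mul]
    exact hkc
  · intro hb
    exact (princ n hn).cong_le w (un_mem_congGL w (n w) hb)

end princ

end Fermat.Agent.LT.H
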