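import Fermat.Agent.LT.H.WhitY
import Fermat.Agent.LT.H.Tor
import Fermat.Agent.LT.H.Jk

/-!
# The finite part of the Rankin–Selberg integral as a Dirichlet series

`ser_id` : the sum over `N(F) \ Y` of `covY · phC · ‖a‖²` is a sum over `P →₀ ℕ`, where `P` is the
complement of `S`.
-/

set_option autoImplicit false
set_option linter.unusedSectionVars false

open NumberField IsDedekindDomain Matrix MeasureTheory Module Set
open scoped ComplexConjugate ENNReal Real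

namespace Fermat.Agent.LT.H

open Fermat.LT Fermat.Agent.LT.I Fermat.Agent.LT.B
open Fermat.Agent.LT.CTree (unif lv av_unif)
open Fermat.Agent.LT.H.Euler (mulF)

variable {F : Type} [Field F] [NumberField F]

theorem covY_pos {D : Datum F} (q : Yb D.toLevel) : 0 < covY q :=
  pos_iff_ne_zero.mpr (isBox_bx D.toArch (isLat_bY (yout q))).pos

theorem covY_lt_top {D : Datum F} (q : Yb D.toLevel) : covY q < ⊤ :=
  (isBox_bx D.toArch (isLat_bY (yout q))).fin.lt_top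

/-- extension by zero of exponents outside `S` -/
noncomputable def exS (S : Finset (Pl F)) (k : {w : Pl F // w ∉ S} →₀ ℕ) : Pl F →₀ ℤ :=
  nz (k.embDomain ⟨Subtype.val, Subtype.val_injective⟩)

theorem exS_apply {S : Finset (Pl F)} (k : {w : Pl F // w ∉ S} →₀ ℕ) (w : {w : Pl F // w ∉ S}) :
    exS S k w.1 = k w := by
  rw [exS, nz_apply]
  congr 1
  exact Finsupp.embDomain_apply_self ⟨Subtype.val, Subtype.val_injective⟩ k w

theorem exS_apply_mem {S : Finset (Pl F)} (k : {w : Pl F // w ∉ S} →₀ ℕ) {w : Pl F} (hw : w ∈ S) :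
    exS S k w = 0 := by
  rw [exS, nz_apply, Finsupp.embDomain_of_notMem_range, Nat.cast_zero]
  rintro ⟨v, rfl⟩
  exact v.2 hw

theorem exS_injective (S : Finset (Pl F)) : Function.Injective (exS S) := by
  intro k l h
  ext w
  have h1 := exS_apply k w
  rw [h, exS_apply] at h1
  exact_mod_cast h1.symm

theorem mem_range_exS {S : Finset (Pl F)} {m : Pl F →₀ ℤ} (h0 : ∀ w, 0 ≤ m w)
    (hS : ∀ w ∈ S, m w = 0) : m ∈ Set.range (exS S) := by
  classical
  refine ⟨(m.comapDomain Subtype.val (Subtype.val_injective.injOn)).mapRange Int.toNat rfl, ?_⟩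
  ext w
  by_cases hw : w ∈ S
  · rw [exS_apply_mem _ hw, hS w hw]
  · have h1 := exS_apply (S := S)
      ((m.comapDomain Subtype.val (Subtype.val_injective.injOn)).mapRange Int.toNat rfl) ⟨w, hw⟩
    rw [h1, Finsupp.mapRange_apply, Finsupp.comapDomain_apply]
    exact Int.toNat_of_nonneg (h0 w)

theorem prod_support_exS {M : Type} [CommMonoid M] {S : Finset (Pl F)}
    (k : {w : Pl F // w ∉ S} →₀ ℕ) (f : Pl F → ℤ → M) :
    ∏ w ∈ (exS S k).support, f w (exS S k w) = ∏ w ∈ k.support, f w.1 (k w) := by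
  classical
  have h1 : (exS S k).support = k.support.map ⟨Subtype.val, Subtype.val_injective⟩ := by
    ext w
    rw [Finsupp.mem_support_iff, Finset.mem_map]
    constructor
    · intro hw
      have hwS : w ∉ S := fun h => hw (exS_apply_mem k h)
      refine ⟨⟨w, hwS⟩, ?_, rfl⟩
      rw [Finsupp.mem_support_iff]
      intro h0
      apply hw
      have := exS_apply k ⟨w, hwS⟩
      rw [h0] at this
      exact this
    · rintro ⟨v, hv, rfl⟩
      change exS S k v.1 ≠ 0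
      rw [exS_apply]
      rw [Finsupp.mem_support_iff] at hv
      exact_mod_cast hv
  rw [h1, Finset.prod_map]
  refine Finset.prod_congr rfl fun w _ => ?_
  change f w.1 (exS S k w.1) = _
  rw [exS_apply]

open Classical in
/-- `ser_id`, from the facts on the torus. -/
theorem ser_id_of {D : Datum F} (S : Finset (Pl F)) {y₁ : Y D.toLevel}
    {a : Y D.toLevel → ℂ}
    (hsupp : ∀ m : Pl F →₀ ℤ, a (tg m • y₁) ≠ 0 → (∀ w, 0 ≤ m w) ∧ ∀ w ∈ S, m w = 0) (s : ℝ)
    (hA : ∀ k : Pl F →₀ ℤ,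
      hfin e1 (tg k • y₁) = (∏ w ∈ k.support, qv w ^ (-k w)) * hfin e1 y₁)
    (hC1 : ∀ y : Y D.toLevel, hfin e1 (yout (ybk y)) = hfin e1 y)
    (hC2 : ∀ y, ‖a (yout (ybk y))‖ₑ = ‖a y‖ₑ)
    (hC3 : ∀ m : Pl F →₀ ℤ, covY (ybk (tg m • y₁)) =
      ENNReal.ofReal (∏ w ∈ m.support, qv w ^ (m w)) * covY (ybk y₁))
    (hD : ∀ f : Yb D.toLevel → ℝ≥0∞, ∑' q, (if ∀ w ∈ S, InC w (yout q w) then f q else 0) =
      ∑' m : Pl F →₀ ℤ, f (ybk (tg m • y₁))) :
    ∑' q : Yb D.toLevel, covY q * (phC (S : Set (Pl F)) s (yout q) * ‖a (yout q)‖ₑ ^ 2) =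
      covY (ybk y₁) * ENNReal.ofReal (hfin e1 y₁ ^ s) * ∑' k : {w : Pl F // w ∉ S} →₀ ℕ,
        ENNReal.ofReal (mulF (fun w m => (qv w.1 ^ (1 - s)) ^ m) k) * ‖a (tg (exS S k) • y₁)‖ₑ ^ 2
    := by
  set f : Yb D.toLevel → ℝ≥0∞ := fun q =>
    covY q * (ENNReal.ofReal (hfin e1 (yout q) ^ s) * ‖a (yout q)‖ₑ ^ 2) with hf
  have h1 : ∀ q : Yb D.toLevel, covY q * (phC (S : Set (Pl F)) s (yout q) * ‖a (yout q)‖ₑ ^ 2) =
      if ∀ w ∈ S, InC w (yout q w) then f q else 0 := by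
    intro q
    rw [phC]
    by_cases h : ∀ w ∈ S, InC w (yout q w)
    · rw [if_pos h, if_pos (by simpa using h)]
    · rw [if_neg h, if_neg (by simpa using h), zero_mul, mul_zero]
  rw [tsum_congr h1, hD]
  have h2 : ∀ m : Pl F →₀ ℤ, f (ybk (tg m • y₁)) =
      covY (ybk y₁) * ENNReal.ofReal (hfin e1 y₁ ^ s) *
        (ENNReal.ofReal ((∏ w ∈ m.support, qv w ^ (m w)) *
          (∏ w ∈ m.support, qv w ^ (-m w)) ^ s) * ‖a (tg m • y₁)‖ₑ ^ 2) := by
    intro m
    have hp1 : 0 ≤ ∏ w ∈ m.support, qv w ^ (m w) :=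
      Finset.prod_nonneg fun w _ => zpow_nonneg (qv_pos w).le _
    have hp2 : 0 ≤ ∏ w ∈ m.support, qv w ^ (-m w) :=
      Finset.prod_nonneg fun w _ => zpow_nonneg (qv_pos w).le _
    rw [hf]
    simp only
    rw [hC1, hC2, hC3, hA, Real.mul_rpow hp2 (hfin_pos e1_ne y₁).le,
      ENNReal.ofReal_mul (Real.rpow_nonneg hp2 s), ENNReal.ofReal_mul hp1]
    ring
  rw [tsum_congr h2, ENNReal.tsum_mul_left]
  congr 1
  rw [← (exS_injective S).tsum_eq]
  · refine tsum_congr fun k => ?_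
    congr 2
    rw [prod_support_exS k fun w n => qv w ^ n, prod_support_exS k fun w n => qv w ^ (-n), mulF,
      Finsupp.prod, ← Real.finsetProd_rpow _ _ (fun w _ => zpow_nonneg (qv_pos w.1).le _),
      ← Finset.prod_mul_distrib]
    refine Finset.prod_congr rfl fun w _ => ?_
    rw [← Real.rpow_natCast (qv w.1 ^ (1 - s)), ← Real.rpow_mul (qv_pos w.1).le,
      ← Real.rpow_intCast, ← Real.rpow_intCast, ← Real.rpow_mul (qv_pos w.1).le,
      ← Real.rpow_add (qv_pos w.1)]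
    congr 1
    push_cast
    ring
  · intro m hm
    rw [Function.mem_support] at hm
    have h3 : a (tg m • y₁) ≠ 0 := by
      intro h0
      apply hm
      rw [h0, enorm_zero, zero_pow two_ne_zero, mul_zero]
    exact mem_range_exS (hsupp m h3).1 (hsupp m h3).2

/-- **The finite part of the Rankin–Selberg integral.** -/
theorem ser_id {D : Datum F} (S : Finset (Pl F)) (hS : ∀ w, D.n w ≠ 0 ↔ w ∈ S) {e : Pl F → ℕ}
    (hU : UnLev D.toLevel e) (hT : ∀ (w : Pl F) (u : Fˣ), av w (u : F) = 1 → dg u ∈ D.H w)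
    {y₁ : Y D.toLevel} {k₁ : Pl F → ℤ} (hk₁ : {w | k₁ w ≠ 0}.Finite) (hy₁ : IsTor e y₁ k₁)
    {a : Y D.toLevel → ℂ} (ha : IsWY D.toArch a)
    (hsupp : ∀ m : Pl F →₀ ℤ, a (tg m • y₁) ≠ 0 → (∀ w, 0 ≤ m w) ∧ ∀ w ∈ S, m w = 0) (s : ℝ) :
    ∑' q : Yb D.toLevel, covY q * (phC (S : Set (Pl F)) s (yout q) * ‖a (yout q)‖ₑ ^ 2) =
      covY (ybk y₁) * ENNReal.ofReal (hfin e1 y₁ ^ s) * ∑' k : {w : Pl F // w ∉ S} →₀ ℕ,
        ENNReal.ofReal (mulF (fun w m => (qv w.1 ^ (1 - s)) ^ m) k) *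
          ‖a (tg (nz (k.embDomain ⟨Subtype.val, Subtype.val_injective⟩)) • y₁)‖ₑ ^ 2 := by
  classical
  have hy : ∀ w, ∃ α : Fˣ, y₁ w = ((dg α : G2 F) : Yl D.toLevel w) := fun w => by
    obtain ⟨α, h, _⟩ := hy₁ w
    exact ⟨α, h⟩
  refine ser_id_of S hsupp s (fun k => hfin_tg k y₁) (fun y => ?_) (fun y => ha.enorm_ybk y)
    (fun m => ?_) (fun f => ?_)
  · obtain ⟨b, hb⟩ := exists_un_yout y
    rw [← hb, hfin_un]
  · exact covY_tor hU hy₁ hk₁ m
  · have := tsum_cell hT (S := (S : Set (Pl F))) (fun w hw => (hS w).mp hw) hy f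
    simp only [Finset.mem_coe] at this
    convert this

end Fermat.Agent.LT.H
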