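import Fermat.Agent.LT.H.Unique

/-!
# From Rankin–Selberg integrals to Dirichlet series

The analytic end of the uniqueness theorem: the identities
`I s = g s * ∑ k, x_s(k) (A(k) ± B(k))²` with bounded difference of the integrals are
contradictory for tempered `l`.
-/

set_option autoImplicit false

open Filter Topology Set
open scoped ENNReal

namespace Fermat.Agent.LT.H

open Fermat.Agent.LT.H.Euler Fermat.Agent.LT.H.Local Fermat.Agent.LT.H.Unique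

variable {P : Type*} {q l m : P → ℝ}

/-- `x_s(k) = ∏ q_v^{-s k_v}` -/
noncomputable def xs (q : P → ℝ) (s : ℝ) (k : P →₀ ℕ) : ℝ := mulF (fun v n => (q v ^ (-s)) ^ n) k

/-- `∏ U_{k_v}(l_v)` -/
noncomputable def Um (l : P → ℝ) (k : P →₀ ℕ) : ℝ := mulF (fun v n => U (l v) n) k

theorem xs_nonneg (hq : ∀ v, 2 ≤ q v) (s : ℝ) (k : P →₀ ℕ) : 0 ≤ xs q s k :=
  mulF_nonneg (fun v n => pow_nonneg (X_pos hq v s).le n) k

theorem xs_zero (s : ℝ) : xs q s 0 = 1 := mulF_zero _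

theorem Um_zero : Um l 0 = 1 := mulF_zero _

theorem LS_one_eq (s : ℝ) (k : P →₀ ℕ) :
    LS q (fun _ => 1) l m s k = ((Um l k * Um m k * xs q s k : ℝ) : ℂ) := by
  unfold LS Um xs mulF Finsupp.prod
  rw [← Finset.prod_mul_distrib, ← Finset.prod_mul_distrib, Complex.ofReal_prod]
  refine Finset.prod_congr rfl fun v _ => ?_
  push_cast
  ring

theorem norm_LS_one (hq : ∀ v, 2 ≤ q v) (s : ℝ) (k : P →₀ ℕ) :
    ‖LS q (fun _ => 1) l m s k‖ = |Um l k * Um m k| * xs q s k := by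
  rw [LS_one_eq, Complex.norm_real, Real.norm_eq_abs, abs_mul, abs_of_nonneg (xs_nonneg hq s k)]

theorem xs_anti (hq : ∀ v, 2 ≤ q v) {s t : ℝ} (h : s ≤ t) (k : P →₀ ℕ) : xs q t k ≤ xs q s k := by
  refine Finset.prod_le_prod (fun v _ => pow_nonneg (X_pos hq v t).le _) fun v _ => ?_
  refine pow_le_pow_left₀ (X_pos hq v t).le ?_ _
  exact Real.rpow_le_rpow_of_exponent_le (by linarith [hq v]) (by linarith)

/-- Extend summability from `(1,2]` to `(1,∞)`. -/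
theorem summable_LS_of_le_two (hq : ∀ v, 2 ≤ q v)
    (h : ∀ s ∈ Ioc (1:ℝ) 2, Summable fun n => ‖LS q (fun _ => 1) l m s n‖) {s : ℝ} (hs : 1 < s) :
    Summable fun n => ‖LS q (fun _ => 1) l m s n‖ := by
  rcases le_total s 2 with h2 | h2
  · exact h s ⟨hs, h2⟩
  · refine Summable.of_nonneg_of_le (fun n => norm_nonneg _) (fun n => ?_)
      (h 2 ⟨by norm_num, le_rfl⟩)
    rw [norm_LS_one hq, norm_LS_one hq]
    exact mul_le_mul_of_nonneg_left (xs_anti hq h2 n) (abs_nonneg _)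

/-- finiteness -/
theorem tsum_ne_top_of_mul {g T I : ℝ≥0∞} (hg : g ≠ 0) (h : I = g * T) (hI : I ≠ ⊤) : T ≠ ⊤ := by
  rintro rfl
  rw [ENNReal.mul_top hg] at h
  exact hI h

theorem summable_of_tsum_ofReal {ι : Type*} {f : ι → ℝ} (hf : ∀ i, 0 ≤ f i)
    (h : ∑' i, ENNReal.ofReal (f i) ≠ ⊤) : Summable f := by
  have h1 := ENNReal.summable_toReal h
  refine h1.congr fun i => ?_
  rw [ENNReal.toReal_ofReal (hf i)]

theorem toReal_tsum_ofReal {ι : Type*} {f : ι → ℝ} (hf : ∀ i, 0 ≤ f i) (hs : Summable f) :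
    (∑' i, ENNReal.ofReal (f i)).toReal = ∑' i, f i := by
  rw [← ENNReal.ofReal_tsum_of_nonneg hf hs, ENNReal.toReal_ofReal (tsum_nonneg hf)]

theorem ne_top_of_mul {g T I : ℝ≥0∞} (hT : T ≠ 0) (h : I = g * T) (hI : I ≠ ⊤) : g ≠ ⊤ := by
  rintro rfl
  rw [ENNReal.top_mul hT] at h
  exact hI h

/-- **The diagonal series**: consequence of the upper bound of the Rankin–Selberg integral. -/
theorem rs_abs (hq : ∀ v, 2 ≤ q v) {g I : ℝ → ℝ≥0∞} {c0 : ℝ≥0∞} (hc0 : c0 ≠ 0)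
    (hg : ∀ s ∈ Ioc (1:ℝ) 2, c0 ≤ g s)
    (hI : ∀ s ∈ Ioc (1:ℝ) 2, I s = g s * ∑' k : P →₀ ℕ,
      ENNReal.ofReal (mulF (fun v n => (q v ^ (-s)) ^ n) k * mulF (fun v n => U (l v) n) k ^ 2))
    (hf : ∀ s ∈ Ioc (1:ℝ) 2, I s ≠ ⊤) {B C : ℝ}
    (hb : ∀ s ∈ Ioc (1:ℝ) 2, (I s).toReal ≤ B / (s - 1) + C) :
    (∀ s : ℝ, 1 < s → Summable fun n => ‖LS q (fun _ => 1) l l s n‖) ∧
      ∃ C' : ℝ, ∀ s ∈ Ioc (1:ℝ) 2, ‖∑' n, LS q (fun _ => 1) l l s n‖ ≤ C' / (s - 1) := by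
  have hpos : ∀ s k, 0 ≤ xs q s k * Um l k ^ 2 := fun s k =>
    mul_nonneg (xs_nonneg hq s k) (sq_nonneg _)
  have hfin : ∀ s ∈ Ioc (1:ℝ) 2, Summable fun k => xs q s k * Um l k ^ 2 := by
    intro s hs
    refine summable_of_tsum_ofReal (hpos s) ?_
    exact tsum_ne_top_of_mul (lt_of_lt_of_le (pos_iff_ne_zero.mpr hc0) (hg s hs)).ne'
      (hI s hs) (hf s hs)
  have hterm : ∀ s k, ‖LS q (fun _ => 1) l l s k‖ = xs q s k * Um l k ^ 2 := by
    intro s k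
    rw [norm_LS_one hq, abs_of_nonneg (mul_self_nonneg _)]; ring
  refine ⟨fun s hs => summable_LS_of_le_two hq (fun s hs => ?_) hs, ?_⟩
  · exact (hfin s hs).congr fun k => (hterm s k).symm
  · -- the constant
    by_cases hne : c0 = ⊤
    · -- impossible
      exfalso
      have h2 : (2:ℝ) ∈ Ioc (1:ℝ) 2 := ⟨by norm_num, le_rfl⟩
      have h3 : g 2 = ⊤ := top_le_iff.mp (hne ▸ hg 2 h2)
      have h4 := hI 2 h2
      rw [h3, ENNReal.top_mul] at h4
      · exact hf 2 h2 h4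
      · intro h5
        rw [ENNReal.tsum_eq_zero] at h5
        have h6 := h5 0
        rw [mulF_zero, mulF_zero] at h6
        norm_num at h6
    have hc1 : 0 < c0.toReal := ENNReal.toReal_pos hc0 hne
    refine ⟨(|B| + |C|) / c0.toReal, fun s hs => ?_⟩
    have hs1 : 0 < s - 1 := by linarith [hs.1]
    have hs2 : s - 1 ≤ 1 := by linarith [hs.2]
    have hT : ‖∑' n, LS q (fun _ => 1) l l s n‖ ≤ ∑' k, xs q s k * Um l k ^ 2 := by
      refine (norm_tsum_le_tsum_norm ((hfin s hs).congr fun k => (hterm s k).symm)).trans ?_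
      exact le_of_eq (tsum_congr fun k => hterm s k)
    set T : ℝ := ∑' k, xs q s k * Um l k ^ 2 with hTdef
    have hT0 : 0 ≤ T := tsum_nonneg (hpos s)
    have e1 : ENNReal.ofReal T = ∑' k : P →₀ ℕ, ENNReal.ofReal (xs q s k * Um l k ^ 2) :=
      ENNReal.ofReal_tsum_of_nonneg (hpos s) (hfin s hs)
    have e2 : c0.toReal * T ≤ (I s).toReal := by
      rw [← ENNReal.toReal_ofReal hT0, ← ENNReal.toReal_mul]
      refine ENNReal.toReal_mono (hf s hs) ?_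
      rw [hI s hs, e1]
      exact mul_le_mul_left (hg s hs) _
    have e3 : (I s).toReal ≤ (|B| + |C|) / (s - 1) := by
      refine (hb s hs).trans ?_
      rw [add_div]
      refine add_le_add (div_le_div_of_nonneg_right (le_abs_self B) hs1.le) ?_
      rw [le_div_iff₀ hs1]
      nlinarith [le_abs_self C, abs_nonneg C]
    refine hT.trans ?_
    have e4 : c0.toReal * T ≤ (|B| + |C|) / (s - 1) := e2.trans e3
    rw [div_div, le_div_iff₀ (mul_pos hc1 hs1)]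
    rw [le_div_iff₀ hs1] at e4
    linarith

/-- **Analytic end of the uniqueness theorem.** -/
theorem uniq_abs (hq : ∀ v, 2 ≤ q v)
    (hsum : ∀ s : ℝ, 1 < s → Summable fun v => q v ^ (-s)) (hl : ∀ v, |l v| ≤ 2)
    (hm : Unique.Bdd q m) (A : Set P) (hA : ∀ v ∈ A, l v = m v)
    (hsparse : Summable fun v => Aᶜ.indicator (fun v => q v ^ (-(1/2) : ℝ)) v)
    (hdens : Tendsto (fun s : ℝ => ∑' v, A.indicator (fun v => l v ^ 2 * q v ^ (-s)) v)
      (𝓝[>] 1) atTop)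
    {g Ip Im : ℝ → ℝ≥0∞} {c0 : ℝ≥0∞} (hc0 : c0 ≠ 0) (hg : ∀ s ∈ Set.Ioc (1:ℝ) 2, c0 ≤ g s)
    (hIp : ∀ s ∈ Set.Ioc (1:ℝ) 2, Ip s = g s * ∑' k : P →₀ ℕ,
      ENNReal.ofReal (mulF (fun v n => (q v ^ (-s)) ^ n) k *
        (mulF (fun v n => U (l v) n) k + mulF (fun v n => U (m v) n) k) ^ 2))
    (hIm : ∀ s ∈ Set.Ioc (1:ℝ) 2, Im s = g s * ∑' k : P →₀ ℕ,
      ENNReal.ofReal (mulF (fun v n => (q v ^ (-s)) ^ n) k *
        (mulF (fun v n => U (l v) n) k - mulF (fun v n => U (m v) n) k) ^ 2))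
    (hfp : ∀ s ∈ Set.Ioc (1:ℝ) 2, Ip s ≠ ⊤) (hfm : ∀ s ∈ Set.Ioc (1:ℝ) 2, Im s ≠ ⊤) {C : ℝ}
    (hd : ∀ s ∈ Set.Ioc (1:ℝ) 2, |(Ip s).toReal - (Im s).toReal| ≤ C) : False := by
  have hposp : ∀ s k, 0 ≤ xs q s k * (Um l k + Um m k) ^ 2 := fun s k =>
    mul_nonneg (xs_nonneg hq s k) (sq_nonneg _)
  have hposm : ∀ s k, 0 ≤ xs q s k * (Um l k - Um m k) ^ 2 := fun s k =>
    mul_nonneg (xs_nonneg hq s k) (sq_nonneg _)
  have hg0 : ∀ s ∈ Ioc (1:ℝ) 2, g s ≠ 0 := fun s hs =>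
    (lt_of_lt_of_le (pos_iff_ne_zero.mpr hc0) (hg s hs)).ne'
  have sp : ∀ s ∈ Ioc (1:ℝ) 2, Summable fun k => xs q s k * (Um l k + Um m k) ^ 2 := fun s hs =>
    summable_of_tsum_ofReal (hposp s) (tsum_ne_top_of_mul (hg0 s hs) (hIp s hs) (hfp s hs))
  have sm : ∀ s ∈ Ioc (1:ℝ) 2, Summable fun k => xs q s k * (Um l k - Um m k) ^ 2 := fun s hs =>
    summable_of_tsum_ofReal (hposm s) (tsum_ne_top_of_mul (hg0 s hs) (hIm s hs) (hfm s hs))
  have hid : ∀ s k, Um l k * Um m k * xs q s k =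
      (1 / 4) * (xs q s k * (Um l k + Um m k) ^ 2 - xs q s k * (Um l k - Um m k) ^ 2) := by
    intro s k; ring
  have smix : ∀ s ∈ Ioc (1:ℝ) 2, Summable fun k => Um l k * Um m k * xs q s k := fun s hs =>
    (((sp s hs).sub (sm s hs)).mul_left (1 / 4)).congr fun k => (hid s k).symm
  have hsl2 : ∀ s ∈ Ioc (1:ℝ) 2, Summable fun n => ‖LS q (fun _ => 1) l m s n‖ := by
    intro s hs
    refine (smix s hs).norm.congr fun k => ?_
    rw [LS_one_eq, Complex.norm_real]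
  have hgt : ∀ s ∈ Ioc (1:ℝ) 2, g s ≠ ⊤ := by
    intro s hs
    refine ne_top_of_mul ?_ (hIp s hs) (hfp s hs)
    intro h5
    rw [ENNReal.tsum_eq_zero] at h5
    have h6 := h5 0
    rw [mulF_zero, mulF_zero, mulF_zero] at h6
    norm_num at h6
  have h2 : (2:ℝ) ∈ Ioc (1:ℝ) 2 := ⟨by norm_num, le_rfl⟩
  have hne : c0 ≠ ⊤ := ne_top_of_le_ne_top (hgt 2 h2) (hg 2 h2)
  have hc1 : 0 < c0.toReal := ENNReal.toReal_pos hc0 hne
  have hbd : ∀ s ∈ Ioc (1:ℝ) 2, ‖∑' n, LS q (fun _ => 1) l m s n‖ ≤ C / (4 * c0.toReal) := by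
    intro s hs
    have e1 : ∑' n, LS q (fun _ => 1) l m s n = ((∑' k, Um l k * Um m k * xs q s k : ℝ) : ℂ) := by
      rw [Complex.ofReal_tsum]
      exact tsum_congr fun k => LS_one_eq s k
    have e2 : (Ip s).toReal = (g s).toReal * ∑' k, xs q s k * (Um l k + Um m k) ^ 2 := by
      rw [hIp s hs, ENNReal.toReal_mul]
      congr 1
      exact toReal_tsum_ofReal (hposp s) (sp s hs)
    have e3 : (Im s).toReal = (g s).toReal * ∑' k, xs q s k * (Um l k - Um m k) ^ 2 := by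
      rw [hIm s hs, ENNReal.toReal_mul]
      congr 1
      exact toReal_tsum_ofReal (hposm s) (sm s hs)
    have e4 : ∑' k, Um l k * Um m k * xs q s k = (1 / 4) *
        ((∑' k, xs q s k * (Um l k + Um m k) ^ 2) - ∑' k, xs q s k * (Um l k - Um m k) ^ 2) := by
      rw [← (sp s hs).tsum_sub (sm s hs), ← tsum_mul_left]
      exact tsum_congr fun k => hid s k
    have e5 : (g s).toReal * (∑' k, Um l k * Um m k * xs q s k) =
        (1 / 4) * ((Ip s).toReal - (Im s).toReal) := by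
      rw [e2, e3, e4]; ring
    have e6 : c0.toReal ≤ (g s).toReal := ENNReal.toReal_mono (hgt s hs) (hg s hs)
    have e7 : (g s).toReal * |∑' k, Um l k * Um m k * xs q s k| ≤ C / 4 := by
      rw [← abs_of_pos (hc1.trans_le e6), ← abs_mul, e5, abs_mul, abs_of_pos (by norm_num : (0:ℝ) < 1/4)]
      have := hd s hs
      linarith
    rw [e1, Complex.norm_real, Real.norm_eq_abs, le_div_iff₀ (by positivity)]
    have e8 : c0.toReal * |∑' k, Um l k * Um m k * xs q s k| ≤ C / 4 :=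
      (mul_le_mul_of_nonneg_right e6 (abs_nonneg _)).trans e7
    linarith
  refine uniqueness_sparse hq hsum hl hm A hA hsparse
    (fun s hs => summable_LS_of_le_two hq hsl2 hs) hdens (C := C / (4 * c0.toReal)) ?_
  filter_upwards [Ioc_mem_nhdsGT (show (1:ℝ) < 2 by norm_num)] with s hs using hbd s hs

end Fermat.Agent.LT.H
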