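import Fermat.Agent.LT.H.NonVan
import Fermat.Agent.LT.H.SerId
import Fermat.Agent.LT.H.EisInt
import Fermat.Agent.LT.H.Gam
import Fermat.Agent.LT.H.UniqAbs

/-!
# R1: the diagonal Rankin–Selberg series of a cuspidal eigenform is `O(1/(s-1))`
-/

set_option autoImplicit false
set_option linter.unusedSectionVars false

open NumberField IsDedekindDomain Matrix MeasureTheory Module Set
open scoped ComplexConjugate ENNReal Real

namespace Fermat.Agent.LT.H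

open Fermat.LT Fermat.Agent.LT.I Fermat.Agent.LT.B Fermat.Agent.LT.Top
open Fermat.Agent.LT.CTree (sq sq_sq sq_pos)
open Fermat.Agent.LT.H.Bessel (Wh)
open Fermat.Agent.LT.H.Local (U)
open Fermat.Agent.LT.H.Euler (mulF)
open Fermat.Agent.LT.H.Unique (LS)

variable {F : Type} [Field F] [NumberField F]

theorem two_le_qv_rOne (w : Pl F) : 2 ≤ qv w := by
  have h := one_lt_qv w
  rw [qv] at h ⊢
  have h1 : 1 < Ideal.absNorm w.asIdeal := by exact_mod_cast h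
  exact_mod_cast h1

theorem phC_empty {V : Level F} (s : ℝ) (y : Y V) :
    phC (∅ : Set (Pl F)) s y = ENNReal.ofReal (hfin e1 y ^ s) := by
  rw [phC, if_pos]
  intro w hw
  exact absurd hw (Set.notMem_empty w)

/-- the torus term -/
theorem torus_term {n : Pl F → ℕ} {hn : {w | n w ≠ 0}.Finite} {A : Arch F}
    {a : Y (princ n hn) → ℂ} (hwy : IsWY A a) {lam : Pl F → ℝ}
    (hecke : ∀ w, n w = 0 → ∀ y, TY w a y = (sq w : ℂ) * lam w * a y)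
    {δ : Pl F → ℤ} (hδ : IsDiff A δ) {y₀ : Y (princ n hn)} {k₀ : Pl F → ℤ}
    (hk₀ : {w | k₀ w ≠ 0}.Finite) (hy₀ : IsTor n y₀ k₀) (hkδ : ∀ w, -δ w ≤ k₀ w)
    {S : Finset (Pl F)} (hS : ∀ w, w ∉ S → n w = 0 ∧ k₀ w = -δ w) (s : ℝ)
    (k : {w : Pl F // w ∉ S} →₀ ℕ) :
    covY (D := ⟨A, princ n hn⟩) (ybk (tg (exS S k) • y₀)) *
      (phC (∅ : Set (Pl F)) s (yout (ybk (tg (exS S k) • y₀))) *
        ‖a (yout (ybk (tg (exS S k) • y₀)))‖ₑ ^ 2) =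
    (covY (D := ⟨A, princ n hn⟩) (ybk y₀) * (ENNReal.ofReal (hfin e1 y₀ ^ s) * ‖a y₀‖ₑ ^ 2)) *
      ENNReal.ofReal (mulF (fun (w : {w : Pl F // w ∉ S}) m => (qv w.1 ^ (-s)) ^ m) k *
        mulF (fun (w : {w : Pl F // w ∉ S}) m => U (lam w.1) m) k ^ 2) := by
  have hq : ∀ w : Pl F, 0 < qv w := qv_pos
  have h1 := covY_tor (D := ⟨A, princ n hn⟩) (unLev_princ n hn) hy₀ hk₀ (exS S k)
  have h2 := phC_ybk (∅ : Set (Pl F)) s (tg (exS S k) • y₀)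
  have h3 := hwy.enorm_ybk (tg (exS S k) • y₀)
  have h4 := hwy.rec_U (unLev_princ n hn) hδ hk₀ hy₀ hkδ (P := {w | w ∉ S}) (lam := lam)
    (fun w hw => hS w hw) (fun w hw y => hecke w (hS w hw).1 y)
    (k.embDomain ⟨Subtype.val, Subtype.val_injective⟩) (by
      intro w hw hwS
      apply hw
      rw [Finsupp.embDomain_of_notMem_range]
      rintro ⟨v, rfl⟩
      exact v.2 hwS)
  have h5 : mulF (fun w m => (sq w)⁻¹ ^ m * U (lam w) m)
      (k.embDomain ⟨Subtype.val, Subtype.val_injective⟩) =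
      mulF (fun (w : {w : Pl F // w ∉ S}) m => (sq w.1)⁻¹ ^ m * U (lam w.1) m) k := by
    rw [mulF, Finsupp.prod_embDomain]
    rfl
  rw [h5] at h4
  change a (tg (exS S k) • y₀) = _ at h4
  have h6 := hfin_pos e1_ne y₀
  have hp1 : ∀ w : Pl F, ∀ m : ℤ, 0 < qv w ^ m := fun w m => zpow_pos (hq w) m
  rw [h1, h2, phC_empty, h3, h4, hfin_tg, Real.mul_rpow
    (Finset.prod_nonneg fun w _ => (hp1 w _).le) h6.le,
    prod_support_exS k fun w m => qv w ^ m, prod_support_exS k fun w m => qv w ^ (-m),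
    enorm_mul, mul_pow, ENNReal.ofReal_mul (Real.rpow_nonneg
      (Finset.prod_nonneg fun w _ => (hp1 w.1 _).le) s)]
  have h7 : ‖((mulF (fun (w : {w : Pl F // w ∉ S}) m => (sq w.1)⁻¹ ^ m * U (lam w.1) m) k : ℝ) : ℂ)‖ₑ
      ^ 2 = ENNReal.ofReal
        (mulF (fun (w : {w : Pl F // w ∉ S}) m => (sq w.1)⁻¹ ^ m * U (lam w.1) m) k ^ 2) := by
    rw [← ofReal_norm, Complex.norm_real, Real.norm_eq_abs, ← ENNReal.ofReal_pow (abs_nonneg _),
      sq_abs]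
  rw [h7]
  have h8 : ENNReal.ofReal (mulF (fun (w : {w : Pl F // w ∉ S}) m => (qv w.1 ^ (-s)) ^ m) k *
        mulF (fun (w : {w : Pl F // w ∉ S}) m => U (lam w.1) m) k ^ 2) =
      ENNReal.ofReal (∏ w ∈ k.support, qv w.1 ^ (k w : ℤ)) *
      ENNReal.ofReal ((∏ w ∈ k.support, qv w.1 ^ (-(k w : ℤ))) ^ s) *
      ENNReal.ofReal
        (mulF (fun (w : {w : Pl F // w ∉ S}) m => (sq w.1)⁻¹ ^ m * U (lam w.1) m) k ^ 2) := by
    rw [← ENNReal.ofReal_mul (Finset.prod_nonneg fun w _ => (hp1 w.1 _).le),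
      ← ENNReal.ofReal_mul (mul_nonneg (Finset.prod_nonneg fun w _ => (hp1 w.1 _).le)
        (Real.rpow_nonneg (Finset.prod_nonneg fun w _ => (hp1 w.1 _).le) s))]
    congr 1
    rw [mulF, mulF, mulF, Finsupp.prod, Finsupp.prod, Finsupp.prod,
      ← Real.finsetProd_rpow _ _ (fun w _ => (hp1 w.1 _).le), ← Finset.prod_pow,
      ← Finset.prod_mul_distrib, ← Finset.prod_pow, ← Finset.prod_mul_distrib,
      ← Finset.prod_mul_distrib]
    refine Finset.prod_congr rfl fun w _ => ?_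
    have hw := hq w.1
    have e1 : (qv w.1 ^ (-s)) ^ k w = (qv w.1 ^ (-(k w : ℤ))) ^ s := by
      rw [← Real.rpow_natCast, ← Real.rpow_mul hw.le, ← Real.rpow_intCast, ← Real.rpow_mul hw.le]
      congr 1
      push_cast
      ring
    have e2 : qv w.1 ^ (k w : ℤ) * ((sq w.1)⁻¹ ^ k w) ^ 2 = 1 := by
      rw [zpow_natCast, ← sq_sq w.1, ← pow_mul, inv_pow, inv_pow, ← pow_mul, mul_comm (k w) 2,
        mul_inv_cancel₀ (pow_ne_zero _ (sq_pos w.1).ne')]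
    rw [e1]
    calc (qv w.1 ^ (-(k w : ℤ))) ^ s * U (lam w.1) (k w) ^ 2
        = (qv w.1 ^ (k w : ℤ) * ((sq w.1)⁻¹ ^ k w) ^ 2) *
          ((qv w.1 ^ (-(k w : ℤ))) ^ s * U (lam w.1) (k w) ^ 2) := by rw [e2, one_mul]
      _ = _ := by ring
  rw [h8]
  ring

/-- `min 1 h² ≤ h^s` for `1 ≤ s ≤ 2` -/
theorem min_le_rpow {h s : ℝ} (h0 : 0 < h) (hs1 : 1 < s) (hs2 : s ≤ 2) :
    min 1 (h ^ (2 : ℝ)) ≤ h ^ s := by
  rcases le_total 1 h with h1 | h1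
  · exact (min_le_left _ _).trans (Real.one_le_rpow h1 (by linarith))
  · exact (min_le_right _ _).trans (Real.rpow_le_rpow_of_exponent_ge h0 h1 hs2)

/-- **R1**, principal level. -/
theorem R1_princ {n : Pl F → ℕ} {hn : {w | n w ≠ 0}.Finite} {A : Arch F} {lam : Pl F → ℝ}
    {φ : X (⟨A, princ n hn⟩ : Datum F) → ℂ} (h : EForm (⟨A, princ n hn⟩ : Datum F) lam φ) :
    ∃ S : Finset (Pl F), (∀ w, n w ≠ 0 → w ∈ S) ∧
      (∀ s : ℝ, 1 < s → Summable fun k : {w : Pl F // w ∉ S} →₀ ℕ =>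
        ‖LS (fun w => qv w.1) (fun _ => 1) (fun w => lam w.1) (fun w => lam w.1) s k‖) ∧
      ∃ C : ℝ, ∀ s ∈ Set.Ioc (1 : ℝ) 2, ‖∑' k : {w : Pl F // w ∉ S} →₀ ℕ,
        LS (fun w => qv w.1) (fun _ => 1) (fun w => lam w.1) (fun w => lam w.1) s k‖ ≤
          C / (s - 1) := by
  have hinv : ∀ (g : G2 F) x, φ (g • x) = φ x := fun g x => h.cusp.inv (pmk g) x
  obtain ⟨a, hW, hwy, hhecke⟩ := exists_aY h
  obtain ⟨y₀, k₀, hk₀, hy₀, hne⟩ := exists_torus_ne h.cusp h.ne hW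
  obtain ⟨δ, hδf, hδ'⟩ := exists_different F
  have hδ : IsDiff A δ := fun k hk => hδ' k hk A
  have hkδ : ∀ w, -δ w ≤ k₀ w := by
    intro w
    by_contra hc
    exact hne (hwy.eq_zero_of_lt (unLev_princ n hn) hδ hk₀ hy₀ (not_le.mp hc))
  set S : Finset (Pl F) := (hn.union (hk₀.union hδf)).toFinset with hSdef
  have hS : ∀ w, w ∉ S → n w = 0 ∧ k₀ w = -δ w := by
    intro w hw
    rw [hSdef, Set.Finite.mem_toFinset] at hw
    simp only [Set.mem_union, Set.mem_ofPred_eq, not_or, not_not] at hw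
    exact ⟨hw.1, by rw [hw.2.1, hw.2.2, neg_zero]⟩
  obtain ⟨wt, hwt⟩ := exists_isWeight_X (⟨A, princ n hn⟩ : Datum F)
  obtain ⟨c, A1, B1, hA1, hB1, hc, hint⟩ := RS_int (⟨A, princ n hn⟩ : Datum F) ∅ Set.finite_empty
    (fun _ => 0) (fun w => by simp) (fun w hw => absurd hw (Set.notMem_empty w)) hwt
  obtain ⟨C1, hC1⟩ := hint φ h.cusp
  obtain ⟨cg, Cg, hcg, hCg, hgam⟩ := gam_bounds
  set Gs : ℝ → ℝ≥0∞ := fun s => ∫⁻ x : ℝ, dn x * (ENNReal.ofReal (Real.exp (2*s*x)) *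
      ‖Bessel.Wh (4*π) (Real.exp x)‖ₑ^2) with hGs
  set r := Fintype.card A.I with hr
  set RS : ℝ → ℝ≥0∞ := fun s => ∫⁻ p, wt p * (‖φ p‖ₑ ^ 2 * EC (∅ : Set (Pl F)) s p) with hRS
  set cv := covY (D := ⟨A, princ n hn⟩) (ybk y₀) with hcv
  set g : ℝ → ℝ≥0∞ := fun s => Gs s ^ r *
    (cv * (ENNReal.ofReal (hfin e1 y₀ ^ s) * ‖a y₀‖ₑ ^ 2)) with hg
  set I : ℝ → ℝ≥0∞ := fun s => g s * ∑' k : {w : Pl F // w ∉ S} →₀ ℕ,
      ENNReal.ofReal (mulF (fun v n => (qv v.1 ^ (-s)) ^ n) k *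
        mulF (fun v n => U (lam v.1) n) k ^ 2) with hI
  have hIle : ∀ s, I s ≤ RS s := by
    intro s
    have h1 : RS s = Gs s ^ r * ∑' q : Yb (princ n hn), covY (D := ⟨A, princ n hn⟩) q *
        (phC (∅ : Set (Pl F)) s (yout q) * ‖a (yout q)‖ₑ ^ 2) :=
      RS_fact (D := ⟨A, princ n hn⟩) hwt h.cusp.cont hinv
        (fun x y => cW_zero_eq_zero h.cusp.mean hinv x y) (W := fun x => Wh (4 * π) (Real.exp x))
        (measurable_Wh_exp (by positivity)) hW ∅ s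
    rw [h1, hI]
    simp only [hg]
    rw [mul_assoc]
    refine mul_le_mul_right ?_ _
    rw [← ENNReal.tsum_mul_left]
    have hinj : Function.Injective fun k : {w : Pl F // w ∉ S} →₀ ℕ =>
        ybk (tg (exS S k) • y₀) := fun k l hkl => exS_injective S (tg_inj hkl)
    refine le_trans (le_of_eq ?_) (ENNReal.tsum_comp_le_tsum_of_injective hinj _)
    refine tsum_congr fun k => ?_
    exact (torus_term hwy hhecke hδ hk₀ hy₀ hkδ hS s k).symm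
  set c0 : ℝ≥0∞ := ENNReal.ofReal cg ^ r *
    (cv * (ENNReal.ofReal (min 1 (hfin e1 y₀ ^ (2 : ℝ))) * ‖a y₀‖ₑ ^ 2)) with hc0
  have hc0ne : c0 ≠ 0 := by
    have h6 := hfin_pos e1_ne y₀
    rw [hc0]
    refine mul_ne_zero (pow_ne_zero _ ?_) (mul_ne_zero (covY_pos _).ne' (mul_ne_zero ?_
      (pow_ne_zero _ ?_)))
    · rw [Ne, ENNReal.ofReal_eq_zero, not_le]; exact hcg
    · rw [Ne, ENNReal.ofReal_eq_zero, not_le]; positivity
    · rw [enorm_ne_zero]; exact hne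
  have hgc : ∀ s ∈ Ioc (1:ℝ) 2, c0 ≤ g s := by
    intro s hs
    have h6 := hfin_pos e1_ne y₀
    refine mul_le_mul' (pow_le_pow_left' (hgam s ⟨hs.1.le, hs.2⟩).1 r) (mul_le_mul' le_rfl
      (mul_le_mul' (ENNReal.ofReal_le_ofReal (min_le_rpow h6 hs.1 hs.2)) le_rfl))
  obtain ⟨hsum, C', hC'⟩ := rs_abs (P := {w : Pl F // w ∉ S}) (q := fun w => qv w.1)
    (l := fun w => lam w.1) (fun w => two_le_qv_rOne w.1) (g := g) (I := I) hc0ne hgc
    (fun s _ => rfl) (fun s hs => ne_top_of_le_ne_top (hC1 s hs).1 (hIle s))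
    (B := B1 * (∫⁻ p, wt p * ‖φ p‖ₑ ^ 2).toReal) (C := C1) (fun s hs => by
      obtain ⟨h1, h2⟩ := hC1 s hs
      have h3 : (I s).toReal ≤ (RS s).toReal := ENNReal.toReal_mono h1 (hIle s)
      have h4 := (abs_le.mp h2).2
      have h5 : c s * (∫⁻ p, wt p * ‖φ p‖ₑ ^ 2).toReal ≤
          B1 / (s - 1) * (∫⁻ p, wt p * ‖φ p‖ₑ ^ 2).toReal :=
        mul_le_mul_of_nonneg_right (hc s hs).2 ENNReal.toReal_nonneg
      calc (I s).toReal ≤ (RS s).toReal := h3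
        _ ≤ c s * (∫⁻ p, wt p * ‖φ p‖ₑ ^ 2).toReal + C1 := by linarith
        _ ≤ B1 / (s - 1) * (∫⁻ p, wt p * ‖φ p‖ₑ ^ 2).toReal + C1 := by linarith
        _ = _ := by ring)
  refine ⟨S, fun w hw => ?_, hsum, C', hC'⟩
  by_contra hc
  exact hw (hS w hc).1

/-- **R1.** -/
theorem R1 {D : Datum F} {lam : Pl F → ℝ} {φ : X D → ℂ} (h : EForm D lam φ) :
    ∃ (S : Finset (Pl F)) (C : ℝ), (∀ w, D.n w ≠ 0 → w ∈ S) ∧ ∀ s ∈ Set.Ioc (1 : ℝ) 2,
      Summable (fun k : {w : Pl F // w ∉ S} →₀ ℕ =>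
        ‖LS (fun w => qv w.1) (fun _ => 1) (fun w => lam w.1) (fun w => lam w.1) s k‖) ∧
      ‖∑' k : {w : Pl F // w ∉ S} →₀ ℕ,
        LS (fun w => qv w.1) (fun _ => 1) (fun w => lam w.1) (fun w => lam w.1) s k‖ ≤
          C / (s - 1) := by
  obtain ⟨S, hS, h1, C, hC⟩ := R1_princ (eForm_princ h)
  exact ⟨S, C, hS, fun s hs => ⟨h1 s hs.1, hC s hs⟩⟩

end Fermat.Agent.LT.H
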