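import Fermat.Agent.LT.H.Core
import Fermat.Agent.LT.H.SerId
import Fermat.Agent.LT.H.EisInt
import Fermat.Agent.LT.H.Orth
import Fermat.Agent.LT.H.Gam
import Fermat.Agent.LT.H.UniqAbs
import Fermat.Agent.LT.B.CuspEig

/-!
# The uniqueness theorem for cuspidal eigenforms, abstract level conditions
-/

set_option autoImplicit false
set_option linter.unusedSectionVars false

open NumberField IsDedekindDomain Matrix MeasureTheory Module Set Filter Topology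
open scoped ComplexConjugate ENNReal Real

namespace Fermat.Agent.LT.H

open Fermat.LT Fermat.Agent.LT.I Fermat.Agent.LT.B Fermat.Agent.LT.CArch
open Fermat.Agent.LT.CTree (sq Tl Tl_fun_smul unif sq_pos sq_sq qn)
open Fermat.Agent.LT.H.Bessel (Wh Wh_pos)
open Fermat.Agent.LT.Top (EForm goodPl)
open Fermat.Agent.LT.H.Local (U U_zero U_one U_add_two)
open Fermat.Agent.LT.H.Euler (mulF)

variable {F : Type} [Field F] [NumberField F] {D : Datum F}

theorem two_le_qv (w : Pl F) : 2 ≤ qv w := by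
  have h1 := one_lt_qv w
  rw [CTree.qv_eq] at h1 ⊢
  have h2 : 1 < qn w := by exact_mod_cast h1
  exact_mod_cast h2

theorem bdd_lam {lam : Pl F → ℝ} {φ : X D → ℂ} (h : EForm D lam φ) {w : Pl F} (hw : D.n w = 0) :
    |lam w| ≤ Real.sqrt (qv w) + (Real.sqrt (qv w))⁻¹ := by
  have h1 := h.eig.norm_lam_le' h.cusp.bounded h.ne (w := w) hw hw
  rw [Complex.norm_real, Real.norm_eq_abs] at h1
  refine h1.trans (le_of_eq ?_)
  have h2 : sq w = Real.sqrt (qv w) := rfl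
  have h3 := sq_pos w
  have h4 : (qn w : ℝ) = sq w ^ 2 := by rw [sq_sq, CTree.qv_eq]
  rw [← h2, h4]
  field_simp

theorem TX_smul {w : Pl F} {φ : X D → ℂ} {μ : ℂ} (h : ∀ p, TX w φ p = μ * φ p) (c : ℂ)
    (p : X D) : TX w (fun p => c * φ p) p = μ * (c * φ p) := by
  have h1 : TX w (fun p => c * φ p) p = TY w (fun y => φ (p.1, y) * c) p.2 := by
    unfold TX
    congr 1
    funext y
    ring
  rw [h1, TY_smul]
  have h2 : TY w (fun y => φ (p.1, y)) p.2 = μ * φ p := h p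
  rw [h2]; ring

theorem cusp_sub {φ φ' : X D → ℂ} (h : IsCusp φ) (h' : IsCusp φ') :
    IsCusp (fun x => φ x - φ' x) := by
  have h1 := cusp_add h (cusp_smul h' (-1))
  have h2 : (fun x => φ x - φ' x) = fun x => φ x + -1 * φ' x := by funext x; ring
  rw [h2]; exact h1

theorem IsWhit.sub {φ φ' : X D → ℂ} {a a' : Y D.toLevel → ℂ} (h : IsWhit φ a)
    (h' : IsWhit φ' a') (hφ : IsCusp φ) (hφ' : IsCusp φ') :
    IsWhit (fun p => φ p - φ' p) (fun y => a y - a' y) := by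
  have h1 := h.add (h'.smul (-1)) hφ (cusp_smul hφ' (-1))
  have h2 : (fun x => φ x - φ' x) = fun x => φ x + -1 * φ' x := by funext x; ring
  have h3 : (fun x => a x - a' x) = fun x => a x + -1 * a' x := by funext x; ring
  rw [h2, h3]; exact h1

theorem rpow_ge_min {h s : ℝ} (hh : 0 < h) (hs : s ∈ Ioc (1 : ℝ) 2) : (min 1 h) ^ 2 ≤ h ^ s := by
  rcases le_total 1 h with h1 | h1
  · rw [min_eq_left h1, one_pow]
    exact Real.one_le_rpow h1 (by linarith [hs.1])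
  · rw [min_eq_right h1, ← Real.rpow_natCast]
    exact Real.rpow_le_rpow_of_exponent_ge hh h1 (by push_cast; exact hs.2)

/-- the Rankin–Selberg factor in front of the Dirichlet series -/
noncomputable def gfac (D : Datum F) (y₁ : Y D.toLevel) (s : ℝ) : ℝ≥0∞ :=
  (∫⁻ x : ℝ, dn x * (ENNReal.ofReal (Real.exp (2 * s * x)) *
    ‖Wh (4 * π) (Real.exp x)‖ₑ ^ 2)) ^ Fintype.card D.I *
  (covY (ybk y₁) * ENNReal.ofReal (hfin e1 y₁ ^ s))

theorem exists_gfac_le (y₁ : Y D.toLevel) :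
    ∃ c0 : ℝ≥0∞, c0 ≠ 0 ∧ ∀ s ∈ Ioc (1 : ℝ) 2, c0 ≤ gfac D y₁ s := by
  obtain ⟨c, C, hc, hC, h⟩ := gam_bounds
  have hh := hfin_pos (v := (e1 : Fin 2 → F)) e1_ne y₁
  refine ⟨ENNReal.ofReal c ^ Fintype.card D.I *
    (covY (ybk y₁) * ENNReal.ofReal ((min 1 (hfin e1 y₁)) ^ 2)), ?_, fun s hs => ?_⟩
  · refine mul_ne_zero (pow_ne_zero _ ?_) (mul_ne_zero (covY_pos _).ne' ?_)
    · rw [ne_eq, ENNReal.ofReal_eq_zero, not_le]; exact hc
    · rw [ne_eq, ENNReal.ofReal_eq_zero, not_le]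
      have : 0 < min 1 (hfin e1 y₁) := lt_min one_pos hh
      positivity
  · unfold gfac
    have h1 := (h s ⟨hs.1.le, hs.2⟩).1
    gcongr
    exact rpow_ge_min hh hs

section series

variable {e : Pl F → ℕ} {S : Finset (Pl F)} {φ : X D → ℂ} {a : Y D.toLevel → ℂ}

/-- the Rankin–Selberg integral of a form with known Whittaker function on the torus -/
theorem RS_series (hD : ULev D e S) {w : X D → ℝ≥0∞} (hw : IsWeight (PG F) w) (hφ : IsCusp φ)
    (ha : IsWhit φ a) {y₁ : Y D.toLevel} (hy₁ : IsTor e y₁ (fun w => -dExp w))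
    (hsupp : ∀ m : Pl F →₀ ℤ, a (tg m • y₁) ≠ 0 → (∀ w, 0 ≤ m w) ∧ ∀ w ∈ S, m w = 0)
    {V : ({w : Pl F // w ∉ S} →₀ ℕ) → ℝ}
    (hV : ∀ k, a (tg (nz (emS S k)) • y₁) =
      ((mulF (fun (w : {w : Pl F // w ∉ S}) n => (sq w.1)⁻¹ ^ n) k * V k : ℝ) : ℂ)) (s : ℝ) :
    ∫⁻ p, w p * (‖φ p‖ₑ ^ 2 * EC (S : Set (Pl F)) s p) = gfac D y₁ s *
      ∑' k : {w : Pl F // w ∉ S} →₀ ℕ,
        ENNReal.ofReal (mulF (fun w n => (qv w.1 ^ (-s)) ^ n) k * V k ^ 2) := by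
  have hinv : ∀ (g : G2 F) x, φ (g • x) = φ x := fun g x => hφ.inv (pmk g) x
  rw [RS_fact hw hφ.cont hinv (fun x y => cW_zero_eq_zero hφ.mean hinv x y)
    (W := fun x => Wh (4 * π) (Real.exp x)) (measurable_Wh_exp (by positivity)) ha,
    ser_id S hD.mem hD.ulev hD.dlev neg_dExp_finite hy₁ (ha.isWY hinv) hsupp s, gfac, ← mul_assoc]
  congr 1
  refine tsum_congr (fun (k : {w : Pl F // w ∉ S} →₀ ℕ) => ?_)
  have h1 : a (tg (nz (k.embDomain ⟨Subtype.val, Subtype.val_injective⟩)) • y₁) =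
    ((mulF (fun (w : {w : Pl F // w ∉ S}) n => (sq w.1)⁻¹ ^ n) k * V k : ℝ) : ℂ) := hV k
  rw [h1]
  have h2 : 0 ≤ mulF (fun (w : {w : Pl F // w ∉ S}) m => (qv w.1 ^ (1 - s)) ^ m) k :=
    Finset.prod_nonneg fun v _ => pow_nonneg (Real.rpow_nonneg (qv_pos v.1).le _) _
  rw [← ofReal_norm, Complex.norm_real, ← ENNReal.ofReal_pow (norm_nonneg _), Real.norm_eq_abs,
    sq_abs, ← ENNReal.ofReal_mul h2]
  congr 1
  rw [mul_pow, ← mul_assoc]
  congr 1
  unfold mulF Finsupp.prod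
  rw [← Finset.prod_pow, ← Finset.prod_mul_distrib]
  refine Finset.prod_congr rfl fun v _ => ?_
  have h3 : ((sq v.1)⁻¹ ^ k v) ^ 2 = (qv v.1 ^ (-1 : ℝ)) ^ k v := by
    rw [← pow_mul, mul_comm, pow_mul, inv_pow, sq_sq, Real.rpow_neg_one]
  rw [h3, ← mul_pow, ← Real.rpow_add (qv_pos v.1)]
  congr 2
  ring

end series

section main

variable {e : Pl F → ℕ} {S : Finset (Pl F)} {φ₀ φ : X D → ℂ} {lam₀ lam : Pl F → ℝ}
  {a₀ a : Y D.toLevel → ℂ}

theorem mulF_mul {P : Type*} (f g : P → ℕ → ℝ) (k : P →₀ ℕ) :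
    mulF (fun v n => f v n * g v n) k = mulF f k * mulF g k := by
  unfold mulF Finsupp.prod
  rw [Finset.prod_mul_distrib]

/-- **Uniqueness.** -/
theorem uniq_core (hD : ULev D e S) (h₀ : EForm D lam₀ φ₀) (h : EForm D lam φ)
    (hw₀ : IsWhit φ₀ a₀) (hw : IsWhit φ a) (hd₀ : WData D e S lam₀ a₀) (hd : WData D e S lam a)
    (hcell : ∀ ψ : X D → ℂ, IsCusp ψ → (∀ y : Y D.toLevel, (∀ w, InC w (y w)) →
      ∀ x, cW ψ 1 x y = 0) → ψ = 0)
    (hl : ∀ w, |lam₀ w| ≤ 2) (A : Set {w : Pl F // w ∉ S}) (hA : ∀ v ∈ A, lam₀ v.1 = lam v.1)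
    (hsum : ∀ s : ℝ, 1 < s → Summable fun v : {w : Pl F // w ∉ S} => qv v.1 ^ (-s))
    (hsparse : Summable fun v : {w : Pl F // w ∉ S} =>
      Aᶜ.indicator (fun v => qv v.1 ^ (-(1/2) : ℝ)) v)
    (hdens : Tendsto (fun s : ℝ => ∑' v : {w : Pl F // w ∉ S},
      A.indicator (fun v => lam₀ v.1 ^ 2 * qv v.1 ^ (-s)) v) (𝓝[>] 1) atTop) :
    ∃ c : ℂ, φ = c • φ₀ := by
  classical
  obtain ⟨y₁, hy₁⟩ := exists_base D hD.efin
  have hinv₀ : ∀ (g : G2 F) x, φ₀ (g • x) = φ₀ x := fun g x => h₀.cusp.inv (pmk g) x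
  have hinv : ∀ (g : G2 F) x, φ (g • x) = φ x := fun g x => h.cusp.inv (pmk g) x
  have ha₀ : a₀ y₁ ≠ 0 := by
    intro h0
    refine h₀.ne (hcell φ₀ h₀.cusp fun y hy x => ?_)
    exact hw₀.cW_eq_zero (hd₀.eq_zero hD hy₁ h0 hy) x
  have ha : a y₁ ≠ 0 := by
    intro h0
    refine h.ne (hcell φ h.cusp fun y hy x => ?_)
    exact hw.cW_eq_zero (hd.eq_zero hD hy₁ h0 hy) x
  by_cases hall : ∀ w, w ∉ S → lam w = lam₀ w
  · -- the eigenvalues agree
    refine ⟨a y₁ / a₀ y₁, ?_⟩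
    have hd' : WData D e S lam a₀ := ⟨hd₀.wy, fun w hw y => by rw [hd₀.hecke w hw, hall w hw],
      hd₀.kir⟩
    have hψ : IsCusp fun p => φ p + -(a y₁ / a₀ y₁) * φ₀ p := cusp_add h.cusp (cusp_smul h₀.cusp _)
    have hwψ : IsWhit (fun p => φ p + -(a y₁ / a₀ y₁) * φ₀ p)
        (fun y => a y + -(a y₁ / a₀ y₁) * a₀ y) := hw.add (hw₀.smul _) h.cusp (cusp_smul h₀.cusp _)
    have hdψ : WData D e S lam (fun y => a y + -(a y₁ / a₀ y₁) * a₀ y) :=
      hd.add hD.mem (hd'.smul _)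
    have h0 : (fun y => a y + -(a y₁ / a₀ y₁) * a₀ y) y₁ = 0 := by
      change a y₁ + -(a y₁ / a₀ y₁) * a₀ y₁ = 0
      field_simp
      ring
    have hz := hcell _ hψ fun y hy x => hwψ.cW_eq_zero (hdψ.eq_zero hD hy₁ h0 hy) x
    funext p
    have := congrFun hz p
    simp only [Pi.zero_apply] at this
    rw [Pi.smul_apply, smul_eq_mul]
    linear_combination this
  · -- some eigenvalue differs : contradiction
    exfalso
    push Not at hall
    obtain ⟨v, hvS, hvne⟩ := hall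
    have hnv : D.n v = 0 := by
      by_contra hc
      exact hvS ((hD.mem v).mp hc)
    obtain ⟨w, hwt⟩ := exists_isWeight_X D
    -- normalised forms
    set ψ₀ : X D → ℂ := fun p => (a₀ y₁)⁻¹ * φ₀ p with hψ₀
    set ψ : X D → ℂ := fun p => (a y₁)⁻¹ * φ p with hψ
    have hc₀ : IsCusp ψ₀ := cusp_smul h₀.cusp _
    have hc : IsCusp ψ := cusp_smul h.cusp _
    have hW₀ : IsWhit ψ₀ (fun y => (a₀ y₁)⁻¹ * a₀ y) := hw₀.smul _
    have hW : IsWhit ψ (fun y => (a y₁)⁻¹ * a y) := hw.smul _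
    have hdd₀ := hd₀.smul (a₀ y₁)⁻¹
    have hdd := hd.smul (a y₁)⁻¹
    have horth := orth_of_ne hwt hc₀ hc hnv (l := lam₀ v) (l' := lam v)
      (fun x => TX_smul (fun p => h₀.eig.hecke v hnv p) _ x)
      (fun x => TX_smul (fun p => h.eig.hecke v hnv p) _ x) (fun h => hvne h.symm)
    have hcp : IsCusp (fun p => ψ₀ p + ψ p) := cusp_add hc₀ hc
    have hcm : IsCusp (fun p => ψ₀ p - ψ p) := cusp_sub hc₀ hc
    obtain ⟨c, A', B', hA', hB', hAB, hint⟩ := RS_int D (S : Set (Pl F)) S.finite_toSet D.n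
      (fun w => by rw [hD.mem w, Finset.mem_coe]) (fun w hw => hD.cell w (Finset.mem_coe.mp hw)) hwt
    obtain ⟨Cp, hCp⟩ := hint _ hcp
    obtain ⟨Cm, hCm⟩ := hint _ hcm
    obtain ⟨c0, hc0, hgf⟩ := exists_gfac_le y₁
    -- values
    set V₀ : ({w : Pl F // w ∉ S} →₀ ℕ) → ℝ := fun k => mulF (fun v n => U (lam₀ v.1) n) k with hV₀
    set V : ({w : Pl F // w ∉ S} →₀ ℕ) → ℝ := fun k => mulF (fun v n => U (lam v.1) n) k with hV
    have hval₀ : ∀ k, (a₀ y₁)⁻¹ * a₀ (tg (nz (emS S k)) • y₁) =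
        ((mulF (fun (w : {w : Pl F // w ∉ S}) n => (sq w.1)⁻¹ ^ n) k * V₀ k : ℝ) : ℂ) := by
      intro k
      rw [hd₀.val hD hy₁, mulF_mul, mul_comm (a₀ y₁)⁻¹, mul_assoc, mul_inv_cancel₀ ha₀, mul_one]
    have hval : ∀ k, (a y₁)⁻¹ * a (tg (nz (emS S k)) • y₁) =
        ((mulF (fun (w : {w : Pl F // w ∉ S}) n => (sq w.1)⁻¹ ^ n) k * V k : ℝ) : ℂ) := by
      intro k
      rw [hd.val hD hy₁, mulF_mul, mul_comm (a y₁)⁻¹, mul_assoc, mul_inv_cancel₀ ha, mul_one]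
    have hsupp₀ := fun m => hdd₀.supp hD hy₁ m
    have hsupp := fun m => hdd.supp hD hy₁ m
    have hIp : ∀ s, ∫⁻ p, w p * (‖ψ₀ p + ψ p‖ₑ ^ 2 * EC (S : Set (Pl F)) s p) = gfac D y₁ s *
        ∑' k : {w : Pl F // w ∉ S} →₀ ℕ,
          ENNReal.ofReal (mulF (fun w n => (qv w.1 ^ (-s)) ^ n) k * (V₀ k + V k) ^ 2) := by
      intro s
      refine RS_series hD hwt hcp (hW₀.add hW hc₀ hc) hy₁ (fun m hm => ?_)
        (V := fun k => V₀ k + V k) (fun k => ?_) s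
      · by_cases h1 : (fun y => (a₀ y₁)⁻¹ * a₀ y) (tg m • y₁) = 0
        · refine hsupp m fun h2 => hm ?_
          change (a₀ y₁)⁻¹ * a₀ (tg m • y₁) + (a y₁)⁻¹ * a (tg m • y₁) = 0
          have h1' : (a₀ y₁)⁻¹ * a₀ (tg m • y₁) = 0 := h1
          have h2' : (a y₁)⁻¹ * a (tg m • y₁) = 0 := h2
          rw [h1', h2', add_zero]
        · exact hsupp₀ m h1
      · change (a₀ y₁)⁻¹ * a₀ (tg (nz (emS S k)) • y₁) + (a y₁)⁻¹ * a (tg (nz (emS S k)) • y₁) = _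
        rw [hval₀, hval]
        push_cast
        ring
    have hIm : ∀ s, ∫⁻ p, w p * (‖ψ₀ p - ψ p‖ₑ ^ 2 * EC (S : Set (Pl F)) s p) = gfac D y₁ s *
        ∑' k : {w : Pl F // w ∉ S} →₀ ℕ,
          ENNReal.ofReal (mulF (fun w n => (qv w.1 ^ (-s)) ^ n) k * (V₀ k - V k) ^ 2) := by
      intro s
      refine RS_series hD hwt hcm (hW₀.sub hW hc₀ hc) hy₁ (fun m hm => ?_)
        (V := fun k => V₀ k - V k) (fun k => ?_) s
      · by_cases h1 : (fun y => (a₀ y₁)⁻¹ * a₀ y) (tg m • y₁) = 0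
        · refine hsupp m fun h2 => hm ?_
          change (a₀ y₁)⁻¹ * a₀ (tg m • y₁) - (a y₁)⁻¹ * a (tg m • y₁) = 0
          have h1' : (a₀ y₁)⁻¹ * a₀ (tg m • y₁) = 0 := h1
          have h2' : (a y₁)⁻¹ * a (tg m • y₁) = 0 := h2
          rw [h1', h2', sub_zero]
        · exact hsupp₀ m h1
      · change (a₀ y₁)⁻¹ * a₀ (tg (nz (emS S k)) • y₁) - (a y₁)⁻¹ * a (tg (nz (emS S k)) • y₁) = _
        rw [hval₀, hval]
        push_cast
        ring
    refine uniq_abs (P := {w : Pl F // w ∉ S}) (q := fun v => qv v.1) (l := fun v => lam₀ v.1)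
      (m := fun v => lam v.1) (fun v => two_le_qv v.1) hsum (fun v => hl v.1)
      (fun v => bdd_lam h (by
        by_contra hc'
        exact v.2 ((hD.mem v.1).mp hc'))) A hA hsparse hdens hc0 hgf
      (fun s _ => hIp s) (fun s _ => hIm s) (fun s hs => (hCp s hs).1) (fun s hs => (hCm s hs).1)
      (C := Cp + Cm) (fun s hs => ?_)
    have e1 := (hCp s hs).2
    have e2 := (hCm s hs).2
    rw [horth] at e1
    have e3 := abs_le.mp e1
    have e4 := abs_le.mp e2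
    rw [abs_le]
    constructor <;> linarith [e3.1, e3.2, e4.1, e4.2]

end main

end Fermat.Agent.LT.H
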