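import Fermat.Agent.LT.H.CuspLin
import Fermat.Agent.LT.H.WhitY
import Fermat.Agent.LT.J.CoefHecke
import Fermat.Agent.LT.Top.Iface

/-!
# The Whittaker function on `Y` of a cuspidal eigenform
-/

set_option autoImplicit false
set_option linter.unusedSectionVars false

open NumberField IsDedekindDomain Matrix MeasureTheory Module Set
open scoped ComplexConjugate ENNReal Real

namespace Fermat.Agent.LT.H

open Fermat.LT Fermat.Agent.LT.I Fermat.Agent.LT.B Fermat.Agent.LT.CArch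
open Fermat.Agent.LT.CTree (sq Tl Tl_fun_smul)
open Fermat.Agent.LT.H.Bessel (Wh Wh_pos)
open Fermat.Agent.LT.Top (EForm goodPl)

variable {F : Type} [Field F] [NumberField F] {D : Datum F} {φ φ' : X D → ℂ}

/-- `a` is the Whittaker function of `φ`: `cW φ 1 x y = a y * ∏ W(e^{x i})` -/
def IsWhit (φ : X D → ℂ) (a : Y D.toLevel → ℂ) : Prop :=
  ∀ (x : D.I → ℝ) (y : Y D.toLevel), cW φ 1 x y = a y * ∏ i, (Wh (4 * π) (Real.exp (x i)) : ℂ)

theorem prodWh_ne_zero (x : D.I → ℝ) : (∏ i, (Wh (4 * π) (Real.exp (x i)) : ℂ)) ≠ 0 := by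
  refine Finset.prod_ne_zero_iff.mpr fun i _ => ?_
  exact_mod_cast (Wh_pos (by positivity) (Real.exp_pos (x i))).ne'

theorem IsWhit.isWY {a : Y D.toLevel → ℂ} (h : IsWhit φ a)
    (hinv : ∀ (g : G2 F) x, φ (g • x) = φ x) : IsWY D.toArch a := by
  intro b y
  have h1 := cW_un hinv 1 b 0 y
  rw [h, h, ← mul_assoc] at h1
  exact mul_right_cancel₀ (prodWh_ne_zero 0) h1

theorem TY_smul {U : Level F} (w : Pl F) (c : ℂ) (a : Y U → ℂ) (y : Y U) :
    TY w (fun y => a y * c) y = c * TY w a y := by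
  unfold TY
  have : (fun z => a (upd y w z) * c) = c • fun z => a (upd y w z) := by
    funext z
    rw [Pi.smul_apply, smul_eq_mul, mul_comm]
  rw [this, Tl_fun_smul, Pi.smul_apply, smul_eq_mul]

theorem IsWhit.hecke {a : Y D.toLevel → ℂ} (h : IsWhit φ a) (hc : Continuous φ)
    (hinv : ∀ (g : G2 F) x, φ (g • x) = φ x) {w : Pl F} (hw : D.n w = 0) {μ : ℂ}
    (hT : ∀ p, TX w φ p = μ * φ p) (y : Y D.toLevel) : TY w a y = μ * a y := by
  have h1 := J.CH.TY_cW hc hinv hw hT 1 0 y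
  have h2 : (fun y => cW φ 1 0 y) = fun y => a y * ∏ i : D.I, (Wh (4 * π) (Real.exp ((0 : D.I → ℝ) i)) : ℂ) := by
    funext y
    exact h 0 y
  rw [h2, TY_smul, h 0 y, mul_comm, ← mul_assoc] at h1
  exact mul_right_cancel₀ (prodWh_ne_zero 0) h1

theorem IsWhit.add {a a' : Y D.toLevel → ℂ} (h : IsWhit φ a) (h' : IsWhit φ' a')
    (hφ : IsCusp φ) (hφ' : IsCusp φ') :
    IsWhit (fun p => φ p + φ' p) (fun y => a y + a' y) := by
  intro x y
  rw [cW_add hφ.cont hφ.bounded hφ'.cont hφ'.bounded, h, h', add_mul]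

theorem IsWhit.smul {a : Y D.toLevel → ℂ} (h : IsWhit φ a) (c : ℂ) :
    IsWhit (fun p => c * φ p) (fun y => c * a y) := by
  intro x y
  rw [cW_smul, h, mul_assoc]

/-- A cuspidal eigenform has a Whittaker function. -/
theorem exists_whit {lam : Pl F → ℝ} (h : EForm D lam φ) : ∃ a : Y D.toLevel → ℂ, IsWhit φ a ∧
    IsWY D.toArch a ∧ ∀ w, D.n w = 0 → ∀ y, TY w a y = (sq w : ℂ) * lam w * a y := by
  have hinv : ∀ (g : G2 F) x, φ (g • x) = φ x := fun g x => h.cusp.inv (pmk g) x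
  choose a ha using fun y => cW_eq_Wh h.cusp.cont hinv h.cusp.bounded
    (fun i g hg x => h.eig.arch i g hg x) y
  have hW : IsWhit φ a := fun x y => ha y x
  exact ⟨a, hW, hW.isWY hinv, fun w hw y =>
    hW.hecke h.cusp.cont hinv hw (fun p => h.eig.hecke w hw p) y⟩

/-- If the Whittaker function vanishes then so does the form. -/
theorem IsWhit.cW_eq_zero {a : Y D.toLevel → ℂ} (h : IsWhit φ a) {y : Y D.toLevel}
    (hy : a y = 0) (x : D.I → ℝ) : cW φ 1 x y = 0 := by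
  rw [h, hy, zero_mul]

end Fermat.Agent.LT.H
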