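import Fermat.Agent.LT.H.XInt
import Fermat.Agent.LT.B.Weight

/-!
# The quotient `N(F) \ Y` and the action of `F^*` on `ℝ^I × N(F) \ Y`
-/

set_option autoImplicit false
set_option linter.unusedSectionVars false

open NumberField IsDedekindDomain Matrix MeasureTheory Module Set
open scoped ComplexConjugate ENNReal Real

namespace Fermat.Agent.LT.H

open Fermat.LT Fermat.Agent.LT.I Fermat.Agent.LT.B

variable {F : Type} [Field F] [NumberField F]

/-- the orbit relation of `N(F)` on `Y` -/
def ySet (U : Level F) : Setoid (Y U) where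
  r y y' := ∃ b : F, un b • y = y'
  iseqv := ⟨fun y => ⟨0, by rw [un_zero, one_smul]⟩,
    fun {y y'} h => by
      obtain ⟨b, rfl⟩ := h
      exact ⟨-b, by rw [un_neg, inv_smul_smul]⟩,
    fun {y y' y''} h h' => by
      obtain ⟨b, rfl⟩ := h
      obtain ⟨c, rfl⟩ := h'
      exact ⟨c + b, by rw [un_add, mul_smul]⟩⟩

/-- `N(F) \ Y` -/
def Yb (U : Level F) : Type := Quotient (ySet U)

/-- projection -/
def ybk {U : Level F} (y : Y U) : Yb U := Quotient.mk (ySet U) y

/-- representative -/
noncomputable def yout {U : Level F} (q : Yb U) : Y U := Quotient.out (s := ySet U) q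

theorem ybk_yout {U : Level F} (q : Yb U) : ybk (yout q) = q := Quotient.out_eq (s := ySet U) q

theorem ybk_eq_iff {U : Level F} {y y' : Y U} : ybk y = ybk y' ↔ ∃ b : F, un b • y = y' := by
  exact Quotient.eq (r := ySet U)

theorem ybk_un {U : Level F} (b : F) (y : Y U) : ybk (un b • y) = ybk y :=
  (ybk_eq_iff.mpr ⟨b, rfl⟩).symm

theorem exists_un_yout {U : Level F} (y : Y U) : ∃ b : F, un b • y = yout (ybk y) :=
  ybk_eq_iff.mp (ybk_yout (ybk y)).symm

instance {U : Level F} : Countable (Yb U) :=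
  Function.Surjective.countable (f := (ybk : Y U → Yb U)) Quotient.mk_surjective

noncomputable instance {U : Level F} : MulAction Fˣ (Yb U) where
  smul a q := Quotient.liftOn (s := ySet U) q (fun y => ybk (dg a • y)) (by
    rintro y _ ⟨b, rfl⟩
    rw [← mul_smul, dg_un, mul_smul, ybk_un])
  one_smul q := by
    obtain ⟨y, rfl⟩ := Quotient.exists_rep (s := ySet U) q
    change ybk (dg 1 • y) = ybk y
    rw [dg_one, one_smul]
  mul_smul a b q := by
    obtain ⟨y, rfl⟩ := Quotient.exists_rep (s := ySet U) q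
    change ybk (dg (a * b) • y) = ybk (dg a • (dg b • y))
    rw [dg_mul, mul_smul]

theorem smul_ybk {U : Level F} (a : Fˣ) (y : Y U) : a • ybk y = ybk (dg a • y) := rfl

/-- `ℝ^I × N(F)\Y` -/
def Zb (D : Datum F) : Type := (D.I → ℝ) × Yb D.toLevel

variable {D : Datum F}

instance : MeasurableSpace (Yb D.toLevel) := ⊤
instance : MeasurableSingletonClass (Yb D.toLevel) := ⟨fun _ => trivial⟩
instance : MeasurableSpace (Zb D) := inferInstanceAs (MeasurableSpace ((D.I → ℝ) × Yb D.toLevel))

noncomputable instance : MeasureSpace (Zb D) where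
  volume := (volume : Measure (D.I → ℝ)).prod (Measure.count : Measure (Yb D.toLevel))

noncomputable instance : MulAction Fˣ (Zb D) where
  smul a p := (la D.toArch a + p.1, a • p.2)
  one_smul p := by
    change (la D.toArch 1 + p.1, (1 : Fˣ) • p.2) = p
    rw [la_one, zero_add, one_smul]; rfl
  mul_smul a b p := by
    change (la D.toArch (a * b) + p.1, (a * b) • p.2) =
      (la D.toArch a + (la D.toArch b + p.1), a • (b • p.2))
    rw [la_mul, add_assoc, mul_smul]

/-- a point of `Zb` -/
def zmk (x : D.I → ℝ) (q : Yb D.toLevel) : Zb D := (x, q)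

theorem smul_Zb (a : Fˣ) (x : D.I → ℝ) (q : Yb D.toLevel) :
    a • (zmk x q : Zb D) = zmk (la D.toArch a + x) (a • q) := rfl

instance : MeasurableConstSMul Fˣ (Zb D) where
  measurable_const_smul a := by
    change Measurable fun p : (D.I → ℝ) × Yb D.toLevel => (la D.toArch a + p.1, a • p.2)
    refine Measurable.prodMk ((measurable_const_add _).comp measurable_fst) ?_
    exact (measurable_from_top (f := fun q : Yb D.toLevel => a • q)).comp measurable_snd

theorem lintegral_Zb {G : Zb D → ℝ≥0∞} (hG : Measurable G) :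
    ∫⁻ p, G p = ∑' q : Yb D.toLevel, ∫⁻ x : D.I → ℝ, G (zmk x q) := by
  change ∫⁻ p : (D.I → ℝ) × Yb D.toLevel, G p
    ∂((volume : Measure (D.I → ℝ)).prod (Measure.count : Measure (Yb D.toLevel))) = _
  rw [lintegral_prod_symm' _ hG, lintegral_count]
  rfl

instance : SMulInvariantMeasure Fˣ (Zb D) volume where
  measure_preimage_smul a s hs := by
    have hs1 : Measurable (s.indicator (1 : Zb D → ℝ≥0∞)) := measurable_one.indicator hs
    have hs2 : Measurable (((a • · : Zb D → Zb D) ⁻¹' s).indicator (1 : Zb D → ℝ≥0∞)) :=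
      measurable_one.indicator ((measurable_const_smul a) hs)
    rw [← lintegral_indicator_one hs, ← lintegral_indicator_one ((measurable_const_smul a) hs),
      lintegral_Zb hs1, lintegral_Zb hs2, ← (MulAction.toPerm a : Equiv.Perm (Yb D.toLevel)).tsum_eq
        (fun q => ∫⁻ x : D.I → ℝ, s.indicator 1 (zmk x q : Zb D))]
    refine tsum_congr fun q => ?_
    conv_rhs => rw [← lintegral_add_left_eq_self _ (la D.toArch a)]
    rfl

theorem finite_units_bounded (A : Arch F) (C : ℝ) :
    {u : Fˣ | (∀ w : Pl F, av w (u : F) = 1) ∧ ∀ i, ‖A.emb i (u : F)‖ ≤ C}.Finite := by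
  have h := Embeddings.finite_of_norm_le F ℂ C
  refine Set.Finite.of_finite_image (f := fun u : Fˣ => (u : F)) (h.subset ?_)
    (fun u _ v _ huv => Units.ext huv)
  rintro _ ⟨u, ⟨h1, h2⟩, rfl⟩
  obtain ⟨d, hd⟩ := exists_int_of_av_le (x := (u : F)) fun w => (h1 w).le
  refine ⟨?_, fun φ => ?_⟩
  · change IsIntegral ℤ (u : F)
    rw [← hd]; exact d.isIntegral_coe
  · obtain ⟨i, hi⟩ := A.bij.2 (InfinitePlace.mk φ)
    have h3 := h2 i
    have h4 : ‖A.emb i (u : F)‖ = ‖φ (u : F)‖ := by
      have := congrArg (fun w : InfinitePlace F => w (u : F)) hi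
      simpa [InfinitePlace.apply] using this
    rwa [h4] at h3

theorem av_of_fix {U : Level F} {u : Fˣ} {q : Yb U} (h : u • q = q) (w : Pl F) :
    av w (u : F) = 1 := by
  obtain ⟨y, rfl⟩ := Quotient.exists_rep (s := ySet U) q
  have h1 : ybk (dg u • y) = ybk y := h
  obtain ⟨b, hb⟩ := ybk_eq_iff.mp h1
  have h2 := hY_equiv w (un b * dg u) (e1 : Fin 2 → F) (y w)
  have h3 : (un b * dg u).1 *ᵥ (e1 : Fin 2 → F) = (u : F) • e1 := by
    rw [Units.val_mul, ← Matrix.mulVec_mulVec, dg_mulVec_e1, Matrix.mulVec_smul, un_mulVec_e1]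
  have h4 : (un b * dg u) • y w = y w := by
    have : ((un b * dg u) • y) w = y w := by rw [mul_smul, hb]
    exact this
  have h5 : (un b * dg u).1.det = (u : F) := by
    rw [Matrix.det_fin_two]
    simp [un_val, dg_val, Matrix.mul_apply, Fin.sum_univ_two]
  rw [h3, h4, h5, hY_smul] at h2
  have h6 := hY_pos w e1_ne (y w)
  have h7 : 0 < av w (u : F) := (av w).pos u.ne_zero
  have h8 : (av w (u : F) ^ 2)⁻¹ = (av w (u : F))⁻¹ := mul_right_cancel₀ h6.ne' h2
  rw [_root_.inv_inj, sq] at h8
  have := mul_left_cancel₀ h7.ne' (h8.trans (mul_one _).symm)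
  exact this

/-- There is a weight for the action of `F^*` on `ℝ^I × N(F)\Y`. -/
theorem exists_weight_Zb : ∃ w : Zb D → ℝ≥0∞, IsWeight Fˣ w := by
  have : Countable Fˣ := by
    have := countable_field F
    exact Units.val_injective.countable
  let U : Yb D.toLevel × ℕ → Set (Zb D) := fun k => {p | p.2 = k.1 ∧ ∀ i, |p.1 i| ≤ k.2}
  refine exists_isWeight (U := U) (fun k => ?_) (fun p => ?_) (fun k p => ?_)
  · refine MeasurableSet.inter ?_ ?_
    · exact (measurableSet_eq_fun (f := fun p : (D.I → ℝ) × Yb D.toLevel => p.2)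
        (g := fun _ => k.1) measurable_snd measurable_const)
    · change MeasurableSet {p : (D.I → ℝ) × Yb D.toLevel | ∀ i, |p.1 i| ≤ k.2}
      rw [ofPred_forall]
      refine MeasurableSet.iInter fun i => ?_
      exact measurableSet_le ((measurable_pi_apply i).comp measurable_fst).abs measurable_const
  · obtain ⟨n, hn⟩ := exists_nat_ge (∑ i, |p.1 i|)
    refine ⟨(p.2, n), 1, ?_⟩
    rw [one_smul]
    refine ⟨rfl, fun i => le_trans ?_ hn⟩
    exact Finset.single_le_sum (f := fun i => |p.1 i|) (fun j _ => abs_nonneg _) (Finset.mem_univ i)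
  · rcases Set.eq_empty_or_nonempty {γ : Fˣ | γ • p ∈ U k} with h | ⟨a₀, ha₀⟩
    · rw [h]; exact Set.finite_empty
    · have hfin := finite_units_bounded D.toArch (Real.exp (2 * k.2))
      refine (hfin.image fun u => u * a₀).subset ?_
      intro a ha
      refine ⟨a * a₀⁻¹, ⟨?_, ?_⟩, by simp⟩
      · intro w
        apply av_of_fix (U := D.toLevel) (q := k.1)
        have h1 : a • p.2 = k.1 := ha.1
        have h2 : a₀ • p.2 = k.1 := ha₀.1
        rw [← h2, smul_smul, inv_mul_cancel_right, h1, h2]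
      · intro i
        have h1 : |la D.toArch a i + p.1 i| ≤ k.2 := ha.2 i
        have h2 : |la D.toArch a₀ i + p.1 i| ≤ k.2 := ha₀.2 i
        rw [← exp_la, Real.exp_le_exp, la_mul, Pi.add_apply]
        have h3 : la D.toArch a₀⁻¹ i = - la D.toArch a₀ i := by
          have := congrFun (la_mul D.toArch a₀ a₀⁻¹) i
          rw [mul_inv_cancel, la_one, Pi.add_apply, Pi.zero_apply] at this
          linarith
        rw [h3]
        have h4 := abs_le.mp h1
        have h5 := abs_le.mp h2
        linarith [h4.2, h5.1]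

end Fermat.Agent.LT.H
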